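import Fermat.Agent.S35.DescendFrob

/-!
# S35, brick (F3), complement of `S35/DescendFrob.lean`: the `ℚ̄ ↔ number field` bridge of (C2')
with the divisibility data of `W h` and of `k` available at the number-field level

`S35/DescendFrob.lean` (primary) states the number-field target `FrobSSRootE` with the binder list
of `S34.Descend.InjSSRootE`.  Here the number-field target `SwapRootE` carries two MORE hypotheses
(so it is easier to prove): `m ∣ ord_P h'` (`h' = W h`) and `m ∣ ord_P k` (`k = σ h' * h ^ e`) at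
every place of `LE N E` over `E`; the `ℚ̄`-level exit is the same `DescendFrob.FrobSS` when `W` is
a `ℚ̄`-algebra automorphism (`frobSS_of_swapRootModular`).

* `KummerClause N m E k` : for every finite field extension `M = (LE N E)(θ)`, `θ ^ m = k`, in
  which `E` is algebraically closed, `k` is an `m`-th power in `LE N E`.
* `exists_kummer_descent`, `exists_descent_of_clause` : the generic descent.  For `x ∈ Fb N` and
  finitely many further elements of `Fb N` there is a number field `E₀` such that over every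
  `E ⊇ E₀` all of them are defined, and `KummerClause` for the model `k` of `x` implies that `x`
  is an `m`-th power in `Fb N`.
* `SwapSS N A W ℓ e m` : the `ℚ̄`-level statement (C2') with the extra hypothesis
  `m ∣ div (W h)`.
* `SwapRootE N A W ℓ e m E`, `SwapRootModular N A W ℓ e m` : the number-field statement in
  Kummer-field form, with `m ∣ div h'` and `m ∣ div k` among the hypotheses.
* `swapSS_of_rootModular` : `SwapRootModular N A W ℓ e m → SwapSS N A W ℓ e m`.
* `divBy_algEquiv` : `m ∣ div h → m ∣ div (w h)` for a `ℚ̄`-algebra automorphism `w`.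
* `frobSS_of_swapSS`, `frobSS_of_swapRootModular` : the exit `DescendFrob.FrobSS`.
* `hswap_of_swapSS` : the shape consumed by `S35/ToricFrob.rel_fun` (constant `c = 1`).
-/

set_option autoImplicit false
set_option linter.unusedSectionVars false
set_option synthInstance.maxHeartbeats 400000
set_option maxHeartbeats 1000000

noncomputable section

namespace Fermat.Agent.S35.DescendSwap

open ModularCurve AlgebraicCurve HahnSeries IntermediateField Polynomial
open Fermat.Agent.S18.K1Defs Fermat.Agent.S18.K1Top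
open Fermat.Agent.S30 Fermat.Agent.S30.E4
open Fermat.Agent.S34 Fermat.Agent.S34.Descend

local notation "Qb" => AlgebraicClosure ℚ
local notation "Gq" => (AlgebraicClosure ℚ ≃ₐ[ℚ] AlgebraicClosure ℚ)

/-! ### The generic descent -/

/-- **The Kummer-field clause** for `k ∈ LE N E`: in every finite field extension
`M = (LE N E)(θ)`, `θ ^ m = k`, without new constants, `k` is already an `m`-th power in
`LE N E`. -/
def KummerClause (N : ℕ) [NeZero N] (m : ℕ) (E : IntermediateField ℚ Qb) (k : LE N E) : Prop :=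
  ∀ (M : Type) [Field M] [Algebra (LE N E) M] [Algebra E M] [IsScalarTower E (LE N E) M]
    [FiniteDimensional (LE N E) M] (θ : M),
    θ ^ m = algebraMap (LE N E) M k →
    Algebra.adjoin (LE N E) ({θ} : Set M) = ⊤ →
    (∀ x : M, IsAlgebraic E x → ∃ a : E, algebraMap E M a = x) →
    ∃ g : LE N E, k = g ^ m

/-- **Descent of a Kummer polynomial.**  For `x ∈ Fb N` and a finite set `s ⊆ Fb N` there is a
number field `E₀` such that over every `E ⊇ E₀`: the elements of `s` are defined over `E`, `x` has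
a model `k`, and a monic irreducible factor `q` of `X ^ m - k` stays irreducible over `Fb N`. -/
theorem exists_kummer_descent (N : ℕ) [NeZero N] {m : ℕ} (hm : 0 < m) (x : Fb N)
    (s : Finset (Fb N)) :
    ∃ E₀ : IntermediateField ℚ Qb, FiniteDimensional ℚ E₀ ∧
      ∀ E : IntermediateField ℚ Qb, E₀ ≤ E →
        (∀ z ∈ s, ∃ y : LE N E, upF N E y = z) ∧
        ∃ (k : LE N E) (q : (LE N E)[X]), upF N E k = x ∧ q.Monic ∧ Irreducible q ∧
          q ∣ Polynomial.X ^ m - Polynomial.C k ∧ Irreducible (q.map (upF N E)) := by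
  classical
  set f : (Fb N)[X] := Polynomial.X ^ m - Polynomial.C x with hf
  have hfmonic : f.Monic := Polynomial.monic_X_pow_sub_C x hm.ne'
  have hfdeg : f.degree ≠ 0 := by
    rw [hf, Polynomial.degree_X_pow_sub_C hm x]
    exact_mod_cast hm.ne'
  obtain ⟨g₀, hg₀irr, hg₀dvd⟩ := Polynomial.exists_irreducible_of_degree_pos
    (f := f) (lt_of_le_of_ne (Polynomial.zero_le_degree_iff.mpr hfmonic.ne_zero) (Ne.symm hfdeg))
  set g : (Fb N)[X] := g₀ * Polynomial.C g₀.leadingCoeff⁻¹ with hgdef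
  have hgmonic : g.Monic := Polynomial.monic_mul_leadingCoeff_inv hg₀irr.ne_zero
  have hgassoc : Associated g₀ g :=
    ⟨(Polynomial.isUnit_C.mpr (isUnit_iff_ne_zero.mpr (inv_ne_zero
      (Polynomial.leadingCoeff_ne_zero.mpr hg₀irr.ne_zero)))).unit, rfl⟩
  have hgirr : Irreducible g := hgassoc.irreducible hg₀irr
  have hgdvd : g ∣ f := (hgassoc.dvd_iff_dvd_left).mp hg₀dvd
  obtain ⟨E₀, hE₀, hdesc⟩ := exists_finset_descent N (insert x (s ∪ g.coeffs))
  refine ⟨E₀, hE₀, fun E hE => ?_⟩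
  have hdE := hdesc E hE
  refine ⟨fun z hz => hdE z (Finset.mem_insert_of_mem (Finset.mem_union_left _ hz)), ?_⟩
  obtain ⟨k, hk⟩ := hdE x (Finset.mem_insert_self _ _)
  have hglift : g ∈ Polynomial.lifts (upF N E) := by
    rw [Polynomial.lifts_iff_coeff_lifts]
    intro n
    by_cases hn : g.coeff n = 0
    · exact ⟨0, by rw [map_zero, hn]⟩
    · obtain ⟨y, hy⟩ := hdE (g.coeff n)
        (Finset.mem_insert_of_mem (Finset.mem_union_right _ (Polynomial.coeff_mem_coeffs hn)))
      exact ⟨y, hy⟩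
  obtain ⟨q, hqmap, -, hqmonic⟩ := Polynomial.lifts_and_natDegree_eq_and_monic hglift hgmonic
  have hqirr' : Irreducible (q.map (upF N E)) := by rw [hqmap]; exact hgirr
  have hqirr : Irreducible q :=
    Polynomial.Monic.irreducible_of_irreducible_map (upF N E) q hqmonic hqirr'
  have hqdvd : q ∣ Polynomial.X ^ m - Polynomial.C k := by
    rw [← Polynomial.map_dvd_map (upF N E) (upF_injective N E) hqmonic, hqmap,
      Polynomial.map_sub, Polynomial.map_pow, Polynomial.map_X, Polynomial.map_C, hk]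
    exact hgdvd
  exact ⟨k, q, hk, hqmonic, hqirr, hqdvd, hqirr'⟩

/-- **The generic descent.**  For `x ∈ Fb N` and a finite set `s ⊆ Fb N` there is a number field
`E₀` such that over every `E ⊇ E₀`: the elements of `s` are defined over `E`, and if a model
`k ∈ LE N E` of `x` satisfies the Kummer-field clause, then `x` is an `m`-th power in `Fb N`. -/
theorem exists_descent_of_clause (N : ℕ) [NeZero N] {m : ℕ} (hm : 0 < m) (x : Fb N)
    (s : Finset (Fb N)) :
    ∃ E₀ : IntermediateField ℚ Qb, FiniteDimensional ℚ E₀ ∧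
      ∀ E : IntermediateField ℚ Qb, E₀ ≤ E →
        (∀ z ∈ s, ∃ y : LE N E, upF N E y = z) ∧
        (∃ k : LE N E, upF N E k = x) ∧
        ∀ k : LE N E, upF N E k = x → KummerClause N m E k → ∃ g : Fb N, x = g ^ m := by
  classical
  obtain ⟨E₀, hE₀, h⟩ := exists_kummer_descent N hm x s
  refine ⟨E₀, hE₀, fun E hE => ?_⟩
  obtain ⟨hs, k, q, hk, hqmonic, hqirr, hqdvd, hqirr'⟩ := h E hE
  refine ⟨hs, ⟨k, hk⟩, fun k' hk' hclause => ?_⟩
  obtain rfl : k' = k := upF_injective N E (hk'.trans hk.symm)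
  haveI : Fact (Irreducible q) := ⟨hqirr⟩
  have hθ : AdjoinRoot.root q ^ m = algebraMap (LE N E) (AdjoinRoot q) k' := by
    have h1 := AdjoinRoot.mk_eq_zero.mpr hqdvd
    rw [map_sub, map_pow, AdjoinRoot.mk_X, AdjoinRoot.mk_C] at h1
    rw [AdjoinRoot.algebraMap_eq]
    exact sub_eq_zero.mp h1
  haveI : FiniteDimensional (LE N E) (AdjoinRoot q) :=
    (AdjoinRoot.powerBasis hqirr.ne_zero).finite
  obtain ⟨gk, hgk⟩ := hclause (AdjoinRoot q) (AdjoinRoot.root q) hθ AdjoinRoot.adjoinRoot_eq_top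
    (fun y hy => no_new_constants N E q hqmonic hqirr' y hy)
  exact ⟨upF N E gk, by rw [← hk, hgk, map_pow]⟩

/-! ### The statements -/

/-- **(C2') over `ℚ̄`**: for `σ` a Frobenius element of `A` at `ℓ` and a toric `h` with
`m ∣ div h` and `m ∣ div (W h)`, the element `σ (W h) * h ^ e` is an `m`-th power in `Fb N`
(`e = ℓ` in the application). -/
def SwapSS (N : ℕ) (A : ValuationSubring Qb) (W : Fb N ≃+* Fb N) (ℓ e m : ℕ) : Prop :=
  ∀ σ : Gq, A.IsFrobeniusAt σ ℓ → ∀ h : Fb N, Toric.IsToric N A W h → DivBy N m h →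
    DivBy N m (W h) → ∃ k : Fb N, gal N σ (W h) * h ^ e = k ^ m

/-- **(C2') over a number field `E`, Kummer-field form.**  `h, h' ∈ LE N E` with `h' = W h`
(after extension of constants), both in the Gauss ring with reduction `1`, `m ∣ ord_P h` and
`m ∣ ord_P h'` at every place of `LE N E` over `E`, `k = σ h' * h ^ e ∈ LE N E` (`σ` acting on the
coefficients through its restriction to `E`; then also `m ∣ ord_P k` at every place), and
`M = (LE N E)(θ)` a finite field extension with `θ ^ m = k` in which `E` is algebraically closed.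
Then `k` is an `m`-th power in `LE N E`. -/
def SwapRootE (N : ℕ) [NeZero N] (A : ValuationSubring Qb) (W : Fb N ≃+* Fb N) (ℓ e m : ℕ)
    (E : IntermediateField ℚ Qb) [Normal ℚ E] [IsDiscreteValuationRing (OE A E)] : Prop :=
  ∀ σ : Gq, A.IsFrobeniusAt σ ℓ →
    ∀ (h h' : LaurentSeries E) (hL : h ∈ LE N E) (hL' : h' ∈ LE N E),
      W ⟨coeffMap (algebraMap E Qb) h, coeffMap_mem_bar N E hL⟩ =
        ⟨coeffMap (algebraMap E Qb) h', coeffMap_mem_bar N E hL'⟩ →
      ∀ (hV : h ∈ GaussDVR.V (OE A E) E) (hV' : h' ∈ GaussDVR.V (OE A E) E),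
        GaussDVR.red (OE A E) E ⟨h, hV⟩ = 1 → GaussDVR.red (OE A E) E ⟨h', hV'⟩ = 1 →
        (∀ P : Place E (LE N E), (m : ℤ) ∣ P.ord (⟨h, hL⟩ : LE N E)) →
        (∀ P : Place E (LE N E), (m : ℤ) ∣ P.ord (⟨h', hL'⟩ : LE N E)) →
        ∀ k : LE N E,
          (k : LaurentSeries E) =
            coeffMap ((σ.restrictNormal E : E ≃ₐ[ℚ] E) : E →+* E) h' * h ^ e →
          (∀ P : Place E (LE N E), (m : ℤ) ∣ P.ord k) →
          ∀ (M : Type) [Field M] [Algebra (LE N E) M] [Algebra E M] [IsScalarTower E (LE N E) M]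
            [FiniteDimensional (LE N E) M] (θ : M),
            θ ^ m = algebraMap (LE N E) M k →
            Algebra.adjoin (LE N E) ({θ} : Set M) = ⊤ →
            (∀ x : M, IsAlgebraic E x → ∃ a : E, algebraMap E M a = x) →
            ∃ g : LE N E, k = g ^ m

/-- **(C2') for the modular function field, Kummer-field form**: `SwapRootE` over every number
field `E ⊆ ℚ̄`, normal over `ℚ`, containing a fixed finite set `S` of algebraic numbers. -/
def SwapRootModular (N : ℕ) [NeZero N] (A : ValuationSubring Qb) (W : Fb N ≃+* Fb N)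
    (ℓ e m : ℕ) : Prop :=
  ∃ S : Finset Qb, ∀ (E : IntermediateField ℚ Qb) [FiniteDimensional ℚ E] [Normal ℚ E]
    [IsDiscreteValuationRing (OE A E)], (∀ s ∈ S, s ∈ E) → SwapRootE N A W ℓ e m E

/-! ### The descent theorem -/

/-- **Descent of (C2'), Kummer-field form.**  `SwapRootModular` implies (C2') over `ℚ̄`. -/
theorem swapSS_of_rootModular (N : ℕ) [NeZero N] {ℓ : ℕ} (hℓ : ℓ.Prime)
    (A : ValuationSubring Qb) (hA : A.LiesOverPrime ℓ) (W : Fb N ≃+* Fb N) (e : ℕ) {m : ℕ}
    (hm : 0 < m) (hK : SwapRootModular N A W ℓ e m) : SwapSS N A W ℓ e m := by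
  classical
  rintro σ hσ h ⟨⟨U, V, hU, hV, hred, hne, hUV⟩, ⟨U', V', hU', hV', hred', hne', hUV'⟩⟩ hdiv
    hdiv'
  obtain ⟨S, hS⟩ := hK
  have hh0 : h ≠ 0 := Toric.GaussOne.ne_zero ⟨U, V, hU, hV, hred, hne, hUV⟩
  have hWh0 : W h ≠ 0 := fun h0 => hh0 (W.injective (h0.trans (map_zero W).symm))
  set x : Fb N := gal N σ (W h) * h ^ e with hx
  have hxdiv : DivBy N m x :=
    DivBy.mul (fun h0 => hWh0 ((gal N σ).injective (h0.trans (map_zero _).symm)))
      (pow_ne_zero _ hh0) (DivBy.gal hdiv' σ) (DivBy.pow hdiv e)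
  -- coefficient fields
  obtain ⟨E₀, hE₀, hdesc⟩ := exists_descent_of_clause N hm x
    (insert (⟨_, hU⟩ : Fb N) (insert (⟨_, hV⟩ : Fb N) (insert (⟨_, hU'⟩ : Fb N)
      {(⟨_, hV'⟩ : Fb N)})))
  let E₅ : IntermediateField ℚ Qb := IntermediateField.adjoin ℚ (S : Set Qb)
  have hE₅ : FiniteDimensional ℚ E₅ :=
    IntermediateField.finiteDimensional_adjoin fun x _ =>
      ((AlgebraicClosure.isAlgebraic ℚ).isAlgebraic x).isIntegral
  let E' : IntermediateField ℚ Qb := E₀ ⊔ E₅
  have hE' : FiniteDimensional ℚ E' := IntermediateField.finiteDimensional_sup E₀ E₅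
  -- the normal closure
  have : Normal ℚ Qb := normal_rat_Qb
  let E : IntermediateField ℚ Qb := IntermediateField.normalClosure ℚ E' Qb
  have hEfin : FiniteDimensional ℚ E := normalClosure.is_finiteDimensional ℚ E' Qb
  have hEnorm : Normal ℚ E := normalClosure.normal ℚ E' Qb
  have hE'E : E' ≤ E := IntermediateField.le_normalClosure E'
  have h0E : E₀ ≤ E := le_trans le_sup_left hE'E
  have h5E : E₅ ≤ E := le_trans le_sup_right hE'E
  have hSE : ∀ s ∈ S, s ∈ E := fun s hs => h5E (IntermediateField.subset_adjoin ℚ _ hs)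
  have hDVRE : IsDiscreteValuationRing (OE A E) := dvrDescent hℓ A hA E
  have hKE := hS E hSE
  obtain ⟨hdE, ⟨k, hk⟩, hclause⟩ := hdesc E h0E
  -- the series over `E`
  obtain ⟨⟨u, huL⟩, hu⟩ := hdE ⟨_, hU⟩ (by simp)
  obtain ⟨⟨v, hvL⟩, hv⟩ := hdE ⟨_, hV⟩ (by simp)
  obtain ⟨⟨u', hu'L⟩, hu'⟩ := hdE ⟨_, hU'⟩ (by simp)
  obtain ⟨⟨v', hv'L⟩, hv'⟩ := hdE ⟨_, hV'⟩ (by simp)
  have huU : coeffMap (algebraMap E Qb) u = coeffMap A.subtype U := congrArg Subtype.val hu
  have hvV : coeffMap (algebraMap E Qb) v = coeffMap A.subtype V := congrArg Subtype.val hv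
  have hu'U : coeffMap (algebraMap E Qb) u' = coeffMap A.subtype U' := congrArg Subtype.val hu'
  have hv'V : coeffMap (algebraMap E Qb) v' = coeffMap A.subtype V' := congrArg Subtype.val hv'
  obtain ⟨hv0, hgV, hg1⟩ := gauss_descent A E U V u v huU hvV hred hne
  obtain ⟨hv'0, hg'V, hg'1⟩ := gauss_descent A E U' V' u' v' hu'U hv'V hred' hne'
  have hgL : u / v ∈ LE N E := div_mem huL hvL
  have hg'L : u' / v' ∈ LE N E := div_mem hu'L hv'L
  -- `u / v` is `h`, `u' / v'` is `W h`
  have hupv : coeffMap (algebraMap E Qb) v ≠ 0 := by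
    intro h0
    exact hv0 (coeffMap_injective_hom (algebraMap E Qb) (by rw [h0, map_zero]))
  have hupv' : coeffMap (algebraMap E Qb) v' ≠ 0 := by
    intro h0
    exact hv'0 (coeffMap_injective_hom (algebraMap E Qb) (by rw [h0, map_zero]))
  have hgh : coeffMap (algebraMap E Qb) (u / v) = (h : LaurentSeries Qb) := by
    rw [map_div₀, div_eq_iff hupv, huU, hvV]
    exact hUV.symm
  have hg'h : coeffMap (algebraMap E Qb) (u' / v') = ((W h : Fb N) : LaurentSeries Qb) := by
    rw [map_div₀, div_eq_iff hupv', hu'U, hv'V]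
    exact hUV'.symm
  have e1 : (⟨coeffMap (algebraMap E Qb) (u / v), coeffMap_mem_bar N E hgL⟩ : Fb N) = h :=
    Subtype.ext hgh
  have e2 : (⟨coeffMap (algebraMap E Qb) (u' / v'), coeffMap_mem_bar N E hg'L⟩ : Fb N) = W h :=
    Subtype.ext hg'h
  have hW : W ⟨coeffMap (algebraMap E Qb) (u / v), coeffMap_mem_bar N E hgL⟩ =
      ⟨coeffMap (algebraMap E Qb) (u' / v'), coeffMap_mem_bar N E hg'L⟩ := by
    rw [e1, e2]
  -- divisibility at the places over `E`
  have hgdiv : ∀ P : Place E (LE N E), (m : ℤ) ∣ P.ord (⟨u / v, hgL⟩ : LE N E) := by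
    intro P
    obtain ⟨P', hP'⟩ := placeDescent N E P
    rw [← hP' (u / v) hgL, e1]
    exact hdiv P'
  have hg'div : ∀ P : Place E (LE N E), (m : ℤ) ∣ P.ord (⟨u' / v', hg'L⟩ : LE N E) := by
    intro P
    obtain ⟨P', hP'⟩ := placeDescent N E P
    rw [← hP' (u' / v') hg'L, e2]
    exact hdiv' P'
  have hkdiv : ∀ P : Place E (LE N E), (m : ℤ) ∣ P.ord k := by
    intro P
    obtain ⟨P', hP'⟩ := placeDescent N E P
    have e3 : (⟨coeffMap (algebraMap E Qb) (k : LaurentSeries E), coeffMap_mem_bar N E k.2⟩ :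
        Fb N) = x := by
      rw [← hk]
      rfl
    have h1 := hP' (k : LaurentSeries E) k.2
    rw [e3] at h1
    have h2 : (⟨(k : LaurentSeries E), k.2⟩ : LE N E) = k := rfl
    rw [h2] at h1
    rw [← h1]
    exact hxdiv P'
  -- `k = σ (W h) * h ^ e` over `E`
  have hkh : (k : LaurentSeries E) =
      coeffMap ((σ.restrictNormal E : E ≃ₐ[ℚ] E) : E →+* E) (u' / v') * (u / v) ^ e := by
    apply coeffMap_injective_hom (algebraMap E Qb)
    rw [map_mul, map_pow, coeffMap_restrictNormal σ E (u' / v'), hg'h, hgh, ← coe_upF, hk]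
    rfl
  -- apply the number-field statement
  exact ⟨_, (hclause k hk (fun M _ _ _ _ _ θ hθ hgen hconst =>
    hKE σ hσ (u / v) (u' / v') hgL hg'L hW hgV hg'V hg1 hg'1 hgdiv hg'div k hkh hkdiv M θ hθ hgen
      hconst)).choose_spec⟩

/-! ### The exits -/

/-- A `ℚ̄`-algebra automorphism of `Fb N` permutes the places: `m ∣ div h → m ∣ div (w h)`. -/
theorem divBy_algEquiv {N m : ℕ} (w : Fb N ≃ₐ[Qb] Fb N) {h : Fb N} (hdiv : DivBy N m h) :
    DivBy N m (w h) := by
  intro P
  have h1 := Place.ord_smul w (w⁻¹ • P) h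
  rw [smul_inv_smul] at h1
  rw [h1]
  exact hdiv _

/-- For `W = w` a `ℚ̄`-algebra automorphism, `SwapSS` is `DescendFrob.FrobSS`. -/
theorem frobSS_of_swapSS {N : ℕ} {A : ValuationSubring Qb} (w : Fb N ≃ₐ[Qb] Fb N) {ℓ e m : ℕ}
    (H : SwapSS N A w.toRingEquiv ℓ e m) : DescendFrob.FrobSS N A w.toRingEquiv ℓ e m :=
  fun σ hσ h hT hdiv => H σ hσ h hT hdiv (divBy_algEquiv w hdiv)

/-- **Descent of (C2') with the exit of `S35/DescendFrob.lean`.**  For `W = w` a `ℚ̄`-algebra
automorphism, the number-field statement `SwapRootModular` (which has `m ∣ div h'` and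
`m ∣ div k` among its hypotheses) implies `DescendFrob.FrobSS`. -/
theorem frobSS_of_swapRootModular (N : ℕ) [NeZero N] {ℓ : ℕ} (hℓ : ℓ.Prime)
    (A : ValuationSubring Qb) (hA : A.LiesOverPrime ℓ) (w : Fb N ≃ₐ[Qb] Fb N) (e : ℕ) {m : ℕ}
    (hm : 0 < m) (hK : SwapRootModular N A w.toRingEquiv ℓ e m) :
    DescendFrob.FrobSS N A w.toRingEquiv ℓ e m :=
  frobSS_of_swapSS w (swapSS_of_rootModular N hℓ A hA w.toRingEquiv e hm hK)

/-- `DescendFrob.FrobSSRootE` implies `SwapRootE` (since 00a4166a the two have the same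
hypotheses: `FrobSSRootE` also carries `m ∣ ord_P h'` and `m ∣ ord_P k`). -/
theorem swapRootE_of_frobSSRootE (N : ℕ) [NeZero N] (A : ValuationSubring Qb)
    (W : Fb N ≃+* Fb N) (ℓ e m : ℕ) (E : IntermediateField ℚ Qb) [Normal ℚ E]
    [IsDiscreteValuationRing (OE A E)] (H : DescendFrob.FrobSSRootE N A W ℓ e m E) :
    SwapRootE N A W ℓ e m E :=
  fun σ hσ h h' hL hL' hW hV hV' h1 h1' hdiv hdiv' k hk hkdiv M _ _ _ _ _ θ hθ hgen hconst =>
    H σ hσ h h' hL hL' hW hV hV' h1 h1' hdiv hdiv' k hk hkdiv M θ hθ hgen hconst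

/-- The shape consumed by `S35/ToricFrob.rel_fun` (with constant `c = 1`), for `W = w` a
`ℚ̄`-algebra automorphism of `Fb N`. -/
theorem hswap_of_swapSS {N : ℕ} {A : ValuationSubring Qb} (w : Fb N ≃ₐ[Qb] Fb N) {ℓ e m : ℕ}
    (H : SwapSS N A w.toRingEquiv ℓ e m) {σ : Gq} (hσ : A.IsFrobeniusAt σ ℓ) :
    ∀ h : Fb N, Toric.IsToric N A w.toRingEquiv h → DivBy N m h →
      ∃ (c : Qb) (k : Fb N), gal N σ (w h) * h ^ e = algebraMap Qb (Fb N) c * k ^ m := by
  intro h hT hdiv
  obtain ⟨k, hk⟩ := H σ hσ h hT hdiv (divBy_algEquiv w hdiv)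
  exact ⟨1, k, by rw [map_one, one_mul]; exact hk⟩

end Fermat.Agent.S35.DescendSwap
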