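import Fermat.Agent.S35.SigmaLoc
import Fermat.Agent.S34.Nodal.Transfer
import Fermat.Agent.S34.ToricInertiaStar
import Fermat.Agent.S30.Model.ChartProv

/-!
# Program U (S35): chart-level adapter for `SigmaLoc.hloc_swap` / `hloc_preserve`

Vocabulary of `S34/Nodal` (`Chart O t`, `IsNodalChart`, `CongrOneAtChart`, `FixesNodes`,
`ToricInertia.CartierRoot`).  `σ : L ≃+* L` a ring automorphism of the function field which
preserves the chart ring of `t` (NOT necessarily `σ t = t`): for S35, `σ = φ ∘ W` and `t = j`.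

* `chartEquiv t σ hB` : the restriction of `σ` to `Chart O t`.
* `comap_eq_of_mapsInto` : from one-directional inclusions `σ p₁ ⊆ p₂`, `σ p₂ ⊆ p₁` to
  `p₁.comap σ = p₂`, `p₂.comap σ = p₁` (minimality of the two components over `π`).
* `hloc_chart_swap`, `hloc_chart_preserve` : `SigmaLoc.hloc_swap` / `hloc_preserve` for
  `B = Chart O t`, `F = L`, in the literal shape of the hypothesis `hloc` of
  `S35/HlocTransfer.lean` (helper35) and `S35/NodeRoot.lean` (helper133).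
* `hloc_chart_swap_of_cartierRoot`, `hloc_chart_preserve_of_cartierRoot` : the same with (CART)
  supplied by `ToricInertia.CartierRoot` (the exit of S34's step (S)).
* `isFractionRing_chart` : `IsFractionRing (Chart O t) L` in the setting of `Model/Main.lean`.
-/

set_option autoImplicit false

open Fermat.Agent.S30.Model Fermat.Agent.S34.Nodal Fermat.Agent.S34.Label
open Fermat.Agent.S34 Fermat.Agent.S35.SigmaLabel

namespace Fermat.Agent.S35.NodalSigma

section Chart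

variable {O L : Type*} [CommRing O] [Field L] [Algebra O L]

/-- The restriction to the chart ring of `t` of a ring automorphism `σ` of `L` preserving it. -/
noncomputable def chartEquiv (t : L) (σ : L ≃+* L)
    (hB : ∀ x : L, IsIntegral (Algebra.adjoin O ({t} : Set L)) x ↔
      IsIntegral (Algebra.adjoin O ({t} : Set L)) (σ x)) : Chart O t ≃+* Chart O t where
  toFun x := ⟨σ x, (hB x).1 x.2⟩
  invFun y := ⟨σ.symm y, (hB _).2 (by rw [σ.apply_symm_apply]; exact y.2)⟩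
  left_inv x := Subtype.ext (σ.symm_apply_apply _)
  right_inv y := Subtype.ext (σ.apply_symm_apply _)
  map_mul' x y := Subtype.ext (map_mul σ _ _)
  map_add' x y := Subtype.ext (map_add σ _ _)

@[simp] theorem coe_chartEquiv (t : L) (σ : L ≃+* L)
    (hB : ∀ x : L, IsIntegral (Algebra.adjoin O ({t} : Set L)) x ↔
      IsIntegral (Algebra.adjoin O ({t} : Set L)) (σ x)) (x : Chart O t) :
    ((chartEquiv t σ hB x : Chart O t) : L) = σ (x : L) := rfl

theorem chartEquiv_eq (t : L) (σ : L ≃+* L)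
    (hB : ∀ x : L, IsIntegral (Algebra.adjoin O ({t} : Set L)) x ↔
      IsIntegral (Algebra.adjoin O ({t} : Set L)) (σ x)) {x y : Chart O t}
    (hxy : (y : L) = σ (x : L)) : chartEquiv t σ hB x = y :=
  Subtype.ext hxy.symm

/-- The chart ring is integrally closed. -/
theorem isIntegrallyClosed_chart (t : L) : IsIntegrallyClosed (Chart O t) :=
  IsIntegrallyClosed.of_isIntegrallyClosed_of_isIntegrallyClosedIn (R := Chart O t) (S := L)

/-- `CongrOneAtChart` is `Label.OneAt`. -/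
theorem oneAt_of_congrOneAtChart {t : L} [IsFractionRing (Chart O t) L] {p : Ideal (Chart O t)}
    {h : L} (hh : CongrOneAtChart p h) : OneAt p h := by
  obtain ⟨a, b, ha, hb, e⟩ := hh
  refine ⟨b, a, hb, ha, ?_⟩
  show (b : L) * (h - 1) = (a : L)
  linear_combination e

/-- A maximal ideal mapped into itself by an automorphism is fixed by it. -/
theorem comap_eq_of_fixesNodes {t : L} {p₁ p₂ : Ideal (Chart O t)} {σ : L ≃+* L}
    (hB : ∀ x : L, IsIntegral (Algebra.adjoin O ({t} : Set L)) x ↔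
      IsIntegral (Algebra.adjoin O ({t} : Set L)) (σ x))
    (hnode : FixesNodes t p₁ p₂ σ) (y : Ideal (Chart O t)) (hy : y.IsMaximal) (h1 : p₁ ≤ y)
    (h2 : p₂ ≤ y) : y.comap (chartEquiv t σ hB) = y := by
  have hle : y ≤ y.comap (chartEquiv t σ hB) := by
    intro x hx
    obtain ⟨z, hz, hzx⟩ := hnode y hy h1 h2 x hx
    rw [Ideal.mem_comap, chartEquiv_eq t σ hB hzx]
    exact hz
  have hmax : (y.comap (chartEquiv t σ hB)).IsMaximal :=
    Ideal.comap_isMaximal_of_surjective _ (chartEquiv t σ hB).surjective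
  exact (hy.eq_of_le hmax.ne_top hle).symm

/-- **Exchange of the components from one-directional inclusions.**  If `σ` maps `p₁` into
`p₂` and `p₂` into `p₁`, and `σ⁻¹ π ∈ (π)`, then `p₁.comap σ = p₂` and `p₂.comap σ = p₁`. -/
theorem comap_eq_of_mapsInto (π : O) {t : L} {p₁ p₂ : Ideal (Chart O t)}
    (hN : IsNodalChart π t p₁ p₂) (τ : Chart O t ≃+* Chart O t)
    (hπ : τ.symm (GlueChart.piElt (Algebra.adjoin O ({t} : Set L)) π) ∈
      Ideal.span {GlueChart.piElt (Algebra.adjoin O ({t} : Set L)) π})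
    (h12 : ∀ x ∈ p₁, τ x ∈ p₂) (h21 : ∀ x ∈ p₂, τ x ∈ p₁) :
    p₁.comap τ = p₂ ∧ p₂.comap τ = p₁ := by
  have hp₁ := hN.isPrime₁
  have hp₂ := hN.isPrime₂
  have hπ₁ : Ideal.span {GlueChart.piElt (Algebra.adjoin O ({t} : Set L)) π} ≤ p₁ := by
    rw [← hN.inf_eq]; exact inf_le_left
  have hπ₂ : Ideal.span {GlueChart.piElt (Algebra.adjoin O ({t} : Set L)) π} ≤ p₂ := by
    rw [← hN.inf_eq]; exact inf_le_right
  have key : ∀ (q q' : Ideal (Chart O t)), q.IsPrime → q'.IsPrime →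
      q ⊓ q' = Ideal.span {GlueChart.piElt (Algebra.adjoin O ({t} : Set L)) π} →
      ¬ q ≤ q' → (∀ x ∈ q, τ x ∈ q') → (∀ x ∈ q', τ x ∈ q) → q.comap τ = q' := by
    intro q q' hq hq' hinf hnle hqq' hq'q
    refine le_antisymm (fun x hx => ?_) (fun x hx => hq'q x hx)
    obtain ⟨c, hcq, hcq'⟩ := SetLike.not_le_iff_exists.mp hnle
    have h1 : τ (x * c) ∈ q ⊓ q' := by
      rw [map_mul]
      exact ⟨q.mul_mem_right _ hx, q'.mul_mem_left _ (hqq' c hcq)⟩
    rw [hinf, Ideal.mem_span_singleton] at h1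
    obtain ⟨b, hb⟩ := h1
    have h2 : x * c = τ.symm (GlueChart.piElt (Algebra.adjoin O ({t} : Set L)) π) * τ.symm b := by
      rw [← map_mul, ← hb, τ.symm_apply_apply]
    have h3 : x * c ∈ q' := by
      rw [h2]
      refine q'.mul_mem_right _ ?_
      have : Ideal.span {GlueChart.piElt (Algebra.adjoin O ({t} : Set L)) π} ≤ q' := by
        rw [← hinf]; exact inf_le_right
      exact this hπ
    rcases Ideal.IsPrime.mem_or_mem hq' h3 with h | h
    · exact h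
    · exact absurd h hcq'
  exact ⟨key p₁ p₂ hp₁ hp₂ hN.inf_eq hN.not_le₁₂ h12 h21,
    key p₂ p₁ hp₂ hp₁ (by rw [inf_comm]; exact hN.inf_eq) hN.not_le₂₁ h21 h12⟩

/-- **Local roots on a chart, swapping case** (`S35` (C2'), `σ = φ ∘ W` on the chart of `j`).
`σ` preserves the chart ring of `t`, exchanges the two components, fixes the crossing points and
`σ ζ = ζ ^ c`; `h ≡ 1` on both components, with (CART) at every closed point of the special
fibre.  Then at every maximal ideal `y` containing `p₁` or `p₂`, `σ h * h ^ c` has an `m`-th root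
`ρ` up to a unit at `y`, with `ρ ≡ 1` on the branches through `y`. -/
theorem hloc_chart_swap (π : O) (t : L) [IsFractionRing (Chart O t) L]
    {p₁ p₂ : Ideal (Chart O t)} (hN : IsNodalChart π t p₁ p₂) (σ : L ≃+* L)
    (hB : ∀ x : L, IsIntegral (Algebra.adjoin O ({t} : Set L)) x ↔
      IsIntegral (Algebra.adjoin O ({t} : Set L)) (σ x))
    (h₁₂ : ∀ x y : Chart O t, (y : L) = σ (x : L) → (x ∈ p₂ ↔ y ∈ p₁))
    (h₂₁ : ∀ x y : Chart O t, (y : L) = σ (x : L) → (x ∈ p₁ ↔ y ∈ p₂))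
    (hnode : FixesNodes t p₁ p₂ σ)
    (m : ℕ) (hm : 0 < m) (ζ : O) (hζ : IsPrimitiveRoot (algebraMap O L ζ) m) (c : ℕ)
    (hσζ : σ (algebraMap O L ζ) = algebraMap O L ζ ^ c)
    (h : L) (h₁ : CongrOneAtChart p₁ h) (h₂ : CongrOneAtChart p₂ h)
    (hcart : ∀ y : Ideal (Chart O t), y.IsMaximal → (p₁ ≤ y ∨ p₂ ≤ y) →
      ∃ (f : L) (a : Chart O t), a ∉ y ∧ f ^ m * h = (a : L)) :
    ∀ y : Ideal (Chart O t), y.IsMaximal → (p₁ ≤ y ∨ p₂ ≤ y) →
      ∃ ρ : L, (∃ s s' : Chart O t, s ∉ y ∧ s' ∉ y ∧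
          (s : L) * ρ ^ m = (s' : L) * (σ h * h ^ c)) ∧
        (p₁ ≤ y → ∃ s c' : Chart O t, s ∉ p₁ ∧ c' ∈ p₁ ∧ (s : L) * (ρ - 1) = (c' : L)) ∧
        (p₂ ≤ y → ∃ s c' : Chart O t, s ∉ p₂ ∧ c' ∈ p₂ ∧ (s : L) * (ρ - 1) = (c' : L)) := by
  have hp₁ := hN.isPrime₁
  have hp₂ := hN.isPrime₂
  have hd₁ := hN.dedekind₁
  have hd₂ := hN.dedekind₂
  have hic : IsIntegrallyClosed (Chart O t) := isIntegrallyClosed_chart t
  have hζB : IsPrimitiveRoot (algebraMap O (Chart O t) ζ) m :=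
    IsPrimitiveRoot.of_map_of_injective (f := algebraMap (Chart O t) L) hζ
      (FaithfulSMul.algebraMap_injective (Chart O t) L)
  exact SigmaLoc.hloc_swap (chartEquiv t σ hB) σ.toRingHom (fun _ => rfl) p₁ p₂ hN.ne hN.radical
    (Ideal.ext fun x => (h₁₂ x _ rfl).symm) (Ideal.ext fun x => (h₂₁ x _ rfl).symm)
    (comap_eq_of_fixesNodes hB hnode) m hm (algebraMap O (Chart O t) ζ) hζB c
    (Subtype.ext hσζ) h (oneAt_of_congrOneAtChart h₁) (oneAt_of_congrOneAtChart h₂) hcart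

/-- **Local roots on a chart, component-preserving case** (`σ h / h ^ a`: `c = (m - 1) * a`). -/
theorem hloc_chart_preserve (π : O) (t : L) [IsFractionRing (Chart O t) L]
    {p₁ p₂ : Ideal (Chart O t)} (hN : IsNodalChart π t p₁ p₂) (σ : L ≃+* L)
    (hB : ∀ x : L, IsIntegral (Algebra.adjoin O ({t} : Set L)) x ↔
      IsIntegral (Algebra.adjoin O ({t} : Set L)) (σ x))
    (h₁₁ : ∀ x y : Chart O t, (y : L) = σ (x : L) → (x ∈ p₁ ↔ y ∈ p₁))
    (h₂₂ : ∀ x y : Chart O t, (y : L) = σ (x : L) → (x ∈ p₂ ↔ y ∈ p₂))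
    (hnode : FixesNodes t p₁ p₂ σ)
    (m : ℕ) (hm : 0 < m) (ζ : O) (hζ : IsPrimitiveRoot (algebraMap O L ζ) m) (c : ℕ)
    (hσζ : σ (algebraMap O L ζ) * algebraMap O L ζ ^ c = 1)
    (h : L) (h₁ : CongrOneAtChart p₁ h) (h₂ : CongrOneAtChart p₂ h)
    (hcart : ∀ y : Ideal (Chart O t), y.IsMaximal → (p₁ ≤ y ∨ p₂ ≤ y) →
      ∃ (f : L) (a : Chart O t), a ∉ y ∧ f ^ m * h = (a : L)) :
    ∀ y : Ideal (Chart O t), y.IsMaximal → (p₁ ≤ y ∨ p₂ ≤ y) →
      ∃ ρ : L, (∃ s s' : Chart O t, s ∉ y ∧ s' ∉ y ∧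
          (s : L) * ρ ^ m = (s' : L) * (σ h * h ^ c)) ∧
        (p₁ ≤ y → ∃ s c' : Chart O t, s ∉ p₁ ∧ c' ∈ p₁ ∧ (s : L) * (ρ - 1) = (c' : L)) ∧
        (p₂ ≤ y → ∃ s c' : Chart O t, s ∉ p₂ ∧ c' ∈ p₂ ∧ (s : L) * (ρ - 1) = (c' : L)) := by
  have hp₁ := hN.isPrime₁
  have hp₂ := hN.isPrime₂
  have hd₁ := hN.dedekind₁
  have hd₂ := hN.dedekind₂
  have hic : IsIntegrallyClosed (Chart O t) := isIntegrallyClosed_chart t
  have hζB : IsPrimitiveRoot (algebraMap O (Chart O t) ζ) m :=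
    IsPrimitiveRoot.of_map_of_injective (f := algebraMap (Chart O t) L) hζ
      (FaithfulSMul.algebraMap_injective (Chart O t) L)
  exact SigmaLoc.hloc_preserve (chartEquiv t σ hB) σ.toRingHom (fun _ => rfl) p₁ p₂
    hN.not_le₂₁ hN.radical
    (Ideal.ext fun x => (h₁₁ x _ rfl).symm) (Ideal.ext fun x => (h₂₂ x _ rfl).symm)
    (comap_eq_of_fixesNodes hB hnode) m hm (algebraMap O (Chart O t) ζ) hζB c
    (Subtype.ext hσζ) h (oneAt_of_congrOneAtChart h₁) (oneAt_of_congrOneAtChart h₂) hcart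

/-- `hloc_chart_swap` with (CART) supplied by `CartierRoot` (the exit of S34's step (S)). -/
theorem hloc_chart_swap_of_cartierRoot (π : O) (t : L) [IsFractionRing (Chart O t) L]
    {p₁ p₂ : Ideal (Chart O t)} (hN : IsNodalChart π t p₁ p₂) (σ : L ≃+* L)
    (hB : ∀ x : L, IsIntegral (Algebra.adjoin O ({t} : Set L)) x ↔
      IsIntegral (Algebra.adjoin O ({t} : Set L)) (σ x))
    (h₁₂ : ∀ x y : Chart O t, (y : L) = σ (x : L) → (x ∈ p₂ ↔ y ∈ p₁))
    (h₂₁ : ∀ x y : Chart O t, (y : L) = σ (x : L) → (x ∈ p₁ ↔ y ∈ p₂))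
    (hnode : FixesNodes t p₁ p₂ σ)
    (m : ℕ) (hm : 0 < m) (ζ : O) (hζ : IsPrimitiveRoot (algebraMap O L ζ) m) (c : ℕ)
    (hσζ : σ (algebraMap O L ζ) = algebraMap O L ζ ^ c)
    (h : L) (hh : h ≠ 0) (h₁ : CongrOneAtChart p₁ h) (h₂ : CongrOneAtChart p₂ h)
    (hC : ToricInertia.CartierRoot O ({t} : Set L) m h) :
    ∀ y : Ideal (Chart O t), y.IsMaximal → (p₁ ≤ y ∨ p₂ ≤ y) →
      ∃ ρ : L, (∃ s s' : Chart O t, s ∉ y ∧ s' ∉ y ∧
          (s : L) * ρ ^ m = (s' : L) * (σ h * h ^ c)) ∧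
        (p₁ ≤ y → ∃ s c' : Chart O t, s ∉ p₁ ∧ c' ∈ p₁ ∧ (s : L) * (ρ - 1) = (c' : L)) ∧
        (p₂ ≤ y → ∃ s c' : Chart O t, s ∉ p₂ ∧ c' ∈ p₂ ∧ (s : L) * (ρ - 1) = (c' : L)) :=
  hloc_chart_swap π t hN σ hB h₁₂ h₂₁ hnode m hm ζ hζ c hσζ h h₁ h₂ fun y hy _ =>
    ToricInertia.exists_pow_mul_eq_of_cartierRoot ({t} : Set L) m hm h hh hC y hy

/-- `hloc_chart_preserve` with (CART) supplied by `CartierRoot`. -/
theorem hloc_chart_preserve_of_cartierRoot (π : O) (t : L) [IsFractionRing (Chart O t) L]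
    {p₁ p₂ : Ideal (Chart O t)} (hN : IsNodalChart π t p₁ p₂) (σ : L ≃+* L)
    (hB : ∀ x : L, IsIntegral (Algebra.adjoin O ({t} : Set L)) x ↔
      IsIntegral (Algebra.adjoin O ({t} : Set L)) (σ x))
    (h₁₁ : ∀ x y : Chart O t, (y : L) = σ (x : L) → (x ∈ p₁ ↔ y ∈ p₁))
    (h₂₂ : ∀ x y : Chart O t, (y : L) = σ (x : L) → (x ∈ p₂ ↔ y ∈ p₂))
    (hnode : FixesNodes t p₁ p₂ σ)
    (m : ℕ) (hm : 0 < m) (ζ : O) (hζ : IsPrimitiveRoot (algebraMap O L ζ) m) (c : ℕ)
    (hσζ : σ (algebraMap O L ζ) * algebraMap O L ζ ^ c = 1)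
    (h : L) (hh : h ≠ 0) (h₁ : CongrOneAtChart p₁ h) (h₂ : CongrOneAtChart p₂ h)
    (hC : ToricInertia.CartierRoot O ({t} : Set L) m h) :
    ∀ y : Ideal (Chart O t), y.IsMaximal → (p₁ ≤ y ∨ p₂ ≤ y) →
      ∃ ρ : L, (∃ s s' : Chart O t, s ∉ y ∧ s' ∉ y ∧
          (s : L) * ρ ^ m = (s' : L) * (σ h * h ^ c)) ∧
        (p₁ ≤ y → ∃ s c' : Chart O t, s ∉ p₁ ∧ c' ∈ p₁ ∧ (s : L) * (ρ - 1) = (c' : L)) ∧
        (p₂ ≤ y → ∃ s c' : Chart O t, s ∉ p₂ ∧ c' ∈ p₂ ∧ (s : L) * (ρ - 1) = (c' : L)) :=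
  hloc_chart_preserve π t hN σ hB h₁₁ h₂₂ hnode m hm ζ hζ c hσζ h h₁ h₂ fun y hy _ =>
    ToricInertia.exists_pow_mul_eq_of_cartierRoot ({t} : Set L) m hm h hh hC y hy

end Chart

section Model

variable {O E L : Type*} [CommRing O] [IsDomain O]
  [Field E] [Algebra O E] [IsFractionRing O E]
  [Field L] [Algebra E L] [Algebra O L] [IsScalarTower O E L]

/-- In the setting of `Model/Main.lean`, `L` is the fraction field of the chart ring. -/
theorem isFractionRing_chart (t : L)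
    [FiniteDimensional (IntermediateField.adjoin E {t}) L] : IsFractionRing (Chart O t) L := by
  have hwK : t ∈ IntermediateField.adjoin E {t} := IntermediateField.mem_adjoin_simple_self E t
  let _ := (ChartInst.incl O t (IntermediateField.adjoin E {t}) hwK).toAlgebra
  have := ChartInst.isScalarTower_incl O t (IntermediateField.adjoin E {t}) hwK
  have := ChartInst.isFractionRing_incl O t (IntermediateField.adjoin E {t}) hwK le_rfl
  exact integralClosure.isFractionRing_of_finite_extension (IntermediateField.adjoin E {t}) L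

end Model

end Fermat.Agent.S35.NodalSigma
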