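import Mathlib
import Fermat.Agent.S34.Nodal.Defs
import Fermat.Agent.S34.Bridge2

/-!
# Program U (S35): transfer of the local root datum `hloc` from the chart `u` to the chart `u⁻¹`

Vocabulary of `S34/Nodal/Defs.lean`: `Chart O t` is the integral closure of `O[t]` in `L`,
`Overlap O u` that of `O[u, u⁻¹]`.  For an ideal `Q` of the overlap, `Q.comap (toOverlapZero O u)`
and `Q.comap (toOverlapInf O u)` are its contractions to the two charts.

The local datum (`hloc` of `S35/NodeRoot.lean`, conclusion of `S35/SigmaLoc.hloc_swap`) at a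
maximal ideal `y` of a chart ring `B` with two distinguished ideals `p₁`, `p₂` is

  `∃ ρ : L, (∃ s s' : B, s ∉ y ∧ s' ∉ y ∧ s * ρ ^ m = s' * k) ∧ (p₁ ≤ y → OneAt p₁ ρ) ∧ (p₂ ≤ y → OneAt p₂ ρ)`

with `OneAt p ρ := ∃ s c : B, s ∉ p ∧ c ∈ p ∧ s * (ρ - 1) = c` (written here as its unfolded body).

* `mem_comap_iff_of_coe_eq` : `a ∈ Q ∩ Chart u ↔ b ∈ Q ∩ Chart u⁻¹` when `b = u⁻¹ ^ n * a` in `L`.
* `oneAt_inf_of_zero`, `oneAt_zero_of_inf` : `OneAt` at `Q ∩ Chart u` ⟺ at `Q ∩ Chart u⁻¹`.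
* `exists_isMaximal_above` : for a prime `y` of the chart `u⁻¹` not containing `u⁻¹` there is a
  maximal ideal `N` of the chart `u` such that `Q ∩ Chart u⁻¹ ≤ y → Q ∩ Chart u ≤ N` for every
  ideal `Q` of the overlap, and every relation `s * x = s' * k` with `s, s' ∉ N` gives one with
  `t, t' ∉ y`.
* `hloc_transfer` : the local datum at all maximal ideals of the chart `u` gives the local datum
  at every maximal ideal of the chart `u⁻¹` not containing `u⁻¹`.  No hypothesis on `O`, `L`.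
-/

set_option autoImplicit false

open Fermat.Agent.S30.Model Fermat.Agent.S30.Model.GlueChart

namespace Fermat.Agent.S35.HlocTransfer

open Fermat.Agent.S34.Nodal Fermat.Agent.S34

variable {O L : Type*} [CommRing O] [Field L] [Algebra O L]

/-- `u` as an element of the overlap chart. -/
def ovU (u : L) : Overlap O u :=
  ⟨u, CechP1.isIntegral_adjoin_of_mem (Algebra.subset_adjoin (by simp))⟩

/-- `u⁻¹` as an element of the overlap chart. -/
def ovUinv (u : L) : Overlap O u :=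
  ⟨u⁻¹, CechP1.isIntegral_adjoin_of_mem (Algebra.subset_adjoin (by simp))⟩

theorem ovU_mul_ovUinv {u : L} (hu : u ≠ 0) : ovU (O := O) u * ovUinv u = 1 :=
  Subtype.ext (mul_inv_cancel₀ hu)

/-- Membership in the two contractions of an ideal of the overlap, for elements differing by a
power of `u⁻¹`. -/
theorem mem_comap_iff_of_coe_eq {u : L} (hu : u ≠ 0) (Q : Ideal (Overlap O u))
    (a : Chart O u) (b : Chart O u⁻¹) (n : ℕ) (e : (b : L) = u⁻¹ ^ n * (a : L)) :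
    a ∈ Q.comap (toOverlapZero O u) ↔ b ∈ Q.comap (toOverlapInf O u) := by
  have e1 : toOverlapInf O u b = ovUinv u ^ n * toOverlapZero O u a := by
    apply Subtype.ext
    rw [Subalgebra.coe_mul, Subalgebra.coe_pow, coe_inclHom, coe_inclHom, e]
    rfl
  have e2 : toOverlapZero O u a = ovU u ^ n * toOverlapInf O u b := by
    rw [e1, ← mul_assoc, ← mul_pow, ovU_mul_ovUinv hu, one_pow, one_mul]
  rw [Ideal.mem_comap, Ideal.mem_comap]
  constructor
  · intro h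
    rw [e1]
    exact Q.mul_mem_left _ h
  · intro h
    rw [e2]
    exact Q.mul_mem_left _ h

/-- Two elements of the chart `u` are moved into the chart `u⁻¹` by a common power of `u⁻¹`. -/
theorem exists_pow_mul_isIntegral₂ {u : L} (hu : u ≠ 0) (a b : Chart O u) :
    ∃ n : ℕ, IsIntegral (Algebra.adjoin O ({u⁻¹} : Set L)) (u⁻¹ ^ n * (a : L)) ∧
      IsIntegral (Algebra.adjoin O ({u⁻¹} : Set L)) (u⁻¹ ^ n * (b : L)) := by
  obtain ⟨n₁, h₁⟩ := Bridge2.exists_pow_mul_isIntegral (mul_inv_cancel₀ hu) (a : L) a.2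
  obtain ⟨n₂, h₂⟩ := Bridge2.exists_pow_mul_isIntegral (mul_inv_cancel₀ hu) (b : L) b.2
  refine ⟨n₂ + n₁, Bridge2.isIntegral_pow_mul u⁻¹ h₁ n₂, ?_⟩
  rw [add_comm]
  exact Bridge2.isIntegral_pow_mul u⁻¹ h₂ n₁

/-- Two elements of the chart `u⁻¹` are moved into the chart `u` by a common power of `u`. -/
theorem exists_pow_mul_isIntegral₂' {u : L} (hu : u ≠ 0) (a b : Chart O u⁻¹) :
    ∃ n : ℕ, IsIntegral (Algebra.adjoin O ({u} : Set L)) (u ^ n * (a : L)) ∧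
      IsIntegral (Algebra.adjoin O ({u} : Set L)) (u ^ n * (b : L)) := by
  obtain ⟨n₁, h₁⟩ := Bridge2.exists_pow_mul_isIntegral (inv_mul_cancel₀ hu) (a : L) a.2
  obtain ⟨n₂, h₂⟩ := Bridge2.exists_pow_mul_isIntegral (inv_mul_cancel₀ hu) (b : L) b.2
  refine ⟨n₂ + n₁, Bridge2.isIntegral_pow_mul u h₁ n₂, ?_⟩
  rw [add_comm]
  exact Bridge2.isIntegral_pow_mul u h₂ n₁

/-- **`OneAt` passes from the chart `u` to the chart `u⁻¹`**: `ρ ≡ 1` at the contraction of `Q`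
to the chart `u` implies `ρ ≡ 1` at its contraction to the chart `u⁻¹`. -/
theorem oneAt_inf_of_zero {u : L} (hu : u ≠ 0) (Q : Ideal (Overlap O u)) (ρ : L)
    (h : ∃ s c : Chart O u, s ∉ Q.comap (toOverlapZero O u) ∧ c ∈ Q.comap (toOverlapZero O u) ∧
      (s : L) * (ρ - 1) = (c : L)) :
    ∃ s c : Chart O u⁻¹, s ∉ Q.comap (toOverlapInf O u) ∧ c ∈ Q.comap (toOverlapInf O u) ∧
      (s : L) * (ρ - 1) = (c : L) := by
  obtain ⟨s, c, hs, hc, e⟩ := h
  obtain ⟨n, hns, hnc⟩ := exists_pow_mul_isIntegral₂ hu s c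
  refine ⟨⟨u⁻¹ ^ n * (s : L), hns⟩, ⟨u⁻¹ ^ n * (c : L), hnc⟩, ?_, ?_, ?_⟩
  · exact fun h' => hs ((mem_comap_iff_of_coe_eq hu Q s _ n rfl).2 h')
  · exact (mem_comap_iff_of_coe_eq hu Q c _ n rfl).1 hc
  · change u⁻¹ ^ n * (s : L) * (ρ - 1) = u⁻¹ ^ n * (c : L)
    rw [mul_assoc, e]

/-- **`OneAt` passes from the chart `u⁻¹` to the chart `u`.** -/
theorem oneAt_zero_of_inf {u : L} (hu : u ≠ 0) (Q : Ideal (Overlap O u)) (ρ : L)
    (h : ∃ s c : Chart O u⁻¹, s ∉ Q.comap (toOverlapInf O u) ∧ c ∈ Q.comap (toOverlapInf O u) ∧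
      (s : L) * (ρ - 1) = (c : L)) :
    ∃ s c : Chart O u, s ∉ Q.comap (toOverlapZero O u) ∧ c ∈ Q.comap (toOverlapZero O u) ∧
      (s : L) * (ρ - 1) = (c : L) := by
  obtain ⟨s, c, hs, hc, e⟩ := h
  obtain ⟨n, hns, hnc⟩ := exists_pow_mul_isIntegral₂' hu s c
  have key : ∀ x : L, u⁻¹ ^ n * (u ^ n * x) = x := fun x => by
    rw [← mul_assoc, ← mul_pow, inv_mul_cancel₀ hu, one_pow, one_mul]
  refine ⟨⟨u ^ n * (s : L), hns⟩, ⟨u ^ n * (c : L), hnc⟩, ?_, ?_, ?_⟩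
  · exact fun h' => hs ((mem_comap_iff_of_coe_eq hu Q _ s n (key _).symm).1 h')
  · exact (mem_comap_iff_of_coe_eq hu Q _ c n (key _).symm).2 hc
  · change u ^ n * (s : L) * (ρ - 1) = u ^ n * (c : L)
    rw [mul_assoc, e]

/-- **The point of the chart `u` below a point of the chart `u⁻¹` away from `u⁻¹ = 0`.**  For a
prime `y` of the chart `u⁻¹` not containing `u⁻¹` there is a maximal ideal `N` of the chart `u`
such that: contractions of overlap ideals contained in `y` are contained in `N`; common elements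
of `y` lie in `N`; and a relation `s * x = s' * k` with `s, s' ∉ N` yields one with
`t, t' ∉ y`. -/
theorem exists_isMaximal_above {u : L} (hu : u ≠ 0) (y : Ideal (Chart O u⁻¹)) [y.IsPrime]
    (huy : Bridge2.gen u⁻¹ ∉ y) :
    ∃ N : Ideal (Chart O u), N.IsMaximal ∧
      (∀ Q : Ideal (Overlap O u), Q.comap (toOverlapInf O u) ≤ y →
        Q.comap (toOverlapZero O u) ≤ N) ∧
      (∀ (a : Chart O u) (b : Chart O u⁻¹), b ∈ y → (b : L) = (a : L) → a ∈ N) ∧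
      (∀ (x k : L), (∃ s s' : Chart O u, s ∉ N ∧ s' ∉ N ∧ (s : L) * x = (s' : L) * k) →
        ∃ t t' : Chart O u⁻¹, t ∉ y ∧ t' ∉ y ∧ (t : L) * x = (t' : L) * k) := by
  have hts : u * u⁻¹ = 1 := mul_inv_cancel₀ hu
  obtain ⟨N, hN, hle, -⟩ := Bridge2.exists_isMaximal_transfer hts y huy
  refine ⟨N, hN, ?_, ?_, ?_⟩
  · intro Q hQ a ha
    obtain ⟨n, hn⟩ := Bridge2.exists_pow_mul_isIntegral hts (a : L) a.2
    apply hle
    rw [Bridge2.mem_contract_iff]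
    exact ⟨n, ⟨u⁻¹ ^ n * (a : L), hn⟩,
      hQ ((mem_comap_iff_of_coe_eq hu Q a _ n rfl).1 ha), rfl⟩
  · intro a b hb e
    exact hle (Bridge2.mem_contract_of_coe_eq hts y a b hb e)
  · rintro x k ⟨s, s', hs, hs', e⟩
    obtain ⟨n, hns, hns'⟩ := exists_pow_mul_isIntegral₂ hu s s'
    refine ⟨⟨u⁻¹ ^ n * (s : L), hns⟩, ⟨u⁻¹ ^ n * (s' : L), hns'⟩, ?_, ?_, ?_⟩
    · exact fun h' => hs (hle ((Bridge2.mem_contract_iff hts y s).2 ⟨n, _, h', rfl⟩))
    · exact fun h' => hs' (hle ((Bridge2.mem_contract_iff hts y s').2 ⟨n, _, h', rfl⟩))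
    · change u⁻¹ ^ n * (s : L) * x = u⁻¹ ^ n * (s' : L) * k
      rw [mul_assoc, e, mul_assoc]

/-- **Transfer of `hloc`** from the chart `u` to the points of the chart `u⁻¹` away from
`u⁻¹ = 0`.  `P₁`, `P₂` are arbitrary ideals of the overlap chart. -/
theorem hloc_transfer {u : L} (hu : u ≠ 0) (P₁ P₂ : Ideal (Overlap O u)) (m : ℕ) (k : L)
    (hloc : ∀ y : Ideal (Chart O u), y.IsMaximal →
      (P₁.comap (toOverlapZero O u) ≤ y ∨ P₂.comap (toOverlapZero O u) ≤ y) →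
      ∃ ρ : L, (∃ s s' : Chart O u, s ∉ y ∧ s' ∉ y ∧ (s : L) * ρ ^ m = (s' : L) * k) ∧
        (P₁.comap (toOverlapZero O u) ≤ y →
          ∃ s c : Chart O u, s ∉ P₁.comap (toOverlapZero O u) ∧
            c ∈ P₁.comap (toOverlapZero O u) ∧ (s : L) * (ρ - 1) = (c : L)) ∧
        (P₂.comap (toOverlapZero O u) ≤ y →
          ∃ s c : Chart O u, s ∉ P₂.comap (toOverlapZero O u) ∧
            c ∈ P₂.comap (toOverlapZero O u) ∧ (s : L) * (ρ - 1) = (c : L)))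
    (y : Ideal (Chart O u⁻¹)) (hy : y.IsMaximal) (huy : Bridge2.gen u⁻¹ ∉ y)
    (hy12 : P₁.comap (toOverlapInf O u) ≤ y ∨ P₂.comap (toOverlapInf O u) ≤ y) :
    ∃ ρ : L, (∃ s s' : Chart O u⁻¹, s ∉ y ∧ s' ∉ y ∧ (s : L) * ρ ^ m = (s' : L) * k) ∧
      (P₁.comap (toOverlapInf O u) ≤ y →
        ∃ s c : Chart O u⁻¹, s ∉ P₁.comap (toOverlapInf O u) ∧
          c ∈ P₁.comap (toOverlapInf O u) ∧ (s : L) * (ρ - 1) = (c : L)) ∧
      (P₂.comap (toOverlapInf O u) ≤ y →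
        ∃ s c : Chart O u⁻¹, s ∉ P₂.comap (toOverlapInf O u) ∧
          c ∈ P₂.comap (toOverlapInf O u) ∧ (s : L) * (ρ - 1) = (c : L)) := by
  have : y.IsPrime := hy.isPrime
  obtain ⟨N, hN, hQ, -, hrel⟩ := exists_isMaximal_above hu y huy
  have hN12 : P₁.comap (toOverlapZero O u) ≤ N ∨ P₂.comap (toOverlapZero O u) ≤ N :=
    hy12.imp (hQ P₁) (hQ P₂)
  obtain ⟨ρ, hρ, h₁, h₂⟩ := hloc N hN hN12
  exact ⟨ρ, hrel _ _ hρ, fun h => oneAt_inf_of_zero hu P₁ ρ (h₁ (hQ P₁ h)),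
    fun h => oneAt_inf_of_zero hu P₂ ρ (h₂ (hQ P₂ h))⟩

end Fermat.Agent.S35.HlocTransfer
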