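import Mathlib
import Fermat.Agent.S34.Label

/-!
# Program U (S35): separation of branches with different labels for `k = σ h * h ^ c`

Level-free commutative algebra on top of `S34/Label.lean` (Mathlib only otherwise).

`B` an integrally closed domain, `F = Frac B`, `L` a field over `F`, `C' = integralClosure B L`,
`σ` a ring automorphism of `B` (extended to `F` as `σF`), `p₁`, `p₂` two primes of `B` with
integrally closed quotients ("the two components are normal"), `h : F` with `h ≡ 1` at `p₁` and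
at `p₂` ("toric") and (CART) at every maximal ideal containing `p₁` or `p₂`
(`f ^ m * h ∈ B ∖ y` for some `f ∈ F`), `t ∈ L` with `t ^ m = σ h * h ^ c`.

* `comaximal_of_cart_swap` : if `σ` exchanges `p₁` and `p₂`, fixes every maximal ideal containing
  both ("the nodes") and `σ ζ = ζ ^ c`, then two primes of `C'` over `p₁` or `p₂` with different
  labels are comaximal.
* `comaximal_of_cart_preserve` : the same if `σ` fixes `p₁`, `p₂`, the nodes, and
  `σ ζ * ζ ^ c = 1`.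

(For `σ h / h ^ a` take `c = (m - 1) * a`: the two elements differ by an `m`-th power.)
-/

set_option autoImplicit false

namespace Fermat.Agent.S35.SigmaLabel

open Fermat.Agent.S34.Label Polynomial

section EqAt

variable {B F : Type*} [CommRing B] [Field F] [Algebra B F]

/-- "`b ≡ β` at the prime `p` of `B`": `s (b - β) ∈ p` for some `s ∈ B ∖ p`. -/
def EqAt (p : Ideal B) (b : F) (β : B) : Prop :=
  ∃ s c : B, s ∉ p ∧ c ∈ p ∧ algebraMap B F s * (b - algebraMap B F β) = algebraMap B F c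

theorem EqAt.one (p : Ideal B) [p.IsPrime] : EqAt p (1 : F) (1 : B) :=
  ⟨1, 0, fun h => (Ideal.IsPrime.ne_top inferInstance) ((Ideal.eq_top_iff_one p).2 h),
    p.zero_mem, by simp⟩

theorem EqAt.mul {p : Ideal B} [p.IsPrime] {b b' : F} {β β' : B} (h : EqAt p b β)
    (h' : EqAt p b' β') : EqAt p (b * b') (β * β') := by
  obtain ⟨s, c, hs, hc, e⟩ := h
  obtain ⟨s', c', hs', hc', e'⟩ := h'
  refine ⟨s * s', c * (s' * β' + c') + s * β * c', ?_, ?_, ?_⟩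
  · exact fun h => (Ideal.IsPrime.mem_or_mem inferInstance h).elim hs hs'
  · exact p.add_mem (p.mul_mem_right _ hc) (p.mul_mem_left _ hc')
  · simp only [map_mul, map_add]
    linear_combination (algebraMap B F s' * b') * e +
      (algebraMap B F s * algebraMap B F β + algebraMap B F c) * e'

theorem EqAt.pow {p : Ideal B} [p.IsPrime] {b : F} {β : B} (h : EqAt p b β) (n : ℕ) :
    EqAt p (b ^ n) (β ^ n) := by
  induction n with
  | zero => simpa using EqAt.one p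
  | succ n ih => rw [pow_succ, pow_succ]; exact ih.mul h

/-- Transport of `EqAt` under an automorphism. -/
theorem EqAt.map (σ : B ≃+* B) (σF : F →+* F)
    (hσ : ∀ x : B, σF (algebraMap B F x) = algebraMap B F (σ x))
    {p : Ideal B} {b : F} {β : B} (h : EqAt (p.comap σ) b β) : EqAt p (σF b) (σ β) := by
  obtain ⟨s, c, hs, hc, e⟩ := h
  refine ⟨σ s, σ c, hs, hc, ?_⟩
  have := congrArg σF e
  rw [map_mul, map_sub, hσ, hσ, hσ] at this
  exact this

end EqAt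

variable {B F L : Type*} [CommRing B] [IsDomain B] [Field F] [Algebra B F] [IsFractionRing B F]
  [Field L] [Algebra F L] [Algebra B L] [IsScalarTower B F L]

omit [IsDomain B] [Field L] [Algebra F L] [Algebra B L] [IsScalarTower B F L] in
/-- **Normal components.**  If `B / p` is integrally closed, `h ≡ 1` at `p` and
`f ^ m * h = a ∈ B ∖ p`, then `f ≡ φ` at `p` for some `φ ∈ B` with `φ ^ m ≡ a` modulo `p`. -/
theorem exists_eqAt_of_pow [IsIntegrallyClosed B] (p : Ideal B) [p.IsPrime]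
    [IsIntegrallyClosed (B ⧸ p)] (m : ℕ) (hm : 0 < m) (f h : F) (a : B) (hh : OneAt p h)
    (hfa : f ^ m * h = algebraMap B F a) (ha : a ∉ p) :
    ∃ φ : B, EqAt p f φ ∧ φ ^ m - a ∈ p := by
  obtain ⟨s, c, hs, hc, hsc⟩ := hh
  have h1 : algebraMap B F (s + c) * f ^ m = algebraMap B F (s * a) := by
    rw [map_add, map_mul, ← hfa]
    linear_combination (-(f ^ m)) * hsc
  have hv : s + c ∉ p := fun h => hs (by simpa using p.sub_mem h hc)
  have hu : s * a ∉ p := fun h => (Ideal.IsPrime.mem_or_mem inferInstance h).elim hs ha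
  obtain ⟨r, hr, hr'⟩ := exists_eq_of_pow p m hm f (s * a) (s + c) hu hv h1
  obtain ⟨n, rfl⟩ : ∃ n, m = n + 1 := ⟨m - 1, by omega⟩
  have h2 : r ^ (n + 1) = (s + c) ^ n * (s * a) := by
    apply IsFractionRing.injective B F
    rw [map_pow, ← hr', mul_pow, map_mul, map_pow, ← h1]
    ring
  have hmkv : Ideal.Quotient.mk p (s + c) ≠ 0 := by
    rwa [Ne, Ideal.Quotient.eq_zero_iff_mem]
  have hsv : Ideal.Quotient.mk p s = Ideal.Quotient.mk p (s + c) := by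
    rw [eq_comm, Ideal.Quotient.eq]
    simpa using hc
  have h3 : Ideal.Quotient.mk p r ^ (n + 1) =
      Ideal.Quotient.mk p (s + c) ^ (n + 1) * Ideal.Quotient.mk p a := by
    rw [← map_pow, h2, map_mul, map_pow, map_mul, hsv]
    ring
  set K := FractionRing (B ⧸ p) with hK
  have hv0 : algebraMap (B ⧸ p) K (Ideal.Quotient.mk p (s + c)) ≠ 0 := by
    rwa [Ne, map_eq_zero_iff _ (IsFractionRing.injective (B ⧸ p) K)]
  set x : K := algebraMap (B ⧸ p) K (Ideal.Quotient.mk p r) /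
    algebraMap (B ⧸ p) K (Ideal.Quotient.mk p (s + c)) with hx
  have hxm : x ^ (n + 1) = algebraMap (B ⧸ p) K (Ideal.Quotient.mk p a) := by
    have e1 : algebraMap (B ⧸ p) K (Ideal.Quotient.mk p r) ^ (n + 1) =
        algebraMap (B ⧸ p) K (Ideal.Quotient.mk p (s + c)) ^ (n + 1) *
          algebraMap (B ⧸ p) K (Ideal.Quotient.mk p a) := by
      rw [← map_pow, h3, map_mul, map_pow]
    rw [hx, div_pow, e1, mul_div_cancel_left₀ _ (pow_ne_zero _ hv0)]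
  have hint : IsIntegral (B ⧸ p) x :=
    ⟨X ^ (n + 1) - C (Ideal.Quotient.mk p a), monic_X_pow_sub_C _ (Nat.succ_ne_zero n), by
      simp [hxm]⟩
  obtain ⟨y, hy⟩ := IsIntegrallyClosed.isIntegral_iff.mp hint
  obtain ⟨φ, rfl⟩ := Ideal.Quotient.mk_surjective y
  have h4 : Ideal.Quotient.mk p φ * Ideal.Quotient.mk p (s + c) = Ideal.Quotient.mk p r := by
    apply IsFractionRing.injective (B ⧸ p) K
    rw [map_mul, hy, hx, div_mul_cancel₀ _ hv0]
  refine ⟨φ, ⟨s + c, r - φ * (s + c), hv, ?_, ?_⟩, ?_⟩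
  · rw [← Ideal.Quotient.eq_zero_iff_mem, map_sub, map_mul, h4, sub_self]
  · rw [map_sub, map_mul, ← hr']
    ring
  · rw [← Ideal.Quotient.eq_zero_iff_mem, map_sub, map_pow, sub_eq_zero]
    have h5 : Ideal.Quotient.mk p (s + c) ^ (n + 1) * Ideal.Quotient.mk p φ ^ (n + 1) =
        Ideal.Quotient.mk p (s + c) ^ (n + 1) * Ideal.Quotient.mk p a := by
      rw [← h3, ← h4]
      ring
    exact mul_left_cancel₀ (pow_ne_zero _ hmkv) h5

omit [IsDomain B] [IsFractionRing B F] in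
/-- Key step: `t ≡ ξ` at `P`, `d ≡ δ` at `P ∩ B`, and `w = t d` integral, then `w - ξ δ ∈ P`. -/
theorem sub_mem_of_label_eqAt (t : L) (P : Ideal (integralClosure B L)) [P.IsPrime] (ξ : B)
    (hP : HasLabel P t ξ) (d : F) (δ : B)
    (hd : EqAt (P.comap (algebraMap B (integralClosure B L))) d δ)
    (w : integralClosure B L) (hw : (w : L) = t * algebraMap F L d) :
    w - algebraMap B (integralClosure B L) (ξ * δ) ∈ P := by
  obtain ⟨s₁, hs₁, c₁, hc₁, hc₁'⟩ := hP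
  obtain ⟨s₂, c₂, hs₂, hc₂, e₂⟩ := hd
  have e₂L : algebraMap B L s₂ * (algebraMap F L d - algebraMap B L δ) = algebraMap B L c₂ := by
    have := congrArg (algebraMap F L) e₂
    rw [map_mul, map_sub, ← IsScalarTower.algebraMap_apply, ← IsScalarTower.algebraMap_apply,
      ← IsScalarTower.algebraMap_apply] at this
    exact this
  have key : algebraMap B (integralClosure B L) (s₁ * s₂) *
      (w - algebraMap B (integralClosure B L) (ξ * δ)) =
      algebraMap B (integralClosure B L) (s₂ * δ + c₂) * c₁ +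
        algebraMap B (integralClosure B L) (s₁ * ξ * c₂) := by
    apply Subtype.ext
    simp only [Subalgebra.coe_mul, Subalgebra.coe_sub, Subalgebra.coe_add, coe_algebraMap, hw,
      hc₁', map_mul, map_add]
    linear_combination (algebraMap B L s₁ * t) * e₂L
  have hmem : algebraMap B (integralClosure B L) (s₁ * s₂) *
      (w - algebraMap B (integralClosure B L) (ξ * δ)) ∈ P := by
    rw [key]
    refine P.add_mem (P.mul_mem_left _ hc₁) ?_
    rw [map_mul]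
    exact P.mul_mem_left _ hc₂
  rcases Ideal.IsPrime.mem_or_mem inferInstance hmem with h | h
  · rw [map_mul] at h
    rcases Ideal.IsPrime.mem_or_mem inferInstance h with h | h
    · exact absurd h hs₁
    · exact absurd h hs₂
  · exact h

omit [IsDomain B] [IsFractionRing B F] in
/-- **Separation of branches with different labels**, with general local data: at every
maximal ideal `y` of `B` below `P + P'` there is `d ∈ F` with `t d` integral, `d ≡ δ` at `P ∩ B`,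
`d ≡ δ'` at `P' ∩ B`, `δ ≡ δ'` modulo `y` and `δ ∉ y`. -/
theorem comaximal_of_label_ne_eqAt (t : L)
    (P P' : Ideal (integralClosure B L)) [P.IsPrime] [P'.IsPrime] (ξ ξ' : B)
    (hu : IsUnit (ξ - ξ')) (hP : HasLabel P t ξ) (hP' : HasLabel P' t ξ')
    (hloc : ∀ y : Ideal B, y.IsMaximal →
      P.comap (algebraMap B (integralClosure B L)) ≤ y →
      P'.comap (algebraMap B (integralClosure B L)) ≤ y →
      ∃ (d : F) (δ δ' : B), IsIntegral B (t * algebraMap F L d) ∧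
        EqAt (P.comap (algebraMap B (integralClosure B L))) d δ ∧
        EqAt (P'.comap (algebraMap B (integralClosure B L))) d δ' ∧ δ - δ' ∈ y ∧ δ ∉ y) :
    P ⊔ P' = ⊤ := by
  by_contra hne
  obtain ⟨Q, hQ, hle⟩ := Ideal.exists_le_maximal _ hne
  have hPQ : P ≤ Q := le_sup_left.trans hle
  have hP'Q : P' ≤ Q := le_sup_right.trans hle
  have hy : (Q.comap (algebraMap B (integralClosure B L))).IsMaximal :=
    Ideal.isMaximal_comap_of_isIntegral_of_isMaximal Q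
  obtain ⟨d, δ, δ', hint, hd, hd', hδδ', hδ⟩ :=
    hloc _ hy (Ideal.comap_mono hPQ) (Ideal.comap_mono hP'Q)
  have h1 := sub_mem_of_label_eqAt t P ξ hP d δ hd ⟨_, hint⟩ rfl
  have h2 := sub_mem_of_label_eqAt t P' ξ' hP' d δ' hd' ⟨_, hint⟩ rfl
  have h3 : algebraMap B (integralClosure B L) ((ξ - ξ') * δ) ∈ Q := by
    have e : algebraMap B (integralClosure B L) ((ξ - ξ') * δ) =
        ((⟨_, hint⟩ : integralClosure B L) - algebraMap B (integralClosure B L) (ξ' * δ')) -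
          ((⟨_, hint⟩ : integralClosure B L) - algebraMap B (integralClosure B L) (ξ * δ)) -
          algebraMap B (integralClosure B L) ξ' * algebraMap B (integralClosure B L) (δ - δ') := by
      simp only [map_mul, map_sub]
      ring
    rw [e]
    exact Q.sub_mem (Q.sub_mem (hP'Q h2) (hPQ h1)) (Q.mul_mem_left _ hδδ')
  rw [map_mul] at h3
  rcases Ideal.IsPrime.mem_or_mem hQ.isPrime h3 with h | h
  · exact hQ.ne_top (Ideal.eq_top_of_isUnit_mem _ h (hu.map _))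
  · exact hδ h

section Sigma

variable (σ : B ≃+* B) (σF : F →+* F)
  (hσ : ∀ x : B, σF (algebraMap B F x) = algebraMap B F (σ x))

include hσ in
omit [IsDomain B] [IsFractionRing B F] in
/-- Integrality of `t * (σ f' * f ^ c)` when `t ^ m = σ h * h ^ c` and `f`, `f'` are (CART)
data for `h`. -/
theorem isIntegral_mul_of_cart (m : ℕ) (hm : 0 < m) (c : ℕ) (h : F) (t : L)
    (ht : t ^ m = algebraMap F L (σF h * h ^ c)) (f f' : F) (a a' : B)
    (hfa : f ^ m * h = algebraMap B F a) (hfa' : f' ^ m * h = algebraMap B F a') :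
    IsIntegral B (t * algebraMap F L (σF f' * f ^ c)) := by
  refine IsIntegral.of_pow hm ?_
  have e : (t * algebraMap F L (σF f' * f ^ c)) ^ m = algebraMap B L (σ a' * a ^ c) := by
    have e1 : σF h * h ^ c * (σF f' * f ^ c) ^ m = algebraMap B F (σ a' * a ^ c) := by
      rw [map_mul, map_pow, ← hσ, ← hfa, ← hfa', map_mul, map_pow]
      ring
    rw [mul_pow, ht, ← map_pow, ← map_mul, e1, ← IsScalarTower.algebraMap_apply]
  rw [e]
  exact isIntegral_algebraMap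

omit [IsDomain B] [IsFractionRing B F] [Field F] [Algebra B F] in
/-- If `σ` fixes the maximal ideal `y`, congruences modulo `y` are preserved by `σ`. -/
theorem map_sub_mem_of_comap_eq (y : Ideal B) (hy : y.comap σ = y) {x x' : B}
    (hx : x - x' ∈ y) : σ x - σ x' ∈ y := by
  rw [← map_sub]
  rw [← hy] at hx
  exact hx

/-- Two elements with the same `m`-th power modulo a prime differ by an `m`-th root of unity. -/
theorem exists_pow_mul_sub_mem (y : Ideal B) [y.IsPrime] (m : ℕ) (hm : 0 < m) (ζ : B)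
    (hζ : IsPrimitiveRoot ζ m) (φ₁ φ₂ : B) (h12 : φ₁ ^ m - φ₂ ^ m ∈ y) :
    ∃ i : ℕ, φ₁ - ζ ^ i * φ₂ ∈ y := by
  rw [IsPrimitiveRoot.pow_sub_pow_eq_prod_sub_mul φ₁ φ₂ hm hζ] at h12
  obtain ⟨ζ', hζ', hmem⟩ := Ideal.IsPrime.prod_mem_iff.1 h12
  have : NeZero m := ⟨hm.ne'⟩
  rw [mem_nthRootsFinset hm] at hζ'
  obtain ⟨i, -, rfl⟩ := hζ.eq_pow_of_pow_eq_one hζ'
  exact ⟨i, hmem⟩

end Sigma

section Main

variable [IsIntegrallyClosed B]
  (σ : B ≃+* B) (σF : F →+* F) (hσ : ∀ x : B, σF (algebraMap B F x) = algebraMap B F (σ x))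

include hσ in
omit [IsDomain B] [Field L] [Algebra F L] [Algebra B L] [IsScalarTower B F L] in
/-- Local data at a maximal ideal `y` and ONE prime `p ≤ y`: `σ f' * f ^ c ≡ δ` at `p` with
`δ ∈ B ∖ y`, where `f` is a (CART) datum at `y` and `f'` one at `σ⁻¹ y`. -/
theorem locData_one (p : Ideal B) [p.IsPrime] [IsIntegrallyClosed (B ⧸ p)]
    [IsIntegrallyClosed (B ⧸ p.comap σ)]
    (m : ℕ) (hm : 0 < m) (c : ℕ) (h : F) (hh : OneAt p h) (hh' : OneAt (p.comap σ) h)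
    (y : Ideal B) [y.IsMaximal] (hpy : p ≤ y)
    (f : F) (a : B) (ha : a ∉ y) (hfa : f ^ m * h = algebraMap B F a)
    (f' : F) (a' : B) (ha' : a' ∉ y.comap σ) (hfa' : f' ^ m * h = algebraMap B F a') :
    ∃ δ : B, EqAt p (σF f' * f ^ c) δ ∧ δ ∉ y := by
  have hpy' : p.comap σ ≤ y.comap σ := Ideal.comap_mono hpy
  obtain ⟨φ, hφ, hφa⟩ := exists_eqAt_of_pow p m hm f h a hh hfa (fun h => ha (hpy h))
  obtain ⟨φ', hφ', hφa'⟩ :=
    exists_eqAt_of_pow (p.comap σ) m hm f' h a' hh' hfa' (fun h => ha' (hpy' h))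
  refine ⟨σ φ' * φ ^ c, (hφ'.map σ σF hσ).mul (hφ.pow c), ?_⟩
  have h1 : φ ∉ y := fun hφy => ha (by
    have := y.sub_mem (Ideal.pow_mem_of_mem y hφy m hm) (hpy hφa)
    simpa using this)
  have h2 : φ' ∉ y.comap σ := fun hφy => ha' (by
    have := (y.comap σ).sub_mem (Ideal.pow_mem_of_mem _ hφy m hm) (hpy' hφa')
    simpa using this)
  intro hmem
  rcases Ideal.IsPrime.mem_or_mem (Ideal.IsMaximal.isPrime inferInstance) hmem with h | h
  · exact h2 h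
  · exact h1 (Ideal.IsPrime.mem_of_pow_mem (Ideal.IsMaximal.isPrime inferInstance) _ h)

include hσ in
omit [Field L] [Algebra F L] [Algebra B L] [IsScalarTower B F L] in
/-- Local data at a node, swapping case. -/
theorem locData_node_swap (p₁ p₂ : Ideal B) [p₁.IsPrime] [p₂.IsPrime]
    [IsIntegrallyClosed (B ⧸ p₁)] [IsIntegrallyClosed (B ⧸ p₂)]
    (h₁₂ : p₁.comap σ = p₂) (h₂₁ : p₂.comap σ = p₁)
    (m : ℕ) (hm : 0 < m) (ζ : B) (hζ : IsPrimitiveRoot ζ m) (c : ℕ) (hσζ : σ ζ = ζ ^ c)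
    (h : F) (hh₁ : OneAt p₁ h) (hh₂ : OneAt p₂ h)
    (y : Ideal B) [y.IsMaximal] (hp₁y : p₁ ≤ y) (hp₂y : p₂ ≤ y) (hy : y.comap σ = y)
    (f : F) (a : B) (ha : a ∉ y) (hfa : f ^ m * h = algebraMap B F a) :
    ∃ δ₁ δ₂ : B, EqAt p₁ (σF f * f ^ c) δ₁ ∧ EqAt p₂ (σF f * f ^ c) δ₂ ∧ δ₁ - δ₂ ∈ y ∧
      δ₁ ∉ y ∧ δ₂ ∉ y := by
  have hyp : y.IsPrime := Ideal.IsMaximal.isPrime inferInstance
  obtain ⟨φ₁, hφ₁, hφa₁⟩ := exists_eqAt_of_pow p₁ m hm f h a hh₁ hfa (fun h => ha (hp₁y h))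
  obtain ⟨φ₂, hφ₂, hφa₂⟩ := exists_eqAt_of_pow p₂ m hm f h a hh₂ hfa (fun h => ha (hp₂y h))
  have hφ₂' : EqAt (p₁.comap σ) f φ₂ := by rw [h₁₂]; exact hφ₂
  have hφ₁' : EqAt (p₂.comap σ) f φ₁ := by rw [h₂₁]; exact hφ₁
  have h1 : φ₁ ∉ y := fun hφy => ha (by
    have := y.sub_mem (Ideal.pow_mem_of_mem y hφy m hm) (hp₁y hφa₁)
    simpa using this)
  have h2 : φ₂ ∉ y := fun hφy => ha (by
    have := y.sub_mem (Ideal.pow_mem_of_mem y hφy m hm) (hp₂y hφa₂)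
    simpa using this)
  have h1σ : σ φ₁ ∉ y := fun hmem => h1 (by rw [← hy]; exact hmem)
  have h2σ : σ φ₂ ∉ y := fun hmem => h2 (by rw [← hy]; exact hmem)
  have h12 : φ₁ ^ m - φ₂ ^ m ∈ y := by
    have := y.sub_mem (hp₁y hφa₁) (hp₂y hφa₂)
    simpa using this
  obtain ⟨i, hi⟩ := exists_pow_mul_sub_mem y m hm ζ hζ φ₁ φ₂ h12
  have hiσ := map_sub_mem_of_comap_eq σ y hy hi
  have hq1 : Ideal.Quotient.mk y φ₁ = Ideal.Quotient.mk y ζ ^ i * Ideal.Quotient.mk y φ₂ := by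
    rw [← map_pow, ← map_mul]
    exact Ideal.Quotient.eq.2 hi
  have hq2 : Ideal.Quotient.mk y (σ φ₁) =
      (Ideal.Quotient.mk y ζ ^ c) ^ i * Ideal.Quotient.mk y (σ φ₂) := by
    have := Ideal.Quotient.eq.2 hiσ
    rw [this, map_mul, map_pow, hσζ, map_mul, map_pow, map_pow]
  refine ⟨σ φ₂ * φ₁ ^ c, σ φ₁ * φ₂ ^ c, (hφ₂'.map σ σF hσ).mul (hφ₁.pow c),
    (hφ₁'.map σ σF hσ).mul (hφ₂.pow c), ?_, ?_, ?_⟩
  · rw [← Ideal.Quotient.eq_zero_iff_mem]
    simp only [map_sub, map_mul, map_pow]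
    rw [hq2, hq1]
    ring
  · intro hmem
    rcases Ideal.IsPrime.mem_or_mem hyp hmem with h | h
    · exact h2σ h
    · exact h1 (Ideal.IsPrime.mem_of_pow_mem hyp _ h)
  · intro hmem
    rcases Ideal.IsPrime.mem_or_mem hyp hmem with h | h
    · exact h1σ h
    · exact h2 (Ideal.IsPrime.mem_of_pow_mem hyp _ h)

include hσ in
omit [Field L] [Algebra F L] [Algebra B L] [IsScalarTower B F L] in
/-- Local data at a node, component-preserving case. -/
theorem locData_node_preserve (p₁ p₂ : Ideal B) [p₁.IsPrime] [p₂.IsPrime]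
    [IsIntegrallyClosed (B ⧸ p₁)] [IsIntegrallyClosed (B ⧸ p₂)]
    (h₁₁ : p₁.comap σ = p₁) (h₂₂ : p₂.comap σ = p₂)
    (m : ℕ) (hm : 0 < m) (ζ : B) (hζ : IsPrimitiveRoot ζ m) (c : ℕ) (hσζ : σ ζ * ζ ^ c = 1)
    (h : F) (hh₁ : OneAt p₁ h) (hh₂ : OneAt p₂ h)
    (y : Ideal B) [y.IsMaximal] (hp₁y : p₁ ≤ y) (hp₂y : p₂ ≤ y) (hy : y.comap σ = y)
    (f : F) (a : B) (ha : a ∉ y) (hfa : f ^ m * h = algebraMap B F a) :
    ∃ δ₁ δ₂ : B, EqAt p₁ (σF f * f ^ c) δ₁ ∧ EqAt p₂ (σF f * f ^ c) δ₂ ∧ δ₁ - δ₂ ∈ y ∧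
      δ₁ ∉ y ∧ δ₂ ∉ y := by
  have hyp : y.IsPrime := Ideal.IsMaximal.isPrime inferInstance
  obtain ⟨φ₁, hφ₁, hφa₁⟩ := exists_eqAt_of_pow p₁ m hm f h a hh₁ hfa (fun h => ha (hp₁y h))
  obtain ⟨φ₂, hφ₂, hφa₂⟩ := exists_eqAt_of_pow p₂ m hm f h a hh₂ hfa (fun h => ha (hp₂y h))
  have hφ₁' : EqAt (p₁.comap σ) f φ₁ := by rw [h₁₁]; exact hφ₁
  have hφ₂' : EqAt (p₂.comap σ) f φ₂ := by rw [h₂₂]; exact hφ₂
  have h1 : φ₁ ∉ y := fun hφy => ha (by
    have := y.sub_mem (Ideal.pow_mem_of_mem y hφy m hm) (hp₁y hφa₁)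
    simpa using this)
  have h2 : φ₂ ∉ y := fun hφy => ha (by
    have := y.sub_mem (Ideal.pow_mem_of_mem y hφy m hm) (hp₂y hφa₂)
    simpa using this)
  have h1σ : σ φ₁ ∉ y := fun hmem => h1 (by rw [← hy]; exact hmem)
  have h2σ : σ φ₂ ∉ y := fun hmem => h2 (by rw [← hy]; exact hmem)
  have h12 : φ₁ ^ m - φ₂ ^ m ∈ y := by
    have := y.sub_mem (hp₁y hφa₁) (hp₂y hφa₂)
    simpa using this
  obtain ⟨i, hi⟩ := exists_pow_mul_sub_mem y m hm ζ hζ φ₁ φ₂ h12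
  have hiσ := map_sub_mem_of_comap_eq σ y hy hi
  have hq1 : Ideal.Quotient.mk y φ₁ = Ideal.Quotient.mk y ζ ^ i * Ideal.Quotient.mk y φ₂ := by
    rw [← map_pow, ← map_mul]
    exact Ideal.Quotient.eq.2 hi
  have hq2 : Ideal.Quotient.mk y (σ φ₁) =
      Ideal.Quotient.mk y (σ ζ) ^ i * Ideal.Quotient.mk y (σ φ₂) := by
    have := Ideal.Quotient.eq.2 hiσ
    rw [this, map_mul, map_pow, map_mul, map_pow]
  have hq3 : Ideal.Quotient.mk y (σ ζ) * Ideal.Quotient.mk y ζ ^ c = 1 := by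
    rw [← map_pow, ← map_mul, hσζ, map_one]
  refine ⟨σ φ₁ * φ₁ ^ c, σ φ₂ * φ₂ ^ c, (hφ₁'.map σ σF hσ).mul (hφ₁.pow c),
    (hφ₂'.map σ σF hσ).mul (hφ₂.pow c), ?_, ?_, ?_⟩
  · rw [← Ideal.Quotient.eq_zero_iff_mem]
    simp only [map_sub, map_mul, map_pow]
    rw [hq2, hq1]
    have e : Ideal.Quotient.mk y (σ ζ) ^ i * Ideal.Quotient.mk y (σ φ₂) *
        (Ideal.Quotient.mk y ζ ^ i * Ideal.Quotient.mk y φ₂) ^ c -
        Ideal.Quotient.mk y (σ φ₂) * Ideal.Quotient.mk y φ₂ ^ c =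
        ((Ideal.Quotient.mk y (σ ζ) * Ideal.Quotient.mk y ζ ^ c) ^ i - 1) *
          (Ideal.Quotient.mk y (σ φ₂) * Ideal.Quotient.mk y φ₂ ^ c) := by
      ring
    rw [e, hq3, one_pow, sub_self, zero_mul]
  · intro hmem
    rcases Ideal.IsPrime.mem_or_mem hyp hmem with h | h
    · exact h1σ h
    · exact h1 (Ideal.IsPrime.mem_of_pow_mem hyp _ h)
  · intro hmem
    rcases Ideal.IsPrime.mem_or_mem hyp hmem with h | h
    · exact h2σ h
    · exact h2 (Ideal.IsPrime.mem_of_pow_mem hyp _ h)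

include hσ in
/-- **Separation of branches, swapping case** (`S35` (C2'): `σ = φ ∘ W`, `c = l`).
`σ` exchanges the two components `p₁`, `p₂`, fixes the nodes and `σ ζ = ζ ^ c`; `h` toric with
(CART) at every closed point of the special fibre; `t ^ m = σ h * h ^ c`.  Then two primes of the
integral closure over `p₁` or `p₂` with different labels are comaximal. -/
theorem comaximal_of_cart_swap (p₁ p₂ : Ideal B) [p₁.IsPrime] [p₂.IsPrime]
    [IsIntegrallyClosed (B ⧸ p₁)] [IsIntegrallyClosed (B ⧸ p₂)]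
    (h₁₂ : p₁.comap σ = p₂) (h₂₁ : p₂.comap σ = p₁)
    (hnode : ∀ y : Ideal B, y.IsMaximal → p₁ ≤ y → p₂ ≤ y → y.comap σ = y)
    (m : ℕ) (hm : 0 < m) (ζ : B) (hζ : IsPrimitiveRoot ζ m) (c : ℕ) (hσζ : σ ζ = ζ ^ c)
    (h : F) (hh₁ : OneAt p₁ h) (hh₂ : OneAt p₂ h)
    (hcart : ∀ y : Ideal B, y.IsMaximal → (p₁ ≤ y ∨ p₂ ≤ y) →
      ∃ (f : F) (a : B), a ∉ y ∧ f ^ m * h = algebraMap B F a)
    (t : L) (ht : t ^ m = algebraMap F L (σF h * h ^ c))
    (P P' : Ideal (integralClosure B L)) [P.IsPrime] [P'.IsPrime]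
    (hP : P.comap (algebraMap B (integralClosure B L)) = p₁ ∨
      P.comap (algebraMap B (integralClosure B L)) = p₂)
    (hP' : P'.comap (algebraMap B (integralClosure B L)) = p₁ ∨
      P'.comap (algebraMap B (integralClosure B L)) = p₂)
    (ξ ξ' : B) (hu : IsUnit (ξ - ξ')) (hPξ : HasLabel P t ξ) (hP'ξ : HasLabel P' t ξ') :
    P ⊔ P' = ⊤ := by
  refine comaximal_of_label_ne_eqAt (F := F) t P P' ξ ξ' hu hPξ hP'ξ fun y hy hPy hP'y => ?_
  have := hy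
  have hy' : (y.comap σ).IsMaximal := Ideal.comap_isMaximal_of_surjective _ σ.surjective
  have i₁ : IsIntegrallyClosed (B ⧸ p₁.comap σ) := by rw [h₁₂]; infer_instance
  have i₂ : IsIntegrallyClosed (B ⧸ p₂.comap σ) := by rw [h₂₁]; infer_instance
  have hh₁' : OneAt (p₁.comap σ) h := by rw [h₁₂]; exact hh₂
  have hh₂' : OneAt (p₂.comap σ) h := by rw [h₂₁]; exact hh₁
  rcases hP with hP | hP <;> rcases hP' with hP' | hP'
  · rw [hP] at hPy ⊢
    rw [hP'] at hP'y ⊢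
    obtain ⟨f, a, ha, hfa⟩ := hcart y hy (Or.inl hPy)
    obtain ⟨f', a', ha', hfa'⟩ := hcart (y.comap σ) hy' (Or.inr (h₁₂ ▸ Ideal.comap_mono hPy))
    obtain ⟨δ, hδ, hδy⟩ :=
      locData_one σ σF hσ p₁ m hm c h hh₁ hh₁' y hPy f a ha hfa f' a' ha' hfa'
    exact ⟨σF f' * f ^ c, δ, δ,
      isIntegral_mul_of_cart σ σF hσ m hm c h t ht f f' a a' hfa hfa', hδ, hδ, by simp, hδy⟩
  · rw [hP] at hPy ⊢
    rw [hP'] at hP'y ⊢
    obtain ⟨f, a, ha, hfa⟩ := hcart y hy (Or.inl hPy)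
    obtain ⟨δ₁, δ₂, hδ₁, hδ₂, hδ, hδ₁y, -⟩ :=
      locData_node_swap σ σF hσ p₁ p₂ h₁₂ h₂₁ m hm ζ hζ c hσζ h hh₁ hh₂ y hPy hP'y
        (hnode y hy hPy hP'y) f a ha hfa
    exact ⟨σF f * f ^ c, δ₁, δ₂,
      isIntegral_mul_of_cart σ σF hσ m hm c h t ht f f a a hfa hfa, hδ₁, hδ₂, hδ, hδ₁y⟩
  · rw [hP] at hPy ⊢
    rw [hP'] at hP'y ⊢
    obtain ⟨f, a, ha, hfa⟩ := hcart y hy (Or.inl hP'y)
    obtain ⟨δ₁, δ₂, hδ₁, hδ₂, hδ, -, hδ₂y⟩ :=
      locData_node_swap σ σF hσ p₁ p₂ h₁₂ h₂₁ m hm ζ hζ c hσζ h hh₁ hh₂ y hP'y hPy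
        (hnode y hy hP'y hPy) f a ha hfa
    exact ⟨σF f * f ^ c, δ₂, δ₁,
      isIntegral_mul_of_cart σ σF hσ m hm c h t ht f f a a hfa hfa, hδ₂, hδ₁,
      by simpa using y.neg_mem hδ, hδ₂y⟩
  · rw [hP] at hPy ⊢
    rw [hP'] at hP'y ⊢
    obtain ⟨f, a, ha, hfa⟩ := hcart y hy (Or.inr hPy)
    obtain ⟨f', a', ha', hfa'⟩ := hcart (y.comap σ) hy' (Or.inl (h₂₁ ▸ Ideal.comap_mono hPy))
    obtain ⟨δ, hδ, hδy⟩ :=
      locData_one σ σF hσ p₂ m hm c h hh₂ hh₂' y hPy f a ha hfa f' a' ha' hfa'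
    exact ⟨σF f' * f ^ c, δ, δ,
      isIntegral_mul_of_cart σ σF hσ m hm c h t ht f f' a a' hfa hfa', hδ, hδ, by simp, hδy⟩

include hσ in
/-- **Separation of branches, component-preserving case** (`σ h / h ^ a`: take
`c = (m - 1) * a`).  `σ` fixes the two components `p₁`, `p₂` and the nodes, and
`σ ζ * ζ ^ c = 1`; `h` toric with (CART) at every closed point of the special fibre;
`t ^ m = σ h * h ^ c`.  Then two primes of the integral closure over `p₁` or `p₂` with different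
labels are comaximal. -/
theorem comaximal_of_cart_preserve (p₁ p₂ : Ideal B) [p₁.IsPrime] [p₂.IsPrime]
    [IsIntegrallyClosed (B ⧸ p₁)] [IsIntegrallyClosed (B ⧸ p₂)]
    (h₁₁ : p₁.comap σ = p₁) (h₂₂ : p₂.comap σ = p₂)
    (hnode : ∀ y : Ideal B, y.IsMaximal → p₁ ≤ y → p₂ ≤ y → y.comap σ = y)
    (m : ℕ) (hm : 0 < m) (ζ : B) (hζ : IsPrimitiveRoot ζ m) (c : ℕ) (hσζ : σ ζ * ζ ^ c = 1)
    (h : F) (hh₁ : OneAt p₁ h) (hh₂ : OneAt p₂ h)
    (hcart : ∀ y : Ideal B, y.IsMaximal → (p₁ ≤ y ∨ p₂ ≤ y) →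
      ∃ (f : F) (a : B), a ∉ y ∧ f ^ m * h = algebraMap B F a)
    (t : L) (ht : t ^ m = algebraMap F L (σF h * h ^ c))
    (P P' : Ideal (integralClosure B L)) [P.IsPrime] [P'.IsPrime]
    (hP : P.comap (algebraMap B (integralClosure B L)) = p₁ ∨
      P.comap (algebraMap B (integralClosure B L)) = p₂)
    (hP' : P'.comap (algebraMap B (integralClosure B L)) = p₁ ∨
      P'.comap (algebraMap B (integralClosure B L)) = p₂)
    (ξ ξ' : B) (hu : IsUnit (ξ - ξ')) (hPξ : HasLabel P t ξ) (hP'ξ : HasLabel P' t ξ') :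
    P ⊔ P' = ⊤ := by
  refine comaximal_of_label_ne_eqAt (F := F) t P P' ξ ξ' hu hPξ hP'ξ fun y hy hPy hP'y => ?_
  have := hy
  have hy' : (y.comap σ).IsMaximal := Ideal.comap_isMaximal_of_surjective _ σ.surjective
  have i₁ : IsIntegrallyClosed (B ⧸ p₁.comap σ) := by rw [h₁₁]; infer_instance
  have i₂ : IsIntegrallyClosed (B ⧸ p₂.comap σ) := by rw [h₂₂]; infer_instance
  have hh₁' : OneAt (p₁.comap σ) h := by rw [h₁₁]; exact hh₁
  have hh₂' : OneAt (p₂.comap σ) h := by rw [h₂₂]; exact hh₂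
  rcases hP with hP | hP <;> rcases hP' with hP' | hP'
  · rw [hP] at hPy ⊢
    rw [hP'] at hP'y ⊢
    obtain ⟨f, a, ha, hfa⟩ := hcart y hy (Or.inl hPy)
    obtain ⟨f', a', ha', hfa'⟩ := hcart (y.comap σ) hy' (Or.inl (h₁₁ ▸ Ideal.comap_mono hPy))
    obtain ⟨δ, hδ, hδy⟩ :=
      locData_one σ σF hσ p₁ m hm c h hh₁ hh₁' y hPy f a ha hfa f' a' ha' hfa'
    exact ⟨σF f' * f ^ c, δ, δ,
      isIntegral_mul_of_cart σ σF hσ m hm c h t ht f f' a a' hfa hfa', hδ, hδ, by simp, hδy⟩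
  · rw [hP] at hPy ⊢
    rw [hP'] at hP'y ⊢
    obtain ⟨f, a, ha, hfa⟩ := hcart y hy (Or.inl hPy)
    obtain ⟨δ₁, δ₂, hδ₁, hδ₂, hδ, hδ₁y, -⟩ :=
      locData_node_preserve σ σF hσ p₁ p₂ h₁₁ h₂₂ m hm ζ hζ c hσζ h hh₁ hh₂ y hPy hP'y
        (hnode y hy hPy hP'y) f a ha hfa
    exact ⟨σF f * f ^ c, δ₁, δ₂,
      isIntegral_mul_of_cart σ σF hσ m hm c h t ht f f a a hfa hfa, hδ₁, hδ₂, hδ, hδ₁y⟩
  · rw [hP] at hPy ⊢
    rw [hP'] at hP'y ⊢
    obtain ⟨f, a, ha, hfa⟩ := hcart y hy (Or.inl hP'y)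
    obtain ⟨δ₁, δ₂, hδ₁, hδ₂, hδ, -, hδ₂y⟩ :=
      locData_node_preserve σ σF hσ p₁ p₂ h₁₁ h₂₂ m hm ζ hζ c hσζ h hh₁ hh₂ y hP'y hPy
        (hnode y hy hP'y hPy) f a ha hfa
    exact ⟨σF f * f ^ c, δ₂, δ₁,
      isIntegral_mul_of_cart σ σF hσ m hm c h t ht f f a a hfa hfa, hδ₂, hδ₁,
      by simpa using y.neg_mem hδ, hδ₂y⟩
  · rw [hP] at hPy ⊢
    rw [hP'] at hP'y ⊢
    obtain ⟨f, a, ha, hfa⟩ := hcart y hy (Or.inr hPy)
    obtain ⟨f', a', ha', hfa'⟩ := hcart (y.comap σ) hy' (Or.inr (h₂₂ ▸ Ideal.comap_mono hPy))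
    obtain ⟨δ, hδ, hδy⟩ :=
      locData_one σ σF hσ p₂ m hm c h hh₂ hh₂' y hPy f a ha hfa f' a' ha' hfa'
    exact ⟨σF f' * f ^ c, δ, δ,
      isIntegral_mul_of_cart σ σF hσ m hm c h t ht f f' a a' hfa hfa', hδ, hδ, by simp, hδy⟩

end Main

end Fermat.Agent.S35.SigmaLabel
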