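import Mathlib
import Fermat.Agent.S35.SigmaLabel

/-!
# Program U (S35): the local root at a point on ONE component (no automorphism)

`B` an integrally closed domain, `F = Frac B`, `p` a prime with `B ⧸ p` integrally closed,
`k : F` with `k ≡ 1` at `p`, `y ⊇ p` a maximal ideal at which `k` has a (STAR) datum
`f ^ m * k = a ∈ B ∖ y`.  Then `k` has an `m`-th root `ρ` at `y` (`s ρ ^ m = s' k`, `s, s' ∉ y`)
with `ρ ≡ 1` at `p`.  This is the shape `hloc` of `SigmaLoc` / `NodeRoot` at the points of the
special fibre through which only one component passes (in particular at the cusps of the chart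
at infinity, where no automorphism is available).
-/

set_option autoImplicit false

namespace Fermat.Agent.S35.OneBranch211

open Fermat.Agent.S34.Label Fermat.Agent.S35.SigmaLabel

variable {B F : Type*} [CommRing B] [Field F] [Algebra B F] [IsFractionRing B F]

/-- **One-branch local root.** -/
theorem exists_root_oneAt [IsIntegrallyClosed B] (p : Ideal B) [p.IsPrime]
    [IsIntegrallyClosed (B ⧸ p)] (m : ℕ) (hm : 0 < m) (k : F) (hk : OneAt p k)
    (y : Ideal B) (hpy : p ≤ y) (f : F) (a : B) (ha : a ∉ y)
    (hfa : f ^ m * k = algebraMap B F a) :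
    ∃ ρ : F, (∃ s s' : B, s ∉ y ∧ s' ∉ y ∧
      algebraMap B F s * ρ ^ m = algebraMap B F s' * k) ∧ OneAt p ρ := by
  have hap : a ∉ p := fun h => ha (hpy h)
  obtain ⟨φ, ⟨s, c, hs, hc, hsc⟩, hφ⟩ := exists_eqAt_of_pow p m hm f k a hk hfa hap
  have ha0 : algebraMap B F a ≠ 0 := by
    intro h0
    exact hap ((IsFractionRing.injective B F (by rw [h0, map_zero]) : a = 0) ▸ p.zero_mem)
  have hf0 : f ≠ 0 := by
    rintro rfl
    rw [zero_pow hm.ne', zero_mul] at hfa
    exact ha0 hfa.symm
  -- `φ ^ m ∉ y`
  have hφm : φ ^ m ∉ y := by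
    intro h
    have : a ∈ y := by
      have h1 : φ ^ m - a ∈ y := hpy hφ
      simpa using y.sub_mem h h1
    exact ha this
  have hφp : φ ∉ p := fun h => hφm (hpy (p.pow_mem_of_mem h m hm))
  refine ⟨algebraMap B F φ / f, ⟨a, φ ^ m, ha, hφm, ?_⟩, ⟨s * φ + c, -c, ?_, ?_, ?_⟩⟩
  · rw [div_pow, ← hfa, map_pow]
    field_simp
  · intro h
    have : s * φ ∈ p := by simpa using p.sub_mem h hc
    exact (Ideal.IsPrime.mem_or_mem inferInstance this).elim hs hφp
  · exact p.neg_mem hc
  · have h1 : algebraMap B F (s * φ + c) = algebraMap B F s * f := by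
      rw [map_add, map_mul]
      linear_combination (-1 : F) * hsc
    rw [h1, map_neg]
    field_simp
    linear_combination (-1 : F) * hsc

end Fermat.Agent.S35.OneBranch211
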