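import Fermat.Agent.S35.NodeRootPow
import Fermat.Agent.S35.NodalSigma
import Fermat.Agent.S35.HlocTransfer
import Fermat.Agent.S35.OneBranch211
import Fermat.Agent.S34.Nodal.Exit

/-!
# Program U (S35): the `K`-level TWO-CHART EXIT of (C2'), without any automorphism

Setting of `S34/Nodal/Exit.lean`: `O` a DVR with uniformiser `π`, `E = Frac O`, `L / E(u)` finite,
`D : NodalDatum π u` (two components `D.P₁`, `D.P₂` of the special fibre, nodal on both charts).
`k : L` is toric (`k ≡ 1` on both components).  Write `pᵢ⁰ := D.Pᵢ.comap (toOverlapZero O u)`,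
`pᵢ^∞ := D.Pᵢ.comap (toOverlapInf O u)`.

INPUT (all about `k` itself; no automorphism of `L` appears in this file):

* `hloc0` : at every closed point `y` of the special fibre of the chart of `u`, `k` has an `m`-th
  root `ρ` up to a unit at `y`, with `ρ ≡ 1` on the branches through `y`
  (the literal conclusion of `NodalSigma.hloc_chart_swap_of_cartierRoot` /
  `hloc_chart_preserve_of_cartierRoot`, = the literal hypothesis of `HlocTransfer.hloc_transfer`);
* `hCinf` : `CartierRoot` of `k` on the chart of `u⁻¹`;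
* `hNC` : no crossing point of the two components lies on `u = ∞`.

OUTPUT: if `M = L(θ)`, `θ ^ m = k`, then `k = c * s ^ m` with `c` integral over `O`
(`exists_const_mul_pow_of_hloc`); the same with no field `M` given
(`exists_const_mul_pow_of_hloc'`); and `k = g ^ m` if `O` is integrally closed in `M`
(`pow_of_hloc`, `pow_of_trivial_nodes`).

The chart at infinity is handled WITHOUT any automorphism: away from `u⁻¹ = 0` by
`HlocTransfer.hloc_transfer`, at the points of `u⁻¹ = 0` (one branch only, by `hNC`) by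
`OneBranch211.exists_root_oneAt`.  So the coordinate `u` need not be fixed by anything (`u = j`).
-/

set_option autoImplicit false

open Polynomial
open Fermat.Agent.S30.Model Fermat.Agent.S30.Model.GlueChart
open Fermat.Agent.S34 Fermat.Agent.S34.Nodal Fermat.Agent.S34.Label

namespace Fermat.Agent.S35.TwoChart211

section Chart

variable {O L : Type*} [CommRing O] [Field L] [Algebra O L]

/-- **`hloc` on a chart from node data.**  On a nodal chart, the local datum at every closed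
point of the special fibre follows from `CartierRoot` (at the points on one component only) and
from the datum at the crossing points. -/
theorem hloc_of_nodes (π : O) (t : L) [IsFractionRing (Chart O t) L]
    {p₁ p₂ : Ideal (Chart O t)} (hN : IsNodalChart π t p₁ p₂) (m : ℕ) (hm : 0 < m)
    (k : L) (hk0 : k ≠ 0) (h₁ : CongrOneAtChart p₁ k) (h₂ : CongrOneAtChart p₂ k)
    (hC : ToricInertia.CartierRoot O ({t} : Set L) m k)
    (hnode : ∀ y : Ideal (Chart O t), y.IsMaximal → p₁ ≤ y → p₂ ≤ y →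
      ∃ ρ : L, (∃ s s' : Chart O t, s ∉ y ∧ s' ∉ y ∧ (s : L) * ρ ^ m = (s' : L) * k) ∧
        (∃ s c : Chart O t, s ∉ p₁ ∧ c ∈ p₁ ∧ (s : L) * (ρ - 1) = (c : L)) ∧
        (∃ s c : Chart O t, s ∉ p₂ ∧ c ∈ p₂ ∧ (s : L) * (ρ - 1) = (c : L))) :
    ∀ y : Ideal (Chart O t), y.IsMaximal → (p₁ ≤ y ∨ p₂ ≤ y) →
      ∃ ρ : L, (∃ s s' : Chart O t, s ∉ y ∧ s' ∉ y ∧ (s : L) * ρ ^ m = (s' : L) * k) ∧
        (p₁ ≤ y → ∃ s c : Chart O t, s ∉ p₁ ∧ c ∈ p₁ ∧ (s : L) * (ρ - 1) = (c : L)) ∧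
        (p₂ ≤ y → ∃ s c : Chart O t, s ∉ p₂ ∧ c ∈ p₂ ∧ (s : L) * (ρ - 1) = (c : L)) := by
  intro y hy hor
  have hp₁ := hN.isPrime₁
  have hp₂ := hN.isPrime₂
  have hd₁ := hN.dedekind₁
  have hd₂ := hN.dedekind₂
  have hic : IsIntegrallyClosed (Chart O t) := NodalSigma.isIntegrallyClosed_chart t
  by_cases hy1 : p₁ ≤ y <;> by_cases hy2 : p₂ ≤ y
  · obtain ⟨ρ, hρ, ho1, ho2⟩ := hnode y hy hy1 hy2
    exact ⟨ρ, hρ, fun _ => ho1, fun _ => ho2⟩
  · obtain ⟨f, a, ha, hfa⟩ :=
      ToricInertia.exists_pow_mul_eq_of_cartierRoot ({t} : Set L) m hm k hk0 hC y hy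
    obtain ⟨ρ, hρ, ho⟩ := OneBranch211.exists_root_oneAt p₁ m hm k
      (NodalSigma.oneAt_of_congrOneAtChart h₁) y hy1 f a ha hfa
    exact ⟨ρ, hρ, fun _ => ho, fun h => absurd h hy2⟩
  · obtain ⟨f, a, ha, hfa⟩ :=
      ToricInertia.exists_pow_mul_eq_of_cartierRoot ({t} : Set L) m hm k hk0 hC y hy
    obtain ⟨ρ, hρ, ho⟩ := OneBranch211.exists_root_oneAt p₂ m hm k
      (NodalSigma.oneAt_of_congrOneAtChart h₂) y hy2 f a ha hfa
    exact ⟨ρ, hρ, fun h => absurd h hy1, fun _ => ho⟩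
  · rcases hor with h | h
    · exact absurd h hy1
    · exact absurd h hy2

/-- **The global root modulo `π` on one chart** (`NodeRoot.exists_global_root` in the chart
vocabulary). -/
theorem exists_root_chart (π : O) (t : L) [IsFractionRing (Chart O t) L]
    {p₁ p₂ : Ideal (Chart O t)} (hN : IsNodalChart π t p₁ p₂) (m : ℕ) (hm : 0 < m)
    (k : L) (hk0 : k ≠ 0) (h₁ : CongrOneAtChart p₁ k) (h₂ : CongrOneAtChart p₂ k)
    (hloc : ∀ y : Ideal (Chart O t), y.IsMaximal → (p₁ ≤ y ∨ p₂ ≤ y) →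
      ∃ ρ : L, (∃ s s' : Chart O t, s ∉ y ∧ s' ∉ y ∧ (s : L) * ρ ^ m = (s' : L) * k) ∧
        (p₁ ≤ y → ∃ s c : Chart O t, s ∉ p₁ ∧ c ∈ p₁ ∧ (s : L) * (ρ - 1) = (c : L)) ∧
        (p₂ ≤ y → ∃ s c : Chart O t, s ∉ p₂ ∧ c ∈ p₂ ∧ (s : L) * (ρ - 1) = (c : L))) :
    ∃ (s : L) (z : Chart O t), s ^ m = k * (1 + algebraMap O L π * (z : L)) ∧
      (∃ a c : Chart O t, a ∉ p₁ ∧ c ∈ p₁ ∧ (a : L) * (s - 1) = (c : L)) ∧
      (∃ a c : Chart O t, a ∉ p₂ ∧ c ∈ p₂ ∧ (a : L) * (s - 1) = (c : L)) := by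
  have hp₁ := hN.isPrime₁
  have hp₂ := hN.isPrime₂
  have hic : IsIntegrallyClosed (Chart O t) := NodalSigma.isIntegrallyClosed_chart t
  obtain ⟨s, z, hs, ho1, ho2⟩ := NodeRoot.exists_global_root (B := Chart O t) (F := L)
    (piElt (Algebra.adjoin O ({t} : Set L)) π) p₁ p₂ hN.inf_eq m hm k hk0
    (NodalSigma.oneAt_of_congrOneAtChart h₁) (NodalSigma.oneAt_of_congrOneAtChart h₂) hloc
  exact ⟨s, z, hs, ho1, ho2⟩

end Chart

section Overlap

variable {O L : Type*} [CommRing O] [Field L] [Algebra O L]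

/-- The overlap chart ring is integrally closed. -/
theorem isIntegrallyClosed_overlap (u : L) : IsIntegrallyClosed (Overlap O u) :=
  IsIntegrallyClosed.of_isIntegrallyClosed_of_isIntegrallyClosedIn (R := Overlap O u) (S := L)

/-- The inclusion of the chart of `u` into the overlap, elementwise.  (Stated through the
generic `coe_inclHom`: a direct `rfl` makes the kernel compare the two chart rings.) -/
theorem coe_toOverlapZero (u : L) (x : Chart O u) :
    ((toOverlapZero O u x : Overlap O u) : L) = (x : L) := coe_inclHom _ x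

/-- The inclusion of the chart of `u⁻¹` into the overlap, elementwise. -/
theorem coe_toOverlapInf (u : L) (x : Chart O u⁻¹) :
    ((toOverlapInf O u x : Overlap O u) : L) = (x : L) := coe_inclHom _ x

/-- `L` is the fraction field of the overlap chart ring. -/
theorem isFractionRing_overlap (u : L) [IsFractionRing (Chart O u) L] :
    IsFractionRing (Overlap O u) L := by
  apply IsFractionRing.of_field
  intro z
  obtain ⟨x, y, -, hxy⟩ := IsFractionRing.div_surjective (A := Chart O u) z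
  refine ⟨toOverlapZero O u x, toOverlapZero O u y, ?_⟩
  show z = ((toOverlapZero O u x : Overlap O u) : L) / ((toOverlapZero O u y : Overlap O u) : L)
  rw [coe_toOverlapZero, coe_toOverlapZero, ← hxy]
  rfl

/-- `P₁ ⊓ P₂ = (π)` on the overlap, from the same on the chart of `u`. -/
theorem inf_eq_overlap (π : O) (u : L) (hu : u ≠ 0) (P₁ P₂ : Ideal (Overlap O u))
    (h0 : P₁.comap (toOverlapZero O u) ⊓ P₂.comap (toOverlapZero O u) =
      Ideal.span {piElt (Algebra.adjoin O ({u} : Set L)) π}) :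
    P₁ ⊓ P₂ = Ideal.span {piElt (Algebra.adjoin O ({u, u⁻¹} : Set L)) π} := by
  have hπ0 : piElt (Algebra.adjoin O ({u} : Set L)) π ∈
      P₁.comap (toOverlapZero O u) ⊓ P₂.comap (toOverlapZero O u) := by
    rw [h0]; exact Ideal.mem_span_singleton_self _
  have e : toOverlapZero O u (piElt (Algebra.adjoin O ({u} : Set L)) π) =
      piElt (Algebra.adjoin O ({u, u⁻¹} : Set L)) π := Subtype.ext rfl
  apply le_antisymm
  · intro x hx
    obtain ⟨n, hn⟩ := ChartInf.exists_forall_ge_isIntegral (O := O) u hu (x : L) x.2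
    have ea : toOverlapZero O u ⟨u ^ n * (x : L), hn n le_rfl⟩ =
        uOverlap (O := O) u ^ n * x := Subtype.ext rfl
    have hmem : (⟨u ^ n * (x : L), hn n le_rfl⟩ : Chart O u) ∈
        P₁.comap (toOverlapZero O u) ⊓ P₂.comap (toOverlapZero O u) := by
      refine Ideal.mem_inf.2 ⟨?_, ?_⟩
      · rw [Ideal.mem_comap, ea]; exact P₁.mul_mem_left _ (Ideal.mem_inf.1 hx).1
      · rw [Ideal.mem_comap, ea]; exact P₂.mul_mem_left _ (Ideal.mem_inf.1 hx).2
    rw [h0, Ideal.mem_span_singleton'] at hmem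
    obtain ⟨w, hw⟩ := hmem
    rw [Ideal.mem_span_singleton']
    refine ⟨uInvOverlap (O := O) u ^ n * toOverlapZero O u w, ?_⟩
    have h1 : toOverlapZero O u w * piElt (Algebra.adjoin O ({u, u⁻¹} : Set L)) π =
        uOverlap (O := O) u ^ n * x := by
      rw [← e, ← map_mul, hw, ea]
    have h2 : uInvOverlap (O := O) u ^ n * uOverlap (O := O) u ^ n = 1 := by
      rw [← mul_pow, mul_comm, uOverlap_mul_uInvOverlap hu, one_pow]
    calc uInvOverlap (O := O) u ^ n * toOverlapZero O u w *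
          piElt (Algebra.adjoin O ({u, u⁻¹} : Set L)) π
        = uInvOverlap (O := O) u ^ n * (uOverlap (O := O) u ^ n * x) := by rw [mul_assoc, h1]
      _ = x := by rw [← mul_assoc, h2, one_mul]
  · rw [Ideal.span_singleton_le_iff_mem]
    refine Ideal.mem_inf.2 ⟨?_, ?_⟩
    · have := (Ideal.mem_inf.1 hπ0).1
      rwa [Ideal.mem_comap, e] at this
    · have := (Ideal.mem_inf.1 hπ0).2
      rwa [Ideal.mem_comap, e] at this

/-- **Overlap compatibility** of two roots modulo `π` (`NodeRoot.pow_sub_eq` in the chart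
vocabulary): `(s₀ - s₁) ^ m = k * π * v` with `v` in the overlap chart ring. -/
theorem exists_overlap (π : O) (u : L) (hu : u ≠ 0) [IsFractionRing (Chart O u) L]
    (P₁ P₂ : Ideal (Overlap O u)) [P₁.IsPrime] [P₂.IsPrime]
    (h0 : P₁.comap (toOverlapZero O u) ⊓ P₂.comap (toOverlapZero O u) =
      Ideal.span {piElt (Algebra.adjoin O ({u} : Set L)) π})
    (m : ℕ) (hm : 0 < m) (k : L) (hk0 : k ≠ 0)
    (hk₁ : CongrOneAt P₁ k) (hk₂ : CongrOneAt P₂ k)
    (s₀ s₁ : L) (z₀ : Chart O u) (z₁ : Chart O u⁻¹)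
    (hs₀ : s₀ ^ m = k * (1 + algebraMap O L π * (z₀ : L)))
    (hs₁ : s₁ ^ m = k * (1 + algebraMap O L π * (z₁ : L)))
    (h01 : ∃ a c : Chart O u, a ∉ P₁.comap (toOverlapZero O u) ∧
      c ∈ P₁.comap (toOverlapZero O u) ∧ (a : L) * (s₀ - 1) = (c : L))
    (h02 : ∃ a c : Chart O u, a ∉ P₂.comap (toOverlapZero O u) ∧
      c ∈ P₂.comap (toOverlapZero O u) ∧ (a : L) * (s₀ - 1) = (c : L))
    (h11 : ∃ a c : Chart O u⁻¹, a ∉ P₁.comap (toOverlapInf O u) ∧
      c ∈ P₁.comap (toOverlapInf O u) ∧ (a : L) * (s₁ - 1) = (c : L))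
    (h12 : ∃ a c : Chart O u⁻¹, a ∉ P₂.comap (toOverlapInf O u) ∧
      c ∈ P₂.comap (toOverlapInf O u) ∧ (a : L) * (s₁ - 1) = (c : L)) :
    ∃ v : Overlap O u, (s₀ - s₁) ^ m = k * (algebraMap O L π * (v : L)) := by
  have hic : IsIntegrallyClosed (Overlap O u) := isIntegrallyClosed_overlap u
  have hfr : IsFractionRing (Overlap O u) L := isFractionRing_overlap u
  have hinf := inf_eq_overlap π u hu P₁ P₂ h0
  have hone : ∀ (P : Ideal (Overlap O u)) (ρ : L), CongrOneAt P ρ → OneAt P ρ := by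
    rintro P ρ ⟨a, b, ha, hb, e⟩
    refine ⟨b, a, hb, ha, ?_⟩
    show (b : L) * (ρ - 1) = (a : L)
    linear_combination e
  have hz : ∀ (P : Ideal (Overlap O u)) (ρ : L),
      (∃ a c : Chart O u, a ∉ P.comap (toOverlapZero O u) ∧
        c ∈ P.comap (toOverlapZero O u) ∧ (a : L) * (ρ - 1) = (c : L)) → OneAt P ρ := by
    rintro P ρ ⟨a, c, ha, hc, e⟩
    refine ⟨toOverlapZero O u a, toOverlapZero O u c, fun h => ha (Ideal.mem_comap.2 h),
      Ideal.mem_comap.1 hc, ?_⟩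
    show ((toOverlapZero O u a : Overlap O u) : L) * (ρ - 1) =
      ((toOverlapZero O u c : Overlap O u) : L)
    rw [coe_toOverlapZero, coe_toOverlapZero]
    exact e
  have hi : ∀ (P : Ideal (Overlap O u)) (ρ : L),
      (∃ a c : Chart O u⁻¹, a ∉ P.comap (toOverlapInf O u) ∧
        c ∈ P.comap (toOverlapInf O u) ∧ (a : L) * (ρ - 1) = (c : L)) → OneAt P ρ := by
    rintro P ρ ⟨a, c, ha, hc, e⟩
    refine ⟨toOverlapInf O u a, toOverlapInf O u c, fun h => ha (Ideal.mem_comap.2 h),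
      Ideal.mem_comap.1 hc, ?_⟩
    show ((toOverlapInf O u a : Overlap O u) : L) * (ρ - 1) =
      ((toOverlapInf O u c : Overlap O u) : L)
    rw [coe_toOverlapInf, coe_toOverlapInf]
    exact e
  have hr₀ : NodeRoot.IsRootMul (B := Overlap O u) m k s₀ := by
    refine ⟨1 + piElt (Algebra.adjoin O ({u, u⁻¹} : Set L)) π * toOverlapZero O u z₀, ?_⟩
    show s₀ ^ m = k * ((1 + piElt (Algebra.adjoin O ({u, u⁻¹} : Set L)) π *
      toOverlapZero O u z₀ : Overlap O u) : L)
    rw [Subalgebra.coe_add, Subalgebra.coe_one, Subalgebra.coe_mul, coe_piElt, coe_toOverlapZero]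
    exact hs₀
  have hr₁ : NodeRoot.IsRootMul (B := Overlap O u) m k s₁ := by
    refine ⟨1 + piElt (Algebra.adjoin O ({u, u⁻¹} : Set L)) π * toOverlapInf O u z₁, ?_⟩
    show s₁ ^ m = k * ((1 + piElt (Algebra.adjoin O ({u, u⁻¹} : Set L)) π *
      toOverlapInf O u z₁ : Overlap O u) : L)
    rw [Subalgebra.coe_add, Subalgebra.coe_one, Subalgebra.coe_mul, coe_piElt, coe_toOverlapInf]
    exact hs₁
  obtain ⟨v, hv⟩ := NodeRoot.pow_sub_eq (B := Overlap O u) (F := L)
    (piElt (Algebra.adjoin O ({u, u⁻¹} : Set L)) π) P₁ P₂ hinf m hm k hk0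
    (hone P₁ k hk₁) (hone P₂ k hk₂) s₀ s₁ hr₀ hr₁ (hz P₁ s₀ h01) (hz P₂ s₀ h02)
    (hi P₁ s₁ h11) (hi P₂ s₁ h12)
  exact ⟨v, hv⟩

end Overlap

section Model

variable {O E L : Type*} [CommRing O] [IsDomain O] [IsDiscreteValuationRing O]
  [Field E] [CharZero E] [Algebra O E] [IsFractionRing O E]
  [Field L] [Algebra E L] [Algebra O L] [IsScalarTower O E L]

omit [CharZero E] in
/-- `π` is not a unit of the chart ring of a field `M` over `L` (`ChartProv.chart_not_unit`
for `M`, in the shape consumed by `NodeRoot.exists_eq_const_mul_pow_of_root`). -/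
theorem not_unit_of_adjoin (π : O) (hπ : Irreducible π) (u : L) (hu : Transcendental E u)
    (M : Type*) [Field M] [Algebra L M] [Algebra O M] [IsScalarTower O L M] :
    ¬ IsIntegral (Algebra.adjoin O {algebraMap L M u}) (algebraMap O M π)⁻¹ := by
  let _ : Algebra E M := ((algebraMap L M).comp (algebraMap E L)).toAlgebra
  have : IsScalarTower E L M := IsScalarTower.of_algebraMap_eq (fun _ => rfl)
  have : IsScalarTower O E M := IsScalarTower.of_algebraMap_eq (fun x => by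
    rw [IsScalarTower.algebraMap_apply O L M, IsScalarTower.algebraMap_apply O E L]
    rfl)
  have hu' : Transcendental E (algebraMap L M u) :=
    (transcendental_algebraMap_iff (algebraMap L M).injective).mpr hu
  exact ChartProv.chart_not_unit (O := O) (E := E) π hπ (algebraMap L M u) hu'

omit [IsDiscreteValuationRing O] [CharZero E] in
/-- **`hloc` on the chart at infinity**, without any automorphism: away from `u⁻¹ = 0` by
transfer from the chart of `u`, at the points of `u⁻¹ = 0` by the one-branch lemma (`hNC`: no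
crossing point there) and `CartierRoot`. -/
theorem hloc_inf (π : O) (u : L) (hu : Transcendental E u)
    [FiniteDimensional (IntermediateField.adjoin E {u}) L] (D : NodalDatum π u)
    (m : ℕ) (hm : 0 < m) (k : L) (hk : D.Toric k)
    (hloc0 : ∀ y : Ideal (Chart O u), y.IsMaximal →
      (D.P₁.comap (toOverlapZero O u) ≤ y ∨ D.P₂.comap (toOverlapZero O u) ≤ y) →
      ∃ ρ : L, (∃ s s' : Chart O u, s ∉ y ∧ s' ∉ y ∧ (s : L) * ρ ^ m = (s' : L) * k) ∧
        (D.P₁.comap (toOverlapZero O u) ≤ y →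
          ∃ s c : Chart O u, s ∉ D.P₁.comap (toOverlapZero O u) ∧
            c ∈ D.P₁.comap (toOverlapZero O u) ∧ (s : L) * (ρ - 1) = (c : L)) ∧
        (D.P₂.comap (toOverlapZero O u) ≤ y →
          ∃ s c : Chart O u, s ∉ D.P₂.comap (toOverlapZero O u) ∧
            c ∈ D.P₂.comap (toOverlapZero O u) ∧ (s : L) * (ρ - 1) = (c : L)))
    (hCinf : ToricInertia.CartierRoot O ({u⁻¹} : Set L) m k)
    (hNC : ∀ y : Ideal (Chart O u⁻¹), y.IsMaximal → Bridge2.gen u⁻¹ ∈ y →
      ¬ (D.P₁.comap (toOverlapInf O u) ≤ y ∧ D.P₂.comap (toOverlapInf O u) ≤ y)) :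
    ∀ y : Ideal (Chart O u⁻¹), y.IsMaximal →
      (D.P₁.comap (toOverlapInf O u) ≤ y ∨ D.P₂.comap (toOverlapInf O u) ≤ y) →
      ∃ ρ : L, (∃ s s' : Chart O u⁻¹, s ∉ y ∧ s' ∉ y ∧ (s : L) * ρ ^ m = (s' : L) * k) ∧
        (D.P₁.comap (toOverlapInf O u) ≤ y →
          ∃ s c : Chart O u⁻¹, s ∉ D.P₁.comap (toOverlapInf O u) ∧
            c ∈ D.P₁.comap (toOverlapInf O u) ∧ (s : L) * (ρ - 1) = (c : L)) ∧
        (D.P₂.comap (toOverlapInf O u) ≤ y →
          ∃ s c : Chart O u⁻¹, s ∉ D.P₂.comap (toOverlapInf O u) ∧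
            c ∈ D.P₂.comap (toOverlapInf O u) ∧ (s : L) * (ρ - 1) = (c : L)) := by
  intro y hy hor
  have hu0 : u ≠ 0 := fun h0 => hu (h0 ▸ isAlgebraic_zero)
  by_cases huy : Bridge2.gen u⁻¹ ∈ y
  · have hfd : FiniteDimensional (IntermediateField.adjoin E {u⁻¹}) L :=
      finiteDimensional_adjoin_inv u
    have hfr : IsFractionRing (Chart O u⁻¹) L := NodalSigma.isFractionRing_chart (E := E) u⁻¹
    have hp₁ := D.chartInf.isPrime₁
    have hp₂ := D.chartInf.isPrime₂
    have hd₁ := D.chartInf.dedekind₁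
    have hd₂ := D.chartInf.dedekind₂
    have hic : IsIntegrallyClosed (Chart O u⁻¹) := NodalSigma.isIntegrallyClosed_chart u⁻¹
    have hi := D.toric_inf hu0 hk
    obtain ⟨f, a, ha, hfa⟩ := ToricInertia.exists_pow_mul_eq_of_cartierRoot ({u⁻¹} : Set L) m hm k
      hk.ne_zero hCinf y hy
    have hnot := hNC y hy huy
    rcases hor with h1 | h2
    · obtain ⟨ρ, hρ, ho⟩ := OneBranch211.exists_root_oneAt (D.P₁.comap (toOverlapInf O u)) m hm k
        (NodalSigma.oneAt_of_congrOneAtChart hi.1) y h1 f a ha hfa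
      exact ⟨ρ, hρ, fun _ => ho, fun h => absurd ⟨h1, h⟩ hnot⟩
    · obtain ⟨ρ, hρ, ho⟩ := OneBranch211.exists_root_oneAt (D.P₂.comap (toOverlapInf O u)) m hm k
        (NodalSigma.oneAt_of_congrOneAtChart hi.2) y h2 f a ha hfa
      exact ⟨ρ, hρ, fun h => absurd ⟨h, h2⟩ hnot, fun _ => ho⟩
  · exact HlocTransfer.hloc_transfer hu0 D.P₁ D.P₂ m k hloc0 y hy huy hor

/-- **Two-chart exit, constant form.**  `k` toric with local roots on the chart of `u`
(`hloc0`), `CartierRoot` on the chart of `u⁻¹` and no crossing point on `u = ∞`:  if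
`M = L(θ)`, `θ ^ m = k`, then `k = c * s ^ m` with `c` integral over `O`. -/
theorem exists_const_mul_pow_of_hloc (π : O) (hπ : Irreducible π) (u : L)
    (hu : Transcendental E u) [FiniteDimensional (IntermediateField.adjoin E {u}) L]
    (D : NodalDatum π u) (m : ℕ) (hm : IsUnit (m : O)) (ζ : O) (hζ : IsPrimitiveRoot ζ m)
    (k : L) (hk : D.Toric k)
    (hloc0 : ∀ y : Ideal (Chart O u), y.IsMaximal →
      (D.P₁.comap (toOverlapZero O u) ≤ y ∨ D.P₂.comap (toOverlapZero O u) ≤ y) →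
      ∃ ρ : L, (∃ s s' : Chart O u, s ∉ y ∧ s' ∉ y ∧ (s : L) * ρ ^ m = (s' : L) * k) ∧
        (D.P₁.comap (toOverlapZero O u) ≤ y →
          ∃ s c : Chart O u, s ∉ D.P₁.comap (toOverlapZero O u) ∧
            c ∈ D.P₁.comap (toOverlapZero O u) ∧ (s : L) * (ρ - 1) = (c : L)) ∧
        (D.P₂.comap (toOverlapZero O u) ≤ y →
          ∃ s c : Chart O u, s ∉ D.P₂.comap (toOverlapZero O u) ∧
            c ∈ D.P₂.comap (toOverlapZero O u) ∧ (s : L) * (ρ - 1) = (c : L)))
    (hCinf : ToricInertia.CartierRoot O ({u⁻¹} : Set L) m k)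
    (hNC : ∀ y : Ideal (Chart O u⁻¹), y.IsMaximal → Bridge2.gen u⁻¹ ∈ y →
      ¬ (D.P₁.comap (toOverlapInf O u) ≤ y ∧ D.P₂.comap (toOverlapInf O u) ≤ y))
    (M : Type*) [Field M] [Algebra L M] [Algebra O M] [IsScalarTower O L M]
    (θ : M) (hθ : θ ^ m = algebraMap L M k) (hgen : Algebra.adjoin L {θ} = ⊤) :
    ∃ c s : L, IsIntegral O c ∧ s ≠ 0 ∧ k = c * s ^ m := by
  have hm0 : 0 < m := by
    rcases Nat.eq_zero_or_pos m with rfl | h0
    · simp at hm
    · exact h0
  have hu0 : u ≠ 0 := fun h0 => hu (h0 ▸ isAlgebraic_zero)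
  have hk0 : k ≠ 0 := hk.ne_zero
  have hinj : Function.Injective (algebraMap O L) := ChartProv.algebraMap_injective_base O E L
  have hfr0 : IsFractionRing (Chart O u) L := NodalSigma.isFractionRing_chart (E := E) u
  have hfd : FiniteDimensional (IntermediateField.adjoin E {u⁻¹}) L :=
    finiteDimensional_adjoin_inv u
  have hfr1 : IsFractionRing (Chart O u⁻¹) L := NodalSigma.isFractionRing_chart (E := E) u⁻¹
  have hz := D.toric_zero hu0 hk
  have hi := D.toric_inf hu0 hk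
  have hloc1 := hloc_inf (E := E) π u hu D m hm0 k hk hloc0 hCinf hNC
  obtain ⟨s₀, z₀, hs₀, h01, h02⟩ :=
    exists_root_chart π u D.chartZero m hm0 k hk0 hz.1 hz.2 hloc0
  obtain ⟨s₁, z₁, hs₁, h11, h12⟩ :=
    exists_root_chart π u⁻¹ D.chartInf m hm0 k hk0 hi.1 hi.2 hloc1
  have hP₁ := D.isPrime₁
  have hP₂ := D.isPrime₂
  obtain ⟨v, hv⟩ := exists_overlap π u hu0 D.P₁ D.P₂ D.chartZero.inf_eq m hm0 k hk0 hk.1 hk.2
    s₀ s₁ z₀ z₁ hs₀ hs₁ h01 h02 h11 h12
  -- the Kummer field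
  have hθint : IsIntegral L θ := by
    refine ⟨X ^ m - C k, monic_X_pow_sub_C _ hm0.ne', ?_⟩
    simp [hθ]
  have : FiniteDimensional L M := by
    have hfg : (Algebra.adjoin L {θ}).toSubmodule.FG := hθint.fg_adjoin_singleton
    rw [hgen, Algebra.top_toSubmodule] at hfg
    exact ⟨hfg⟩
  have hz₀' : IsIntegral (Algebra.adjoin O {algebraMap L M u}) (algebraMap L M (z₀ : L)) := by
    have h := ToricInertia.map_mem_chart (O := O) (L := M) ({u} : Set L) (x := (z₀ : L)) z₀.2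
    rwa [Set.image_singleton] at h
  have hz₁' : IsIntegral (Algebra.adjoin O {(algebraMap L M u)⁻¹}) (algebraMap L M (z₁ : L)) := by
    have h := ToricInertia.map_mem_chart (O := O) (L := M) ({u⁻¹} : Set L) (x := (z₁ : L)) z₁.2
    rwa [Set.image_singleton, map_inv₀] at h
  have hv' : IsIntegral (Algebra.adjoin O {algebraMap L M u, (algebraMap L M u)⁻¹})
      (algebraMap L M (v : L)) := by
    have h := ToricInertia.map_mem_chart (O := O) (L := M) ({u, u⁻¹} : Set L) (x := (v : L)) v.2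
    rwa [Set.image_pair, map_inv₀] at h
  have e₀ : algebraMap L M s₀ ^ m =
      algebraMap L M k * (1 + algebraMap O M π * algebraMap L M (z₀ : L)) := by
    rw [← map_pow, hs₀, map_mul, map_add, map_one, map_mul,
      ← IsScalarTower.algebraMap_apply O L M]
  have e₁ : algebraMap L M s₁ ^ m =
      algebraMap L M k * (1 + algebraMap O M π * algebraMap L M (z₁ : L)) := by
    rw [← map_pow, hs₁, map_mul, map_add, map_one, map_mul,
      ← IsScalarTower.algebraMap_apply O L M]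
  have e₂ : (algebraMap L M s₀ - algebraMap L M s₁) ^ m =
      algebraMap L M k * (algebraMap O M π * algebraMap L M (v : L)) := by
    rw [← map_sub, ← map_pow, hv, map_mul, map_mul, ← IsScalarTower.algebraMap_apply O L M]
  exact NodeRoot.exists_eq_const_mul_pow_of_root (O := O) (L := L) (L' := M) π (algebraMap L M u)
    (by rwa [Ne, map_eq_zero]) ⟨u, rfl⟩ m hm0 hm ζ (hζ.map_of_injective hinj) k hk0 θ hθ hgen
    (hfin_of_adjoin (O := O) (E := E) u hu M) (not_unit_of_adjoin (E := E) π hπ u hu M)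
    s₀ s₁ _ _ _ hz₀' e₀ hz₁' e₁ hv' e₂

/-- **Two-chart exit, constant form, no Kummer field given.** -/
theorem exists_const_mul_pow_of_hloc' (π : O) (hπ : Irreducible π) (u : L)
    (hu : Transcendental E u) [FiniteDimensional (IntermediateField.adjoin E {u}) L]
    (D : NodalDatum π u) (m : ℕ) (hm : IsUnit (m : O)) (ζ : O) (hζ : IsPrimitiveRoot ζ m)
    (k : L) (hk : D.Toric k)
    (hloc0 : ∀ y : Ideal (Chart O u), y.IsMaximal →
      (D.P₁.comap (toOverlapZero O u) ≤ y ∨ D.P₂.comap (toOverlapZero O u) ≤ y) →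
      ∃ ρ : L, (∃ s s' : Chart O u, s ∉ y ∧ s' ∉ y ∧ (s : L) * ρ ^ m = (s' : L) * k) ∧
        (D.P₁.comap (toOverlapZero O u) ≤ y →
          ∃ s c : Chart O u, s ∉ D.P₁.comap (toOverlapZero O u) ∧
            c ∈ D.P₁.comap (toOverlapZero O u) ∧ (s : L) * (ρ - 1) = (c : L)) ∧
        (D.P₂.comap (toOverlapZero O u) ≤ y →
          ∃ s c : Chart O u, s ∉ D.P₂.comap (toOverlapZero O u) ∧
            c ∈ D.P₂.comap (toOverlapZero O u) ∧ (s : L) * (ρ - 1) = (c : L)))
    (hCinf : ToricInertia.CartierRoot O ({u⁻¹} : Set L) m k)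
    (hNC : ∀ y : Ideal (Chart O u⁻¹), y.IsMaximal → Bridge2.gen u⁻¹ ∈ y →
      ¬ (D.P₁.comap (toOverlapInf O u) ≤ y ∧ D.P₂.comap (toOverlapInf O u) ≤ y)) :
    ∃ c s : L, IsIntegral O c ∧ s ≠ 0 ∧ k = c * s ^ m := by
  have hm0 : 0 < m := by
    rcases Nat.eq_zero_or_pos m with rfl | h0
    · simp at hm
    · exact h0
  obtain ⟨g, hg, hdvd⟩ : ∃ g : L[X], Irreducible g ∧ g ∣ X ^ m - C k :=
    ⟨(X ^ m - C k : L[X]).factor, irreducible_factor _,
      factor_dvd_of_natDegree_ne_zero (by rw [natDegree_X_pow_sub_C]; exact hm0.ne')⟩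
  have : Fact (Irreducible g) := ⟨hg⟩
  have hθ : AdjoinRoot.root g ^ m = algebraMap L (AdjoinRoot g) k := by
    have h0 : AdjoinRoot.mk g (X ^ m - C k) = 0 := AdjoinRoot.mk_eq_zero.2 hdvd
    rw [map_sub, map_pow, AdjoinRoot.mk_X, AdjoinRoot.mk_C, sub_eq_zero] at h0
    exact h0
  exact exists_const_mul_pow_of_hloc (E := E) π hπ u hu D m hm ζ hζ k hk hloc0 hCinf hNC
    (AdjoinRoot g) (AdjoinRoot.root g) hθ AdjoinRoot.adjoinRoot_eq_top

/-- **Two-chart exit, `m`-th power form.**  As `exists_const_mul_pow_of_hloc`, with `O`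
integrally closed in `M = L(θ)`: then `k` is an `m`-th power in `L`. -/
theorem pow_of_hloc (π : O) (hπ : Irreducible π) (u : L)
    (hu : Transcendental E u) [FiniteDimensional (IntermediateField.adjoin E {u}) L]
    (D : NodalDatum π u) (m : ℕ) (hm : IsUnit (m : O)) (ζ : O) (hζ : IsPrimitiveRoot ζ m)
    (k : L) (hk : D.Toric k)
    (hloc0 : ∀ y : Ideal (Chart O u), y.IsMaximal →
      (D.P₁.comap (toOverlapZero O u) ≤ y ∨ D.P₂.comap (toOverlapZero O u) ≤ y) →
      ∃ ρ : L, (∃ s s' : Chart O u, s ∉ y ∧ s' ∉ y ∧ (s : L) * ρ ^ m = (s' : L) * k) ∧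
        (D.P₁.comap (toOverlapZero O u) ≤ y →
          ∃ s c : Chart O u, s ∉ D.P₁.comap (toOverlapZero O u) ∧
            c ∈ D.P₁.comap (toOverlapZero O u) ∧ (s : L) * (ρ - 1) = (c : L)) ∧
        (D.P₂.comap (toOverlapZero O u) ≤ y →
          ∃ s c : Chart O u, s ∉ D.P₂.comap (toOverlapZero O u) ∧
            c ∈ D.P₂.comap (toOverlapZero O u) ∧ (s : L) * (ρ - 1) = (c : L)))
    (hCinf : ToricInertia.CartierRoot O ({u⁻¹} : Set L) m k)
    (hNC : ∀ y : Ideal (Chart O u⁻¹), y.IsMaximal → Bridge2.gen u⁻¹ ∈ y →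
      ¬ (D.P₁.comap (toOverlapInf O u) ≤ y ∧ D.P₂.comap (toOverlapInf O u) ≤ y))
    (M : Type*) [Field M] [Algebra L M] [Algebra O M] [IsScalarTower O L M]
    (θ : M) (hθ : θ ^ m = algebraMap L M k) (hgen : Algebra.adjoin L {θ} = ⊤)
    (hOM : ∀ x : M, IsIntegral O x → ∃ a : O, algebraMap O M a = x) :
    ∃ g : L, k = g ^ m := by
  have hm0 : 0 < m := by
    rcases Nat.eq_zero_or_pos m with rfl | h0
    · simp at hm
    · exact h0
  obtain ⟨c, s, hc, hs, hkcs⟩ := exists_const_mul_pow_of_hloc (E := E) π hπ u hu D m hm ζ hζ k hk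
    hloc0 hCinf hNC M θ hθ hgen
  have hsM : algebraMap L M s ≠ 0 := by rwa [Ne, map_eq_zero]
  have h1 : (θ / algebraMap L M s) ^ m = algebraMap L M c := by
    rw [div_pow, hθ, hkcs, map_mul, map_pow, mul_div_cancel_right₀ _ (pow_ne_zero m hsM)]
  have hint : IsIntegral O (θ / algebraMap L M s) := by
    refine IsIntegral.of_pow hm0 ?_
    rw [h1]
    exact hc.map (IsScalarTower.toAlgHom O L M)
  obtain ⟨a, ha⟩ := hOM _ hint
  have h2 : θ = algebraMap L M (algebraMap O L a * s) := by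
    rw [map_mul, ← IsScalarTower.algebraMap_apply O L M, ha, div_mul_cancel₀ _ hsM]
  refine ⟨algebraMap O L a * s, ?_⟩
  apply (algebraMap L M).injective
  rw [← hθ, h2, map_pow]

/-- **Two-chart exit from TRIVIAL (hC0 : ToricInertia.CartierRoot O ({u} : Set L) m k)
    (hCinf : ToricInertia.CartierRoot O ({u⁻¹} : Set L) m k)
    (hnode : ∀ y : Ideal (Chart O u), y.IsMaximal →
      D.P₁.comap (toOverlapZero O u) ≤ y → D.P₂.comap (toOverlapZero O u) ≤ y →
      ∃ ρ : L, (∃ s s' : Chart O u, s ∉ y ∧ s' ∉ y ∧ (s : L) * ρ ^ m = (s' : L) * k) ∧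
        (∃ s c : Chart O u, s ∉ D.P₁.comap (toOverlapZero O u) ∧
          c ∈ D.P₁.comap (toOverlapZero O u) ∧ (s : L) * (ρ - 1) = (c : L)) ∧
        (∃ s c : Chart O u, s ∉ D.P₂.comap (toOverlapZero O u) ∧
          c ∈ D.P₂.comap (toOverlapZero O u) ∧ (s : L) * (ρ - 1) = (c : L)))
    (hNC : ∀ y : Ideal (Chart O u⁻¹), y.IsMaximal → Bridge2.gen u⁻¹ ∈ y →
      ¬ (D.P₁.comap (toOverlapInf O u) ≤ y ∧ D.P₂.comap (toOverlapInf O u) ≤ y)) DATA** (the signature of report #3378).  The local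
root data are required only at the crossing points of the chart of `u`; everywhere else they
come from `CartierRoot` of `k`. -/
theorem pow_of_trivial_nodes (π : O) (hπ : Irreducible π) (u : L)
    (hu : Transcendental E u) [FiniteDimensional (IntermediateField.adjoin E {u}) L]
    (D : NodalDatum π u) (m : ℕ) (hm : IsUnit (m : O)) (ζ : O) (hζ : IsPrimitiveRoot ζ m)
    (k : L) (hk : D.Toric k)
    (hC0 : ToricInertia.CartierRoot O ({u} : Set L) m k)
    (hCinf : ToricInertia.CartierRoot O ({u⁻¹} : Set L) m k)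
    (hnode : ∀ y : Ideal (Chart O u), y.IsMaximal →
      D.P₁.comap (toOverlapZero O u) ≤ y → D.P₂.comap (toOverlapZero O u) ≤ y →
      ∃ ρ : L, (∃ s s' : Chart O u, s ∉ y ∧ s' ∉ y ∧ (s : L) * ρ ^ m = (s' : L) * k) ∧
        (∃ s c : Chart O u, s ∉ D.P₁.comap (toOverlapZero O u) ∧
          c ∈ D.P₁.comap (toOverlapZero O u) ∧ (s : L) * (ρ - 1) = (c : L)) ∧
        (∃ s c : Chart O u, s ∉ D.P₂.comap (toOverlapZero O u) ∧
          c ∈ D.P₂.comap (toOverlapZero O u) ∧ (s : L) * (ρ - 1) = (c : L)))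
    (hNC : ∀ y : Ideal (Chart O u⁻¹), y.IsMaximal → Bridge2.gen u⁻¹ ∈ y →
      ¬ (D.P₁.comap (toOverlapInf O u) ≤ y ∧ D.P₂.comap (toOverlapInf O u) ≤ y))
    (M : Type*) [Field M] [Algebra L M] [Algebra O M] [IsScalarTower O L M]
    (θ : M) (hθ : θ ^ m = algebraMap L M k) (hgen : Algebra.adjoin L {θ} = ⊤)
    (hOM : ∀ x : M, IsIntegral O x → ∃ a : O, algebraMap O M a = x) :
    ∃ g : L, k = g ^ m := by
  have hm0 : 0 < m := by
    rcases Nat.eq_zero_or_pos m with rfl | h0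
    · simp at hm
    · exact h0
  have hu0 : u ≠ 0 := fun h0 => hu (h0 ▸ isAlgebraic_zero)
  have hfr0 : IsFractionRing (Chart O u) L := NodalSigma.isFractionRing_chart (E := E) u
  have hz := D.toric_zero hu0 hk
  exact pow_of_hloc (E := E) π hπ u hu D m hm ζ hζ k hk
    (hloc_of_nodes π u D.chartZero m hm0 k hk.ne_zero hz.1 hz.2 hC0 hnode) hCinf hNC
    M θ hθ hgen hOM

/-- **Two-chart exit from trivial node data, constant form, no Kummer field.** -/
theorem exists_const_mul_pow_of_trivial_nodes (π : O) (hπ : Irreducible π) (u : L)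
    (hu : Transcendental E u) [FiniteDimensional (IntermediateField.adjoin E {u}) L]
    (D : NodalDatum π u) (m : ℕ) (hm : IsUnit (m : O)) (ζ : O) (hζ : IsPrimitiveRoot ζ m)
    (k : L) (hk : D.Toric k)
    (hC0 : ToricInertia.CartierRoot O ({u} : Set L) m k)
    (hCinf : ToricInertia.CartierRoot O ({u⁻¹} : Set L) m k)
    (hnode : ∀ y : Ideal (Chart O u), y.IsMaximal →
      D.P₁.comap (toOverlapZero O u) ≤ y → D.P₂.comap (toOverlapZero O u) ≤ y →
      ∃ ρ : L, (∃ s s' : Chart O u, s ∉ y ∧ s' ∉ y ∧ (s : L) * ρ ^ m = (s' : L) * k) ∧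
        (∃ s c : Chart O u, s ∉ D.P₁.comap (toOverlapZero O u) ∧
          c ∈ D.P₁.comap (toOverlapZero O u) ∧ (s : L) * (ρ - 1) = (c : L)) ∧
        (∃ s c : Chart O u, s ∉ D.P₂.comap (toOverlapZero O u) ∧
          c ∈ D.P₂.comap (toOverlapZero O u) ∧ (s : L) * (ρ - 1) = (c : L)))
    (hNC : ∀ y : Ideal (Chart O u⁻¹), y.IsMaximal → Bridge2.gen u⁻¹ ∈ y →
      ¬ (D.P₁.comap (toOverlapInf O u) ≤ y ∧ D.P₂.comap (toOverlapInf O u) ≤ y)) :
    ∃ c s : L, IsIntegral O c ∧ s ≠ 0 ∧ k = c * s ^ m := by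
  have hm0 : 0 < m := by
    rcases Nat.eq_zero_or_pos m with rfl | h0
    · simp at hm
    · exact h0
  have hu0 : u ≠ 0 := fun h0 => hu (h0 ▸ isAlgebraic_zero)
  have hfr0 : IsFractionRing (Chart O u) L := NodalSigma.isFractionRing_chart (E := E) u
  have hz := D.toric_zero hu0 hk
  exact exists_const_mul_pow_of_hloc' (E := E) π hπ u hu D m hm ζ hζ k hk
    (hloc_of_nodes π u D.chartZero m hm0 k hk.ne_zero hz.1 hz.2 hC0 hnode) hCinf hNC

end Model

end Fermat.Agent.S35.TwoChart211
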