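import Mathlib
import Fermat.Agent.S30.E4.K1Level
import Fermat.Agent.S34.ToricSwap
import Fermat.Agent.S34.Modular.SwapE

/-!
# S35 / Program U, auxiliary level: descent of the Frobenius swap relation (helper94)

`HSwapAt M ℓ hℓ hℓM A σ m` : at the level `M ℓ` (`ℓ ∤ M`), for every toric `h` (for the
Atkin–Lehner swap `W = wAL M ℓ`) with `m ∣ div h`, the function `σ (W h) · h ^ ℓ` is an `m`-th
power in `Fb (M ℓ)`.  This is the geometric exit `(C2')` of the S35 route, for one `σ`.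

* `wAL_incl` : the chosen swaps at the levels `M ℓ` and `M r ℓ` are compatible with the
  inclusion `Fb (M ℓ) ⊆ Fb (M r ℓ)` (both are determined by `W ∘ α = β`, `W ∘ β = α`).
* `hswapAt_of_mul` : for a prime `r ∤ M ℓ` and `m` prime to `r + 1 = [F_{M r ℓ} : F_{M ℓ}]`:
  `HSwapAt (M r) ℓ → HSwapAt M ℓ` (norm + Bezout, `E4.exists_pow_eq_of_alpha`).
* `hswapAt_of_aux` : the case split on the residue characteristic: for `ℓ ∤ m` it suffices to
  know `HSwapAt M' ℓ` at the `M'` with `2 ∣ M'` if `ℓ = 3` and `3 ∣ M'` if `ℓ = 2` (where the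
  Hauptmodul of `X₀(2)`, resp. `X₀(3)`, lies in the function field).

Twin of `S34/AuxDescent.lean` (`sqAt_of_aux`) for the Frobenius relation.
-/

set_option autoImplicit false
set_option linter.style.haveILetI false

open HahnSeries ModularCurve AlgebraicCurve

namespace Fermat.Agent.S35.AuxFrob

open Fermat.Agent.S30 Fermat.Agent.S30.E4 Fermat.Agent.S34.Toric Fermat.Agent.S34.ToricSwap

local notation "Qb" => AlgebraicClosure ℚ
local notation "Gq" => (AlgebraicClosure ℚ ≃ₐ[ℚ] AlgebraicClosure ℚ)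

/-- **The Frobenius swap relation at the level `M ℓ`, for one `σ`**: for every toric `h` with
`m ∣ div h`, `σ (W h) · h ^ ℓ` is an `m`-th power. -/
def HSwapAt (M ℓ : ℕ) [NeZero M] [NeZero ℓ] (hℓ : ℓ.Prime) (hℓM : ¬ ℓ ∣ M)
    (A : ValuationSubring Qb) (σ : Gq) (m : ℕ) : Prop :=
  ∀ h : Fb (M * ℓ), IsToric (M * ℓ) A (wAL M ℓ hℓ hℓM).toRingEquiv h → DivBy (M * ℓ) m h →
    ∃ k : Fb (M * ℓ), gal (M * ℓ) σ (wAL M ℓ hℓ hℓM h) * h ^ ℓ = k ^ m

/-! ### Transport along `N' = N * r` -/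

section Transport

variable {N N' r : ℕ} [NeZero N] [NeZero r]

/-- `Fb N ⊆ Fb N'` for `N' = N * r`. -/
theorem fb_le_of_eq (hN : N' = N * r) : Fb N ≤ Fb N' := by
  subst hN
  intro x hx
  have h2 : ((heckeAlphaBar Qb N r ⟨x, hx⟩ : Fb (N * r)) : LaurentSeries Qb) = x :=
    coe_heckeAlphaBar (L := Qb) N r ⟨x, hx⟩
  rw [← h2]
  exact (heckeAlphaBar Qb N r ⟨x, hx⟩).2

/-- `m ∣ div f` persists when the level is raised (`S34.AuxDescent.divBy_alpha`). -/
theorem divBy_alpha_aux (N r : ℕ) [NeZero N] [NeZero r] {m : ℕ} (f : Fb N) (hdiv : DivBy N m f) :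
    DivBy (N * r) m (heckeAlphaBar Qb N r f) := by
  letI := algebraAlong (heckeAlphaBar Qb N r)
  haveI := isScalarTower_along (heckeAlphaBar Qb N r)
  haveI : Module.Finite (modularFunctionFieldBar N) (modularFunctionFieldBar (N * r)) :=
    HeckeNormQ.finite_alpha N r
  haveI : Algebra.IsAlgebraic (modularFunctionFieldBar N) (modularFunctionFieldBar (N * r)) :=
    Algebra.IsAlgebraic.of_finite _ _
  intro Q
  obtain ⟨P, e, -, hPe⟩ := Fermat.Agent.Lib.PlaceRes.exists_place_below (K := Qb)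
    (L := modularFunctionFieldBar N) (M := modularFunctionFieldBar (N * r)) Q
  have h1 : Q.ord (heckeAlphaBar Qb N r f) = e * P.ord f := hPe f
  rw [h1]
  exact Dvd.dvd.mul_left (hdiv P) _

/-- `m ∣ div f` persists along `Fb N ⊆ Fb N'`, `N' = N * r`. -/
theorem divBy_of_eq (hN : N' = N * r) {m : ℕ} (f : Fb N) (f' : Fb N')
    (hff : (f' : LaurentSeries Qb) = (f : LaurentSeries Qb)) (hdiv : DivBy N m f) :
    DivBy N' m f' := by
  subst hN
  have e : f' = heckeAlphaBar Qb N r f := by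
    apply Subtype.ext
    rw [hff]
    exact (coe_heckeAlphaBar (L := Qb) N r f).symm
  rw [e]
  exact divBy_alpha_aux N r f hdiv

/-- An element of `Fb N` which is an `m`-th power in `Fb N'`, `N' = N * r` with `r ∤ N` prime
and `m` prime to `r + 1`, is an `m`-th power in `Fb N`. -/
theorem exists_pow_of_eq (hN : N' = N * r) (hr : r.Prime) (hrN : ¬ r ∣ N) {m : ℕ}
    (hmr : Nat.Coprime m (r + 1)) (a : Fb N) (k : Fb N')
    (hk : (k : LaurentSeries Qb) ^ m = (a : LaurentSeries Qb)) : ∃ k₀ : Fb N, a = k₀ ^ m := by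
  subst hN
  obtain ⟨k₀, hk₀⟩ := E4.exists_pow_eq_of_alpha N r hr hrN hmr a k (by
    apply Subtype.ext
    have h2 : ((heckeAlphaBar Qb N r a : Fb (N * r)) : LaurentSeries Qb) = a :=
      coe_heckeAlphaBar (L := Qb) N r a
    rw [h2]
    exact hk)
  exact ⟨k₀, hk₀.symm⟩

omit [NeZero N] [NeZero r] in
/-- `GaussOne` persists along an inclusion of function fields. -/
theorem gaussOne_of_le (hle : Fb N ≤ Fb N') {A : ValuationSubring Qb} {h : Fb N} {h' : Fb N'}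
    (hh : (h' : LaurentSeries Qb) = (h : LaurentSeries Qb)) (H : GaussOne N A h) :
    GaussOne N' A h' := by
  obtain ⟨U, V, hU, hV, hred, hne, heq⟩ := H
  exact ⟨U, V, hle hU, hle hV, hred, hne, by rw [hh]; exact heq⟩

end Transport

/-! ### The level-raising inclusion and the swap -/

section Lower

variable (M ℓ r : ℕ) [NeZero M] [NeZero ℓ] [NeZero r]

/-- The inclusion `Fb (M ℓ) ⊆ Fb (M r ℓ)`. -/
noncomputable def incl : Fb (M * ℓ) →ₐ[Qb] Fb (M * r * ℓ) :=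
  IntermediateField.inclusion
    (fb_le_of_eq (N := M * ℓ) (N' := M * r * ℓ) (r := r) (Nat.mul_right_comm M r ℓ))

theorem coe_incl (x : Fb (M * ℓ)) :
    ((incl M ℓ r x : Fb (M * r * ℓ)) : LaurentSeries Qb) = (x : LaurentSeries Qb) :=
  IntermediateField.coe_inclusion _ x

/-- The chosen Atkin–Lehner swaps at the levels `M ℓ` and `M r ℓ` are compatible with the
inclusion. -/
theorem wAL_incl (hℓ : ℓ.Prime) (hℓM : ¬ ℓ ∣ M) (hℓMr : ¬ ℓ ∣ M * r) (x : Fb (M * ℓ)) :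
    wAL (M * r) ℓ hℓ hℓMr (incl M ℓ r x) = incl M ℓ r (wAL M ℓ hℓ hℓM x) := by
  have key := Fermat.Agent.S34.Modular.SwapE.ringHom_ext (L := Qb) M ℓ hℓ
    ((((wAL (M * r) ℓ hℓ hℓMr : Fb (M * r * ℓ) ≃ₐ[Qb] Fb (M * r * ℓ)) :
        Fb (M * r * ℓ) →ₐ[Qb] Fb (M * r * ℓ)).comp (incl M ℓ r) :
        Fb (M * ℓ) →ₐ[Qb] Fb (M * r * ℓ)) : Fb (M * ℓ) →+* Fb (M * r * ℓ))
    (((incl M ℓ r).comp ((wAL M ℓ hℓ hℓM : Fb (M * ℓ) ≃ₐ[Qb] Fb (M * ℓ)) :
        Fb (M * ℓ) →ₐ[Qb] Fb (M * ℓ)) :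
        Fb (M * ℓ) →ₐ[Qb] Fb (M * r * ℓ)) : Fb (M * ℓ) →+* Fb (M * r * ℓ))
    (fun c => ?_) (fun f => ?_) (fun f => ?_)
  · exact congrArg (fun φ : Fb (M * ℓ) →+* Fb (M * r * ℓ) => φ x) key
  · show wAL (M * r) ℓ hℓ hℓMr (incl M ℓ r (algebraMap Qb (Fb (M * ℓ)) c))
      = incl M ℓ r (wAL M ℓ hℓ hℓM (algebraMap Qb (Fb (M * ℓ)) c))
    rw [AlgHom.commutes, AlgEquiv.commutes, AlgEquiv.commutes, AlgHom.commutes]
  · show wAL (M * r) ℓ hℓ hℓMr (incl M ℓ r (heckeAlphaBar Qb M ℓ f))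
      = incl M ℓ r (wAL M ℓ hℓ hℓM (heckeAlphaBar Qb M ℓ f))
    have e1 : incl M ℓ r (heckeAlphaBar Qb M ℓ f)
        = heckeAlphaBar Qb (M * r) ℓ (heckeAlphaBar Qb M r f) := by
      apply Subtype.ext
      rw [coe_incl, coe_heckeAlphaBar, coe_heckeAlphaBar, coe_heckeAlphaBar]
    rw [e1, wAL_alpha, wAL_alpha]
    apply Subtype.ext
    rw [coe_incl, coe_heckeBetaBar, coe_heckeBetaBar, coe_heckeAlphaBar]
  · show wAL (M * r) ℓ hℓ hℓMr (incl M ℓ r (heckeBetaBar Qb M ℓ f))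
      = incl M ℓ r (wAL M ℓ hℓ hℓM (heckeBetaBar Qb M ℓ f))
    have e1 : incl M ℓ r (heckeBetaBar Qb M ℓ f)
        = heckeBetaBar Qb (M * r) ℓ (heckeAlphaBar Qb M r f) := by
      apply Subtype.ext
      rw [coe_incl, coe_heckeBetaBar, coe_heckeBetaBar, coe_heckeAlphaBar]
    rw [e1, wAL_beta, wAL_beta]
    apply Subtype.ext
    rw [coe_incl, coe_heckeAlphaBar, coe_heckeAlphaBar, coe_heckeAlphaBar]

/-- **Level lowering for `HSwapAt`**: `r ∤ M ℓ` prime, `m` prime to `r + 1`. -/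
theorem hswapAt_of_mul (hℓ : ℓ.Prime) (hℓM : ¬ ℓ ∣ M) (hℓMr : ¬ ℓ ∣ M * r) (hr : r.Prime)
    (hrN : ¬ r ∣ M * ℓ) (A : ValuationSubring Qb) (σ : Gq) {m : ℕ}
    (hmr : Nat.Coprime m (r + 1)) (H : HSwapAt (M * r) ℓ hℓ hℓMr A σ m) :
    HSwapAt M ℓ hℓ hℓM A σ m := by
  intro h htor hdiv
  have hle : Fb (M * ℓ) ≤ Fb (M * r * ℓ) :=
    fb_le_of_eq (N := M * ℓ) (N' := M * r * ℓ) (r := r) (Nat.mul_right_comm M r ℓ)
  have htor' : IsToric (M * r * ℓ) A (wAL (M * r) ℓ hℓ hℓMr).toRingEquiv (incl M ℓ r h) := by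
    refine ⟨gaussOne_of_le hle (coe_incl M ℓ r h) htor.1, ?_⟩
    show GaussOne (M * r * ℓ) A (wAL (M * r) ℓ hℓ hℓMr (incl M ℓ r h))
    rw [wAL_incl M ℓ r hℓ hℓM hℓMr]
    exact gaussOne_of_le hle (coe_incl M ℓ r _) htor.2
  have hdiv' : DivBy (M * r * ℓ) m (incl M ℓ r h) :=
    divBy_of_eq (Nat.mul_right_comm M r ℓ) h _ (coe_incl M ℓ r h) hdiv
  obtain ⟨k, hk⟩ := H _ htor' hdiv'
  rw [wAL_incl M ℓ r hℓ hℓM hℓMr] at hk
  have hk' := congrArg (fun z : Fb (M * r * ℓ) => (z : LaurentSeries Qb)) hk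
  simp only [IntermediateField.coe_mul, IntermediateField.coe_pow, coe_gal, coe_incl] at hk'
  refine exists_pow_of_eq (Nat.mul_right_comm M r ℓ) hr hrN hmr
    (gal (M * ℓ) σ (wAL M ℓ hℓ hℓM h) * h ^ ℓ) k ?_
  rw [IntermediateField.coe_mul, IntermediateField.coe_pow, coe_gal]
  exact hk'.symm

end Lower

/-- **`HSwapAt` at the level `M ℓ` from `HSwapAt` at auxiliary levels.**  For `ℓ ∤ m`: it
suffices to know `HSwapAt M' ℓ` at the `M'` prime to `ℓ` such that `2 ∣ M'` if `ℓ = 3` and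
`3 ∣ M'` if `ℓ = 2`. -/
theorem hswapAt_of_aux {M ℓ : ℕ} [NeZero M] [NeZero ℓ] (hℓ : ℓ.Prime) (hℓM : ¬ ℓ ∣ M)
    (A : ValuationSubring Qb) (σ : Gq) {m : ℕ} (hℓm : ¬ ℓ ∣ m)
    (hF : ∀ (M' : ℕ) [NeZero M'] (hℓM' : ¬ ℓ ∣ M'), (ℓ = 3 → 2 ∣ M') → (ℓ = 2 → 3 ∣ M') →
      HSwapAt M' ℓ hℓ hℓM' A σ m) :
    HSwapAt M ℓ hℓ hℓM A σ m := by
  by_cases h3 : ℓ = 3
  · by_cases h2M : 2 ∣ M
    · exact hF M hℓM (fun _ => h2M) (fun h => absurd (h3.symm.trans h) (by norm_num))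
    · have hℓMr : ¬ ℓ ∣ M * 2 := by
        rw [hℓ.dvd_mul]
        rintro (h | h)
        · exact hℓM h
        · rw [h3] at h; omega
      have hrN : ¬ 2 ∣ M * ℓ := by
        rw [Nat.prime_two.dvd_mul]
        rintro (h | h)
        · exact h2M h
        · rw [h3] at h; omega
      have hmr : Nat.Coprime m (2 + 1) := by
        rw [h3] at hℓm
        exact ((Nat.Prime.coprime_iff_not_dvd Nat.prime_three).mpr hℓm).symm
      exact hswapAt_of_mul M ℓ 2 hℓ hℓM hℓMr Nat.prime_two hrN A σ hmr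
        (hF (M * 2) hℓMr (fun _ => dvd_mul_left 2 M)
          (fun h => absurd (h3.symm.trans h) (by norm_num)))
  · by_cases h2 : ℓ = 2
    · by_cases h3M : 3 ∣ M
      · exact hF M hℓM (fun h => absurd h h3) (fun _ => h3M)
      · have hℓMr : ¬ ℓ ∣ M * 3 := by
          rw [hℓ.dvd_mul]
          rintro (h | h)
          · exact hℓM h
          · rw [h2] at h; omega
        have hrN : ¬ 3 ∣ M * ℓ := by
          rw [Nat.prime_three.dvd_mul]
          rintro (h | h)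
          · exact h3M h
          · rw [h2] at h; omega
        have hmr : Nat.Coprime m (3 + 1) := by
          rw [h2] at hℓm
          have h4 : Nat.Coprime m 2 :=
            ((Nat.Prime.coprime_iff_not_dvd Nat.prime_two).mpr hℓm).symm
          exact Nat.Coprime.pow_right 2 h4
        exact hswapAt_of_mul M ℓ 3 hℓ hℓM hℓMr Nat.prime_three hrN A σ hmr
          (hF (M * 3) hℓMr (fun h => absurd h h3) (fun _ => dvd_mul_left 3 M))
    · exact hF M hℓM (fun h => absurd h h3) (fun h => absurd h h2)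

end Fermat.Agent.S35.AuxFrob
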