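/-
PROGRAM U / S35, brick `EigenNormalize` (helper63): the Hecke eigensystem of a NEWFORM does not
occur at a proper divisor level.

* `exists_common_eigenvector` : a commuting family of endomorphisms of a finite-dimensional
  space over an algebraically closed field has a common eigenvector in every nonzero stable
  subspace.
* `exists_isNormalizedEigenform` (A): a nonzero cusp form which is an eigenvector of the `T_ℓ`
  for the primes `ℓ ∤ N` of a set `P` only, can be replaced by a Prelude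
  `IsNormalizedEigenform` with the same eigenvalues at those primes.
* `eq_zero_of_isNewform` (B): if `g` is a newform of level `M` and `M' ∣ M`, `M' ≠ M`, then no
  nonzero cusp form of level `M'` has the `T_ℓ`-eigenvalues `a_ℓ(g)` for all primes `ℓ ∤ M`.
-/
import Mathlib
import Fermat.Prelude.Def_CuspForm_Newforms
import Fermat.Prelude.Def_CuspForm_HeckeAlgebra
import Fermat.Agent.S49.Eigenvector
import Fermat.Agent.S23.FinDim

set_option autoImplicit false

open CongruenceSubgroup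

namespace Fermat.Agent.S35.EigenNormalize

section Common

variable {K V : Type*} [Field K] [IsAlgClosed K] [AddCommGroup V] [Module K V]
  [FiniteDimensional K V]

/-- A commuting family of endomorphisms has a common eigenvector in every nonzero stable
subspace. -/
theorem exists_common_eigenvector (G : Set (Module.End K V))
    (hcomm : ∀ a ∈ G, ∀ b ∈ G, Commute a b) :
    ∀ (n : ℕ) (W : Submodule K V), Module.finrank K W = n → W ≠ ⊥ →
      (∀ a ∈ G, ∀ w ∈ W, a w ∈ W) →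
      ∃ v ∈ W, v ≠ 0 ∧ ∀ a ∈ G, ∃ μ : K, a v = μ • v := by
  intro n
  induction n using Nat.strong_induction_on with
  | _ n ih =>
  intro W hn hW hst
  by_cases hscal : ∀ a ∈ G, ∃ μ : K, ∀ w ∈ W, a w = μ • w
  · obtain ⟨v, hvW, hv0⟩ := (Submodule.ne_bot_iff W).1 hW
    exact ⟨v, hvW, hv0, fun a ha => (hscal a ha).imp fun μ hμ => hμ v hvW⟩
  · push Not at hscal
    obtain ⟨a, ha, hna⟩ := hscal
    have : Nontrivial W := (Submodule.nontrivial_iff_ne_bot).2 hW
    obtain ⟨μ, hμ⟩ := Module.End.exists_eigenvalue (a.restrict (hst a ha))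
    obtain ⟨⟨x, hxW⟩, hx⟩ := hμ.exists_hasEigenvector
    have hx0 : x ≠ 0 := fun h => hx.2 (Subtype.ext h)
    have hxe : a x = μ • x := by
      have := hx.apply_eq_smul
      exact congrArg Subtype.val this
    let W' : Submodule K V := W ⊓ LinearMap.ker (a - μ • (1 : Module.End K V))
    have hmem : ∀ w : V, w ∈ W' ↔ w ∈ W ∧ a w = μ • w := by
      intro w
      simp only [W', Submodule.mem_inf, LinearMap.mem_ker, LinearMap.sub_apply,
        LinearMap.smul_apply, Module.End.one_apply, sub_eq_zero]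
    have hW'ne : W' ≠ ⊥ := fun h => hx0 ((Submodule.mem_bot K).1 (h ▸ (hmem x).2 ⟨hxW, hxe⟩))
    have hW'lt : W' < W := by
      refine lt_of_le_of_ne inf_le_left fun h => ?_
      obtain ⟨w, hw, hne⟩ := hna μ
      exact hne ((hmem w).1 (h ▸ hw)).2
    have hfin : Module.finrank K W' < n := hn ▸ Submodule.finrank_lt_finrank_of_lt hW'lt
    have hst' : ∀ b ∈ G, ∀ w ∈ W', b w ∈ W' := by
      intro b hb w hw
      rw [hmem] at hw ⊢
      refine ⟨hst b hb w hw.1, ?_⟩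
      have hc : a (b w) = b (a w) := congrArg (fun f => f w) (hcomm a ha b hb).eq
      rw [hc, hw.2, map_smul]
    obtain ⟨v, hv, hv0, hv'⟩ := ih _ hfin W' rfl hW'ne hst'
    exact ⟨v, ((hmem v).1 hv).1, hv0, hv'⟩

end Common

/-- **(A)** A nonzero cusp form of level `N` which is an eigenvector of `T_ℓ` with eigenvalue
`c ℓ` for every prime `ℓ ∤ N` in `P`, yields a normalised eigenform of level `N` whose `ℓ`-th
coefficient is `c ℓ` for those primes. -/
theorem exists_isNormalizedEigenform {N : ℕ} [NeZero N] (P : Set ℕ) (c : ℕ → ℂ)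
    (v : CuspForm (Gamma0 N) 2) (hv : v ≠ 0)
    (hT : ∀ (ℓ : ℕ) (hℓ : ℓ.Prime) (hℓN : ¬ ℓ ∣ N), ℓ ∈ P →
      CuspForm.heckeTLin 2 hℓ hℓN v = c ℓ • v) :
    ∃ f : CuspForm (Gamma0 N) 2, f.IsNormalizedEigenform ∧
      ∀ ℓ : ℕ, ℓ.Prime → ¬ ℓ ∣ N → ℓ ∈ P → ModularFormClass.qCoeff f ℓ = c ℓ := by
  classical
  have : FiniteDimensional ℂ (CuspForm (Gamma0 N) 2) :=
    Fermat.Agent.S23.FinDim.finiteDimensional_cuspForm N 2
  -- the joint eigenspace
  let E : Submodule ℂ (CuspForm (Gamma0 N) 2) :=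
    { carrier := {w | ∀ (ℓ : ℕ) (hℓ : ℓ.Prime) (hℓN : ¬ ℓ ∣ N), ℓ ∈ P →
        CuspForm.heckeTLin 2 hℓ hℓN w = c ℓ • w}
      add_mem' := fun {x y} hx hy ℓ hℓ hℓN hℓP => by
        rw [map_add, hx ℓ hℓ hℓN hℓP, hy ℓ hℓ hℓN hℓP, smul_add]
      zero_mem' := fun ℓ hℓ hℓN _ => by rw [map_zero, smul_zero]
      smul_mem' := fun a x hx ℓ hℓ hℓN hℓP => by
        rw [map_smul, hx ℓ hℓ hℓN hℓP, smul_comm] }
  have hvE : v ∈ E := hT
  have hE : E ≠ ⊥ := fun h => hv ((Submodule.mem_bot ℂ).1 (h ▸ hvE))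
  have hst : ∀ a ∈ CuspForm.heckeGenerators N 2 (∅ : Set ℕ), ∀ w ∈ E, a w ∈ E := by
    intro a ha w hw ℓ hℓ hℓN hℓP
    have hc := CuspForm.commute_of_mem_heckeGenerators
      (CuspForm.heckeTLin_mem_heckeGenerators (k := 2) hℓ hℓN (Set.notMem_empty ℓ)) ha
    have h1 : CuspForm.heckeTLin 2 hℓ hℓN (a w) = a (CuspForm.heckeTLin 2 hℓ hℓN w) :=
      congrArg (fun f => f w) hc.eq
    rw [h1, hw ℓ hℓ hℓN hℓP, map_smul]
  obtain ⟨w, hwE, hw0, hw⟩ := exists_common_eigenvector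
    (CuspForm.heckeGenerators N 2 (∅ : Set ℕ))
    (fun a ha b hb => CuspForm.commute_of_mem_heckeGenerators ha hb) _ E rfl hE hst
  choose! μ hμ using hw
  -- the eigenvalues of `w`
  let d : ℕ → ℂ := fun ℓ =>
    if h : ℓ.Prime ∧ ¬ ℓ ∣ N then μ (CuspForm.heckeTLin 2 h.1 h.2)
    else if h' : ℓ ∣ N then μ (CuspForm.heckeULin 2 h') else 0
  have hdT : ∀ (ℓ : ℕ) (hℓ : ℓ.Prime) (hℓN : ¬ ℓ ∣ N),
      CuspForm.heckeTLin 2 hℓ hℓN w = d ℓ • w := by
    intro ℓ hℓ hℓN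
    have hd : d ℓ = μ (CuspForm.heckeTLin 2 hℓ hℓN) := dif_pos ⟨hℓ, hℓN⟩
    rw [hd]
    exact hμ _ (CuspForm.heckeTLin_mem_heckeGenerators hℓ hℓN (Set.notMem_empty ℓ))
  have hdU : ∀ (q : ℕ) (_ : q.Prime) (hqN : q ∣ N),
      CuspForm.heckeULin 2 hqN w = d q • w := by
    intro q hq hqN
    have hd : d q = μ (CuspForm.heckeULin 2 hqN) := by
      show (if h : q.Prime ∧ ¬ q ∣ N then μ (CuspForm.heckeTLin 2 h.1 h.2)
        else if h' : q ∣ N then μ (CuspForm.heckeULin 2 h') else 0) = _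
      rw [dif_neg (fun h => h.2 hqN), dif_pos hqN]
    rw [hd]
    exact hμ _ (CuspForm.heckeULin_mem_heckeGenerators hq hqN (Set.notMem_empty q))
  obtain ⟨f, hf, hfc⟩ :=
    Fermat.Agent.S49.Eigenvector.exists_normalized_eigenform w hw0 d hdT hdU
  refine ⟨f, hf, fun ℓ hℓ hℓN hℓP => ?_⟩
  rw [hfc ℓ hℓ]
  have h1 := hdT ℓ hℓ hℓN
  rw [hwE ℓ hℓ hℓN hℓP] at h1
  exact (smul_left_injective ℂ hw0 h1).symm

/-- **(B)** The eigensystem of a newform of level `M` does not occur in the cusp forms of a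
proper divisor level `M'`. -/
theorem eq_zero_of_isNewform {M : ℕ} [NeZero M] {g : CuspForm (Gamma0 M) 2} (hg : g.IsNewform)
    {M' : ℕ} (hM' : M' ∣ M) (hne : M' ≠ M) (v : CuspForm (Gamma0 M') 2)
    (hT : ∀ (ℓ : ℕ) (hℓ : ℓ.Prime) (hℓM : ¬ ℓ ∣ M),
      CuspForm.heckeTLin 2 hℓ (fun h => hℓM (h.trans hM')) v =
        ModularFormClass.qCoeff g ℓ • v) : v = 0 := by
  by_contra hv
  have : NeZero M' := ⟨fun h => NeZero.ne M (by rw [h] at hM'; exact Nat.eq_zero_of_zero_dvd hM')⟩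
  obtain ⟨f, hf, hfc⟩ := exists_isNormalizedEigenform {ℓ | ¬ ℓ ∣ M}
    (fun ℓ => ModularFormClass.qCoeff g ℓ) v hv (fun ℓ hℓ _ hℓP => hT ℓ hℓ hℓP)
  exact hg.2 M' hM' hne ⟨f, hf, fun ℓ hℓ hℓM => hfc ℓ hℓ (fun h => hℓM (h.trans hM')) hℓM⟩

end Fermat.Agent.S35.EigenNormalize
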