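/-
PROGRAM U / S35, brick `S35.cocc` (helper84): Hecke eigen-characters of the Betti group
`A = Γ₀(N)^ab / ⟨parabolic, elliptic⟩` come from cusp forms.

* `exists_eigenform` : a nonzero `φ : AN N →+ ℂ` with `φ ∘ τ_ℓ = c ℓ • φ` for the primes `ℓ ∤ N`
  of a set `S` yields a nonzero cusp form `v` of level `N` with `T_ℓ v = c ℓ • v` for those
  primes.
* `exists_isNormalizedEigenform` : the same, normalised (helper63's `EigenNormalize`).
* `cocc_of_coords` : the matrix form for a dual coordinate system `(a, e)` of `AN N` and the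
  Hecke matrices `BettiLimit.tmat a e (tau N) ℓ` — the field `cocc` of `S35.SSData`.

Proof: the Prelude map `periodHomPair N (f, g) = (1 + J) P f + (1 - J) P g` (`P` the period
map, `J` the involution `γ ↦ diag(1,-1) γ diag(1,-1)` on characters) is `ℂ`-linear, injective
and onto the parabolic characters (landed S21).  The Hecke correspondence commutes with `J`
(`BettiHecke.tHom_charInvolution`) and `P (T_ℓ f) = tHom (P f)` (`BettiHecke.tHom_periodMap`).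
So `φ ∘ proj = pair (f, g)` gives `pair (T_ℓ f, T_ℓ g) = pair (c ℓ • f, c ℓ • g)` and
injectivity finishes; `(f, g) ≠ 0` because `φ ≠ 0`.  No anti-holomorphic form is needed.
-/
import Mathlib
import Fermat.Agent.S21
import Fermat.Agent.S30.Producer.BettiABricks
import Fermat.Agent.S30.BettiHecke.Involution
import Fermat.Agent.S30.BettiHecke.Period
import Fermat.Agent.S30.BettiLimit
import Fermat.Agent.S35.EigenNormalize

set_option autoImplicit false

namespace Fermat.Agent.S35.Cocc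

open CongruenceSubgroup ModularCurve ModularCurve.Period
open scoped MatrixGroups
open Fermat.Agent.S30 Fermat.Agent.S30.Producer Fermat.Agent.S30.BettiHecke

variable (N : ℕ) [NeZero N]

omit [NeZero N] in
/-- The pull-back to `Γ₀(N)` of a character of `AN N` is a parabolic character. -/
theorem comp_proj_mem_parabolicHoms (φ : AN N →+ ℂ) :
    φ.comp (proj N) ∈ parabolicHoms ℂ (Gamma0 N) ℂ := by
  rw [mem_parabolicHoms_iff]
  intro γ hγ
  show φ (proj N (Additive.ofMul γ)) = 0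
  rw [proj_parEll (mem_parEll.mpr (le_of_eq hγ)), map_zero]

omit [NeZero N] in
/-- `φ ∘ τ_ℓ`, pulled back to `Γ₀(N)`, is the cohomological Hecke operator of `φ ∘ proj`. -/
theorem comp_tau_comp_proj {ℓ : ℕ} [NeZero ℓ] (hℓ : ℓ.Prime) (hℓN : ¬ ℓ ∣ N) (φ : AN N →+ ℂ) :
    (φ.comp (tau N ℓ)).comp (proj N) = tHom ℂ hℓ hℓN (φ.comp (proj N)) := by
  rw [tHom_comp]
  refine AddMonoidHom.ext fun γ => ?_
  show φ (tau N ℓ (proj N γ)) = φ (tHom (AN N) hℓ hℓN (proj N) γ)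
  rw [tau_proj N hℓ hℓN (BettiABricks.tHomParEll N ℓ hℓ hℓN)]
  rfl

/-- Hecke equivariance of `periodHomPair`. -/
theorem tHom_periodHomPair {ℓ : ℕ} [NeZero ℓ] (hℓ : ℓ.Prime) (hℓN : ¬ ℓ ∣ N)
    (f g : CuspForm (Gamma0 N) 2) :
    tHom ℂ hℓ hℓN (periodHomPair N (f, g))
      = periodHomPair N (CuspForm.heckeTLin 2 hℓ hℓN f, CuspForm.heckeTLin 2 hℓ hℓN g) := by
  rw [Fermat.Agent.S21.periodHomPair_apply, Fermat.Agent.S21.periodHomPair_apply, map_add,
    map_add, map_sub, tHom_charInvolution, tHom_charInvolution, tHom_periodMap, tHom_periodMap]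

/-- **Eigen-characters of `AN N` come from cusp forms.** -/
theorem exists_eigenform (S : Set ℕ) (c : ℕ → ℂ) (φ : AN N →+ ℂ) (hφ : φ ≠ 0)
    (h : ∀ ℓ : ℕ, ℓ.Prime → ¬ ℓ ∣ N → ℓ ∈ S → φ.comp (tau N ℓ) = c ℓ • φ) :
    ∃ v : CuspForm (Gamma0 N) 2, v ≠ 0 ∧
      ∀ (ℓ : ℕ) (hℓ : ℓ.Prime) (hℓN : ¬ ℓ ∣ N), ℓ ∈ S →
        CuspForm.heckeTLin 2 hℓ hℓN v = c ℓ • v := by
  obtain ⟨hinj, hrange⟩ := Fermat.Agent.S21.result N
  have hmem : φ.comp (proj N) ∈ LinearMap.range (periodHomPair N) := by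
    rw [hrange]
    exact comp_proj_mem_parabolicHoms N φ
  obtain ⟨⟨f, g⟩, hfg⟩ := hmem
  have key : ∀ (ℓ : ℕ) (hℓ : ℓ.Prime) (hℓN : ¬ ℓ ∣ N), ℓ ∈ S →
      CuspForm.heckeTLin 2 hℓ hℓN f = c ℓ • f ∧ CuspForm.heckeTLin 2 hℓ hℓN g = c ℓ • g := by
    intro ℓ hℓ hℓN hℓS
    have : NeZero ℓ := ⟨hℓ.ne_zero⟩
    have h1 : periodHomPair N (CuspForm.heckeTLin 2 hℓ hℓN f, CuspForm.heckeTLin 2 hℓ hℓN g)
        = periodHomPair N (c ℓ • (f, g)) := by
      rw [← tHom_periodHomPair N hℓ hℓN f g, hfg, ← comp_tau_comp_proj N hℓ hℓN φ,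
        h ℓ hℓ hℓN hℓS, map_smul, hfg]
      rfl
    have h2 := hinj h1
    rw [Prod.smul_mk] at h2
    exact ⟨congrArg Prod.fst h2, congrArg Prod.snd h2⟩
  have hne : f ≠ 0 ∨ g ≠ 0 := by
    by_contra hcon
    push Not at hcon
    apply hφ
    apply hom_ext
    intro γ
    have h3 : φ.comp (proj N) = 0 := by
      rw [← hfg, hcon.1, hcon.2]
      exact map_zero (periodHomPair N)
    exact DFunLike.congr_fun h3 (Additive.ofMul γ)
  rcases hne with hf | hg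
  · exact ⟨f, hf, fun ℓ hℓ hℓN hℓS => (key ℓ hℓ hℓN hℓS).1⟩
  · exact ⟨g, hg, fun ℓ hℓ hℓN hℓS => (key ℓ hℓ hℓN hℓS).2⟩

/-- Normalised form: an eigen-character of `AN N` for the primes `ℓ ∤ N` of `S` gives a
normalised eigenform of level `N` with `a_ℓ = c ℓ` at those primes. -/
theorem exists_isNormalizedEigenform (S : Set ℕ) (c : ℕ → ℂ) (φ : AN N →+ ℂ) (hφ : φ ≠ 0)
    (h : ∀ ℓ : ℕ, ℓ.Prime → ¬ ℓ ∣ N → ℓ ∈ S → φ.comp (tau N ℓ) = c ℓ • φ) :
    ∃ g' : CuspForm (Gamma0 N) 2, g'.IsNormalizedEigenform ∧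
      ∀ ℓ : ℕ, ℓ.Prime → ¬ ℓ ∣ N → ℓ ∈ S → ModularFormClass.qCoeff g' ℓ = c ℓ := by
  obtain ⟨v, hv, hT⟩ := exists_eigenform N S c φ hφ h
  exact Fermat.Agent.S35.EigenNormalize.exists_isNormalizedEigenform S c v hv hT

/-- The character of `AN N` with coordinates `v` in a dual coordinate system. -/
noncomputable def charOf {r : ℕ} (e : Fin r → (AN N →+ ℤ)) (v : Fin r → ℂ) : AN N →+ ℂ :=
  ∑ j, (AddMonoidHom.mulLeft (v j)).comp ((Int.castAddHom ℂ).comp (e j))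

omit [NeZero N] in
theorem charOf_apply {r : ℕ} (e : Fin r → (AN N →+ ℤ)) (v : Fin r → ℂ) (x : AN N) :
    charOf N e v x = ∑ j, v j * (e j x : ℂ) := by
  unfold charOf
  rw [AddMonoidHom.finsetSum_apply]
  rfl

/-- **Matrix form** for a dual coordinate system `(a, e)` of `AN N` (as exposed by
`UniLimit.exists_esData_spec`): an eigenvector of the Hecke matrices `tmat a e (tau N) ℓ`
(primes `ℓ ∤ N` of `S`) gives a normalised eigenform of level `N`. -/
theorem exists_isNormalizedEigenform_of_coords {r : ℕ} (a : Fin r → AN N)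
    (e : Fin r → (AN N →+ ℤ)) (hdual : ∀ i j, e j (a i) = if i = j then 1 else 0)
    (hexp : ∀ (ψ : AN N →+ ℂ) (x : AN N), ψ x = ∑ i, e i x • ψ (a i))
    (S : Set ℕ) (c : ℕ → ℂ) (v : Fin r → ℂ) (hv : v ≠ 0)
    (h : ∀ ℓ : ℕ, ℓ.Prime → ¬ ℓ ∣ N → ℓ ∈ S →
      ((BettiLimit.tmat a e (tau N) ℓ).map (Int.castRingHom ℂ)).mulVec v = c ℓ • v) :
    ∃ g' : CuspForm (Gamma0 N) 2, g'.IsNormalizedEigenform ∧
      ∀ ℓ : ℕ, ℓ.Prime → ¬ ℓ ∣ N → ℓ ∈ S → ModularFormClass.qCoeff g' ℓ = c ℓ := by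
  classical
  have hval : ∀ i, charOf N e v (a i) = v i := by
    intro i
    rw [charOf_apply]
    simp only [hdual]
    rw [Finset.sum_eq_single i]
    · simp
    · intro j _ hji
      rw [if_neg (Ne.symm hji)]
      simp
    · intro hi
      exact absurd (Finset.mem_univ i) hi
  have hφ : charOf N e v ≠ 0 := by
    intro h0
    apply hv
    funext i
    rw [← hval i, h0]
    rfl
  refine exists_isNormalizedEigenform N S c (charOf N e v) hφ fun ℓ hℓ hℓN hℓS => ?_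
  refine AddMonoidHom.ext fun x => ?_
  rw [hexp ((charOf N e v).comp (tau N ℓ)) x, hexp (c ℓ • charOf N e v) x]
  refine Finset.sum_congr rfl fun i _ => ?_
  congr 1
  show charOf N e v (tau N ℓ (a i)) = c ℓ • charOf N e v (a i)
  rw [hval i, charOf_apply]
  have h1 := congrFun (h ℓ hℓ hℓN hℓS) i
  rw [Pi.smul_apply] at h1
  rw [← h1]
  simp only [Matrix.mulVec, dotProduct, Matrix.map_apply, BettiLimit.tmat_apply,
    Int.coe_castRingHom]
  exact Finset.sum_congr rfl fun j _ => mul_comm _ _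

/-- **The field `cocc` of `S35.SSData`**: level `M / q`, eigen-equations at the primes
`ℓ ∤ M`. -/
theorem cocc_of_coords {M q : ℕ} (hq : q ∣ M) [NeZero (M / q)] {r : ℕ}
    (a : Fin r → AN (M / q)) (e : Fin r → (AN (M / q) →+ ℤ))
    (hdual : ∀ i j, e j (a i) = if i = j then 1 else 0)
    (hexp : ∀ (ψ : AN (M / q) →+ ℂ) (x : AN (M / q)), ψ x = ∑ i, e i x • ψ (a i))
    (c : ℕ → ℂ) (v : Fin r → ℂ) (hv : v ≠ 0)
    (h : ∀ ℓ : ℕ, ℓ.Prime → ¬ ℓ ∣ M →
      ((BettiLimit.tmat a e (tau (M / q)) ℓ).map (Int.castRingHom ℂ)).mulVec v = c ℓ • v) :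
    ∃ g' : CuspForm (Gamma0 (M / q)) 2, g'.IsNormalizedEigenform ∧
      ∀ ℓ : ℕ, ℓ.Prime → ¬ ℓ ∣ M → ModularFormClass.qCoeff g' ℓ = c ℓ := by
  have hdvd : M / q ∣ M := Nat.div_dvd_of_dvd hq
  obtain ⟨g', hg', hc⟩ := exists_isNormalizedEigenform_of_coords (M / q) a e hdual hexp
    {ℓ | ¬ ℓ ∣ M} c v hv (fun ℓ hℓ _ hℓM => h ℓ hℓ hℓM)
  exact ⟨g', hg', fun ℓ hℓ hℓM => hc ℓ hℓ (fun hd => hℓM (hd.trans hdvd)) hℓM⟩

end Fermat.Agent.S35.Cocc
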