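/-
S35 PRODUCER CONTRACT (helper94).

`SSData M p` = an `ESData M p` whose Hecke matrices are the true ones at EVERY prime `ℓ ∤ M`
(including `ℓ = p`), together with, for every prime `q ∥ M`, `q ≠ p` (`SSPrime M p q`):

* `w q`  : the Atkin–Lehner involution `W_q` on the lattice (integer matrix);
* `r' q`, `t' q ℓ`, `n q` : the level-`M/q` lattice, its Hecke matrices, and the trace (norm)
  map `N_β` from level `M` to level `M/q`;
* `cocc` : every Hecke eigenvector of the level-`M/q` lattice comes from a normalised eigenform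
  of level `M/q` (Eichler–Shimura onto parabolic classes, S21);
* `rel`  : THE SEMISTABLE RELATION.  On the `q`-new part `ker n ∩ ker (n w)` of the `p`-adic
  lattice every Frobenius lift `σ` at `q` satisfies `(σ + q W)(σ + W) = 0`.

`Fermat/Agent/S35/Wiring.lean` proves the statement of S35 from `Nonempty (SSData M p)` and the
engine bricks.  No field mentions a function field, a valuation or a curve.
-/
import Mathlib
import Fermat.Agent.S30.Defs
import Fermat.Prelude.Def_CuspForm_Newforms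

set_option autoImplicit false

namespace Fermat.Agent.S35

open Fermat.Agent.S30

/-- `q` is a prime exactly dividing `M`, different from `p`. -/
def SSPrime (M p q : ℕ) : Prop := q.Prime ∧ q ∣ M ∧ ¬ q ^ 2 ∣ M ∧ q ≠ p

/-- The semistable producer contract for level `M` and the prime `p`. -/
structure SSData (M p : ℕ) [NeZero M] [Fact p.Prime] where
  /-- the underlying Eichler–Shimura data -/
  D : ESData M p
  /-- the cusp forms occur, Hecke-equivariantly at ALL primes `ℓ ∤ M` (including `ℓ = p`) -/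
  occ' : ∃ Φ : CuspForm (CongruenceSubgroup.Gamma0 M) 2 →ₗ[ℂ] (Fin D.r → ℂ),
    Function.Injective Φ ∧
      ∀ (ℓ : ℕ) (hℓ : ℓ.Prime) (hℓM : ¬ ℓ ∣ M) (f : CuspForm (CongruenceSubgroup.Gamma0 M) 2),
        Φ (CuspForm.heckeTLin 2 hℓ hℓM f) = ((D.t ℓ).map (Int.castRingHom ℂ)).mulVec (Φ f)
  /-- the Atkin–Lehner involutions -/
  w : ℕ → Matrix (Fin D.r) (Fin D.r) ℤ
  /-- rank of the level-`M/q` lattice -/
  r' : ℕ → ℕ
  /-- Hecke matrices of the level-`M/q` lattice -/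
  t' : (q : ℕ) → ℕ → Matrix (Fin (r' q)) (Fin (r' q)) ℤ
  /-- the trace map from level `M` to level `M/q` -/
  n : (q : ℕ) → Matrix (Fin (r' q)) (Fin D.r) ℤ
  w_sq : ∀ q : ℕ, SSPrime M p q → w q * w q = 1
  w_comm : ∀ q q' : ℕ, SSPrime M p q → SSPrime M p q' → Commute (w q) (w q')
  w_t : ∀ q : ℕ, SSPrime M p q → ∀ ℓ : ℕ, ℓ.Prime → ¬ ℓ ∣ M → Commute (w q) (D.t ℓ)
  w_ρ : ∀ q : ℕ, SSPrime M p q → ∀ σ : GQ,
    Commute (D.ρ σ) ((w q).map (Int.castRingHom ℤ_[p]))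
  t'_comm : ∀ q : ℕ, SSPrime M p q → ∀ ℓ ℓ' : ℕ, ℓ.Prime → ¬ ℓ ∣ M → ℓ'.Prime → ¬ ℓ' ∣ M →
    Commute (t' q ℓ) (t' q ℓ')
  n_t : ∀ q : ℕ, SSPrime M p q → ∀ ℓ : ℕ, ℓ.Prime → ¬ ℓ ∣ M → n q * D.t ℓ = t' q ℓ * n q
  /-- eigenvectors of the level-`M/q` lattice come from normalised eigenforms of level `M/q` -/
  cocc : ∀ q : ℕ, SSPrime M p q → ∀ (c : ℕ → ℂ) (v : Fin (r' q) → ℂ), v ≠ 0 →
    (∀ ℓ : ℕ, ℓ.Prime → ¬ ℓ ∣ M → ((t' q ℓ).map (Int.castRingHom ℂ)).mulVec v = c ℓ • v) →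
    ∃ g' : CuspForm (CongruenceSubgroup.Gamma0 (M / q)) 2, g'.IsNormalizedEigenform ∧
      ∀ ℓ : ℕ, ℓ.Prime → ¬ ℓ ∣ M → ModularFormClass.qCoeff g' ℓ = c ℓ
  /-- the semistable relation on the `q`-new part -/
  rel : ∀ q : ℕ, SSPrime M p q →
    ∀ A : ValuationSubring (AlgebraicClosure ℚ), A.LiesOverPrime q →
      ∀ σ : GQ, A.IsFrobeniusAt σ q → ∀ m : Fin D.r → ℤ_[p],
        ((n q).map (Int.castRingHom ℤ_[p])).mulVec m = 0 →
        ((n q).map (Int.castRingHom ℤ_[p])).mulVec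
          (((w q).map (Int.castRingHom ℤ_[p])).mulVec m) = 0 →
        (D.ρ σ + (q : ℤ_[p]) • (w q).map (Int.castRingHom ℤ_[p])).mulVec
          ((D.ρ σ + (w q).map (Int.castRingHom ℤ_[p])).mulVec m) = 0

end Fermat.Agent.S35
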