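/-
S35 producer side: the `p`-adic LIMIT ASSEMBLY (helper34, row U.S35.Limit).

  character-level data  ⟹  `Nonempty (SSData M p)`.

This is the S35 analogue of `BettiLimit.nonempty_esData`.  Input, all at the level of the
finitely generated abelian group `A` (think `Γ₀(M)^ab / ⟨parabolic, elliptic⟩`) and of the
finite groups `Hom(A, ℤ/p^n)`:

* (E) Hecke endomorphisms `τ ℓ` of `A`, a compatible system of Galois actions `act n` on
  `Hom(A, ℤ/p^n)`, continuous, unramified outside `M p`, Eichler–Shimura at Frobenius elements,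
  and the period map — with Hecke compatibility at ALL primes `ℓ ∤ M`, including `ℓ = p`;
* (W) the Atkin–Lehner involutions `ω q` of `A` (`q ∥ M`, `q ≠ p`), commuting with Hecke and
  Galois;
* (N) the groups `A' q` of level `M / q` with their Hecke endomorphisms `τ' q ℓ`, and the
  transfer maps `ν q : A' q →+ A` (so that `c ↦ c ∘ ν q` is the trace from level `M` to `M / q`);
* (C) eigen-characters of `A' q` come from normalised eigenforms of level `M / q`;
* (R) the semistable relation at finite level: for a Frobenius element `σ` at `q` and a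
  character `c` of `A` modulo `p ^ n` with `c ∘ ν = 0` and `c ∘ ω ∘ ν = 0`,
  `(σ + q W)(σ + W) c = 0`.

The file is organised so that a change of the relation (R) costs a few lines:

* `emat`, `nmat`, `chr` : matrices of endomorphisms / of `ν` in dual coordinates, and the
  dictionary "vector ↔ character" over any commutative ring, with `act_chr`, `chr_comp`,
  `chr_comp_nu`;
* `exists_limit_spec` : the limit `D : ESData M p` with its coordinates exposed, true Hecke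
  matrices at all `ℓ ∤ M` and `occ'`;
* `rel_of_finite_level` : transport of (R) to `ℤ_p`;
* `nonempty_ssData` : the assembly.
-/
import Mathlib
import Fermat.Agent.S30.BettiLimit
import Fermat.Agent.S35.Defs

set_option autoImplicit false
set_option linter.unusedSectionVars false

namespace Fermat.Agent.S35.Limit

open Fermat.Agent.S30 Fermat.Agent.S30.BettiLimit

/-! ### 1. Matrices in dual coordinates -/

section Coords

variable {A : Type} [AddCommGroup A] {r : ℕ} (a : Fin r → A) (e : Fin r → (A →+ ℤ))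

/-- The matrix of an endomorphism `f` of `A` in the coordinates `a`, `e`:
`(emat f) i j = e_j (f a_i)`; it describes `c ↦ c ∘ f` on characters. -/
def emat (f : A →+ A) : Matrix (Fin r) (Fin r) ℤ :=
  Matrix.of fun i j => e j (f (a i))

theorem emat_apply (f : A →+ A) (i j : Fin r) : emat a e f i j = e j (f (a i)) := rfl

theorem tmat_eq_emat (τ : ℕ → A →+ A) (ℓ : ℕ) : tmat a e τ ℓ = emat a e (τ ℓ) := rfl

theorem emat_congr (f g : A →+ A) (h : ∀ c : A →+ ℤ, c.comp f = c.comp g) :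
    emat a e f = emat a e g := by
  ext i j
  exact DFunLike.congr_fun (h (e j)) (a i)

theorem emat_id (he : ∀ i j, e j (a i) = if i = j then 1 else 0) :
    emat a e (AddMonoidHom.id A) = 1 := by
  ext i j
  rw [emat_apply, AddMonoidHom.id_apply, he, Matrix.one_apply]

variable {A' : Type} [AddCommGroup A'] {r' : ℕ} (a' : Fin r' → A')

/-- The matrix of `ν : A' →+ A`: `(nmat ν) i j = e_j (ν a'_i)`; it describes `c ↦ c ∘ ν`. -/
def nmat (ν : A' →+ A) : Matrix (Fin r') (Fin r) ℤ :=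
  Matrix.of fun i j => e j (ν (a' i))

theorem nmat_apply (ν : A' →+ A) (i : Fin r') (j : Fin r) :
    nmat e a' ν i j = e j (ν (a' i)) := rfl

variable (hexp : ∀ (M : Type) [AddCommGroup M] [Module.IsTorsionFree ℤ M] (c : A →+ M) (x : A),
    c x = ∑ i, e i x • c (a i))

include hexp in
theorem e_comp (f : A →+ A) (j : Fin r) (x : A) :
    e j (f x) = ∑ i, e i x * emat a e f i j := by
  have h := hexp ℤ ((e j).comp f) x
  simp only [AddMonoidHom.comp_apply, smul_eq_mul] at h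
  rw [h]
  rfl

include hexp in
theorem emat_mul (f g : A →+ A) : emat a e f * emat a e g = emat a e (g.comp f) := by
  ext k j
  rw [Matrix.mul_apply, emat_apply, AddMonoidHom.comp_apply, e_comp a e hexp g j (f (a k))]
  rfl

include hexp in
/-- Endomorphisms commuting on integral characters have commuting matrices. -/
theorem emat_commute (f g : A →+ A)
    (h : ∀ c : A →+ ℤ, (c.comp f).comp g = (c.comp g).comp f) :
    Commute (emat a e f) (emat a e g) := by
  show emat a e f * emat a e g = emat a e g * emat a e f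
  rw [emat_mul a e hexp, emat_mul a e hexp]
  refine emat_congr a e _ _ fun c => ?_
  rw [← AddMonoidHom.comp_assoc, ← AddMonoidHom.comp_assoc]
  exact (h c).symm

include hexp in
/-- An involution on integral characters has an involutive matrix. -/
theorem emat_mul_self (he : ∀ i j, e j (a i) = if i = j then 1 else 0) (f : A →+ A)
    (h : ∀ c : A →+ ℤ, (c.comp f).comp f = c) : emat a e f * emat a e f = 1 := by
  rw [emat_mul a e hexp, ← emat_id a e he]
  refine emat_congr a e _ _ fun c => ?_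
  rw [← AddMonoidHom.comp_assoc, h c, AddMonoidHom.comp_id]

include hexp in
theorem nmat_mul_emat (ν : A' →+ A) (f : A →+ A) :
    nmat e a' ν * emat a e f = nmat e a' (f.comp ν) := by
  ext k j
  rw [Matrix.mul_apply, nmat_apply, AddMonoidHom.comp_apply, e_comp a e hexp f j (ν (a' k))]
  rfl

variable (e' : Fin r' → (A' →+ ℤ))
  (hexp' : ∀ (M : Type) [AddCommGroup M] [Module.IsTorsionFree ℤ M] (c : A' →+ M) (x : A'),
    c x = ∑ i, e' i x • c (a' i))

include hexp' in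
theorem e_comp_nu (ν : A' →+ A) (j : Fin r) (x : A') :
    e j (ν x) = ∑ i, e' i x * nmat e a' ν i j := by
  have h := hexp' ℤ ((e j).comp ν) x
  simp only [AddMonoidHom.comp_apply, smul_eq_mul] at h
  rw [h]
  rfl

include hexp' in
theorem emat_mul_nmat (g : A' →+ A') (ν : A' →+ A) :
    emat a' e' g * nmat e a' ν = nmat e a' (ν.comp g) := by
  ext k j
  rw [Matrix.mul_apply, nmat_apply, AddMonoidHom.comp_apply,
    e_comp_nu e a' e' hexp' ν j (g (a' k))]
  rfl

include hexp hexp' in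
/-- The intertwining relation `n · t = t' · n`. -/
theorem nmat_intertwine (ν : A' →+ A) (f : A →+ A) (g : A' →+ A')
    (h : ∀ c : A →+ ℤ, (c.comp f).comp ν = (c.comp ν).comp g) :
    nmat e a' ν * emat a e f = emat a' e' g * nmat e a' ν := by
  rw [nmat_mul_emat a e a' hexp, emat_mul_nmat e a' e' hexp']
  ext i j
  exact DFunLike.congr_fun (h (e j)) (a' i)

end Coords

/-! ### 2. Vectors and characters -/

section Chr

variable {A : Type} [AddCommGroup A] {r : ℕ} (a : Fin r → A) (e : Fin r → (A →+ ℤ))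
  (R : Type*) [CommRing R]

/-- The character `x ↦ ∑ j, e_j(x) · v_j` of `A` with values in `R`. -/
def chr (v : Fin r → R) : A →+ R :=
  ∑ j, (AddMonoidHom.mulRight (v j)).comp ((Int.castAddHom R).comp (e j))

theorem chr_apply (v : Fin r → R) (x : A) : chr e R v x = ∑ j, ((e j x : ℤ) : R) * v j := by
  simp [chr, AddMonoidHom.finsetSum_apply]

theorem chr_a (he : ∀ i j, e j (a i) = if i = j then 1 else 0) (v : Fin r → R) (i : Fin r) :
    chr e R v (a i) = v i := by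
  rw [chr_apply]
  simp only [he]
  rw [Finset.sum_eq_single i]
  · simp
  · intro j _ hj
    rw [if_neg (Ne.symm hj)]
    simp
  · intro h
    exact absurd (Finset.mem_univ i) h

theorem chr_add (v w : Fin r → R) : chr e R (v + w) = chr e R v + chr e R w := by
  ext x
  rw [AddMonoidHom.add_apply, chr_apply, chr_apply, chr_apply, ← Finset.sum_add_distrib]
  refine Finset.sum_congr rfl fun j _ => ?_
  rw [Pi.add_apply, mul_add]

theorem chr_zero : chr e R (0 : Fin r → R) = 0 := by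
  ext x
  rw [chr_apply]
  simp

theorem chr_nsmul (k : ℕ) (v : Fin r → R) : chr e R (k • v) = k • chr e R v := by
  ext x
  rw [AddMonoidHom.nsmul_apply, chr_apply, chr_apply, Finset.smul_sum]
  refine Finset.sum_congr rfl fun j _ => ?_
  rw [Pi.smul_apply, nsmul_eq_mul, nsmul_eq_mul]
  ring

theorem chr_eq_zero (he : ∀ i j, e j (a i) = if i = j then 1 else 0) {v : Fin r → R}
    (h : chr e R v = 0) : v = 0 := by
  funext i
  rw [← chr_a a e R he v i, h]
  rfl

variable (hexp : ∀ (M : Type) [AddCommGroup M] [Module.IsTorsionFree ℤ M] (c : A →+ M) (x : A),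
    c x = ∑ i, e i x • c (a i))

include hexp in
/-- Composition with an endomorphism, on vectors: `c ∘ f ↔ emat f · v`. -/
theorem chr_comp (f : A →+ A) (v : Fin r → R) :
    (chr e R v).comp f = chr e R (((emat a e f).map (Int.castRingHom R)).mulVec v) := by
  ext x
  rw [AddMonoidHom.comp_apply, chr_apply, chr_apply]
  simp only [e_comp a e hexp f _ x, Int.cast_sum, Int.cast_mul, Finset.sum_mul, Matrix.mulVec,
    dotProduct, Matrix.map_apply, Int.coe_castRingHom, Finset.mul_sum]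
  rw [Finset.sum_comm]
  refine Finset.sum_congr rfl fun i _ => Finset.sum_congr rfl fun j _ => ?_
  ring

variable {A' : Type} [AddCommGroup A'] {r' : ℕ} (a' : Fin r' → A') (e' : Fin r' → (A' →+ ℤ))
  (hexp' : ∀ (M : Type) [AddCommGroup M] [Module.IsTorsionFree ℤ M] (c : A' →+ M) (x : A'),
    c x = ∑ i, e' i x • c (a' i))

include hexp' in
/-- Composition with `ν : A' →+ A`, on vectors: `c ∘ ν ↔ nmat ν · v`. -/
theorem chr_comp_nu (ν : A' →+ A) (v : Fin r → R) :
    (chr e R v).comp ν = chr e' R (((nmat e a' ν).map (Int.castRingHom R)).mulVec v) := by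
  ext x
  rw [AddMonoidHom.comp_apply, chr_apply, chr_apply]
  simp only [e_comp_nu e a' e' hexp' ν _ x, Int.cast_sum, Int.cast_mul, Finset.sum_mul,
    Matrix.mulVec, dotProduct, Matrix.map_apply, Int.coe_castRingHom, Finset.mul_sum]
  rw [Finset.sum_comm]
  refine Finset.sum_congr rfl fun i _ => Finset.sum_congr rfl fun j _ => ?_
  ring

end Chr

/-! ### 3. The Galois action on characters, in coordinates -/

section Act

variable {p : ℕ} [hp : Fact p.Prime] {A : Type} [AddCommGroup A] {r : ℕ}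
  (a : Fin r → A) (e : Fin r → (A →+ ℤ))
  (act : ∀ n : ℕ, GQ →* AddMonoid.End (A →+ ZMod (p ^ n)))

theorem chr_eq_sum_nsmul (n : ℕ) (v : Fin r → ZMod (p ^ n)) :
    chr e (ZMod (p ^ n)) v = ∑ j, (v j).val • ebar e p n j := by
  have : NeZero (p ^ n) := ⟨pow_ne_zero n hp.out.ne_zero⟩
  ext x
  rw [chr_apply, AddMonoidHom.finsetSum_apply]
  refine Finset.sum_congr rfl fun j _ => ?_
  rw [AddMonoidHom.nsmul_apply, nsmul_eq_mul, ZMod.natCast_zmod_val, ebar_apply, mul_comm]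

/-- The Galois action on characters modulo `p ^ n`, on vectors: `σ c ↔ ρ_n(σ) · v`. -/
theorem act_chr
    (hexp : ∀ (M : Type) [AddCommGroup M] [Module.IsTorsionFree ℤ M] (c : A →+ M) (x : A),
      c x = ∑ i, e i x • c (a i))
    (act_red : ∀ (n : ℕ) (σ : GQ) (c : A →+ ZMod (p ^ (n + 1))),
      act n σ (red A p n c) = red A p n (act (n + 1) σ c))
    (n : ℕ) (σ : GQ) (v : Fin r → ZMod (p ^ n)) :
    act n σ (chr e (ZMod (p ^ n)) v) =
      chr e (ZMod (p ^ n)) ((rhoN a e act n σ).mulVec v) := by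
  have : NeZero (p ^ n) := ⟨pow_ne_zero n hp.out.ne_zero⟩
  rw [chr_eq_sum_nsmul, map_sum]
  ext x
  rw [AddMonoidHom.finsetSum_apply, chr_apply]
  simp only [map_nsmul, AddMonoidHom.nsmul_apply, nsmul_eq_mul, ZMod.natCast_zmod_val,
    act_ebar_apply a e act hexp act_red, Matrix.mulVec, dotProduct, Finset.mul_sum]
  rw [Finset.sum_comm]
  refine Finset.sum_congr rfl fun i _ => Finset.sum_congr rfl fun j _ => ?_
  ring

end Act

/-! ### 4. The limit, with coordinates exposed and Hecke matrices at all `ℓ ∤ N` -/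

section Spec

variable {N p : ℕ} [NeZero N] [hp : Fact p.Prime]

/-- **The limit for S35.**  As `BettiLimit.nonempty_esData`, but the Hecke compatibilities are
assumed (and delivered) at ALL primes `ℓ ∤ N`, including `ℓ = p`, and the construction is
exposed: coordinates `a`, `e` with `D.ρ σ ≡ rhoN a e act n σ` modulo `p ^ n` and
`D.t ℓ = emat a e (τ ℓ)`. -/
theorem exists_limit_spec (A : Type) [AddCommGroup A] (hA : AddGroup.FG A)
    (τ : ℕ → A →+ A)
    (hτ : ∀ ℓ ℓ' : ℕ, ℓ.Prime → ¬ ℓ ∣ N → ℓ'.Prime → ¬ ℓ' ∣ N →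
      ∀ c : A →+ ℤ, (c.comp (τ ℓ)).comp (τ ℓ') = (c.comp (τ ℓ')).comp (τ ℓ))
    (act : ∀ n : ℕ, GQ →* AddMonoid.End (A →+ ZMod (p ^ n)))
    (act_red : ∀ (n : ℕ) (σ : GQ) (c : A →+ ZMod (p ^ (n + 1))),
      act n σ (red A p n c) = red A p n (act (n + 1) σ c))
    (act_τ : ∀ (n : ℕ) (σ : GQ) (ℓ : ℕ), ℓ.Prime → ¬ ℓ ∣ N →
      ∀ c : A →+ ZMod (p ^ n), act n σ (c.comp (τ ℓ)) = (act n σ c).comp (τ ℓ))
    (cont : ∀ n : ℕ, ∃ L : IntermediateField ℚ (AlgebraicClosure ℚ), FiniteDimensional ℚ L ∧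
      ∀ σ : GQ, (∀ x ∈ L, σ x = x) → act n σ = 1)
    (unr : ∀ (n : ℕ) (q : ℕ), q.Prime → ¬ q ∣ N → q ≠ p →
      ∀ P : ValuationSubring (AlgebraicClosure ℚ), P.LiesOverPrime q →
        ∀ σ ∈ P.inertiaSubgroupIn ℚ, act n σ = 1)
    (es : ∀ (n : ℕ) (ℓ : ℕ), ℓ.Prime → ¬ ℓ ∣ N → ℓ ≠ p →
      ∀ A' : ValuationSubring (AlgebraicClosure ℚ), A'.LiesOverPrime ℓ →
        ∀ σ : GQ, A'.IsFrobeniusAt σ ℓ →
          ∀ c : A →+ ZMod (p ^ n), act n σ (act n σ c) - (act n σ c).comp (τ ℓ) + ℓ • c = 0)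
    (occ : ∃ P : CuspForm (CongruenceSubgroup.Gamma0 N) 2 →ₗ[ℂ] (A → ℂ),
      (∀ f a b, P f (a + b) = P f a + P f b) ∧ Function.Injective P ∧
        ∀ (ℓ : ℕ) (hℓ : ℓ.Prime) (hℓN : ¬ ℓ ∣ N),
          ∀ f a, P (CuspForm.heckeTLin 2 hℓ hℓN f) a = P f (τ ℓ a)) :
    ∃ (D : ESData N p) (a : Fin D.r → A) (e : Fin D.r → (A →+ ℤ)),
      (∀ i j, e j (a i) = if i = j then 1 else 0) ∧
      (∀ (M : Type) [AddCommGroup M] [Module.IsTorsionFree ℤ M] (c : A →+ M) (x : A),
         c x = ∑ i, e i x • c (a i)) ∧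
      (∀ (σ : GQ) (n : ℕ), (PadicInt.toZModPow n).mapMatrix (D.ρ σ) = rhoN a e act n σ) ∧
      (∀ ℓ : ℕ, ℓ.Prime → ¬ ℓ ∣ N → D.t ℓ = emat a e (τ ℓ)) ∧
      (∃ Φ : CuspForm (CongruenceSubgroup.Gamma0 N) 2 →ₗ[ℂ] (Fin D.r → ℂ),
        Function.Injective Φ ∧
          ∀ (ℓ : ℕ) (hℓ : ℓ.Prime) (hℓN : ¬ ℓ ∣ N)
            (f : CuspForm (CongruenceSubgroup.Gamma0 N) 2),
            Φ (CuspForm.heckeTLin 2 hℓ hℓN f) =
              ((D.t ℓ).map (Int.castRingHom ℂ)).mulVec (Φ f)) := by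
  classical
  obtain ⟨r, a, e, he, hexp⟩ := exists_coords A hA
  -- the limit matrices
  have hex : ∀ (σ : GQ) (i j : Fin r), ∃ y : ℤ_[p],
      ∀ n, PadicInt.toZModPow n y = rhoN a e act n σ i j :=
    fun σ i j => exists_limit (fun n => rhoN a e act n σ i j) (rhoN_compat a e act act_red σ i j)
  choose ρ hρ using hex
  have hmap : ∀ (σ : GQ) (n : ℕ),
      (PadicInt.toZModPow n).mapMatrix (Matrix.of (ρ σ)) = rhoN a e act n σ := by
    intro σ n
    ext i j
    exact hρ σ i j n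
  let ρh : GQ →* Matrix (Fin r) (Fin r) ℤ_[p] :=
    { toFun := fun σ => Matrix.of (ρ σ)
      map_one' := by
        refine padic_matrix_ext fun n => ?_
        rw [hmap, rhoN_one a e act he, map_one]
      map_mul' := by
        intro σ τ'
        refine padic_matrix_ext fun n => ?_
        rw [map_mul, hmap, hmap, hmap, rhoN_mul a e act hexp act_red] }
  have hρm : ∀ (σ : GQ) (n : ℕ), (PadicInt.toZModPow n).mapMatrix (ρh σ) = rhoN a e act n σ :=
    hmap
  -- the Hecke matrices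
  let good : ℕ → Prop := fun ℓ => ℓ.Prime ∧ ¬ ℓ ∣ N
  let t : ℕ → Matrix (Fin r) (Fin r) ℤ := fun ℓ => if good ℓ then tmat a e τ ℓ else 0
  have ht : ∀ ℓ, good ℓ → t ℓ = tmat a e τ ℓ := fun ℓ h => if_pos h
  have ht0 : ∀ ℓ, ¬ good ℓ → t ℓ = 0 := fun ℓ h => if_neg h
  have hTm : ∀ (M : Matrix (Fin r) (Fin r) ℤ) (n : ℕ),
      (PadicInt.toZModPow n).mapMatrix (M.map (Int.castRingHom ℤ_[p])) =
        M.map (Int.castRingHom (ZMod (p ^ n))) := by
    intro M n
    ext i j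
    simp
  -- the period map in coordinates
  have hocc : ∃ Φ : CuspForm (CongruenceSubgroup.Gamma0 N) 2 →ₗ[ℂ] (Fin r → ℂ),
      Function.Injective Φ ∧
        ∀ (ℓ : ℕ) (hℓ : ℓ.Prime) (hℓN : ¬ ℓ ∣ N)
          (f : CuspForm (CongruenceSubgroup.Gamma0 N) 2),
          Φ (CuspForm.heckeTLin 2 hℓ hℓN f) = ((t ℓ).map (Int.castRingHom ℂ)).mulVec (Φ f) := by
    obtain ⟨P, hadd, hinj, hT⟩ := occ
    have hP : ∀ (f : CuspForm (CongruenceSubgroup.Gamma0 N) 2) (x : A),
        P f x = ∑ i, e i x • P f (a i) := fun f x =>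
      hexp ℂ (AddMonoidHom.mk' (P f) (hadd f)) x
    refine ⟨LinearMap.pi fun i => (LinearMap.proj (a i)).comp P, ?_, ?_⟩
    · intro f g hfg
      apply hinj
      funext x
      rw [hP f x, hP g x]
      refine Finset.sum_congr rfl fun i _ => ?_
      have := congrFun hfg i
      simp only [LinearMap.pi_apply, LinearMap.coe_comp, Function.comp_apply,
        LinearMap.proj_apply] at this
      rw [this]
    · intro ℓ hℓ hℓN f
      rw [ht ℓ ⟨hℓ, hℓN⟩]
      funext k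
      simp only [LinearMap.pi_apply, LinearMap.coe_comp, Function.comp_apply,
        LinearMap.proj_apply, Matrix.mulVec, dotProduct, Matrix.map_apply, Int.coe_castRingHom]
      rw [hT ℓ hℓ hℓN f (a k), hP f (τ ℓ (a k))]
      refine Finset.sum_congr rfl fun i _ => ?_
      rw [zsmul_eq_mul, tmat_apply]
  refine ⟨{ r := r, t := t, ρ := ρh, t_comm := ?_, ρ_comm := ?_, cont := ?_, unr := ?_,
            es := ?_, occ := ?_ }, a, e, he, hexp, hρm, fun ℓ h1 h2 => ht ℓ ⟨h1, h2⟩, hocc⟩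
  · -- t_comm
    intro ℓ ℓ'
    by_cases h : good ℓ
    · by_cases h' : good ℓ'
      · rw [ht ℓ h, ht ℓ' h']
        exact tmat_comm a e hexp τ ℓ ℓ' (hτ ℓ ℓ' h.1 h.2 h'.1 h'.2)
      · rw [ht0 ℓ' h']
        exact Commute.zero_right _
    · rw [ht0 ℓ h]
      exact Commute.zero_left _
  · -- ρ_comm
    intro σ ℓ
    by_cases h : good ℓ
    · rw [ht ℓ h]
      show ρh σ * _ = _ * ρh σ
      refine padic_matrix_ext fun n => ?_
      rw [map_mul, map_mul, hρm, hTm]
      exact (rhoN_comm a e act hexp act_red τ n σ ℓ (act_τ n σ ℓ h.1 h.2)).eq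
    · rw [ht0 ℓ h]
      have : (0 : Matrix (Fin r) (Fin r) ℤ).map (Int.castRingHom ℤ_[p]) = 0 := by
        ext i j
        simp
      rw [this]
      exact Commute.zero_right _
  · -- cont
    intro n
    obtain ⟨L, hL, h⟩ := cont n
    refine ⟨L, hL, fun σ hσ i j => ?_⟩
    rw [← PadicInt.ker_toZModPow, RingHom.mem_ker]
    have h1 : (PadicInt.toZModPow n).mapMatrix (ρh σ - 1) = 0 := by
      rw [map_sub, hρm, rhoN_eq_one_of_act a e act he n σ (h σ hσ), map_one, sub_self]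
    exact congrFun (congrFun h1 i) j
  · -- unr
    intro q hq hqN hqp P hP σ hσ
    refine padic_matrix_ext fun n => ?_
    rw [hρm, map_one]
    exact rhoN_eq_one_of_act a e act he n σ (unr n q hq hqN hqp P hP σ hσ)
  · -- es
    intro ℓ hℓ hℓN hℓp A' hA' σ hσ
    rw [ht ℓ ⟨hℓ, hℓN⟩]
    refine padic_matrix_ext fun n => ?_
    rw [map_zero, map_add, map_sub, map_mul, map_mul, hρm, hTm, map_natCast]
    exact rhoN_es a e act hexp act_red he τ n σ ℓ (es n ℓ hℓ hℓN hℓp A' hA' σ hσ)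
  · -- occ
    obtain ⟨Φ, hinj, hΦ⟩ := hocc
    exact ⟨Φ, hinj, fun ℓ hℓ hℓN _ f => hΦ ℓ hℓ hℓN f⟩

end Spec

/-! ### 5. Transport of the semistable relation -/

section Rel

variable {p : ℕ} [hp : Fact p.Prime] {A : Type} [AddCommGroup A] {r : ℕ}
  (a : Fin r → A) (e : Fin r → (A →+ ℤ))
  (act : ∀ n : ℕ, GQ →* AddMonoid.End (A →+ ZMod (p ^ n)))
  {A' : Type} [AddCommGroup A'] {r' : ℕ} (a' : Fin r' → A') (e' : Fin r' → (A' →+ ℤ))

theorem map_castRingHom_padic {m n : ℕ} (M : Matrix (Fin m) (Fin n) ℤ) (k : ℕ) :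
    (M.map (Int.castRingHom ℤ_[p])).map (PadicInt.toZModPow k) =
      M.map (Int.castRingHom (ZMod (p ^ k))) := by
  ext i j
  simp

/-- Reduction modulo `p ^ k` of a matrix–vector product. -/
theorem toZModPow_mulVec {m n : ℕ} (X : Matrix (Fin m) (Fin n) ℤ_[p]) (v : Fin n → ℤ_[p])
    (k : ℕ) :
    (fun i => PadicInt.toZModPow k (X.mulVec v i)) =
      (X.map (PadicInt.toZModPow k)).mulVec (fun j => PadicInt.toZModPow k (v j)) := by
  funext i
  simp only [Matrix.mulVec, dotProduct, map_sum, map_mul, Matrix.map_apply]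

/-- **Transport of the semistable relation to `ℤ_p`.**  If `(σ + q W)(σ + W)` kills every
character `c` modulo `p ^ n` with `c ∘ ν = 0` and `c ∘ ω ∘ ν = 0`, for all `n`, then the limit
matrix `ρ` of `σ` satisfies `(ρ + q w)(ρ + w) m = 0` for every `m ∈ ℤ_p^r` with `n m = 0` and
`n w m = 0` (`w`, `n` the matrices of `ω`, `ν`). -/
theorem rel_of_finite_level
    (hexp : ∀ (M : Type) [AddCommGroup M] [Module.IsTorsionFree ℤ M] (c : A →+ M) (x : A),
      c x = ∑ i, e i x • c (a i))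
    (act_red : ∀ (n : ℕ) (σ : GQ) (c : A →+ ZMod (p ^ (n + 1))),
      act n σ (red A p n c) = red A p n (act (n + 1) σ c))
    (he : ∀ i j, e j (a i) = if i = j then 1 else 0)
    (hexp' : ∀ (M : Type) [AddCommGroup M] [Module.IsTorsionFree ℤ M] (c : A' →+ M) (x : A'),
      c x = ∑ i, e' i x • c (a' i))
    (ω : A →+ A) (ν : A' →+ A) (q : ℕ) (σ : GQ)
    (ρ : Matrix (Fin r) (Fin r) ℤ_[p])
    (hρ : ∀ n, (PadicInt.toZModPow n).mapMatrix ρ = rhoN a e act n σ)
    (hrel : ∀ (n : ℕ) (c : A →+ ZMod (p ^ n)), c.comp ν = 0 → (c.comp ω).comp ν = 0 →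
      act n σ (act n σ c + c.comp ω) + q • (act n σ c + c.comp ω).comp ω = 0)
    (m : Fin r → ℤ_[p])
    (h1 : ((nmat e a' ν).map (Int.castRingHom ℤ_[p])).mulVec m = 0)
    (h2 : ((nmat e a' ν).map (Int.castRingHom ℤ_[p])).mulVec
      (((emat a e ω).map (Int.castRingHom ℤ_[p])).mulVec m) = 0) :
    (ρ + (q : ℤ_[p]) • (emat a e ω).map (Int.castRingHom ℤ_[p])).mulVec
      ((ρ + (emat a e ω).map (Int.castRingHom ℤ_[p])).mulVec m) = 0 := by
  funext i
  refine PadicInt.ext_of_toZModPow.1 fun k => ?_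
  rw [Pi.zero_apply, map_zero]
  -- notation at level `k`
  set π := PadicInt.toZModPow (p := p) k with hπ
  set W := (emat a e ω).map (Int.castRingHom ℤ_[p]) with hW
  set Nn := (nmat e a' ν).map (Int.castRingHom ℤ_[p]) with hNn
  set v : Fin r → ZMod (p ^ k) := fun j => π (m j) with hv
  set Wk := (emat a e ω).map (Int.castRingHom (ZMod (p ^ k))) with hWk
  set Nk := (nmat e a' ν).map (Int.castRingHom (ZMod (p ^ k))) with hNk
  set ρk := rhoN a e act k σ with hρk
  have hWmap : W.map π = Wk := map_castRingHom_padic _ k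
  have hNmap : Nn.map π = Nk := map_castRingHom_padic _ k
  have hρmap : ρ.map π = ρk := hρ k
  -- the hypotheses at level `k`
  have hc1 : Nk.mulVec v = 0 := by
    rw [← hNmap, ← toZModPow_mulVec, h1]
    funext j
    simp
  have hc2 : Nk.mulVec (Wk.mulVec v) = 0 := by
    rw [← hNmap, ← hWmap, ← toZModPow_mulVec, ← toZModPow_mulVec, h2]
    funext j
    simp
  have e1 : (chr e (ZMod (p ^ k)) v).comp ν = 0 := by
    rw [chr_comp_nu e (ZMod (p ^ k)) a' e' hexp', hc1, chr_zero]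
  have e2 : ((chr e (ZMod (p ^ k)) v).comp ω).comp ν = 0 := by
    rw [chr_comp a e (ZMod (p ^ k)) hexp, chr_comp_nu e (ZMod (p ^ k)) a' e' hexp', hc2,
      chr_zero]
  have key := hrel k (chr e (ZMod (p ^ k)) v) e1 e2
  rw [act_chr a e act hexp act_red, chr_comp a e (ZMod (p ^ k)) hexp, ← chr_add,
    act_chr a e act hexp act_red, chr_comp a e (ZMod (p ^ k)) hexp, ← chr_nsmul, ← chr_add]
    at key
  have key2 := chr_eq_zero a e (ZMod (p ^ k)) he key
  -- compare with the reduction of the `p`-adic vector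
  have hred : (fun i => π ((ρ + (q : ℤ_[p]) • W).mulVec ((ρ + W).mulVec m) i)) =
      ρk.mulVec (ρk.mulVec v + Wk.mulVec v) + q • Wk.mulVec (ρk.mulVec v + Wk.mulVec v) := by
    rw [toZModPow_mulVec, toZModPow_mulVec]
    have hA : (ρ + (q : ℤ_[p]) • W).map π = ρk + q • Wk := by
      rw [← hρmap, ← hWmap]
      ext i j
      rw [Matrix.map_apply, Matrix.add_apply, Matrix.smul_apply, Matrix.add_apply,
        Matrix.smul_apply, Matrix.map_apply, Matrix.map_apply, map_add, smul_eq_mul, map_mul,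
        map_natCast, nsmul_eq_mul]
    have hB : (ρ + W).map π = ρk + Wk := by
      rw [← hρmap, ← hWmap]
      ext i j
      simp [Matrix.add_apply]
    rw [hA, hB, Matrix.add_mulVec, Matrix.add_mulVec, Matrix.smul_mulVec]
  have := congrFun hred i
  rw [key2] at this
  exact this

end Rel

/-! ### 6. The assembly -/

section Assembly

variable {M p : ℕ} [NeZero M] [hp : Fact p.Prime]

theorem chr_smul {A : Type} [AddCommGroup A] {r : ℕ} (e : Fin r → (A →+ ℤ)) (c : ℂ)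
    (v : Fin r → ℂ) : chr e ℂ (c • v) = c • chr e ℂ v := by
  ext x
  rw [AddMonoidHom.smul_apply, chr_apply, chr_apply, Finset.smul_sum]
  refine Finset.sum_congr rfl fun j _ => ?_
  rw [Pi.smul_apply, smul_eq_mul, smul_eq_mul]
  ring

/-- **The S35 limit assembly**: character-level data (E), (W), (N), (C), (R) — see the header —
give the semistable producer contract `SSData M p`. -/
theorem nonempty_ssData (A : Type) [AddCommGroup A] (hA : AddGroup.FG A)
    -- (E) Hecke, Galois, periods; Hecke compatibilities at ALL primes `ℓ ∤ M`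
    (τ : ℕ → A →+ A)
    (hτ : ∀ ℓ ℓ' : ℕ, ℓ.Prime → ¬ ℓ ∣ M → ℓ'.Prime → ¬ ℓ' ∣ M →
      ∀ c : A →+ ℤ, (c.comp (τ ℓ)).comp (τ ℓ') = (c.comp (τ ℓ')).comp (τ ℓ))
    (act : ∀ n : ℕ, GQ →* AddMonoid.End (A →+ ZMod (p ^ n)))
    (act_red : ∀ (n : ℕ) (σ : GQ) (c : A →+ ZMod (p ^ (n + 1))),
      act n σ (red A p n c) = red A p n (act (n + 1) σ c))
    (act_τ : ∀ (n : ℕ) (σ : GQ) (ℓ : ℕ), ℓ.Prime → ¬ ℓ ∣ M →
      ∀ c : A →+ ZMod (p ^ n), act n σ (c.comp (τ ℓ)) = (act n σ c).comp (τ ℓ))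
    (cont : ∀ n : ℕ, ∃ L : IntermediateField ℚ (AlgebraicClosure ℚ), FiniteDimensional ℚ L ∧
      ∀ σ : GQ, (∀ x ∈ L, σ x = x) → act n σ = 1)
    (unr : ∀ (n : ℕ) (q : ℕ), q.Prime → ¬ q ∣ M → q ≠ p →
      ∀ P : ValuationSubring (AlgebraicClosure ℚ), P.LiesOverPrime q →
        ∀ σ ∈ P.inertiaSubgroupIn ℚ, act n σ = 1)
    (es : ∀ (n : ℕ) (ℓ : ℕ), ℓ.Prime → ¬ ℓ ∣ M → ℓ ≠ p →
      ∀ B : ValuationSubring (AlgebraicClosure ℚ), B.LiesOverPrime ℓ →
        ∀ σ : GQ, B.IsFrobeniusAt σ ℓ →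
          ∀ c : A →+ ZMod (p ^ n), act n σ (act n σ c) - (act n σ c).comp (τ ℓ) + ℓ • c = 0)
    (occ : ∃ P : CuspForm (CongruenceSubgroup.Gamma0 M) 2 →ₗ[ℂ] (A → ℂ),
      (∀ f a b, P f (a + b) = P f a + P f b) ∧ Function.Injective P ∧
        ∀ (ℓ : ℕ) (hℓ : ℓ.Prime) (hℓM : ¬ ℓ ∣ M),
          ∀ f a, P (CuspForm.heckeTLin 2 hℓ hℓM f) a = P f (τ ℓ a))
    -- (W) Atkin–Lehner involutions
    (ω : ℕ → A →+ A)
    (ω_sq : ∀ q, SSPrime M p q → ∀ c : A →+ ℤ, (c.comp (ω q)).comp (ω q) = c)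
    (ω_comm : ∀ q q', SSPrime M p q → SSPrime M p q' →
      ∀ c : A →+ ℤ, (c.comp (ω q)).comp (ω q') = (c.comp (ω q')).comp (ω q))
    (ω_τ : ∀ q, SSPrime M p q → ∀ ℓ : ℕ, ℓ.Prime → ¬ ℓ ∣ M →
      ∀ c : A →+ ℤ, (c.comp (ω q)).comp (τ ℓ) = (c.comp (τ ℓ)).comp (ω q))
    (act_ω : ∀ q, SSPrime M p q → ∀ (n : ℕ) (σ : GQ) (c : A →+ ZMod (p ^ n)),
      act n σ (c.comp (ω q)) = (act n σ c).comp (ω q))
    -- (N) level `M / q`
    (A' : ℕ → Type) [∀ q, AddCommGroup (A' q)]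
    (hA' : ∀ q, SSPrime M p q → AddGroup.FG (A' q))
    (τ' : (q : ℕ) → ℕ → A' q →+ A' q)
    (hτ' : ∀ q, SSPrime M p q → ∀ ℓ ℓ' : ℕ, ℓ.Prime → ¬ ℓ ∣ M → ℓ'.Prime → ¬ ℓ' ∣ M →
      ∀ c : A' q →+ ℤ, (c.comp (τ' q ℓ)).comp (τ' q ℓ') = (c.comp (τ' q ℓ')).comp (τ' q ℓ))
    (ν : (q : ℕ) → A' q →+ A)
    (ν_τ : ∀ q, SSPrime M p q → ∀ ℓ : ℕ, ℓ.Prime → ¬ ℓ ∣ M →
      ∀ c : A →+ ℤ, (c.comp (τ ℓ)).comp (ν q) = (c.comp (ν q)).comp (τ' q ℓ))
    -- (C) eigen-characters of level `M / q` come from eigenforms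
    (cocc : ∀ q, SSPrime M p q → ∀ (c : ℕ → ℂ) (φ : A' q →+ ℂ), φ ≠ 0 →
      (∀ ℓ : ℕ, ℓ.Prime → ¬ ℓ ∣ M → φ.comp (τ' q ℓ) = c ℓ • φ) →
      ∃ g' : CuspForm (CongruenceSubgroup.Gamma0 (M / q)) 2, g'.IsNormalizedEigenform ∧
        ∀ ℓ : ℕ, ℓ.Prime → ¬ ℓ ∣ M → ModularFormClass.qCoeff g' ℓ = c ℓ)
    -- (R) the semistable relation at finite level
    (rel : ∀ q, SSPrime M p q →
      ∀ B : ValuationSubring (AlgebraicClosure ℚ), B.LiesOverPrime q →
        ∀ σ : GQ, B.IsFrobeniusAt σ q → ∀ (n : ℕ) (c : A →+ ZMod (p ^ n)),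
          c.comp (ν q) = 0 → (c.comp (ω q)).comp (ν q) = 0 →
            act n σ (act n σ c + c.comp (ω q)) +
              q • (act n σ c + c.comp (ω q)).comp (ω q) = 0) :
    Nonempty (SSData M p) := by
  classical
  obtain ⟨D, a, e, he, hexp, hρ, ht, hocc⟩ :=
    exists_limit_spec A hA τ hτ act act_red act_τ cont unr es occ
  -- the data of level `M / q`
  have hq : ∀ q : ℕ, ∃ (r' : ℕ) (t' : ℕ → Matrix (Fin r') (Fin r') ℤ)
      (n : Matrix (Fin r') (Fin D.r) ℤ), SSPrime M p q →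
        (∀ ℓ ℓ' : ℕ, ℓ.Prime → ¬ ℓ ∣ M → ℓ'.Prime → ¬ ℓ' ∣ M → Commute (t' ℓ) (t' ℓ')) ∧
        (∀ ℓ : ℕ, ℓ.Prime → ¬ ℓ ∣ M → n * D.t ℓ = t' ℓ * n) ∧
        (∀ (c : ℕ → ℂ) (v : Fin r' → ℂ), v ≠ 0 →
          (∀ ℓ : ℕ, ℓ.Prime → ¬ ℓ ∣ M →
            ((t' ℓ).map (Int.castRingHom ℂ)).mulVec v = c ℓ • v) →
          ∃ g' : CuspForm (CongruenceSubgroup.Gamma0 (M / q)) 2, g'.IsNormalizedEigenform ∧
            ∀ ℓ : ℕ, ℓ.Prime → ¬ ℓ ∣ M → ModularFormClass.qCoeff g' ℓ = c ℓ) ∧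
        (∀ B : ValuationSubring (AlgebraicClosure ℚ), B.LiesOverPrime q →
          ∀ σ : GQ, B.IsFrobeniusAt σ q → ∀ m : Fin D.r → ℤ_[p],
            (n.map (Int.castRingHom ℤ_[p])).mulVec m = 0 →
            (n.map (Int.castRingHom ℤ_[p])).mulVec
              (((emat a e (ω q)).map (Int.castRingHom ℤ_[p])).mulVec m) = 0 →
            (D.ρ σ + (q : ℤ_[p]) • (emat a e (ω q)).map (Int.castRingHom ℤ_[p])).mulVec
              ((D.ρ σ + (emat a e (ω q)).map (Int.castRingHom ℤ_[p])).mulVec m) = 0) := by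
    intro q
    by_cases hq : SSPrime M p q
    · obtain ⟨r', a', e', he', hexp'⟩ := exists_coords (A' q) (hA' q hq)
      refine ⟨r', fun ℓ => emat a' e' (τ' q ℓ), nmat e a' (ν q), fun _ => ⟨?_, ?_, ?_, ?_⟩⟩
      · intro ℓ ℓ' hℓ hℓM hℓ' hℓ'M
        exact emat_commute a' e' hexp' _ _ (hτ' q hq ℓ ℓ' hℓ hℓM hℓ' hℓ'M)
      · intro ℓ hℓ hℓM
        rw [ht ℓ hℓ hℓM]
        exact nmat_intertwine a e a' hexp e' hexp' (ν q) (τ ℓ) (τ' q ℓ) (ν_τ q hq ℓ hℓ hℓM)
      · intro c v hv hvt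
        refine cocc q hq c (chr e' ℂ v) (fun h0 => hv (chr_eq_zero a' e' ℂ he' h0)) ?_
        intro ℓ hℓ hℓM
        have h := hvt ℓ hℓ hℓM
        rw [chr_comp a' e' ℂ hexp', h, chr_smul]
      · intro B hB σ hσ m h1 h2
        exact rel_of_finite_level a e act a' e' hexp act_red he hexp' (ω q) (ν q) q σ (D.ρ σ)
          (hρ σ) (rel q hq B hB σ hσ) m h1 h2
    · exact ⟨0, fun _ => 0, 0, fun h => absurd h hq⟩
  choose r' t' n hspec using hq
  refine ⟨{ D := D, occ' := hocc, w := fun q => emat a e (ω q), r' := r', t' := t', n := n,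
            w_sq := ?_, w_comm := ?_, w_t := ?_, w_ρ := ?_, t'_comm := ?_, n_t := ?_,
            cocc := ?_, rel := ?_ }⟩
  · intro q hq
    exact emat_mul_self a e hexp he (ω q) (ω_sq q hq)
  · intro q q' hq hq'
    exact emat_commute a e hexp _ _ (ω_comm q q' hq hq')
  · intro q hq ℓ hℓ hℓM
    rw [ht ℓ hℓ hℓM]
    exact emat_commute a e hexp _ _ (ω_τ q hq ℓ hℓ hℓM)
  · intro q hq σ
    show D.ρ σ * _ = _ * D.ρ σ
    refine padic_matrix_ext fun k => ?_
    have hTm : (PadicInt.toZModPow k).mapMatrix ((emat a e (ω q)).map (Int.castRingHom ℤ_[p])) =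
        (emat a e (ω q)).map (Int.castRingHom (ZMod (p ^ k))) := map_castRingHom_padic _ k
    rw [map_mul, map_mul, hρ, hTm]
    exact (rhoN_comm a e act hexp act_red ω k σ q (act_ω q hq k σ)).eq
  · intro q hq ℓ ℓ' hℓ hℓM hℓ' hℓ'M
    exact (hspec q hq).1 ℓ ℓ' hℓ hℓM hℓ' hℓ'M
  · intro q hq ℓ hℓ hℓM
    exact (hspec q hq).2.1 ℓ hℓ hℓM
  · intro q hq c v hv h
    exact (hspec q hq).2.2.1 c v hv h
  · intro q hq B hB σ hσ m h1 h2
    exact (hspec q hq).2.2.2 B hB σ hσ m h1 h2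

end Assembly

end Fermat.Agent.S35.Limit
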