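/-
PROGRAM U / S35, brick `U.S35.LimitKummer` (helper34): the KUMMER-SYSTEM form of the S35 limit.

`Limit.nonempty_ssData` is a statement about characters `c : A →+ ZMod (p ^ n)`.  The producer
of S30 (`Producer.KummerSystem`) presents these characters by Kummer functions: `K.R n f c`
says that `f` is a Kummer function of exponent `p ^ n` with character `c`, and the Galois action
on characters is transported from the coefficientwise action `galF` on functions.  This file
translates every hypothesis of `Limit.nonempty_ssData` that mentions the Galois action into a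
statement about FUNCTIONS (no `AN`, no `KRel`, no level transport here):

* `act_swap`  : a map `wF` of the function field which sends Kummer functions of character `c`
  to Kummer functions of character `c ∘ ω` and commutes with `galF` on Kummer functions gives
  `act σ (c ∘ ω) = (act σ c) ∘ ω`.
* `act_rel`   : the function-level semistable relation "`σ u · (W u) ^ q` is a `p ^ n`-th power
  for `u = σ f · W f`" gives `(σ + q ω)(σ + ω) c = 0` on characters.
* `nonempty_ssData_of_kummerSystem` : `Nonempty (SSData M p)` from a Kummer system `K` of level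
  `M` together with
  (E+) the versions for ALL primes `ℓ ∤ M` (including `ℓ = p`) of the four fields of `K` which
       are only stated for `ℓ ≠ p` there (`τ_comm`, `hecke`, `hecke_gal`, `occ`);
  (W)  `ω`, `wF` as above;
  (N), (C) the level `M / q` data, verbatim as in `Limit.nonempty_ssData` (Betti side only);
  (R)  the function-level relation, one statement for each `n`.
-/
import Mathlib
import Fermat.Agent.S30.Producer.ToESData
import Fermat.Agent.S35.Limit

set_option autoImplicit false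

namespace Fermat.Agent.S35.LimitKummer

open Fermat.Agent.S30 Fermat.Agent.S30.BettiLimit Fermat.Agent.S30.Producer

variable {M p : ℕ} [NeZero M] [hp : Fact p.Prime]

/-- A function-field map `w` sending Kummer functions of character `c` to Kummer functions of
character `c ∘ ω` and commuting with the Galois action on Kummer functions: the transported
Galois action on characters commutes with `c ↦ c ∘ ω`. -/
theorem act_swap (K : KummerSystem M p) (ω : K.A →+ K.A) (w : FN M → FN M)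
    (swap : ∀ {n : ℕ} {f : FN M} {c : K.A →+ ZMod (p ^ n)},
      K.R n f c → K.R n (w f) (c.comp ω))
    (swap_gal : ∀ (σ : GQ) {n : ℕ} {f : FN M} {c : K.A →+ ZMod (p ^ n)},
      K.R n f c → w (galF M σ f) = galF M σ (w f))
    (n : ℕ) (σ : GQ) (c : K.A →+ ZMod (p ^ n)) :
    K.act n σ (c.comp ω) = (K.act n σ c).comp ω := by
  obtain ⟨f, hf⟩ := K.ex n c
  rw [KummerSystem.act_apply, KummerSystem.act_apply]
  refine K.actFun_eq σ (swap hf) ?_
  rw [← swap_gal σ hf]
  exact swap (K.actFun_spec σ hf)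

/-- The all-`ℓ` Hecke compatibility of the transported Galois action. -/
theorem act_hecke (K : KummerSystem M p) (ℓ : ℕ)
    (hecke : ∀ {n : ℕ} {f : FN M} {c : K.A →+ ZMod (p ^ n)},
      K.R n f c → K.R n (K.heckeF ℓ f) (c.comp (K.τ ℓ)))
    (hecke_gal : ∀ (σ : GQ) {n : ℕ} {f : FN M} {c : K.A →+ ZMod (p ^ n)},
      K.R n f c → K.heckeF ℓ (galF M σ f) = galF M σ (K.heckeF ℓ f))
    (n : ℕ) (σ : GQ) (c : K.A →+ ZMod (p ^ n)) :
    K.act n σ (c.comp (K.τ ℓ)) = (K.act n σ c).comp (K.τ ℓ) :=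
  act_swap K (K.τ ℓ) (K.heckeF ℓ) hecke hecke_gal n σ c

/-- The function-level semistable relation gives the relation on characters: if for a Kummer
function `f` of character `c` the function `σ u · (w u) ^ q`, `u = σ f · w f`, is a `p ^ n`-th
power, then `(σ + q ω)(σ + ω) c = 0`. -/
theorem act_rel (K : KummerSystem M p) (ω : K.A →+ K.A) (w : FN M → FN M)
    (swap : ∀ {n : ℕ} {f : FN M} {c : K.A →+ ZMod (p ^ n)},
      K.R n f c → K.R n (w f) (c.comp ω))
    (q : ℕ) (n : ℕ) (σ : GQ) {f : FN M} {c : K.A →+ ZMod (p ^ n)} (hf : K.R n f c)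
    (h : ∃ k : FN M, galF M σ (galF M σ f * w f) * w (galF M σ f * w f) ^ q = k ^ (p ^ n)) :
    K.act n σ (K.act n σ c + c.comp ω) + q • (K.act n σ c + c.comp ω).comp ω = 0 := by
  obtain ⟨k, hk⟩ := h
  -- `u = σ f · w f` has character `d = σ c + c ∘ ω`
  have hu : K.R n (galF M σ f * w f) (K.act n σ c + c.comp ω) :=
    K.mul (K.actFun_spec σ hf) (swap hf)
  have hL : K.R n (galF M σ (galF M σ f * w f) * w (galF M σ f * w f) ^ q)
      (K.act n σ (K.act n σ c + c.comp ω) + q • (K.act n σ c + c.comp ω).comp ω) :=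
    K.mul (K.actFun_spec σ hu) (K.R_pow (swap hu) q)
  have hk0 : k ≠ 0 := by
    intro k0
    rw [k0, zero_pow (pow_ne_zero n hp.out.ne_zero)] at hk
    exact K.ne_zero hL hk
  rw [hk] at hL
  exact K.uniq hL (K.pow n hk0)

/-- **The S35 limit, Kummer-system form.**  A Kummer system `K` of level `M` together with

* (E+) the all-`ℓ ∤ M` versions of `τ_comm`, `hecke`, `hecke_gal`, `occ`;
* (W) for every prime `q ∥ M`, `q ≠ p`: a map `ω q` of `K.A` (an involution on integral
  characters, commuting with the other `ω q'` and with the `τ ℓ`) and a map `wF q` of the function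
  field carrying Kummer functions of character `c` to Kummer functions of character `c ∘ ω q`
  and commuting with the Galois action on Kummer functions;
* (N), (C) the level `M / q` groups `A' q`, their Hecke correspondences, the transfers
  `ν q : A' q →+ K.A` and the occurrence of the eigen-characters of `A' q` in cusp forms of
  level `M / q`;
* (R) the semistable relation on functions: for a Frobenius `σ` at `q` and a Kummer function
  `f` of exponent `p ^ n` whose character `c` satisfies `c ∘ ν = 0`, `c ∘ ω ∘ ν = 0`, the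
  function `σ u · (W u) ^ q`, `u = σ f · W f`, is a `p ^ n`-th power

yields the producer contract `SSData M p` of S35. -/
theorem nonempty_ssData_of_kummerSystem (K : KummerSystem M p)
    -- (E+)
    (τ_comm : ∀ ℓ ℓ' : ℕ, ℓ.Prime → ¬ ℓ ∣ M → ℓ'.Prime → ¬ ℓ' ∣ M →
      ∀ c : K.A →+ ℤ, (c.comp (K.τ ℓ)).comp (K.τ ℓ') = (c.comp (K.τ ℓ')).comp (K.τ ℓ))
    (hecke : ∀ ℓ : ℕ, ℓ.Prime → ¬ ℓ ∣ M → ∀ {n : ℕ} {f : FN M} {c : K.A →+ ZMod (p ^ n)},
      K.R n f c → K.R n (K.heckeF ℓ f) (c.comp (K.τ ℓ)))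
    (hecke_gal : ∀ ℓ : ℕ, ℓ.Prime → ¬ ℓ ∣ M →
      ∀ (σ : GQ) {n : ℕ} {f : FN M} {c : K.A →+ ZMod (p ^ n)},
        K.R n f c → K.heckeF ℓ (galF M σ f) = galF M σ (K.heckeF ℓ f))
    (occ : ∃ P : CuspForm (CongruenceSubgroup.Gamma0 M) 2 →ₗ[ℂ] (K.A → ℂ),
      (∀ f a b, P f (a + b) = P f a + P f b) ∧ Function.Injective P ∧
        ∀ (ℓ : ℕ) (hℓ : ℓ.Prime) (hℓM : ¬ ℓ ∣ M),
          ∀ f a, P (CuspForm.heckeTLin 2 hℓ hℓM f) a = P f (K.τ ℓ a))
    -- (W)
    (ω : ℕ → K.A →+ K.A) (wF : ℕ → FN M → FN M)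
    (ω_sq : ∀ q, SSPrime M p q → ∀ c : K.A →+ ℤ, (c.comp (ω q)).comp (ω q) = c)
    (ω_comm : ∀ q q', SSPrime M p q → SSPrime M p q' →
      ∀ c : K.A →+ ℤ, (c.comp (ω q)).comp (ω q') = (c.comp (ω q')).comp (ω q))
    (ω_τ : ∀ q, SSPrime M p q → ∀ ℓ : ℕ, ℓ.Prime → ¬ ℓ ∣ M →
      ∀ c : K.A →+ ℤ, (c.comp (ω q)).comp (K.τ ℓ) = (c.comp (K.τ ℓ)).comp (ω q))
    (swap : ∀ q, SSPrime M p q → ∀ {n : ℕ} {f : FN M} {c : K.A →+ ZMod (p ^ n)},
      K.R n f c → K.R n (wF q f) (c.comp (ω q)))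
    (swap_gal : ∀ q, SSPrime M p q →
      ∀ (σ : GQ) {n : ℕ} {f : FN M} {c : K.A →+ ZMod (p ^ n)},
        K.R n f c → wF q (galF M σ f) = galF M σ (wF q f))
    -- (N)
    (A' : ℕ → Type) [∀ q, AddCommGroup (A' q)]
    (hA' : ∀ q, SSPrime M p q → AddGroup.FG (A' q))
    (τ' : (q : ℕ) → ℕ → A' q →+ A' q)
    (hτ' : ∀ q, SSPrime M p q → ∀ ℓ ℓ' : ℕ, ℓ.Prime → ¬ ℓ ∣ M → ℓ'.Prime → ¬ ℓ' ∣ M →
      ∀ c : A' q →+ ℤ, (c.comp (τ' q ℓ)).comp (τ' q ℓ') = (c.comp (τ' q ℓ')).comp (τ' q ℓ))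
    (ν : (q : ℕ) → A' q →+ K.A)
    (ν_τ : ∀ q, SSPrime M p q → ∀ ℓ : ℕ, ℓ.Prime → ¬ ℓ ∣ M →
      ∀ c : K.A →+ ℤ, (c.comp (K.τ ℓ)).comp (ν q) = (c.comp (ν q)).comp (τ' q ℓ))
    -- (C)
    (cocc : ∀ q, SSPrime M p q → ∀ (c : ℕ → ℂ) (φ : A' q →+ ℂ), φ ≠ 0 →
      (∀ ℓ : ℕ, ℓ.Prime → ¬ ℓ ∣ M → φ.comp (τ' q ℓ) = c ℓ • φ) →
      ∃ g' : CuspForm (CongruenceSubgroup.Gamma0 (M / q)) 2, g'.IsNormalizedEigenform ∧
        ∀ ℓ : ℕ, ℓ.Prime → ¬ ℓ ∣ M → ModularFormClass.qCoeff g' ℓ = c ℓ)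
    -- (R)
    (rel : ∀ q, SSPrime M p q →
      ∀ B : ValuationSubring Qb, B.LiesOverPrime q →
        ∀ σ : GQ, B.IsFrobeniusAt σ q →
          ∀ {n : ℕ} {f : FN M} {c : K.A →+ ZMod (p ^ n)}, K.R n f c →
            c.comp (ν q) = 0 → (c.comp (ω q)).comp (ν q) = 0 →
            ∃ k : FN M, galF M σ (galF M σ f * wF q f) * wF q (galF M σ f * wF q f) ^ q =
              k ^ (p ^ n)) :
    Nonempty (SSData M p) := by
  classical
  refine Limit.nonempty_ssData K.A K.fgA K.τ τ_comm K.act ?_ ?_ ?_ ?_ ?_ occ ω ω_sq ω_comm ω_τ ?_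
    A' hA' τ' hτ' ν ν_τ cocc ?_
  · -- act_red
    intro n σ c
    obtain ⟨f, hf⟩ := K.ex (n + 1) c
    rw [KummerSystem.act_apply, KummerSystem.act_apply]
    exact K.actFun_eq σ (K.red hf) (K.red (K.actFun_spec σ hf))
  · -- act_τ, all `ℓ ∤ M`
    intro n σ ℓ hℓ hℓM c
    exact act_hecke K ℓ (hecke ℓ hℓ hℓM) (hecke_gal ℓ hℓ hℓM) n σ c
  · -- cont
    intro n
    have := K.finite_hom n
    choose f hf using K.ex n
    choose L hLfin hL using fun c => K.cont (f c)
    have : ∀ c, FiniteDimensional ℚ (L c) := hLfin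
    refine ⟨⨆ c, L c, IntermediateField.finiteDimensional_iSup_of_finite, fun σ hσ => ?_⟩
    ext1 c
    show K.actFun n σ c = c
    refine K.actFun_eq σ (hf c) ?_
    rw [hL c σ (fun x hx => hσ x (le_iSup L c hx))]
    exact hf c
  · -- unr
    intro n q hq hqN hqp P hP σ hσ
    ext1 c
    show K.actFun n σ c = c
    obtain ⟨f, hf⟩ := K.ex n c
    obtain ⟨g, hg⟩ := K.unr q hq hqN hqp P hP σ hσ hf
    refine K.actFun_eq σ hf ?_
    rw [hg]
    refine K.R_mul_pow hf ?_
    intro g0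
    rw [g0, zero_pow (pow_ne_zero n hp.out.ne_zero), mul_zero] at hg
    exact KummerSystem.galF_ne_zero σ (K.ne_zero hf) hg
  · -- es
    intro n ℓ hℓ hℓN hℓp B hB σ hσ c
    obtain ⟨f, hf⟩ := K.ex n c
    have hrel : Relevant M p ℓ := ⟨hℓ, hℓN, hℓp⟩
    obtain ⟨g, hg⟩ := K.es ℓ hrel B hB σ hσ hf
    have h1 := K.actFun_spec σ hf
    have h2 := K.actFun_spec σ h1
    have hL := K.mul h2 (K.R_pow hf ℓ)
    have hT := K.hecke hrel h1
    have hg0 : g ≠ 0 := by
      intro g0
      rw [g0, zero_pow (pow_ne_zero n hp.out.ne_zero), mul_zero] at hg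
      exact K.ne_zero hL hg
    rw [hg] at hL
    have hR := K.R_mul_pow hT hg0
    have := K.uniq hL hR
    rw [KummerSystem.act_apply, KummerSystem.act_apply, ← this]
    abel
  · -- act_ω
    intro q hq n σ c
    exact act_swap K (ω q) (wF q) (swap q hq) (swap_gal q hq) n σ c
  · -- rel
    intro q hq B hB σ hσ n c h1 h2
    obtain ⟨f, hf⟩ := K.ex n c
    exact act_rel K (ω q) (wF q) (swap q hq) q n σ hf (rel q hq B hB σ hσ hf h1 h2)

end Fermat.Agent.S35.LimitKummer
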