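/-
PROGRAM U / S35, brick `U.S35.Concrete` (helper13): the CONCRETE instantiation of the S35 limit.

`LimitKummer.nonempty_ssData_of_kummerSystem` (helper34) is applied to THE Kummer system of
level `M` of the S30 producer,

  `K := Assembly.kummerSystem M p (SurjXRoot.surj M) (bricks_k1 M)`
  (`K.A = AN M`, `K.τ = tau M`, `K.heckeF = E4.heckeFb M`, `K.R n f c = KRel M (p ^ n) f c`),

with `ω := omegaAt M` (helper45, `S35/Betti/SwapAt.lean`), `A' q := AN (M / q)`,
`τ' q := tau (M / q)`.  Every Betti / Hecke / period / occurrence hypothesis is discharged by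
landed bricks:

* (E+) `BettiABricks.tauComm`, `Glue.krel_hecke`, `E4.heckeFb_galF`, `BettiABricks.period`
       (all stated for every prime `ℓ ∤ M`);
* (W)  `comp_omegaAt_omegaAt`, `comp_omegaAt_comm`, `comp_omegaAt_tau` (helper45);
* (N)  `fg_AN`, `BettiABricks.tauComm` at level `M / q`;
* (C)  `Cocc.exists_isNormalizedEigenform` (helper84).

What remains is exactly the FUNCTION-LEVEL part: the Atkin–Lehner map `wF q` of the function
field with its Kummer law and Galois commutation, the transfer `ν q` with its Hecke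
equivariance, and the semistable relation (R).
-/
import Mathlib
import Fermat.Agent.S35.LimitKummer
import Fermat.Agent.S35.Betti.SwapComm
import Fermat.Agent.S35.Cocc
import Fermat.Agent.S30.Producer.Final

set_option autoImplicit false

namespace Fermat.Agent.S35.Concrete

open Fermat.Agent.S30 Fermat.Agent.S30.Producer Fermat.Agent.S35.Betti.Swap

/-- `M / q ≠ 0` for a divisor `q` of `M ≠ 0`. -/
theorem neZero_div (M q : ℕ) [NeZero M] (hq : q ∣ M) : NeZero (M / q) :=
  ⟨(Nat.div_pos (Nat.le_of_dvd (Nat.pos_of_ne_zero (NeZero.ne M)) hq)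
    (Nat.pos_of_dvd_of_pos hq (Nat.pos_of_ne_zero (NeZero.ne M)))).ne'⟩

/-- **The concrete S35 producer, modulo the function-level inputs.**  For the Kummer system
of level `M` of the S30 producer and the Atkin–Lehner endomorphisms `omegaAt M q` of `AN M`:
a function-field map `wF q` with the Kummer law `KRel f c → KRel (wF q f) (c ∘ ω_q)` commuting
with the Galois action, transfers `ν q : AN (M / q) →+ AN M` which are Hecke equivariant on
integral characters, and the semistable relation (R) yield the producer contract `SSData M p`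
of S35. -/
theorem nonempty_ssData_of_fun (M p : ℕ) [NeZero M] [hp : Fact p.Prime]
    (wF : ℕ → FN M → FN M)
    (swap : ∀ q, SSPrime M p q → ∀ {n : ℕ} {f : FN M} {c : AN M →+ ZMod (p ^ n)},
      KRel M (p ^ n) f c → KRel M (p ^ n) (wF q f) (c.comp (omegaAt M q)))
    (swap_gal : ∀ q, SSPrime M p q →
      ∀ (σ : GQ) {n : ℕ} {f : FN M} {c : AN M →+ ZMod (p ^ n)},
        KRel M (p ^ n) f c → wF q (galF M σ f) = galF M σ (wF q f))
    (ν : (q : ℕ) → AN (M / q) →+ AN M)
    (ν_τ : ∀ q, SSPrime M p q → ∀ ℓ : ℕ, ℓ.Prime → ¬ ℓ ∣ M →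
      ∀ c : AN M →+ ℤ, (c.comp (tau M ℓ)).comp (ν q) = (c.comp (ν q)).comp (tau (M / q) ℓ))
    (rel : ∀ q, SSPrime M p q →
      ∀ B : ValuationSubring Qb, B.LiesOverPrime q →
        ∀ σ : GQ, B.IsFrobeniusAt σ q →
          ∀ {n : ℕ} {f : FN M} {c : AN M →+ ZMod (p ^ n)}, KRel M (p ^ n) f c →
            c.comp (ν q) = 0 → (c.comp (omegaAt M q)).comp (ν q) = 0 →
            ∃ k : FN M, galF M σ (galF M σ f * wF q f) * wF q (galF M σ f * wF q f) ^ q =
              k ^ (p ^ n)) :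
    Nonempty (SSData M p) := by
  refine LimitKummer.nonempty_ssData_of_kummerSystem
    (Assembly.kummerSystem M p (SurjXRoot.surj M) (bricks_k1 M))
    (fun ℓ ℓ' hℓ hℓM hℓ' hℓ'M c => BettiABricks.tauComm M ℓ ℓ' hℓ hℓM hℓ' hℓ'M c)
    (fun ℓ hℓ hℓM {n f c} h =>
      Glue.krel_hecke (BettiABricks.tHomParEll M) hℓ hℓM (TransferTrivialProof.heckeDiv M _) h)
    (fun ℓ hℓ hℓM σ {n f c} _ => E4.heckeFb_galF M hℓ hℓM σ f)
    (BettiABricks.period M)
    (omegaAt M) wF
    (fun q hq c => comp_omegaAt_omegaAt hq.1 hq.2.1 hq.2.2.1 c)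
    (fun q q' hq hq' c => comp_omegaAt_comm hq.1 hq.2.1 hq.2.2.1 hq'.1 hq'.2.1 hq'.2.2.1 c)
    (fun q hq ℓ _ _ c => comp_omegaAt_tau hq.1 hq.2.1 hq.2.2.1 ℓ c)
    swap swap_gal
    (fun q => AN (M / q))
    (fun q hq => haveI := neZero_div M q hq.2.1; fg_AN (M / q))
    (fun q => tau (M / q))
    (fun q hq ℓ ℓ' hℓ hℓM hℓ' hℓ'M c =>
      haveI := neZero_div M q hq.2.1
      BettiABricks.tauComm (M / q) ℓ ℓ' hℓ
        (fun h => hℓM (h.trans (Nat.div_dvd_of_dvd hq.2.1))) hℓ'
        (fun h => hℓ'M (h.trans (Nat.div_dvd_of_dvd hq.2.1))) c)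
    ν ν_τ
    (fun q hq c φ hφ h => ?_)
    rel
  have := neZero_div M q hq.2.1
  obtain ⟨g', hg', hc⟩ := Cocc.exists_isNormalizedEigenform (M / q) {ℓ | ¬ ℓ ∣ M} c φ hφ
    (fun ℓ hℓ _ hℓM => h ℓ hℓ hℓM)
  exact ⟨g', hg', fun ℓ hℓ hℓM =>
    hc ℓ hℓ (fun hd => hℓM (hd.trans (Nat.div_dvd_of_dvd hq.2.1))) hℓM⟩

end Fermat.Agent.S35.Concrete
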