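/-
S35 / Program U, brick "coset decomposition" (helper153):
the norms along the two degeneracy maps in terms of the Atkin–Lehner swap and `U_ℓ`.

Level `M ℓ` with `ℓ` prime, `ℓ ∤ M`.  `α, β : F_M → F_{Mℓ}` are the Prelude degeneracy maps
(`heckeAlphaBar`: inclusion, `heckeBetaBar`: `q ↦ q^ℓ`), `w` is ANY `ℚ̄`-automorphism of `F_{Mℓ}`
with `w ∘ α = β`, `w ∘ β = α` (the Atkin–Lehner involution `W_ℓ`; it exists by
`Fermat.Agent.S37.SwapGal.exists_swap_gal_j`), `z` a primitive `ℓ`-th root of unity and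
`U y := Congr.normL ℓ _ z y = ∏_{i<ℓ} y(zⁱ q^{1/ℓ})`.  For EVERY `y ∈ F_{Mℓ}`:

* `coe_norm_alpha` : `N_α(y) = y · U(w y)`;
* `coe_norm_beta`  : `N_β(y) = w(y) · U(y)`      (needs `w ∘ w = id`);
* `normL_mem`      : `U y ∈ F_{Mℓ}`.

Proof: the `ℓ + 1` ring homomorphisms `F_{Mℓ} → ℚ̄((q))`, `y ↦ y(q^ℓ)` and `y ↦ (w y)(zⁱ q)`,
agree on `α(F_M)`, are pairwise distinct, and `[F_{Mℓ} : α(F_M)] ≤ ℓ + 1`; hence they are all the
embeddings over `α(F_M)` and the norm is their product.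
-/
import Mathlib
import Fermat.Agent.S30.HeckeNormQ
import Fermat.Agent.S30.HeckeInputs
import Fermat.Agent.S37.SwapGal
import Fermat.Agent.S37.SwapDiv

set_option autoImplicit false
set_option linter.style.haveILetI false
set_option linter.unusedSectionVars false

open ModularCurve AlgebraicCurve HahnSeries
open Fermat.Agent.S24.Modular Fermat.Agent.S30

noncomputable section

namespace Fermat.Agent.S35.NormW

/-! ### The degree of `α` -/

section Degree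

variable (M ℓ : ℕ) [NeZero M] [NeZero ℓ]

/-- `[F_{Mℓ} : α(F_M)] ≤ ℓ + 1` for a prime `ℓ ∤ M`. -/
theorem finrank_alpha_le (hℓ : ℓ.Prime) (hℓM : ¬ ℓ ∣ M) :
    letI := algebraAlong (heckeAlphaBar Kbar M ℓ)
    Module.finrank (FN M) (FN (M * ℓ)) ≤ ℓ + 1 := by
  classical
  letI := algebraAlong (heckeAlphaBar Kbar M ℓ)
  haveI : Module.Finite (FN M) (FN (M * ℓ)) := HeckeNormQ.finite_alpha M ℓ
  haveI : CharZero (FN M) := charZero_of_injective_algebraMap (algebraMap Kbar (FN M)).injective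
  let E := FractionRing Fermat.Agent.S24.HolH.HolH
  let Ω := AlgebraicClosure E
  letI : Algebra (FN M) Ω :=
    ((algebraMap E Ω).comp (HeckeNormQ.emb0 Fermat.Agent.S24.Theta.iotaBar M)).toAlgebra
  have halg : ∀ a : FN M, algebraMap (FN M) Ω a
      = algebraMap E Ω (HeckeNormQ.emb0 Fermat.Agent.S24.Theta.iotaBar M a) := fun a => rfl
  haveI : Finite (HeckeNormQ.RelQ M ℓ) :=
    Nat.finite_of_card_ne_zero (by rw [HeckeNormQ.card_relQ M ℓ hℓ hℓM]; omega)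
  have hex : ∀ τ : FN (M * ℓ) →ₐ[FN M] Ω, ∃ q : HeckeNormQ.RelQ M ℓ,
      (τ : FN (M * ℓ) →+* Ω)
        = (algebraMap E Ω).comp (HeckeNormQ.emb Fermat.Agent.S24.Theta.iotaBar M ℓ q) := by
    intro τ
    exact HeckeNormQ.exists_emb_eq Fermat.Agent.S24.Theta.iotaBar M ℓ (τ : FN (M * ℓ) →+* Ω)
      (fun f => by
        have h := τ.commutes f
        rw [halg] at h
        exact h)
  choose f hf using hex
  have hinj : Function.Injective f := by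
    intro τ τ' h
    apply AlgHom.coe_ringHom_injective
    rw [hf τ, hf τ', h]
  have h1 : Nat.card (FN (M * ℓ) →ₐ[FN M] Ω) ≤ Nat.card (HeckeNormQ.RelQ M ℓ) :=
    Nat.card_le_card_of_injective f hinj
  rw [HeckeNormQ.card_relQ M ℓ hℓ hℓM, Nat.card_eq_fintype_card, AlgHom.card (FN M) (FN (M * ℓ)) Ω]
    at h1
  exact h1

end Degree

/-! ### The embeddings -/

section Emb

variable (M ℓ : ℕ) [NeZero M] [NeZero ℓ]

/-- The coercion `F_N → ℚ̄((q))` as a ring homomorphism. -/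
def coeHom (N : ℕ) : FN N →+* LaurentSeries Kbar :=
  (modularFunctionFieldBar N).val.toRingHom

@[simp] theorem coeHom_apply (N : ℕ) (y : FN N) : coeHom N y = (y : LaurentSeries Kbar) := rfl

/-- `y ↦ y(q^ℓ)` on `F_M`. -/
def Theta (hℓ : ℓ.Prime) : FN M →+* LaurentSeries Kbar :=
  (Congr.expand ℓ hℓ.pos).comp (coeHom M)

/-- The `ℓ + 1` embeddings of `F_{Mℓ}`: `y ↦ y(q^ℓ)` and `y ↦ (w y)(zⁱ q)`, `i < ℓ`. -/
def mu (hℓ : ℓ.Prime) (z : Kbarˣ) (w : FN (M * ℓ) ≃ₐ[Kbar] FN (M * ℓ)) :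
    Option (Fin ℓ) → (FN (M * ℓ) →+* LaurentSeries Kbar)
  | none => (Congr.expand ℓ hℓ.pos).comp (coeHom (M * ℓ))
  | some i => ((Congr.rescale (z ^ (i : ℕ))).comp (coeHom (M * ℓ))).comp
      (w : FN (M * ℓ) →+* FN (M * ℓ))

variable {M ℓ}

theorem mu_none (hℓ : ℓ.Prime) (z : Kbarˣ) (w : FN (M * ℓ) ≃ₐ[Kbar] FN (M * ℓ))
    (y : FN (M * ℓ)) :
    mu M ℓ hℓ z w none y = Congr.expand ℓ hℓ.pos (y : LaurentSeries Kbar) := rfl

theorem mu_some (hℓ : ℓ.Prime) (z : Kbarˣ) (w : FN (M * ℓ) ≃ₐ[Kbar] FN (M * ℓ)) (i : Fin ℓ)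
    (y : FN (M * ℓ)) :
    mu M ℓ hℓ z w (some i) y = Congr.rescale (z ^ (i : ℕ)) ((w y : FN (M * ℓ)) :
      LaurentSeries Kbar) := rfl

/-- A series in `q^ℓ` is invariant under `q ↦ ζ q` for an `ℓ`-th root of unity `ζ`. -/
theorem rescale_expand {ℓ : ℕ} (hℓ : 0 < ℓ) (ζ : Kbarˣ) (hζ : ζ ^ ℓ = 1)
    (x : LaurentSeries Kbar) :
    Congr.rescale ζ (Congr.expand ℓ hℓ x) = Congr.expand ℓ hℓ x := by
  ext n
  rw [Congr.coeff_rescale]
  by_cases hn : (ℓ : ℤ) ∣ n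
  · obtain ⟨k, rfl⟩ := hn
    have h1 : ζ ^ ((ℓ : ℤ) * k) = 1 := by
      rw [zpow_mul, zpow_natCast, hζ, one_zpow]
    rw [h1, Units.val_one, one_mul]
  · rw [Congr.coeff_expand_of_not_dvd ℓ hℓ _ hn, mul_zero]

theorem coe_beta (hℓ : ℓ.Prime) (a : FN M) :
    ((heckeBetaBar Kbar M ℓ a : FN (M * ℓ)) : LaurentSeries Kbar)
      = Congr.expand ℓ hℓ.pos (a : LaurentSeries Kbar) := by
  rw [coe_heckeBetaBar, HeckeAvatar.expand_eq_qExpand]

/-- All the embeddings restrict to `a ↦ a(q^ℓ)` on `α(F_M)`. -/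
theorem mu_alpha (hℓ : ℓ.Prime) (z : Kbarˣ) (hz : z ^ ℓ = 1)
    (w : FN (M * ℓ) ≃ₐ[Kbar] FN (M * ℓ))
    (hwα : ∀ a : FN M, w (heckeAlphaBar Kbar M ℓ a) = heckeBetaBar Kbar M ℓ a)
    (q : Option (Fin ℓ)) (a : FN M) :
    mu M ℓ hℓ z w q (heckeAlphaBar Kbar M ℓ a) = Theta M ℓ hℓ a := by
  cases q with
  | none =>
    rw [mu_none, coe_heckeAlphaBar]
    rfl
  | some i =>
    rw [mu_some, hwα, coe_beta hℓ, rescale_expand hℓ.pos _ (by rw [← pow_mul, mul_comm, pow_mul,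
      hz, one_pow])]
    rfl

/-- The value of the embeddings at `β j`, coefficient of `q⁻¹`. -/
theorem coeff_mu_none_beta_j (hℓ : ℓ.Prime) (z : Kbarˣ) (w : FN (M * ℓ) ≃ₐ[Kbar] FN (M * ℓ)) :
    (mu M ℓ hℓ z w none (heckeBetaBar Kbar M ℓ (jF M))).coeff (-1) = 0 := by
  rw [mu_none]
  refine Congr.coeff_expand_of_not_dvd ℓ hℓ.pos _ ?_
  intro hdvd
  have h1 : (ℓ : ℤ) ∣ 1 := (dvd_neg (a := (ℓ : ℤ)) (b := 1)).mp hdvd
  have h2 : ℓ ∣ 1 := by exact_mod_cast h1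
  exact hℓ.one_lt.ne' (Nat.dvd_one.mp h2)

theorem coeff_mu_some_beta_j (hℓ : ℓ.Prime) (z : Kbarˣ) (w : FN (M * ℓ) ≃ₐ[Kbar] FN (M * ℓ))
    (hwβ : ∀ a : FN M, w (heckeBetaBar Kbar M ℓ a) = heckeAlphaBar Kbar M ℓ a) (i : Fin ℓ) :
    (mu M ℓ hℓ z w (some i) (heckeBetaBar Kbar M ℓ (jF M))).coeff (-1)
      = (((z ^ (i : ℕ))⁻¹ : Kbarˣ) : Kbar) := by
  rw [mu_some, hwβ, coe_heckeAlphaBar, Congr.coeff_rescale]
  have h1 : ((jF M : FN M) : LaurentSeries Kbar).coeff (-1) = 1 := by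
    show (coeffEmb Kbar jq).coeff (-1) = 1
    rw [coeffEmb_coeff, coeff_jq_neg_one, map_one]
  rw [h1, mul_one, zpow_neg_one]

/-- The embeddings are pairwise distinct. -/
theorem mu_injective (hℓ : ℓ.Prime) (z : Kbarˣ) (hz : IsPrimitiveRoot z ℓ)
    (w : FN (M * ℓ) ≃ₐ[Kbar] FN (M * ℓ))
    (hwβ : ∀ a : FN M, w (heckeBetaBar Kbar M ℓ a) = heckeAlphaBar Kbar M ℓ a) :
    Function.Injective (mu M ℓ hℓ z w) := by
  intro q q' h
  have hval : (mu M ℓ hℓ z w q (heckeBetaBar Kbar M ℓ (jF M))).coeff (-1)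
      = (mu M ℓ hℓ z w q' (heckeBetaBar Kbar M ℓ (jF M))).coeff (-1) := by rw [h]
  cases q with
  | none =>
    cases q' with
    | none => rfl
    | some i =>
      rw [coeff_mu_none_beta_j, coeff_mu_some_beta_j hℓ z w hwβ] at hval
      exact absurd hval.symm (Units.ne_zero _)
  | some i =>
    cases q' with
    | none =>
      rw [coeff_mu_none_beta_j, coeff_mu_some_beta_j hℓ z w hwβ] at hval
      exact absurd hval (Units.ne_zero _)
    | some i' =>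
      rw [coeff_mu_some_beta_j hℓ z w hwβ, coeff_mu_some_beta_j hℓ z w hwβ] at hval
      have h2 : z ^ (i : ℕ) = z ^ (i' : ℕ) := inv_injective (Units.ext hval)
      have h3 : (i : ℕ) = (i' : ℕ) := hz.pow_inj i.2 i'.2 h2
      rw [Fin.ext h3]

/-- The embeddings exhaust the embeddings over `α(F_M)` into an algebraic closure. -/
theorem exists_mu_eq (hℓ : ℓ.Prime) (hℓM : ¬ ℓ ∣ M) (z : Kbarˣ) (hz : IsPrimitiveRoot z ℓ)
    (w : FN (M * ℓ) ≃ₐ[Kbar] FN (M * ℓ))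
    (hwα : ∀ a : FN M, w (heckeAlphaBar Kbar M ℓ a) = heckeBetaBar Kbar M ℓ a)
    (hwβ : ∀ a : FN M, w (heckeBetaBar Kbar M ℓ a) = heckeAlphaBar Kbar M ℓ a)
    (τ : FN (M * ℓ) →+* AlgebraicClosure (LaurentSeries Kbar))
    (hτ : ∀ a : FN M, τ (heckeAlphaBar Kbar M ℓ a)
      = algebraMap (LaurentSeries Kbar) (AlgebraicClosure (LaurentSeries Kbar)) (Theta M ℓ hℓ a)) :
    ∃ q : Option (Fin ℓ),
      τ = (algebraMap (LaurentSeries Kbar) (AlgebraicClosure (LaurentSeries Kbar))).comp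
        (mu M ℓ hℓ z w q) := by
  classical
  letI := algebraAlong (heckeAlphaBar Kbar M ℓ)
  haveI : Module.Finite (FN M) (FN (M * ℓ)) := HeckeNormQ.finite_alpha M ℓ
  haveI : CharZero (FN M) := charZero_of_injective_algebraMap (algebraMap Kbar (FN M)).injective
  let Ω := AlgebraicClosure (LaurentSeries Kbar)
  letI : Algebra (FN M) Ω :=
    ((algebraMap (LaurentSeries Kbar) Ω).comp (Theta M ℓ hℓ)).toAlgebra
  have halg : ∀ a : FN M, algebraMap (FN M) Ω a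
      = algebraMap (LaurentSeries Kbar) Ω (Theta M ℓ hℓ a) := fun a => rfl
  let ν : Option (Fin ℓ) → (FN (M * ℓ) →ₐ[FN M] Ω) := fun q =>
    { toRingHom := (algebraMap (LaurentSeries Kbar) Ω).comp (mu M ℓ hℓ z w q)
      commutes' := fun a => by
        show algebraMap (LaurentSeries Kbar) Ω (mu M ℓ hℓ z w q (heckeAlphaBar Kbar M ℓ a)) = _
        rw [mu_alpha hℓ z hz.pow_eq_one w hwα, halg] }
  have hν : ∀ q (y : FN (M * ℓ)), ν q y
      = algebraMap (LaurentSeries Kbar) Ω (mu M ℓ hℓ z w q y) := fun q y => rfl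
  have hνinj : Function.Injective ν := by
    intro q q' h
    apply mu_injective hℓ z hz w hwβ
    ext y : 1
    have h1 := congrArg (fun σ : FN (M * ℓ) →ₐ[FN M] Ω => σ y) h
    simp only [hν] at h1
    exact (algebraMap (LaurentSeries Kbar) Ω).injective h1
  have hcard : Nat.card (FN (M * ℓ) →ₐ[FN M] Ω) ≤ Nat.card (Option (Fin ℓ)) := by
    rw [Nat.card_eq_fintype_card, AlgHom.card (FN M) (FN (M * ℓ)) Ω, Nat.card_eq_fintype_card,
      Fintype.card_option, Fintype.card_fin]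
    exact finrank_alpha_le M ℓ hℓ hℓM
  have hbij : Function.Bijective ν := hνinj.bijective_of_nat_card_le hcard
  let τ' : FN (M * ℓ) →ₐ[FN M] Ω :=
    { toRingHom := τ
      commutes' := fun a => by
        show τ (heckeAlphaBar Kbar M ℓ a) = _
        rw [hτ, halg] }
  obtain ⟨q, hq⟩ := hbij.2 τ'
  refine ⟨q, ?_⟩
  ext y : 1
  have h1 := congrArg (fun σ : FN (M * ℓ) →ₐ[FN M] Ω => σ y) hq
  exact h1.symm

/-- The product of the embeddings. -/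
theorem prod_mu (hℓ : ℓ.Prime) (z : Kbarˣ) (hz : IsPrimitiveRoot z ℓ)
    (w : FN (M * ℓ) ≃ₐ[Kbar] FN (M * ℓ)) (y : FN (M * ℓ)) :
    ∏ q : Option (Fin ℓ), mu M ℓ hℓ z w q y
      = Congr.expand ℓ hℓ.pos ((y : LaurentSeries Kbar) *
          Congr.normL ℓ hℓ.pos z ((w y : FN (M * ℓ)) : LaurentSeries Kbar)) := by
  rw [Fintype.prod_option, mu_none, map_mul, Congr.expand_normL ℓ hℓ.pos z hz]
  congr 1
  unfold Congr.conjProd
  rw [← Fin.prod_univ_eq_prod_range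
    (fun i => Congr.rescale (z ^ i) ((w y : FN (M * ℓ)) : LaurentSeries Kbar)) ℓ]
  rfl

end Emb

/-! ### The norm formulas -/

section Norm

variable {M ℓ : ℕ} [NeZero M] [NeZero ℓ]

/-- **`N_α(y) = y · U(w y)`** for every `y ∈ F_{Mℓ}` (`ℓ` prime, `ℓ ∤ M`, `w` a swap). -/
theorem coe_norm_alpha (hℓ : ℓ.Prime) (hℓM : ¬ ℓ ∣ M) (z : Kbarˣ) (hz : IsPrimitiveRoot z ℓ)
    (w : FN (M * ℓ) ≃ₐ[Kbar] FN (M * ℓ))
    (hwα : ∀ a : FN M, w (heckeAlphaBar Kbar M ℓ a) = heckeBetaBar Kbar M ℓ a)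
    (hwβ : ∀ a : FN M, w (heckeBetaBar Kbar M ℓ a) = heckeAlphaBar Kbar M ℓ a)
    (y : FN (M * ℓ)) :
    letI := algebraAlong (heckeAlphaBar Kbar M ℓ)
    ((Algebra.norm (FN M) y : FN M) : LaurentSeries Kbar)
      = (y : LaurentSeries Kbar) *
          Congr.normL ℓ hℓ.pos z ((w y : FN (M * ℓ)) : LaurentSeries Kbar) := by
  classical
  letI := algebraAlong (heckeAlphaBar Kbar M ℓ)
  haveI : Module.Finite (FN M) (FN (M * ℓ)) := HeckeNormQ.finite_alpha M ℓ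
  haveI : CharZero (FN M) := charZero_of_injective_algebraMap (algebraMap Kbar (FN M)).injective
  have h := HeckeNormGen.map_norm_eq_prod (Theta M ℓ hℓ) (mu M ℓ hℓ z w)
    (mu_injective hℓ z hz w hwβ) (fun q a => mu_alpha hℓ z hz.pow_eq_one w hwα q a)
    (fun τ hτ => exists_mu_eq hℓ hℓM z hz w hwα hwβ τ hτ) y
  rw [prod_mu hℓ z hz w y] at h
  exact Congr.expand_injective ℓ hℓ.pos h

/-- **`N_β(y) = w(y) · U(y)`** for every `y ∈ F_{Mℓ}` (`ℓ` prime, `ℓ ∤ M`, `w` an involutive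
swap). -/
theorem coe_norm_beta (hℓ : ℓ.Prime) (hℓM : ¬ ℓ ∣ M) (z : Kbarˣ) (hz : IsPrimitiveRoot z ℓ)
    (w : FN (M * ℓ) ≃ₐ[Kbar] FN (M * ℓ))
    (hwα : ∀ a : FN M, w (heckeAlphaBar Kbar M ℓ a) = heckeBetaBar Kbar M ℓ a)
    (hwβ : ∀ a : FN M, w (heckeBetaBar Kbar M ℓ a) = heckeAlphaBar Kbar M ℓ a)
    (hww : ∀ y : FN (M * ℓ), w (w y) = y) (y : FN (M * ℓ)) :
    letI := algebraAlong (heckeBetaBar Kbar M ℓ)
    ((Algebra.norm (FN M) y : FN M) : LaurentSeries Kbar)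
      = ((w y : FN (M * ℓ)) : LaurentSeries Kbar) *
          Congr.normL ℓ hℓ.pos z (y : LaurentSeries Kbar) := by
  have h1 := Fermat.Agent.S37.SwapDiv.norm_along_algEquiv (heckeAlphaBar Kbar M ℓ)
    (heckeBetaBar Kbar M ℓ) w (fun f => (hwα f).symm) (w y)
  rw [hww y] at h1
  have h2 := coe_norm_alpha hℓ hℓM z hz w hwα hwβ (w y)
  rw [hww y] at h2
  rw [h1]
  exact h2

/-- The norm along `β` is the norm along `α` of the swapped element. -/
theorem norm_beta_eq_norm_alpha_swap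
    (w : FN (M * ℓ) ≃ₐ[Kbar] FN (M * ℓ))
    (hwα : ∀ a : FN M, w (heckeAlphaBar Kbar M ℓ a) = heckeBetaBar Kbar M ℓ a)
    (hww : ∀ y : FN (M * ℓ), w (w y) = y) (y : FN (M * ℓ)) :
    (letI := algebraAlong (heckeBetaBar Kbar M ℓ); Algebra.norm (FN M) y)
      = (letI := algebraAlong (heckeAlphaBar Kbar M ℓ); Algebra.norm (FN M) (w y)) := by
  have h1 := Fermat.Agent.S37.SwapDiv.norm_along_algEquiv (heckeAlphaBar Kbar M ℓ)
    (heckeBetaBar Kbar M ℓ) w (fun f => (hwα f).symm) (w y)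
  rw [hww y] at h1
  exact h1

/-- `U_ℓ` of zero. -/
theorem normL_zero {ℓ : ℕ} (hℓ : 0 < ℓ) (z : Kbarˣ) :
    Congr.normL ℓ hℓ z (0 : LaurentSeries Kbar) = 0 := by
  have h0 : ∏ i ∈ Finset.range ℓ, Congr.rescale (z ^ i) (0 : LaurentSeries Kbar) = 0 :=
    Finset.prod_eq_zero (i := 0) (Finset.mem_range.mpr hℓ) (map_zero _)
  unfold Congr.normL Congr.conjProd
  rw [h0]
  ext n
  rw [Congr.coeff_contract]
  rfl

/-- **`U_ℓ` preserves the function field of level `M ℓ`** (`ℓ` prime, `ℓ ∤ M`). -/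
theorem normL_mem (hℓ : ℓ.Prime) (hℓM : ¬ ℓ ∣ M) (z : Kbarˣ) (hz : IsPrimitiveRoot z ℓ)
    (y : FN (M * ℓ)) :
    Congr.normL ℓ hℓ.pos z (y : LaurentSeries Kbar) ∈ modularFunctionFieldBar (M * ℓ) := by
  obtain ⟨w, hwα, hwβ, hww, -⟩ := Fermat.Agent.S37.SwapGal.exists_swap_gal_j M ℓ hℓ hℓM
  by_cases hy : y = 0
  · rw [hy]
    show Congr.normL ℓ hℓ.pos z (0 : LaurentSeries Kbar) ∈ _
    rw [normL_zero]
    exact zero_mem _
  have hwy : (w y : FN (M * ℓ)) ≠ 0 := (map_ne_zero w).mpr hy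
  have hwy' : ((w y : FN (M * ℓ)) : LaurentSeries Kbar) ≠ 0 := fun h0 => hwy (Subtype.ext h0)
  have h := coe_norm_beta hℓ hℓM z hz w hwα hwβ hww y
  have h2 : Congr.normL ℓ hℓ.pos z (y : LaurentSeries Kbar)
      = ((heckeAlphaBar Kbar M ℓ
          (letI := algebraAlong (heckeBetaBar Kbar M ℓ); Algebra.norm (FN M) y) : FN (M * ℓ)) :
            LaurentSeries Kbar) * ((w y : FN (M * ℓ)) : LaurentSeries Kbar)⁻¹ := by
    rw [coe_heckeAlphaBar, h]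
    field_simp
  rw [h2]
  exact mul_mem (Subtype.property _) (inv_mem (Subtype.property _))

/-- On the function field, `U_ℓ` does not depend on the primitive `ℓ`-th root of unity. -/
theorem normL_eq_of_isPrimitiveRoot (hℓ : ℓ.Prime) (hℓM : ¬ ℓ ∣ M) (z z' : Kbarˣ)
    (hz : IsPrimitiveRoot z ℓ) (hz' : IsPrimitiveRoot z' ℓ) (y : FN (M * ℓ)) :
    Congr.normL ℓ hℓ.pos z (y : LaurentSeries Kbar)
      = Congr.normL ℓ hℓ.pos z' (y : LaurentSeries Kbar) := by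
  obtain ⟨w, hwα, hwβ, hww, -⟩ := Fermat.Agent.S37.SwapGal.exists_swap_gal_j M ℓ hℓ hℓM
  by_cases hy : y = 0
  · rw [hy]
    show Congr.normL ℓ hℓ.pos z (0 : LaurentSeries Kbar)
      = Congr.normL ℓ hℓ.pos z' (0 : LaurentSeries Kbar)
    rw [normL_zero, normL_zero]
  have hwy : (w y : FN (M * ℓ)) ≠ 0 := (map_ne_zero w).mpr hy
  have hwy' : ((w y : FN (M * ℓ)) : LaurentSeries Kbar) ≠ 0 := fun h0 => hwy (Subtype.ext h0)
  have h := coe_norm_beta hℓ hℓM z hz w hwα hwβ hww y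
  have h' := coe_norm_beta hℓ hℓM z' hz' w hwα hwβ hww y
  exact mul_left_cancel₀ hwy' (h.symm.trans h')

end Norm

end Fermat.Agent.S35.NormW

end
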