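/-
PROGRAM U / S35, brick `U.S35.Concrete`, part 2 (helper13): the relation (R) of
`LimitKummer.nonempty_ssData_of_kummerSystem` from the function-level statement of the geometric
side, at level `N * ℓ` (`ℓ` prime, `ℓ ∤ N`).

* `RelFun N ℓ m hℓ hℓN σ` : for every `f ≠ 0` of level `N ℓ` with `m ∣ div f` whose norms
  `N_β f` and `N_β (W f)` are (constants times) `m`-th powers,
  `σ² f · (σ W f)^(ℓ+1) · f^ℓ` is a constant times an `m`-th power
  (`(σ + ℓ W)(σ + W) f = 0`; the conclusion of helper153's `ToricFrob.rel_fun`).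
* `rel_of_relFun` : `RelFun` gives (R) in helper34's shape for the Kummer relation `KRel`:
  if `c ∘ ν = 0` and `c ∘ ω ∘ ν = 0` (`ν = verA N ℓ` the transfer, `ω = omegaAt (N ℓ) ℓ`) then
  `σ u · (W u)^ℓ` is an `m`-th power for `u = σ f · W f` (`W = swapAt (N ℓ) ℓ`).

Ingredients: `krel_norm` (helper84: the character of `N_α f` is `c ∘ ν`), `krel_inj`
(trivial character ⇒ `m`-th power), `NormW.norm_beta_eq_norm_alpha_swap` (helper153:
`N_β y = N_α (W y)`), `krel_wAL` (helper45: the character of `W f` is `c ∘ ω`).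
-/
import Mathlib
import Fermat.Agent.S35.Concrete
import Fermat.Agent.S35.Betti.SwapAtFun
import Fermat.Agent.S35.Betti.Norm
import Fermat.Agent.S35.NormW

set_option autoImplicit false

namespace Fermat.Agent.S35.ConcreteRel

open ModularCurve AlgebraicCurve
open Fermat.Agent.S30 Fermat.Agent.S30.Producer
open Fermat.Agent.S35.Betti.Swap Fermat.Agent.S35.Betti.Norm Fermat.Agent.S34.ToricSwap

/-- The function-level semistable relation at level `N * ℓ`, in the form produced by the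
geometric side: `(σ + ℓ W)(σ + W) f = 0` on the functions `f` with `m ∣ div f` whose norms
`N_β f`, `N_β (W f)` to level `N` are constants times `m`-th powers. -/
def RelFun (N ℓ m : ℕ) [NeZero N] [NeZero ℓ] (hℓ : ℓ.Prime) (hℓN : ¬ ℓ ∣ N) (σ : GQ) : Prop :=
  ∀ f : FN (N * ℓ), f ≠ 0 → E4.DivBy (N * ℓ) m f →
    (∃ (c : Qb) (g : FN N), (letI := algebraAlong (heckeBetaBar Qb N ℓ);
      Algebra.norm (FN N) f) = algebraMap Qb (FN N) c * g ^ m) →
    (∃ (c : Qb) (g : FN N), (letI := algebraAlong (heckeBetaBar Qb N ℓ);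
      Algebra.norm (FN N) (wAL N ℓ hℓ hℓN f)) = algebraMap Qb (FN N) c * g ^ m) →
    ∃ (c : Qb) (k : FN (N * ℓ)),
      galF (N * ℓ) σ (galF (N * ℓ) σ f) * galF (N * ℓ) σ (wAL N ℓ hℓ hℓN f) ^ (ℓ + 1) * f ^ ℓ
        = algebraMap Qb (FN (N * ℓ)) c * k ^ m

variable {N ℓ : ℕ} [NeZero N] [NeZero ℓ]

/-- **(R) at level `N * ℓ` from the function-level relation.** -/
theorem rel_of_relFun (hℓ : ℓ.Prime) (hℓN : ¬ ℓ ∣ N) {m : ℕ} [NeZero m] (σ : GQ)
    (hR : RelFun N ℓ m hℓ hℓN σ) {f : FN (N * ℓ)} {c : AN (N * ℓ) →+ ZMod m}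
    (hf : KRel (N * ℓ) m f c) (h1 : c.comp (verA N ℓ) = 0)
    (h2 : (c.comp (omegaAt (N * ℓ) ℓ)).comp (verA N ℓ) = 0) :
    ∃ k : FN (N * ℓ), galF (N * ℓ) σ (galF (N * ℓ) σ f * swapAt (N * ℓ) ℓ f) *
      swapAt (N * ℓ) ℓ (galF (N * ℓ) σ f * swapAt (N * ℓ) ℓ f) ^ ℓ = k ^ m := by
  have hm : 0 < m := Nat.pos_of_ne_zero (NeZero.ne m)
  rw [swapAt_eq_wAL hℓ hℓN]
  -- `N_α f` is an `m`-th power
  have hα1 : ∃ g : FN N, (letI := algebraAlong (heckeAlphaBar Qb N ℓ);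
      Algebra.norm (FN N) f) = g ^ m := by
    have h := krel_norm N ℓ hf
    rw [h1] at h
    exact Glue.krel_inj h
  -- `N_α (W f)` is an `m`-th power
  have hWf : KRel (N * ℓ) m (wAL N ℓ hℓ hℓN f) (c.comp (omegaAt (N * ℓ) ℓ)) :=
    krel_wAL hℓ hℓN hf
  have hα2 : ∃ g : FN N, (letI := algebraAlong (heckeAlphaBar Qb N ℓ);
      Algebra.norm (FN N) (wAL N ℓ hℓ hℓN f)) = g ^ m := by
    have h := krel_norm N ℓ hWf
    rw [h2] at h
    exact Glue.krel_inj h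
  -- `N_β f = N_α (W f)` and `N_β (W f) = N_α f`
  have hβ1 : ∃ (c : Qb) (g : FN N), (letI := algebraAlong (heckeBetaBar Qb N ℓ);
      Algebra.norm (FN N) f) = algebraMap Qb (FN N) c * g ^ m := by
    obtain ⟨g, hg⟩ := hα2
    refine ⟨1, g, ?_⟩
    rw [NormW.norm_beta_eq_norm_alpha_swap (wAL N ℓ hℓ hℓN) (wAL_alpha hℓ hℓN)
      (wAL_wAL hℓ hℓN) f, hg, map_one, one_mul]
  have hβ2 : ∃ (c : Qb) (g : FN N), (letI := algebraAlong (heckeBetaBar Qb N ℓ);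
      Algebra.norm (FN N) (wAL N ℓ hℓ hℓN f)) = algebraMap Qb (FN N) c * g ^ m := by
    obtain ⟨g, hg⟩ := hα1
    refine ⟨1, g, ?_⟩
    rw [NormW.norm_beta_eq_norm_alpha_swap (wAL N ℓ hℓ hℓN) (wAL_alpha hℓ hℓN)
      (wAL_wAL hℓ hℓN) (wAL N ℓ hℓ hℓN f), wAL_wAL hℓ hℓN f, hg, map_one, one_mul]
  obtain ⟨c0, k, hk⟩ := hR f hf.1 hf.2.1 hβ1 hβ2
  obtain ⟨d, hd⟩ := IsAlgClosed.exists_pow_nat_eq c0 hm
  refine ⟨algebraMap Qb (FN (N * ℓ)) d * k, ?_⟩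
  rw [mul_pow, ← map_pow (algebraMap Qb (FN (N * ℓ))) d m, hd, ← hk]
  have e1 : wAL N ℓ hℓ hℓN (galF (N * ℓ) σ f * wAL N ℓ hℓ hℓN f)
      = galF (N * ℓ) σ (wAL N ℓ hℓ hℓN f) * f := by
    rw [map_mul, wAL_wAL hℓ hℓN f]
    congr 1
    exact wAL_gal hℓ hℓN σ f
  rw [e1, map_mul, mul_pow]
  ring

end Fermat.Agent.S35.ConcreteRel
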