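/-
S35 / Program U (helper153): the Frobenius twin of `S34.ToricSwap.exists_toric_level`.

Level `M ℓ`, `ℓ` prime, `ℓ ∤ M`; `A` a valuation subring of `ℚ̄` over `ℓ`, `σ` a Frobenius at `A`,
`φ = gal (M ℓ) σ` the coefficientwise action, `W = ToricSwap.wAL M ℓ hℓ hℓM` the Atkin–Lehner
swap, `U y = ∏_{i<ℓ} y(zⁱ q^{1/ℓ})`, `N_β` the norm along the degeneracy map `β`.

* `exists_pow_mul_mem_max` : bounded denominators in `A`;
* `gaussOne_inv`           : `GaussOne` is stable under inverses;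
* `exists_sep_exact`       : weak approximation with ARBITRARY second target: for `X ≠ 0` there
  is `t ≡ 1` at `v_∞` with `W t · X ≡ 1` at `v_∞`;
* `exists_gaussOne_frob`   : (C1) `φ f = c · U f · g₀`, `g₀ ≡ 1` at `v_∞` (Kronecker congruence);
* `alpha_norm_beta`        : `α (N_β y) = W y · U y`;
* `exists_toric_frob`      : if `N_β f` and `N_β (W f)` are (constant multiples of) `m`-th powers
  then `φ f · W f = c · w ^ m · h` with `h` toric and `m ∣ div h`;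
* `rel_u`, `rel_pow`, `rel_fun`, `rel_fun'` : the function-level semistable relations from the
  geometric exit on toric classes.
-/
import Mathlib
import Fermat.Agent.S35.NormW
import Fermat.Agent.S34.ToricSwap

set_option autoImplicit false

open HahnSeries ModularCurve AlgebraicCurve

namespace Fermat.Agent.S35.ToricFrob

open Fermat.Agent.S30 Fermat.Agent.S30.E4 Fermat.Agent.S34.Toric Fermat.Agent.S34.ToricJ
  Fermat.Agent.S34.ToricSwap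
open Fermat.Agent.S24.Theta Fermat.Agent.S24.Modular

local notation "Qb" => AlgebraicClosure ℚ
local notation "Gq" => (AlgebraicClosure ℚ ≃ₐ[ℚ] AlgebraicClosure ℚ)

/-! ### Bounded denominators -/

section Rank

variable (A : ValuationSubring Qb)

/-- Integers prime to `ℓ` are units of a valuation subring over `ℓ`. -/
theorem intCast_inv_mem {ℓ : ℕ} (hℓ : ℓ.Prime) (hA : A.LiesOverPrime ℓ) (d : ℤ)
    (hd : ¬ (ℓ : ℤ) ∣ d) : ((d : Qb))⁻¹ ∈ A := by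
  have hcop : IsCoprime d (ℓ : ℤ) :=
    ((Nat.prime_iff_prime_int.mp hℓ).coprime_iff_not_dvd.mpr hd).symm
  obtain ⟨u, w, huw⟩ := hcop
  have h2 : (u : Qb) * d + (w : Qb) * ℓ = 1 := by
    exact_mod_cast congrArg (Int.cast : ℤ → Qb) huw
  rcases A.mem_or_inv_mem (d : Qb) with h | h
  · by_contra hinv
    have hlt : A.valuation (d : Qb) < 1 := by
      have hle : A.valuation (d : Qb) ≤ 1 := (A.valuation_le_one_iff _).mpr h
      refine lt_of_le_of_ne hle fun h1 => hinv ?_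
      have : A.valuation ((d : Qb))⁻¹ = 1 := by rw [map_inv₀, h1, inv_one]
      exact (A.valuation_le_one_iff _).mp this.le
    have hle : ∀ e : ℤ, A.valuation (e : Qb) ≤ 1 := fun e =>
      (A.valuation_le_one_iff _).mpr (intCast_mem A e)
    have h1 : A.valuation ((u : Qb) * d + (w : Qb) * ℓ) < 1 := by
      refine A.valuation.map_add_lt ?_ ?_
      · rw [map_mul]
        calc A.valuation (u : Qb) * A.valuation (d : Qb) ≤ 1 * A.valuation (d : Qb) := by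
              gcongr; exact hle u
          _ < 1 := by rw [one_mul]; exact hlt
      · rw [map_mul]
        calc A.valuation (w : Qb) * A.valuation (ℓ : Qb) ≤ 1 * A.valuation (ℓ : Qb) := by
              gcongr; exact hle w
          _ < 1 := by rw [one_mul]; exact A.mem_nonunits_iff.mp hA
    rw [h2, map_one] at h1
    exact lt_irrefl _ h1
  · exact h

/-- **Bounded denominators**: every algebraic number is multiplied into the maximal ideal of a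
valuation subring over `ℓ` by all large powers of `ℓ`. -/
theorem exists_pow_mul_mem_max {ℓ : ℕ} (hℓ : ℓ.Prime) (hA : A.LiesOverPrime ℓ) (x : Qb) :
    ∃ k₀ : ℕ, ∀ k : ℕ, k₀ ≤ k →
      ∃ h : (ℓ : Qb) ^ k * x ∈ A, IsLocalRing.residue A ⟨_, h⟩ = 0 := by
  have halg : IsAlgebraic ℤ x :=
    (IsFractionRing.isAlgebraic_iff ℤ ℚ Qb).mpr (isAlgebraic_rat_Qb.isAlgebraic x)
  obtain ⟨d, hd0, hd⟩ := halg.exists_integral_multiple
  have hfin : FiniteMultiplicity (ℓ : ℤ) d := by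
    rw [Int.finiteMultiplicity_iff]
    refine ⟨?_, hd0⟩
    rw [Int.natAbs_natCast]
    exact hℓ.ne_one
  obtain ⟨d', hd', hdd⟩ := hfin.exists_eq_pow_mul_and_not_dvd
  set t := multiplicity (ℓ : ℤ) d with ht
  have hℓmem : (ℓ : Qb) ∈ A := A.nonunits_subset hA
  have h1 : (ℓ : Qb) ^ t * x ∈ A := by
    have h2 : d • x ∈ A := mem_of_isIntegral_int A hd
    rw [zsmul_eq_mul, hd'] at h2
    push_cast at h2
    have h3 : (ℓ : Qb) ^ t * x = ((d' : Qb))⁻¹ * ((ℓ : Qb) ^ t * (d' : Qb) * x) := by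
      have hd'0 : (d' : Qb) ≠ 0 := by
        intro h0
        apply hdd
        have : d' = 0 := by exact_mod_cast h0
        rw [this]
        exact dvd_zero _
      field_simp
    rw [h3]
    exact A.mul_mem _ _ (intCast_inv_mem A hℓ hA d' hdd) h2
  refine ⟨t + 1, fun k hk => ?_⟩
  have h4 : (ℓ : Qb) ^ k * x = (ℓ : Qb) * ((ℓ : Qb) ^ (k - (t + 1)) * ((ℓ : Qb) ^ t * x)) := by
    have : k = 1 + ((k - (t + 1)) + t) := by omega
    conv_lhs => rw [this, _root_.pow_add, _root_.pow_add, pow_one]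
    ring
  have h5 : (ℓ : Qb) ^ (k - (t + 1)) * ((ℓ : Qb) ^ t * x) ∈ A :=
    A.mul_mem _ _ (A.pow_mem hℓmem _) h1
  have hmem : (ℓ : Qb) ^ k * x ∈ A := by
    rw [h4]; exact A.mul_mem _ _ hℓmem h5
  refine ⟨hmem, ?_⟩
  rw [IsLocalRing.residue_eq_zero_iff]
  obtain ⟨hmem', hmax⟩ := (A.mem_nonunits_iff_exists_mem_maximalIdeal).1 hA
  have h6 : (⟨(ℓ : Qb) ^ k * x, hmem⟩ : A)
      = (⟨(ℓ : Qb), hmem'⟩ : A) * ⟨_, h5⟩ := Subtype.ext h4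
  rw [h6]
  exact Ideal.mul_mem_right _ _ hmax

end Rank

/-! ### The separator `j(q^ℓ) - j(q)^ℓ` is divisible by `ℓ` -/

section Sep

/-- `j(q^ℓ) - j(q)^ℓ` over `ℤ`. -/
noncomputable def bZ (ℓ : ℕ) (hℓ : 0 < ℓ) : LaurentSeries ℤ :=
  Congr.expand ℓ hℓ jZ - jZ ^ ℓ

theorem coeffMap_bZ (A : ValuationSubring Qb) (ℓ : ℕ) (hℓ : 0 < ℓ) :
    coeffMap (Int.castRingHom A) (bZ ℓ hℓ) = bSep A ℓ hℓ := by
  unfold bZ bSep jA
  rw [map_sub, map_pow, Congr.coeffMap_expand]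

theorem dvd_coeff_bZ {ℓ : ℕ} (hℓ : ℓ.Prime) (n : ℤ) : (ℓ : ℤ) ∣ (bZ ℓ hℓ.pos).coeff n := by
  have : Fact ℓ.Prime := ⟨hℓ⟩
  have h0 : coeffMap (Int.castRingHom (ZMod ℓ)) (bZ ℓ hℓ.pos) = 0 := by
    unfold bZ
    rw [map_sub, map_pow, Congr.coeffMap_expand, ← Congr.expand_coeffMap_frobenius ℓ hℓ.pos,
      ZMod.frobenius_zmod, coeffMap_id, sub_self]
  have h1 := congrArg (fun x : LaurentSeries (ZMod ℓ) => x.coeff n) h0
  simp only [coeffMap_coeff, HahnSeries.coeff_zero, eq_intCast] at h1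
  exact (ZMod.intCast_zmod_eq_zero_iff_dvd _ _).1 h1

/-- The separator `b = j(q^ℓ) - j(q)^ℓ` is `ℓ` times an integral series. -/
theorem exists_bSep_eq (A : ValuationSubring Qb) {ℓ : ℕ} (hℓ : ℓ.Prime) :
    ∃ b₁ : LaurentSeries A, Congr.incl A (bSep A ℓ hℓ.pos)
      = algebraMap Qb (LaurentSeries Qb) (ℓ : Qb) * Congr.incl A b₁ := by
  have hℓ0 : (ℓ : Qb) ≠ 0 := by exact_mod_cast hℓ.ne_zero
  obtain ⟨b₁, hb₁⟩ := Congr.exists_incl_eq A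
    (algebraMap Qb (LaurentSeries Qb) ((ℓ : Qb)⁻¹) * Congr.incl A (bSep A ℓ hℓ.pos)) (fun n => by
      obtain ⟨c, hc⟩ := dvd_coeff_bZ hℓ n
      rw [algebraMap_laurentSeries_eq_single, HahnSeries.coeff_single_zero_mul, ← coeffMap_bZ,
        Congr.coeff_incl, coeffMap_coeff, hc]
      have : ((ℓ : Qb))⁻¹ * (((Int.castRingHom A) ((ℓ : ℤ) * c) : A) : Qb) = (c : Qb) := by
        simp only [eq_intCast, Int.cast_mul, Int.cast_natCast]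
        push_cast
        field_simp
      rw [this]
      exact intCast_mem A c)
  refine ⟨b₁, ?_⟩
  rw [hb₁, ← mul_assoc, ← map_mul, mul_inv_cancel₀ hℓ0, map_one, one_mul]

/-- Constant multiples of high powers of the separator are integral with zero reduction. -/
theorem exists_small (A : ValuationSubring Qb) {ℓ : ℕ} (hℓ : ℓ.Prime) (hA : A.LiesOverPrime ℓ)
    (c : Qb) :
    ∃ k₀ : ℕ, ∀ k : ℕ, k₀ ≤ k → ∃ B : LaurentSeries A, Congr.red A B = 0 ∧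
      Congr.incl A B
        = algebraMap Qb (LaurentSeries Qb) c * Congr.incl A (bSep A ℓ hℓ.pos) ^ k := by
  obtain ⟨b₁, hb₁⟩ := exists_bSep_eq A hℓ
  obtain ⟨k₀, hk₀⟩ := exists_pow_mul_mem_max A hℓ hA c
  refine ⟨k₀, fun k hk => ?_⟩
  obtain ⟨hmem, hres⟩ := hk₀ k hk
  refine ⟨HahnSeries.single 0 (⟨_, hmem⟩ : A) * b₁ ^ k, ?_, ?_⟩
  · rw [map_mul, red_single_zero, hres, HahnSeries.single_eq_zero, zero_mul]
  · rw [map_mul, map_pow, incl_single_zero, hb₁, mul_pow]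
    show algebraMap Qb (LaurentSeries Qb) ((ℓ : Qb) ^ k * c) * _ = _
    rw [map_mul (algebraMap Qb (LaurentSeries Qb)), map_pow (algebraMap Qb (LaurentSeries Qb))]
    ring

end Sep

/-! ### `GaussOne` and inverses -/

theorem gaussOne_inv {N : ℕ} {A : ValuationSubring Qb} {h : Fb N} (H : GaussOne N A h) :
    GaussOne N A h⁻¹ := by
  have h0 := H.ne_zero
  obtain ⟨U, V, hU, hV, hr, hn, heq⟩ := H
  refine gaussOne_of_mul_eq V U hV hU hr.symm (hr ▸ hn) ?_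
  have e : h * (⟨_, hV⟩ : Fb N) = ⟨_, hU⟩ := Subtype.ext heq
  rw [← e, ← mul_assoc, inv_mul_cancel₀ h0, one_mul]

/-! ### Weak approximation with an arbitrary second target -/

section SepExact

variable {M ℓ : ℕ} [NeZero M] [NeZero ℓ]

/-- **Weak approximation** for `v_∞` and `v_0 = v_∞ ∘ W_ℓ`, exact form: for every `X ≠ 0` there is
`t ≡ 1` at `v_∞` with `W t · X ≡ 1` at `v_∞`. -/
theorem exists_sep_exact (hℓ : ℓ.Prime) (hℓM : ¬ ℓ ∣ M) (A : ValuationSubring Qb)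
    (hA : A.LiesOverPrime ℓ) (X : Fb (M * ℓ)) (hX : X ≠ 0) :
    ∃ t : Fb (M * ℓ), GaussOne (M * ℓ) A t ∧
      GaussOne (M * ℓ) A (wAL M ℓ hℓ hℓM t * X) := by
  have : Fact ℓ.Prime := ⟨hℓ⟩
  set W := wAL M ℓ hℓ hℓM with hW
  set J : Fb (M * ℓ) := heckeAlphaBar Qb M ℓ (jF M) with hJd
  set Jℓ : Fb (M * ℓ) := heckeBetaBar Qb M ℓ (jF M) with hJℓd
  have hJ : (J : LaurentSeries Qb) = coeffEmb Qb jq := rfl
  have hJℓ : (Jℓ : LaurentSeries Qb) = Congr.expand ℓ hℓ.pos (coeffEmb Qb jq) := rfl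
  have hWJ : W J = Jℓ := wAL_alpha hℓ hℓM _
  have hWJℓ : W Jℓ = J := wAL_beta hℓ hℓM _
  set b := bSep A ℓ hℓ.pos with hbd
  set b' := bSep' A ℓ hℓ.pos with hb'd
  set bF : Fb (M * ℓ) := Jℓ - J ^ ℓ with hbF
  set bF' : Fb (M * ℓ) := J - Jℓ ^ ℓ with hbF'
  have hb : Congr.incl A b = (bF : LaurentSeries Qb) := by
    rw [hbd]
    unfold bSep
    rw [map_sub, map_pow, incl_expand, incl_jA, ← hJℓ, ← hJ]
    rfl
  have hb' : Congr.incl A b' = (bF' : LaurentSeries Qb) := by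
    rw [hb'd]
    unfold bSep'
    rw [map_sub, map_pow, incl_expand, incl_jA, ← hJℓ, ← hJ]
    rfl
  have hWb : W bF = bF' := by rw [hbF, hbF', map_sub, map_pow, hWJ, hWJℓ]
  have hWb' : W bF' = bF := by rw [hbF, hbF', map_sub, map_pow, hWJ, hWJℓ]
  have hrb : Congr.red A b = 0 := red_bSep A hℓ.pos hA
  have hrb' : Congr.red A b' ≠ 0 := red_bSep'_ne_zero A hℓ.pos
  -- Gauss normalisations of `a = X⁻¹` and of `W a`
  obtain ⟨a, had⟩ : ∃ a : Fb (M * ℓ), a = X⁻¹ := ⟨_, rfl⟩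
  have ha : a ≠ 0 := by rw [had]; exact inv_ne_zero hX
  have hXa : X * a = 1 := by rw [had]; exact mul_inv_cancel₀ hX
  have hWa : W a ≠ 0 := (map_ne_zero W).2 ha
  obtain ⟨c, P, Q, hPm, hQm, hc, hP, hQ, hPQ⟩ := hasGaussNorm (M * ℓ) ℓ A hA a ha
  obtain ⟨c', P2, Q2, hP2m, hQ2m, hc', hP2, hQ2, hPQ2⟩ :=
    hasGaussNorm (M * ℓ) ℓ A hA (W a) hWa
  set P' : Fb (M * ℓ) := ⟨_, hPm⟩ with hP'
  set Q' : Fb (M * ℓ) := ⟨_, hQm⟩ with hQ'
  set P2' : Fb (M * ℓ) := ⟨_, hP2m⟩ with hP2'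
  set Q2' : Fb (M * ℓ) := ⟨_, hQ2m⟩ with hQ2'
  have hP0 : P' ≠ 0 := mk_ne_zero_of_red_ne_zero A hPm hP
  have hQ20 : Q2' ≠ 0 := mk_ne_zero_of_red_ne_zero A hQ2m hQ2
  -- small multiples of a power of `b`
  obtain ⟨k₁, hk₁⟩ := exists_small A hℓ hA c'
  obtain ⟨k₂, hk₂⟩ := exists_small A hℓ hA c⁻¹
  obtain ⟨k, hk⟩ : ∃ k : ℕ, k = k₁ + k₂ + 1 := ⟨_, rfl⟩
  obtain ⟨B₁, hB₁r, hB₁⟩ := hk₁ k (by omega)
  obtain ⟨B₂, hB₂r, hB₂⟩ := hk₂ k (by omega)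
  set cF : Fb (M * ℓ) := algebraMap Qb (Fb (M * ℓ)) c with hcF
  set cF' : Fb (M * ℓ) := algebraMap Qb (Fb (M * ℓ)) c' with hcF'
  set ci : Fb (M * ℓ) := algebraMap Qb (Fb (M * ℓ)) c⁻¹ with hci
  have hcic : ci * cF = 1 := by rw [hci, hcF, ← map_mul, inv_mul_cancel₀ hc, map_one]
  have hB₁' : Congr.incl A B₁ = ((cF' * bF ^ k : Fb (M * ℓ)) : LaurentSeries Qb) := by
    rw [hB₁, hb]; rfl
  have hB₂' : Congr.incl A B₂ = ((ci * bF ^ k : Fb (M * ℓ)) : LaurentSeries Qb) := by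
    rw [hB₂, hb]; rfl
  -- the common factor `S = b ^ k + b' ^ k`
  set S : LaurentSeries A := b ^ k + b' ^ k with hS
  have hSr : Congr.red A S = Congr.red A b' ^ k := by
    rw [hS, map_add, map_pow, map_pow, hrb, zero_pow (by omega), zero_add]
  have hSi : Congr.incl A S = ((bF ^ k + bF' ^ k : Fb (M * ℓ)) : LaurentSeries Qb) := by
    rw [hS, map_add, map_pow, map_pow, hb, hb']; rfl
  have hSr0 : Congr.red A S ≠ 0 := by rw [hSr]; exact pow_ne_zero _ hrb'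
  have hSm : Congr.incl A S ∈ Fb (M * ℓ) := by rw [hSi]; exact (bF ^ k + bF' ^ k).2
  have hS0 : bF ^ k + bF' ^ k ≠ 0 := by
    have h1 : (⟨_, hSm⟩ : Fb (M * ℓ)) = bF ^ k + bF' ^ k := Subtype.ext hSi
    rw [← h1]
    exact mk_ne_zero_of_red_ne_zero A hSm hSr0
  -- the first fraction
  set U₁ : LaurentSeries A := b' ^ k * Q2 + B₁ * P2 with hU₁
  set V₁ : LaurentSeries A := Q2 * S with hV₁
  have hU₁i : Congr.incl A U₁
      = ((bF' ^ k * Q2' + cF' * bF ^ k * P2' : Fb (M * ℓ)) : LaurentSeries Qb) := by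
    rw [hU₁, map_add, map_mul, map_mul, map_pow, hb', hB₁']; rfl
  have hV₁i : Congr.incl A V₁
      = ((Q2' * (bF ^ k + bF' ^ k) : Fb (M * ℓ)) : LaurentSeries Qb) := by
    rw [hV₁, map_mul, hSi]; rfl
  have hU₁r : Congr.red A U₁ = Congr.red A b' ^ k * Congr.red A Q2 := by
    rw [hU₁, map_add, map_mul, map_mul, map_pow, hB₁r, zero_mul, add_zero]
  have hV₁r : Congr.red A V₁ = Congr.red A Q2 * Congr.red A b' ^ k := by
    rw [hV₁, map_mul, hSr]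
  have hU₁m : Congr.incl A U₁ ∈ Fb (M * ℓ) := by
    rw [hU₁i]; exact (bF' ^ k * Q2' + cF' * bF ^ k * P2').2
  have hV₁m : Congr.incl A V₁ ∈ Fb (M * ℓ) := by
    rw [hV₁i]; exact (Q2' * (bF ^ k + bF' ^ k)).2
  have hU₁e : (⟨_, hU₁m⟩ : Fb (M * ℓ)) = bF' ^ k * Q2' + cF' * bF ^ k * P2' := Subtype.ext hU₁i
  have hV₁e : (⟨_, hV₁m⟩ : Fb (M * ℓ)) = Q2' * (bF ^ k + bF' ^ k) := Subtype.ext hV₁i
  -- the second fraction
  set U₂ : LaurentSeries A := b' ^ k * P + B₂ * Q with hU₂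
  set V₂ : LaurentSeries A := P * S with hV₂
  have hU₂i : Congr.incl A U₂
      = ((bF' ^ k * P' + ci * bF ^ k * Q' : Fb (M * ℓ)) : LaurentSeries Qb) := by
    rw [hU₂, map_add, map_mul, map_mul, map_pow, hb', hB₂']; rfl
  have hV₂i : Congr.incl A V₂
      = ((P' * (bF ^ k + bF' ^ k) : Fb (M * ℓ)) : LaurentSeries Qb) := by
    rw [hV₂, map_mul, hSi]; rfl
  have hU₂r : Congr.red A U₂ = Congr.red A b' ^ k * Congr.red A P := by
    rw [hU₂, map_add, map_mul, map_mul, map_pow, hB₂r, zero_mul, add_zero]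
  have hV₂r : Congr.red A V₂ = Congr.red A P * Congr.red A b' ^ k := by
    rw [hV₂, map_mul, hSr]
  have hU₂m : Congr.incl A U₂ ∈ Fb (M * ℓ) := by
    rw [hU₂i]; exact (bF' ^ k * P' + ci * bF ^ k * Q').2
  have hV₂m : Congr.incl A V₂ ∈ Fb (M * ℓ) := by
    rw [hV₂i]; exact (P' * (bF ^ k + bF' ^ k)).2
  have hU₂e : (⟨_, hU₂m⟩ : Fb (M * ℓ)) = bF' ^ k * P' + ci * bF ^ k * Q' := Subtype.ext hU₂i
  have hV₂e : (⟨_, hV₂m⟩ : Fb (M * ℓ)) = P' * (bF ^ k + bF' ^ k) := Subtype.ext hV₂i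
  -- the element `t`
  obtain ⟨t, htd⟩ : ∃ t : Fb (M * ℓ),
      t = (bF' ^ k * Q2' + cF' * bF ^ k * P2') / (Q2' * (bF ^ k + bF' ^ k)) := ⟨_, rfl⟩
  have ht : t * (Q2' * (bF ^ k + bF' ^ k)) = bF' ^ k * Q2' + cF' * bF ^ k * P2' := by
    rw [htd]; exact div_mul_cancel₀ _ (mul_ne_zero hQ20 hS0)
  refine ⟨t, ?_, ?_⟩
  · refine gaussOne_of_mul_eq U₁ V₁ hU₁m hV₁m (by rw [hU₁r, hV₁r, mul_comm])
      (by rw [hU₁r]; exact mul_ne_zero (pow_ne_zero _ hrb') hQ2) ?_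
    rw [hU₁e, hV₁e]
    exact ht
  · refine gaussOne_of_mul_eq U₂ V₂ hU₂m hV₂m (by rw [hU₂r, hV₂r, mul_comm])
      (by rw [hU₂r]; exact mul_ne_zero (pow_ne_zero _ hrb') hP) ?_
    rw [hU₂e, hV₂e]
    have hwQ : W Q2' ≠ 0 := (map_ne_zero W).2 hQ20
    have hcW : W cF' = cF' := W.commutes c'
    have E1 : W t * (W Q2' * (bF' ^ k + bF ^ k)) = bF ^ k * W Q2' + cF' * bF' ^ k * W P2' := by
      have h1 := congrArg W ht
      rw [map_mul, map_mul, map_add, map_add, map_mul, map_mul, map_mul, map_pow, map_pow, hWb,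
        hWb', hcW] at h1
      exact h1
    have E2 : a * W Q2' = cF' * W P2' := by
      have h1 := congrArg W hPQ2
      rw [map_mul, map_mul, hcW, hW, wAL_wAL hℓ hℓM a, ← hW] at h1
      exact h1
    apply mul_right_cancel₀ (mul_ne_zero hwQ ha)
    linear_combination (W t * P' * (bF ^ k + bF' ^ k) * W Q2') * hXa + P' * E1
      - P' * bF' ^ k * E2 - ci * bF ^ k * W Q2' * hPQ - P' * bF ^ k * W Q2' * hcic

end SepExact

/-! ### `U_ℓ` on the function field and the Kronecker congruence -/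

section Frob

variable {M ℓ : ℕ} [NeZero M] [NeZero ℓ]

/-- `U_ℓ` of a constant. -/
theorem normL_const (ℓ : ℕ) (hℓ : 0 < ℓ) (z : Qbˣ) (c : Qb) :
    Congr.normL ℓ hℓ z (algebraMap Qb (LaurentSeries Qb) c)
      = algebraMap Qb (LaurentSeries Qb) (c ^ ℓ) := by
  have h1 : ∀ w : Qbˣ, Congr.rescale w (HahnSeries.single 0 c : LaurentSeries Qb)
      = HahnSeries.single 0 c := by
    intro w
    ext n
    rw [Congr.coeff_rescale]
    by_cases hn : n = 0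
    · subst hn
      rw [zpow_zero, Units.val_one, one_mul]
    · rw [HahnSeries.coeff_single_of_ne hn, mul_zero]
  rw [algebraMap_laurentSeries_eq_single, algebraMap_laurentSeries_eq_single]
  unfold Congr.normL Congr.conjProd
  rw [Finset.prod_congr rfl (fun i _ => h1 (z ^ i)), Finset.prod_const, Finset.card_range,
    HahnSeries.single_pow, nsmul_zero]
  have h2 : (HahnSeries.single 0 (c ^ ℓ) : LaurentSeries Qb)
      = Congr.expand ℓ hℓ (HahnSeries.single 0 (c ^ ℓ)) := by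
    rw [Congr.expand_single, mul_zero]
  conv_lhs => rw [h2, Congr.contract_expand]

/-- `U_ℓ y = ∏_{i<ℓ} y(zⁱ q^{1/ℓ})` as a monoid endomorphism of `Fb (M ℓ)`. -/
noncomputable def UF (hℓ : ℓ.Prime) (hℓM : ¬ ℓ ∣ M) (z : Qbˣ) (hz : IsPrimitiveRoot z ℓ) :
    Fb (M * ℓ) →* Fb (M * ℓ) where
  toFun y := ⟨Congr.normL ℓ hℓ.pos z (y : LaurentSeries Qb),
    Fermat.Agent.S35.NormW.normL_mem hℓ hℓM z hz y⟩
  map_one' := Subtype.ext (Congr.normL_one ℓ hℓ.pos z)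
  map_mul' x y := Subtype.ext (Congr.normL_mul ℓ hℓ.pos z hz x y)

theorem coe_UF (hℓ : ℓ.Prime) (hℓM : ¬ ℓ ∣ M) (z : Qbˣ) (hz : IsPrimitiveRoot z ℓ)
    (y : Fb (M * ℓ)) :
    ((UF hℓ hℓM z hz y : Fb (M * ℓ)) : LaurentSeries Qb)
      = Congr.normL ℓ hℓ.pos z (y : LaurentSeries Qb) := rfl

theorem UF_algebraMap (hℓ : ℓ.Prime) (hℓM : ¬ ℓ ∣ M) (z : Qbˣ) (hz : IsPrimitiveRoot z ℓ)
    (c : Qb) :
    UF hℓ hℓM z hz (algebraMap Qb (Fb (M * ℓ)) c) = algebraMap Qb (Fb (M * ℓ)) (c ^ ℓ) :=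
  Subtype.ext (normL_const ℓ hℓ.pos z c)

theorem UF_ne_zero (hℓ : ℓ.Prime) (hℓM : ¬ ℓ ∣ M) (z : Qbˣ) (hz : IsPrimitiveRoot z ℓ)
    {y : Fb (M * ℓ)} (hy : y ≠ 0) : UF hℓ hℓM z hz y ≠ 0 := by
  intro h
  have h1 : UF hℓ hℓM z hz y * UF hℓ hℓM z hz y⁻¹ = 1 := by
    rw [← map_mul, mul_inv_cancel₀ hy, map_one]
  rw [h, zero_mul] at h1
  exact zero_ne_one h1

/-- **`α (N_β y) = W y · U y`** in `Fb (M ℓ)`. -/
theorem alpha_norm_beta (hℓ : ℓ.Prime) (hℓM : ¬ ℓ ∣ M) (z : Qbˣ) (hz : IsPrimitiveRoot z ℓ)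
    (y : Fb (M * ℓ)) :
    heckeAlphaBar Qb M ℓ
        (letI := algebraAlong (heckeBetaBar Qb M ℓ); Algebra.norm (Fb M) y)
      = wAL M ℓ hℓ hℓM y * UF hℓ hℓM z hz y := by
  apply Subtype.ext
  rw [coe_heckeAlphaBar]
  exact Fermat.Agent.S35.NormW.coe_norm_beta hℓ hℓM z hz (wAL M ℓ hℓ hℓM) (wAL_alpha hℓ hℓM)
    (wAL_beta hℓ hℓM) (wAL_wAL hℓ hℓM) y

/-- **(C1), Kronecker congruence on the function field.**  For a Frobenius `σ` at `A` and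
`f ≠ 0`: `σ f = c · U_ℓ f · g₀` with `c` a nonzero constant and `g₀ ≡ 1` at `v_∞`. -/
theorem exists_gaussOne_frob (hℓ : ℓ.Prime) (hℓM : ¬ ℓ ∣ M) (z : Qbˣ)
    (hz : IsPrimitiveRoot z ℓ) (A : ValuationSubring Qb) (hA : A.LiesOverPrime ℓ) {σ : Gq}
    (hσ : A.IsFrobeniusAt σ ℓ) (f : Fb (M * ℓ)) (hf : f ≠ 0) :
    ∃ (c : Qb) (g₀ : Fb (M * ℓ)), c ≠ 0 ∧ GaussOne (M * ℓ) A g₀ ∧
      gal (M * ℓ) σ f = algebraMap Qb (Fb (M * ℓ)) c * UF hℓ hℓM z hz f * g₀ := by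
  have : Fact ℓ.Prime := ⟨hℓ⟩
  have hz1 : (z : Qb) ^ ℓ = 1 := by
    have h := congrArg Units.val hz.pow_eq_one
    rwa [Units.val_pow_eq_pow_val, Units.val_one] at h
  obtain ⟨c, P, Q, hPm, hQm, hc, hP, hQ, hfPQ⟩ := hasGaussNorm (M * ℓ) ℓ A hA f hf
  set g : Fb (M * ℓ) ≃+* Fb (M * ℓ) := gal (M * ℓ) σ with hg
  set Uo : Fb (M * ℓ) →* Fb (M * ℓ) := UF hℓ hℓM z hz with hUo
  set s : A.decompositionSubgroup ℚ := ⟨σ, hσ.mem_decompositionSubgroup⟩ with hs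
  set P' : Fb (M * ℓ) := ⟨_, hPm⟩ with hP'
  set Q' : Fb (M * ℓ) := ⟨_, hQm⟩ with hQ'
  have hP0 : P' ≠ 0 := mk_ne_zero_of_red_ne_zero A hPm hP
  have hQ0 : Q' ≠ 0 := mk_ne_zero_of_red_ne_zero A hQm hQ
  have hgP0 : g P' ≠ 0 := (map_ne_zero_iff g g.injective).2 hP0
  have hgQ0 : g Q' ≠ 0 := (map_ne_zero_iff g g.injective).2 hQ0
  have hUP0 : Uo P' ≠ 0 := UF_ne_zero hℓ hℓM z hz hP0
  have hUQ0 : Uo Q' ≠ 0 := UF_ne_zero hℓ hℓM z hz hQ0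
  have hincl : ∀ u : LaurentSeries A,
      Congr.incl A (Congr.normL ℓ hℓ.pos (Congr.unitA A hℓ.pos hz1) u)
        = Congr.normL ℓ hℓ.pos z (Congr.incl A u) := by
    intro u
    rw [Congr.incl, Congr.coeffMap_normL, Congr.map_subtype_unitA A hℓ.pos hz1 z rfl]
  set U : LaurentSeries A :=
    Congr.actA A s P * Congr.normL ℓ hℓ.pos (Congr.unitA A hℓ.pos hz1) Q with hU
  set V : LaurentSeries A :=
    Congr.actA A s Q * Congr.normL ℓ hℓ.pos (Congr.unitA A hℓ.pos hz1) P with hV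
  have hU' : Congr.incl A U = ((g P' * Uo Q' : Fb (M * ℓ)) : LaurentSeries Qb) := by
    rw [hU, map_mul, Congr.incl_actA, hincl]
    rfl
  have hV' : Congr.incl A V = ((g Q' * Uo P' : Fb (M * ℓ)) : LaurentSeries Qb) := by
    rw [hV, map_mul, Congr.incl_actA, hincl]
    rfl
  have hUm : Congr.incl A U ∈ Fb (M * ℓ) := by rw [hU']; exact (g P' * Uo Q').2
  have hVm : Congr.incl A V ∈ Fb (M * ℓ) := by rw [hV']; exact (g Q' * Uo P').2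
  have hUr : Congr.red A U = Congr.red A (Congr.actA A s P) * Congr.red A (Congr.actA A s Q) := by
    rw [hU, map_mul, Congr.red_normL A hℓ.pos hA hz1 hσ]
  have hVr : Congr.red A V = Congr.red A (Congr.actA A s Q) * Congr.red A (Congr.actA A s P) := by
    rw [hV, map_mul, Congr.red_normL A hℓ.pos hA hz1 hσ]
  obtain ⟨g₀, hg₀d⟩ : ∃ g₀ : Fb (M * ℓ), g₀ = (g P' * Uo Q') / (g Q' * Uo P') := ⟨_, rfl⟩
  have hg₀ : g₀ * (g Q' * Uo P') = g P' * Uo Q' := by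
    rw [hg₀d]; exact div_mul_cancel₀ _ (mul_ne_zero hgQ0 hUP0)
  have hσc : σ c ≠ 0 := (map_ne_zero _).2 hc
  have hcℓ : c ^ ℓ ≠ 0 := pow_ne_zero _ hc
  refine ⟨σ c / c ^ ℓ, g₀, div_ne_zero hσc hcℓ, ?_, ?_⟩
  · refine ⟨U, V, hUm, hVm, by rw [hUr, hVr, mul_comm], ?_, ?_⟩
    · rw [hUr]
      exact mul_ne_zero (Congr.red_actA_ne_zero A hA hσ hP) (Congr.red_actA_ne_zero A hA hσ hQ)
    · rw [hU', hV']
      exact congrArg Subtype.val hg₀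
  · have E1 : g f * g Q' = algebraMap Qb (Fb (M * ℓ)) (σ c) * g P' := by
      rw [← map_mul, hfPQ, map_mul, hg, gal_algebraMap]
    have E2 : Uo f * Uo Q' = algebraMap Qb (Fb (M * ℓ)) (c ^ ℓ) * Uo P' := by
      rw [← map_mul, hfPQ, map_mul, hUo, UF_algebraMap]
    have E4 : algebraMap Qb (Fb (M * ℓ)) (σ c / c ^ ℓ) * algebraMap Qb (Fb (M * ℓ)) (c ^ ℓ)
        = algebraMap Qb (Fb (M * ℓ)) (σ c) := by
      rw [← map_mul, div_mul_cancel₀ _ hcℓ]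
    apply mul_right_cancel₀ (mul_ne_zero (mul_ne_zero hgQ0 hUP0) hUQ0)
    linear_combination (Uo P' * Uo Q') * E1
      - (algebraMap Qb (Fb (M * ℓ)) (σ c / c ^ ℓ) * g₀ * g Q' * Uo P') * E2
      - (algebraMap Qb (Fb (M * ℓ)) (σ c / c ^ ℓ) * algebraMap Qb (Fb (M * ℓ)) (c ^ ℓ) * Uo P') * hg₀
      - (Uo P' * g P' * Uo Q') * E4

end Frob

/-! ### The main statement -/

section Main

variable {M ℓ : ℕ} [NeZero M] [NeZero ℓ]

theorem exists_primitiveRoot_Qb (ℓ : ℕ) (hℓ : 0 < ℓ) : ∃ z : Qbˣ, IsPrimitiveRoot z ℓ := by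
  have : NeZero ((ℓ : ℕ) : Qb) := ⟨by exact_mod_cast hℓ.ne'⟩
  obtain ⟨ζ, hζ⟩ := HasEnoughRootsOfUnity.exists_primitiveRoot Qb ℓ
  have hu : IsUnit ζ := hζ.isUnit hℓ.ne'
  exact ⟨hu.unit, IsPrimitiveRoot.coe_units_iff.1 (by rw [IsUnit.unit_spec]; exact hζ)⟩

/-- A `ℚ̄`-automorphism of the function field permutes the places, hence preserves `m ∣ div`. -/
theorem divBy_algEquiv {N m : ℕ} (w : Fb N ≃ₐ[Qb] Fb N) {f : Fb N} (hf : DivBy N m f) :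
    DivBy N m (w f) := fun P => by
  set g : SemilinearAut Qb (Fb N) := SemilinearAut.ofAlgAut w with hg
  have h1 : (g • (g⁻¹ • P)).ord (g • f) = (g⁻¹ • P).ord f :=
    SemilinearAut.ord_smul g (g⁻¹ • P) f
  rw [smul_inv_smul] at h1
  have h2 : g • f = w f := rfl
  rw [← h2, h1]
  exact hf _

theorem divBy_const (N m : ℕ) (c : Qb) : DivBy N m (algebraMap Qb (Fb N) c) := fun P => by
  rw [Fermat.Agent.S24.FF.ord_algebraMap]
  exact dvd_zero _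

/-- **The Frobenius twin of `S34.ToricSwap.exists_toric_level`.**  Level `M ℓ`, `ℓ ∤ M`, `σ` a
Frobenius at a place `A` over `ℓ`, `W = W_ℓ`.  If `m ∣ div f` and the norms along `β` of `f` and
of `W f` are constant multiples of `m`-th powers at level `M`, then
`σ f · W f = c · w ^ m · h` with `h` toric (`≡ 1` at `v_∞` and at `v_0 = v_∞ ∘ W`) and
`m ∣ div h`. -/
theorem exists_toric_frob {m : ℕ} (hℓ : ℓ.Prime) (hℓM : ¬ ℓ ∣ M) (A : ValuationSubring Qb)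
    (hA : A.LiesOverPrime ℓ) (hm : 0 < m) {σ : Gq} (hσ : A.IsFrobeniusAt σ ℓ)
    (f : Fb (M * ℓ)) (hf : f ≠ 0) (hdiv : DivBy (M * ℓ) m f)
    (h1 : ∃ (c : Qb) (g : Fb M),
      (letI := algebraAlong (heckeBetaBar Qb M ℓ); Algebra.norm (Fb M) f)
        = algebraMap Qb (Fb M) c * g ^ m)
    (h2 : ∃ (c : Qb) (g : Fb M),
      (letI := algebraAlong (heckeBetaBar Qb M ℓ); Algebra.norm (Fb M) (wAL M ℓ hℓ hℓM f))
        = algebraMap Qb (Fb M) c * g ^ m) :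
    ∃ (h w : Fb (M * ℓ)) (c : Qb), w ≠ 0 ∧ c ≠ 0 ∧
      gal (M * ℓ) σ f * wAL M ℓ hℓ hℓM f = algebraMap Qb (Fb (M * ℓ)) c * w ^ m * h ∧
      IsToric (M * ℓ) A (wAL M ℓ hℓ hℓM).toRingEquiv h ∧ DivBy (M * ℓ) m h := by
  obtain ⟨z, hz⟩ := exists_primitiveRoot_Qb ℓ hℓ.pos
  obtain ⟨c₁, g₁, hN1⟩ := h1
  obtain ⟨c₂, g₂, hN2⟩ := h2
  have n1' := alpha_norm_beta hℓ hℓM z hz f
  have n2' := alpha_norm_beta hℓ hℓM z hz (wAL M ℓ hℓ hℓM f)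
  rw [hN1, map_mul, map_pow, AlgHom.commutes] at n1'
  rw [hN2, map_mul, map_pow, AlgHom.commutes, wAL_wAL hℓ hℓM f] at n2'
  set W := wAL M ℓ hℓ hℓM with hW
  set φ : Fb (M * ℓ) ≃+* Fb (M * ℓ) := gal (M * ℓ) σ with hφ
  set Uo : Fb (M * ℓ) →* Fb (M * ℓ) := UF hℓ hℓM z hz with hUo
  have hWf : W f ≠ 0 := (map_ne_zero W).2 hf
  have hφf : φ f ≠ 0 := (map_ne_zero_iff φ φ.injective).2 hf
  have hWW : ∀ x, W (W x) = x := wAL_wAL hℓ hℓM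
  have hWφ : ∀ x, W (φ x) = φ (W x) := fun x => wAL_gal hℓ hℓM σ x
  obtain ⟨c₀, g₀, hc₀, hg₀, e₀⟩ := exists_gaussOne_frob hℓ hℓM z hz A hA hσ f hf
  obtain ⟨c₀', g₀', hc₀', hg₀', e₀'⟩ := exists_gaussOne_frob hℓ hℓM z hz A hA hσ (W f) hWf
  set a₁ : Fb (M * ℓ) := heckeAlphaBar Qb M ℓ g₁ with ha₁
  set a₂ : Fb (M * ℓ) := heckeAlphaBar Qb M ℓ g₂ with ha₂
  set b₁ : Fb (M * ℓ) := heckeBetaBar Qb M ℓ g₁ with hb₁
  set cF₀ : Fb (M * ℓ) := algebraMap Qb (Fb (M * ℓ)) c₀ with hcF₀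
  set cF₀' : Fb (M * ℓ) := algebraMap Qb (Fb (M * ℓ)) c₀' with hcF₀'
  set cF₁ : Fb (M * ℓ) := algebraMap Qb (Fb (M * ℓ)) c₁ with hcF₁
  set cF₂ : Fb (M * ℓ) := algebraMap Qb (Fb (M * ℓ)) c₂ with hcF₂
  have e₀ : φ f = cF₀ * Uo f * g₀ := e₀
  have e₀' : φ (W f) = cF₀' * Uo (W f) * g₀' := e₀'
  have n1 : W f * Uo f = cF₁ * a₁ ^ m := n1'.symm
  have n2 : f * Uo (W f) = cF₂ * a₂ ^ m := n2'.symm
  have hWa₁ : W a₁ = b₁ := wAL_alpha hℓ hℓM g₁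
  -- nonvanishing
  have hcF₀0 : cF₀ ≠ 0 := (map_ne_zero (algebraMap Qb (Fb (M * ℓ)))).2 hc₀
  have hcF₀'0 : cF₀' ≠ 0 := (map_ne_zero (algebraMap Qb (Fb (M * ℓ)))).2 hc₀'
  have hn1 : cF₁ * a₁ ^ m ≠ 0 := by
    rw [← n1]; exact mul_ne_zero hWf (UF_ne_zero hℓ hℓM z hz hf)
  have hn2 : cF₂ * a₂ ^ m ≠ 0 := by
    rw [← n2]; exact mul_ne_zero hf (UF_ne_zero hℓ hℓM z hz hWf)
  have hcF₁0 : cF₁ ≠ 0 := left_ne_zero_of_mul hn1
  have hcF₂0 : cF₂ ≠ 0 := left_ne_zero_of_mul hn2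
  have hc₁ : c₁ ≠ 0 := fun h => hcF₁0 (by rw [hcF₁, h, map_zero])
  have hc₂ : c₂ ≠ 0 := fun h => hcF₂0 (by rw [hcF₂, h, map_zero])
  have ha₁0 : a₁ ≠ 0 := fun h => right_ne_zero_of_mul hn1 (by rw [h, zero_pow hm.ne'])
  have ha₂0 : a₂ ≠ 0 := fun h => right_ne_zero_of_mul hn2 (by rw [h, zero_pow hm.ne'])
  have hb₁0 : b₁ ≠ 0 := by rw [← hWa₁]; exact (map_ne_zero W).2 ha₁0
  -- `y = σ f · W f` and `W y`
  have Y1 : φ f * W f = cF₀ * cF₁ * a₁ ^ m * g₀ := by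
    linear_combination W f * e₀ + cF₀ * g₀ * n1
  have Y2 : φ (W f) * f = cF₀' * cF₂ * a₂ ^ m * g₀' := by
    linear_combination f * e₀' + cF₀' * g₀' * n2
  have T : cF₀ * cF₁ * b₁ ^ m * W g₀ = cF₀' * cF₂ * a₂ ^ m * g₀' := by
    have h3 := congrArg W Y1
    rw [map_mul, hWW, hWφ, Y2, map_mul, map_mul, map_mul, map_pow, hWa₁, hcF₀, hcF₁,
      AlgEquiv.commutes, AlgEquiv.commutes] at h3
    exact h3.symm
  -- the constant
  have hC : c₀ * c₁ ≠ 0 := mul_ne_zero hc₀ hc₁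
  have hC' : c₀' * c₂ ≠ 0 := mul_ne_zero hc₀' hc₂
  obtain ⟨e, he⟩ := IsAlgClosed.exists_pow_nat_eq ((c₀' * c₂) / (c₀ * c₁)) hm
  have he0 : e ≠ 0 := by
    rintro rfl
    rw [zero_pow hm.ne'] at he
    exact (div_ne_zero hC' hC) he.symm
  set eF : Fb (M * ℓ) := algebraMap Qb (Fb (M * ℓ)) e with heF
  have heF0 : eF ≠ 0 := (map_ne_zero (algebraMap Qb (Fb (M * ℓ)))).2 he0
  have heF' : eF ^ m * (cF₀ * cF₁) = cF₀' * cF₂ := by
    rw [heF, hcF₀, hcF₁, hcF₀', hcF₂, ← map_pow, ← map_mul, ← map_mul, ← map_mul, he,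
      div_mul_cancel₀ _ hC]
  -- weak approximation
  obtain ⟨X, hXd⟩ : ∃ X : Fb (M * ℓ), X = eF * a₂ / b₁ := ⟨_, rfl⟩
  have hX0 : X ≠ 0 := by rw [hXd]; exact div_ne_zero (mul_ne_zero heF0 ha₂0) hb₁0
  have hXb : X * b₁ = eF * a₂ := by rw [hXd]; exact div_mul_cancel₀ _ hb₁0
  have hXm : X ^ m * b₁ ^ m = eF ^ m * a₂ ^ m := by rw [← mul_pow, hXb, mul_pow]
  obtain ⟨t, ht, htX⟩ := exists_sep_exact hℓ hℓM A hA X hX0
  have ht0 : t ≠ 0 := ht.ne_zero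
  have hw0 : a₁ / t ≠ 0 := div_ne_zero ha₁0 ht0
  have e1 : (a₁ / t) ^ m * t ^ m = a₁ ^ m := by
    rw [div_pow, div_mul_cancel₀ _ (pow_ne_zero _ ht0)]
  obtain ⟨D, hDd⟩ : ∃ D : Fb (M * ℓ), D = cF₀ * cF₁ * (a₁ / t) ^ m := ⟨_, rfl⟩
  have hD0 : D ≠ 0 := by
    rw [hDd]; exact mul_ne_zero (mul_ne_zero hcF₀0 hcF₁0) (pow_ne_zero _ hw0)
  have hDdiv : DivBy (M * ℓ) m D := by
    rw [hDd]
    exact ((divBy_const _ m c₀).mul hcF₀0 hcF₁0 (divBy_const _ m c₁)).mul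
      (mul_ne_zero hcF₀0 hcF₁0) (pow_ne_zero _ hw0) (divBy_pow_self _ m _)
  obtain ⟨h, hhd⟩ : ∃ h : Fb (M * ℓ), h = g₀ * t ^ m := ⟨_, rfl⟩
  have hmain' : φ f * W f = D * h := by
    rw [hDd, hhd]
    linear_combination Y1 - cF₀ * cF₁ * g₀ * e1
  have hmain : φ f * W f = algebraMap Qb (Fb (M * ℓ)) (c₀ * c₁) * (a₁ / t) ^ m * h := by
    rw [map_mul, ← hDd]
    exact hmain'
  refine ⟨h, a₁ / t, c₀ * c₁, hw0, hC, hmain, ⟨?_, ?_⟩, ?_⟩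
  · rw [hhd]
    exact hg₀.mul (ht.pow m)
  · have hWh : W h = g₀' * (W t * X) ^ m := by
      rw [hhd, map_mul, map_pow, mul_pow]
      apply mul_right_cancel₀ (mul_ne_zero (mul_ne_zero hcF₀0 hcF₁0) (pow_ne_zero m hb₁0))
      linear_combination (W t) ^ m * T - g₀' * (W t) ^ m * cF₀ * cF₁ * hXm
        - g₀' * (W t) ^ m * a₂ ^ m * heF'
    show GaussOne (M * ℓ) A (W h)
    rw [hWh]
    exact hg₀'.mul (htX.pow m)
  · have hh : h = φ f * W f * D⁻¹ := (eq_mul_inv_iff_mul_eq₀ hD0).2 ((mul_comm h D).trans hmain'.symm)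
    rw [hh]
    exact ((hdiv.gal σ).mul hφf hWf (divBy_algEquiv W hdiv)).mul (mul_ne_zero hφf hWf)
      (inv_ne_zero hD0) hDdiv.inv

end Main

/-! ### Consumers: the semistable relation on functions -/

section Rel

variable {M ℓ : ℕ} [NeZero M] [NeZero ℓ]

/-- **The semistable relation on functions, `u`-form.**  Given the geometric exit `hswap` on toric
classes (`σ (W h) · h ^ ℓ` is a constant times an `m`-th power for `h` toric with `m ∣ div h`):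
for `u = σ f · W f`, the function `σ u · (W u) ^ ℓ` is a constant times an `m`-th power. -/
theorem rel_u {m : ℕ} (hℓ : ℓ.Prime) (hℓM : ¬ ℓ ∣ M) (A : ValuationSubring Qb)
    (hA : A.LiesOverPrime ℓ) (hm : 0 < m) {σ : Gq} (hσ : A.IsFrobeniusAt σ ℓ)
    (hswap : ∀ h : Fb (M * ℓ), IsToric (M * ℓ) A (wAL M ℓ hℓ hℓM).toRingEquiv h →
      DivBy (M * ℓ) m h → ∃ (c : Qb) (k : Fb (M * ℓ)),
        gal (M * ℓ) σ (wAL M ℓ hℓ hℓM h) * h ^ ℓ = algebraMap Qb (Fb (M * ℓ)) c * k ^ m)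
    (f : Fb (M * ℓ)) (hf : f ≠ 0) (hdiv : DivBy (M * ℓ) m f)
    (h1 : ∃ (c : Qb) (g : Fb M),
      (letI := algebraAlong (heckeBetaBar Qb M ℓ); Algebra.norm (Fb M) f)
        = algebraMap Qb (Fb M) c * g ^ m)
    (h2 : ∃ (c : Qb) (g : Fb M),
      (letI := algebraAlong (heckeBetaBar Qb M ℓ); Algebra.norm (Fb M) (wAL M ℓ hℓ hℓM f))
        = algebraMap Qb (Fb M) c * g ^ m) :
    ∃ (c : Qb) (k : Fb (M * ℓ)),
      gal (M * ℓ) σ (gal (M * ℓ) σ f * wAL M ℓ hℓ hℓM f)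
          * wAL M ℓ hℓ hℓM (gal (M * ℓ) σ f * wAL M ℓ hℓ hℓM f) ^ ℓ
        = algebraMap Qb (Fb (M * ℓ)) c * k ^ m := by
  obtain ⟨h, w, c, hw, hc, hy, htor, hdivh⟩ :=
    exists_toric_frob hℓ hℓM A hA hm hσ f hf hdiv h1 h2
  set W := wAL M ℓ hℓ hℓM with hW
  set φ : Fb (M * ℓ) ≃+* Fb (M * ℓ) := gal (M * ℓ) σ with hφ
  have hWW : ∀ x, W (W x) = x := wAL_wAL hℓ hℓM
  have htor' : IsToric (M * ℓ) A W.toRingEquiv (W h) := by
    refine ⟨htor.2, ?_⟩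
    show GaussOne (M * ℓ) A (W (W h))
    rw [hWW]
    exact htor.1
  obtain ⟨c', k, hk⟩ := hswap (W h) htor' (divBy_algEquiv W hdivh)
  rw [hWW] at hk
  have hφc : φ (algebraMap Qb (Fb (M * ℓ)) c) = algebraMap Qb (Fb (M * ℓ)) (σ c) :=
    gal_algebraMap (M * ℓ) σ c
  have hWc : W (algebraMap Qb (Fb (M * ℓ)) c) = algebraMap Qb (Fb (M * ℓ)) c := W.commutes c
  refine ⟨σ c * c ^ ℓ * c', φ w * W w ^ ℓ * k, ?_⟩
  rw [hy]
  simp only [map_mul, map_pow]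
  rw [hφc, hWc]
  linear_combination (algebraMap Qb (Fb (M * ℓ)) (σ c) * φ w ^ m
    * algebraMap Qb (Fb (M * ℓ)) c ^ ℓ * (W w ^ m) ^ ℓ) * hk

/-- `rel_u` with the constant absorbed: `σ u · (W u) ^ ℓ` is an `m`-th power, `u = σ f · W f`.
This is the hypothesis `(R)` of `S35.LimitKummer.nonempty_ssData_of_kummerSystem` at level
`M ℓ`. -/
theorem rel_pow {m : ℕ} (hℓ : ℓ.Prime) (hℓM : ¬ ℓ ∣ M) (A : ValuationSubring Qb)
    (hA : A.LiesOverPrime ℓ) (hm : 0 < m) {σ : Gq} (hσ : A.IsFrobeniusAt σ ℓ)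
    (hswap : ∀ h : Fb (M * ℓ), IsToric (M * ℓ) A (wAL M ℓ hℓ hℓM).toRingEquiv h →
      DivBy (M * ℓ) m h → ∃ (c : Qb) (k : Fb (M * ℓ)),
        gal (M * ℓ) σ (wAL M ℓ hℓ hℓM h) * h ^ ℓ = algebraMap Qb (Fb (M * ℓ)) c * k ^ m)
    (f : Fb (M * ℓ)) (hf : f ≠ 0) (hdiv : DivBy (M * ℓ) m f)
    (h1 : ∃ (c : Qb) (g : Fb M),
      (letI := algebraAlong (heckeBetaBar Qb M ℓ); Algebra.norm (Fb M) f)
        = algebraMap Qb (Fb M) c * g ^ m)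
    (h2 : ∃ (c : Qb) (g : Fb M),
      (letI := algebraAlong (heckeBetaBar Qb M ℓ); Algebra.norm (Fb M) (wAL M ℓ hℓ hℓM f))
        = algebraMap Qb (Fb M) c * g ^ m) :
    ∃ k : Fb (M * ℓ),
      gal (M * ℓ) σ (gal (M * ℓ) σ f * wAL M ℓ hℓ hℓM f)
          * wAL M ℓ hℓ hℓM (gal (M * ℓ) σ f * wAL M ℓ hℓ hℓM f) ^ ℓ = k ^ m := by
  obtain ⟨c, k, hk⟩ := rel_u hℓ hℓM A hA hm hσ hswap f hf hdiv h1 h2
  obtain ⟨d, hd⟩ := IsAlgClosed.exists_pow_nat_eq c hm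
  exact ⟨algebraMap Qb (Fb (M * ℓ)) d * k, by rw [hk, mul_pow, ← map_pow, hd]⟩

/-- **The semistable relation on functions, expanded form**:
`σ² f · σ (W f) ^ (ℓ + 1) · f ^ ℓ` is a constant times an `m`-th power. -/
theorem rel_fun {m : ℕ} (hℓ : ℓ.Prime) (hℓM : ¬ ℓ ∣ M) (A : ValuationSubring Qb)
    (hA : A.LiesOverPrime ℓ) (hm : 0 < m) {σ : Gq} (hσ : A.IsFrobeniusAt σ ℓ)
    (hswap : ∀ h : Fb (M * ℓ), IsToric (M * ℓ) A (wAL M ℓ hℓ hℓM).toRingEquiv h →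
      DivBy (M * ℓ) m h → ∃ (c : Qb) (k : Fb (M * ℓ)),
        gal (M * ℓ) σ (wAL M ℓ hℓ hℓM h) * h ^ ℓ = algebraMap Qb (Fb (M * ℓ)) c * k ^ m)
    (f : Fb (M * ℓ)) (hf : f ≠ 0) (hdiv : DivBy (M * ℓ) m f)
    (h1 : ∃ (c : Qb) (g : Fb M),
      (letI := algebraAlong (heckeBetaBar Qb M ℓ); Algebra.norm (Fb M) f)
        = algebraMap Qb (Fb M) c * g ^ m)
    (h2 : ∃ (c : Qb) (g : Fb M),
      (letI := algebraAlong (heckeBetaBar Qb M ℓ); Algebra.norm (Fb M) (wAL M ℓ hℓ hℓM f))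
        = algebraMap Qb (Fb M) c * g ^ m) :
    ∃ (c : Qb) (k : Fb (M * ℓ)),
      gal (M * ℓ) σ (gal (M * ℓ) σ f) * gal (M * ℓ) σ (wAL M ℓ hℓ hℓM f) ^ (ℓ + 1) * f ^ ℓ
        = algebraMap Qb (Fb (M * ℓ)) c * k ^ m := by
  obtain ⟨c, k, hk⟩ := rel_u hℓ hℓM A hA hm hσ hswap f hf hdiv h1 h2
  refine ⟨c, k, ?_⟩
  rw [← hk, map_mul, map_mul, wAL_gal hℓ hℓM σ f, wAL_wAL hℓ hℓM f, mul_pow, _root_.pow_succ]
  ring

/-- Variant with the exit in the form "`σ²` acts on toric classes as `ℓ²`":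
then `σ² u = c · u ^ (ℓ²) · k ^ m` for `u = σ f · W f`. -/
theorem rel_fun' {m : ℕ} (hℓ : ℓ.Prime) (hℓM : ¬ ℓ ∣ M) (A : ValuationSubring Qb)
    (hA : A.LiesOverPrime ℓ) (hm : 0 < m) {σ : Gq} (hσ : A.IsFrobeniusAt σ ℓ)
    (hpres : ∀ h : Fb (M * ℓ), IsToric (M * ℓ) A (wAL M ℓ hℓ hℓM).toRingEquiv h →
      DivBy (M * ℓ) m h → ∃ (c : Qb) (k : Fb (M * ℓ)),
        gal (M * ℓ) σ (gal (M * ℓ) σ h) = algebraMap Qb (Fb (M * ℓ)) c * h ^ (ℓ ^ 2) * k ^ m)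
    (f : Fb (M * ℓ)) (hf : f ≠ 0) (hdiv : DivBy (M * ℓ) m f)
    (h1 : ∃ (c : Qb) (g : Fb M),
      (letI := algebraAlong (heckeBetaBar Qb M ℓ); Algebra.norm (Fb M) f)
        = algebraMap Qb (Fb M) c * g ^ m)
    (h2 : ∃ (c : Qb) (g : Fb M),
      (letI := algebraAlong (heckeBetaBar Qb M ℓ); Algebra.norm (Fb M) (wAL M ℓ hℓ hℓM f))
        = algebraMap Qb (Fb M) c * g ^ m) :
    ∃ (c : Qb) (k : Fb (M * ℓ)),
      gal (M * ℓ) σ (gal (M * ℓ) σ (gal (M * ℓ) σ f * wAL M ℓ hℓ hℓM f))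
        = algebraMap Qb (Fb (M * ℓ)) c * (gal (M * ℓ) σ f * wAL M ℓ hℓ hℓM f) ^ (ℓ ^ 2)
            * k ^ m := by
  obtain ⟨h, w, c, hw, hc, hy, htor, hdivh⟩ :=
    exists_toric_frob hℓ hℓM A hA hm hσ f hf hdiv h1 h2
  obtain ⟨c', k, hk⟩ := hpres h htor hdivh
  set φ : Fb (M * ℓ) ≃+* Fb (M * ℓ) := gal (M * ℓ) σ with hφ
  have hφc : φ (φ (algebraMap Qb (Fb (M * ℓ)) c)) = algebraMap Qb (Fb (M * ℓ)) (σ (σ c)) := by
    rw [hφ, gal_algebraMap, gal_algebraMap]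
  have hcF : algebraMap Qb (Fb (M * ℓ)) (σ (σ c) * c' / c ^ (ℓ ^ 2))
        * algebraMap Qb (Fb (M * ℓ)) c ^ (ℓ ^ 2)
      = algebraMap Qb (Fb (M * ℓ)) (σ (σ c)) * algebraMap Qb (Fb (M * ℓ)) c' := by
    rw [← map_pow, ← map_mul, ← map_mul, div_mul_cancel₀ _ (pow_ne_zero _ hc)]
  have hwk : (φ (φ w) * k / w ^ (ℓ ^ 2)) ^ m * (w ^ m) ^ (ℓ ^ 2) = φ (φ w) ^ m * k ^ m := by
    rw [div_pow, ← mul_pow, ← pow_mul, ← pow_mul, mul_comm m,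
      div_mul_cancel₀ _ (pow_ne_zero _ hw)]
  refine ⟨σ (σ c) * c' / c ^ (ℓ ^ 2), φ (φ w) * k / w ^ (ℓ ^ 2), ?_⟩
  rw [hy, map_mul, map_mul, map_mul, map_mul, map_pow, map_pow, hφc, hk]
  linear_combination
    -(h ^ (ℓ ^ 2) * (φ (φ w) * k / w ^ (ℓ ^ 2)) ^ m * (w ^ m) ^ (ℓ ^ 2)) * hcF
    - (algebraMap Qb (Fb (M * ℓ)) (σ (σ c)) * algebraMap Qb (Fb (M * ℓ)) c' * h ^ (ℓ ^ 2)) * hwk

end Rel

end Fermat.Agent.S35.ToricFrob
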