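/-
PROGRAM U / S35, brick `U.S35.Concrete`, part 3 (helper13): the concrete S35 producer
`Nonempty (SSData M p)` from the geometric exit (C2') alone.

`Concrete.nonempty_ssData_of_fun` is instantiated with

* `wF q := swapAt M q`   (helper45, `S35/Betti/SwapAtFun.lean`: `krel_swapAt`, `swapAt_galF`);
* `ν q  := nuAt M q`     (the transfer `verA (M / q) q` of helper84, `S35/Betti/Norm.lean`,
                          followed by the identification `AN (M / q * q) = AN M`; Hecke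
                          equivariance from `NormHecke.comp_tau_comp_verA`);
* the relation (R) from `ConcreteRel.rel_of_relFun` and helper153's `ToricFrob.rel_fun`.

EXIT: `nonempty_ssData M p hswap`, where `hswap` is the function-level statement (C2'):
for `M = N * ℓ`, `ℓ` prime, `ℓ ∤ N`, `ℓ ≠ p`, every `A` over `ℓ`, every Frobenius `σ` at `A`,
every `n` and every toric `h` of level `N ℓ` with `p ^ n ∣ div h`:
`σ (W h) · h ^ ℓ` is a constant times a `p ^ n`-th power (`W = wAL N ℓ`).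
-/
import Mathlib
import Fermat.Agent.S35.Concrete
import Fermat.Agent.S35.ConcreteRel
import Fermat.Agent.S35.Betti.SwapAtFun
import Fermat.Agent.S35.Betti.NormHecke
import Fermat.Agent.S35.ToricFrob

set_option autoImplicit false

namespace Fermat.Agent.S35.ConcreteFinal

open ModularCurve AlgebraicCurve
open Fermat.Agent.S30 Fermat.Agent.S30.Producer
open Fermat.Agent.S35.Betti.Swap Fermat.Agent.S35.Betti.Norm Fermat.Agent.S34.ToricSwap

/-- `Concrete.nonempty_ssData_of_fun` with `wF q := swapAt M q` (helper45): the swap law and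
the Galois commutation are discharged; what remains is the transfer `ν` and the relation. -/
theorem nonempty_ssData_of_swapAt (M p : ℕ) [NeZero M] [hp : Fact p.Prime]
    (ν : (q : ℕ) → AN (M / q) →+ AN M)
    (ν_τ : ∀ q, SSPrime M p q → ∀ ℓ : ℕ, ℓ.Prime → ¬ ℓ ∣ M →
      ∀ c : AN M →+ ℤ, (c.comp (tau M ℓ)).comp (ν q) = (c.comp (ν q)).comp (tau (M / q) ℓ))
    (rel : ∀ q, SSPrime M p q →
      ∀ B : ValuationSubring Qb, B.LiesOverPrime q →
        ∀ σ : GQ, B.IsFrobeniusAt σ q →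
          ∀ {n : ℕ} {f : FN M} {c : AN M →+ ZMod (p ^ n)}, KRel M (p ^ n) f c →
            c.comp (ν q) = 0 → (c.comp (omegaAt M q)).comp (ν q) = 0 →
            ∃ k : FN M, galF M σ (galF M σ f * swapAt M q f) *
              swapAt M q (galF M σ f * swapAt M q f) ^ q = k ^ (p ^ n)) :
    Nonempty (SSData M p) :=
  Concrete.nonempty_ssData_of_fun M p (fun q => swapAt M q)
    (fun _ hq {n _ _} h =>
      haveI : NeZero (p ^ n) := ⟨pow_ne_zero n hp.out.ne_zero⟩
      krel_swapAt hq.1 hq.2.1 hq.2.2.1 h)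
    (fun _ hq σ {_ f _} _ => swapAt_galF hq.1 hq.2.1 hq.2.2.1 σ f)
    ν ν_τ rel

/-! ### The transfer at level `M` -/

/-- The identification `AN a = AN b` for `a = b`. -/
def castAN {a b : ℕ} (h : a = b) : AN a →+ AN b := h ▸ AddMonoidHom.id (AN a)

open Classical in
/-- The transfer `AN (M / q) →+ AN M`: `verA (M / q) q` followed by the identification
`AN (M / q * q) = AN M` (junk `0` unless `q ∣ M`, `M ≠ 0`). -/
noncomputable def nuAt (M q : ℕ) : AN (M / q) →+ AN M :=
  if h : M / q * q = M ∧ M / q ≠ 0 ∧ q ≠ 0 then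
    haveI : NeZero (M / q) := ⟨h.2.1⟩
    haveI : NeZero q := ⟨h.2.2⟩
    (castAN h.1).comp (verA (M / q) q)
  else 0

theorem comp_tau_comp_castAN (N q M' : ℕ) [NeZero N] [NeZero q] (h : N * q = M') {ℓ : ℕ}
    (hℓ : ℓ.Prime) (hℓM : ¬ ℓ ∣ M') {B : Type*} [AddCommGroup B] (c : AN M' →+ B) :
    (c.comp (tau M' ℓ)).comp ((castAN h).comp (verA N q))
      = (c.comp ((castAN h).comp (verA N q))).comp (tau N ℓ) := by
  subst h
  exact Betti.NormHecke.comp_tau_comp_verA N q hℓ hℓM c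

/-- Hecke equivariance of the transfer `nuAt` on characters. -/
theorem comp_tau_comp_nuAt {M q : ℕ} (hM : M ≠ 0) (hq : q ∣ M) {ℓ : ℕ} (hℓ : ℓ.Prime)
    (hℓM : ¬ ℓ ∣ M) {B : Type*} [AddCommGroup B] (c : AN M →+ B) :
    (c.comp (tau M ℓ)).comp (nuAt M q) = (c.comp (nuAt M q)).comp (tau (M / q) ℓ) := by
  have h1 : M / q * q = M := Nat.div_mul_cancel hq
  have h2 : M / q ≠ 0 := fun h0 => hM (by rw [← h1, h0, zero_mul])
  have h3 : q ≠ 0 := fun h0 => hM (by rw [← h1, h0, mul_zero])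
  have : NeZero (M / q) := ⟨h2⟩
  have : NeZero q := ⟨h3⟩
  have hν : nuAt M q = (castAN h1).comp (verA (M / q) q) := by
    unfold nuAt
    rw [dif_pos ⟨h1, h2, h3⟩]
  rw [hν]
  exact comp_tau_comp_castAN (M / q) q M h1 hℓ hℓM c

theorem comp_verA_eq_zero_aux {N q : ℕ} [NeZero N] [NeZero q] {B : Type*} [AddCommGroup B]
    (c : AN (N * q) →+ B) (N' : ℕ) (hN' : N' = N) [NeZero N'] (h : N' * q = N * q)
    (hc : c.comp ((castAN h).comp (verA N' q)) = 0) : c.comp (verA N q) = 0 := by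
  subst hN'
  exact hc

/-- At level `N * q`: a character killing the transfer `nuAt (N * q) q` kills `verA N q`. -/
theorem comp_verA_eq_zero {N q : ℕ} [NeZero N] [NeZero q] {B : Type*} [AddCommGroup B]
    (c : AN (N * q) →+ B) (hc : c.comp (nuAt (N * q) q) = 0) : c.comp (verA N q) = 0 := by
  have h0 : N * q / q = N := Nat.mul_div_cancel N (Nat.pos_of_ne_zero (NeZero.ne q))
  have h1 : N * q / q * q = N * q := by rw [h0]
  have h2 : N * q / q ≠ 0 := by rw [h0]; exact NeZero.ne N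
  have : NeZero (N * q / q) := ⟨h2⟩
  have hν : nuAt (N * q) q = (castAN h1).comp (verA (N * q / q) q) := by
    unfold nuAt
    rw [dif_pos ⟨h1, h2, NeZero.ne q⟩]
  rw [hν] at hc
  exact comp_verA_eq_zero_aux c (N * q / q) h0 h1 hc

/-! ### The exit -/

/-- **The concrete S35 producer, modulo the geometric exit (C2').**  If for every
decomposition `M = N * ℓ` (`ℓ` prime, `ℓ ∤ N`, `ℓ ≠ p`), every `A` over `ℓ`, every Frobenius
`σ` at `A` and every `n`, the class of `σ (W h) · h ^ ℓ` is trivial modulo `p ^ n`-th powers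
and constants for all toric `h` with `p ^ n ∣ div h` (`W = wAL N ℓ`), then the producer
contract `SSData M p` of S35 is inhabited. -/
theorem nonempty_ssData (M p : ℕ) [NeZero M] [hp : Fact p.Prime]
    (hswap : ∀ (N ℓ : ℕ) [NeZero N] [NeZero ℓ] (hℓ : ℓ.Prime) (hℓN : ¬ ℓ ∣ N), N * ℓ = M →
      ℓ ≠ p → ∀ A : ValuationSubring Qb, A.LiesOverPrime ℓ → ∀ σ : GQ, A.IsFrobeniusAt σ ℓ →
      ∀ n : ℕ, ∀ h : E4.Fb (N * ℓ),
        Fermat.Agent.S34.Toric.IsToric (N * ℓ) A (wAL N ℓ hℓ hℓN).toRingEquiv h →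
        E4.DivBy (N * ℓ) (p ^ n) h →
        ∃ (c : Qb) (k : E4.Fb (N * ℓ)),
          E4.gal (N * ℓ) σ (wAL N ℓ hℓ hℓN h) * h ^ ℓ
            = algebraMap Qb (E4.Fb (N * ℓ)) c * k ^ (p ^ n)) :
    Nonempty (SSData M p) := by
  refine nonempty_ssData_of_swapAt M p (nuAt M)
    (fun q hq ℓ hℓ hℓM c => comp_tau_comp_nuAt (NeZero.ne M) hq.2.1 hℓ hℓM c) ?_
  intro q hq B hB σ hσ n f c hf h1 h2
  obtain ⟨hqp, hqM, hq2, hqne⟩ := hq
  obtain ⟨N, rfl, hqN⟩ := exists_eq_mul_of_exact hqM hq2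
  have : NeZero q := ⟨hqp.ne_zero⟩
  have : NeZero N := ⟨fun h0 => by
    have := NeZero.ne (N * q)
    rw [h0, zero_mul] at this
    exact this rfl⟩
  have : NeZero (p ^ n) := ⟨pow_ne_zero n hp.out.ne_zero⟩
  refine ConcreteRel.rel_of_relFun hqp hqN σ ?_ hf (comp_verA_eq_zero c h1)
    (comp_verA_eq_zero _ h2)
  intro f hf hdiv h1 h2
  exact ToricFrob.rel_fun hqp hqN B hB (pow_pos hp.out.pos n) hσ
    (hswap N q hqp hqN rfl hqne B hB σ hσ n) f hf hdiv h1 h2

end Fermat.Agent.S35.ConcreteFinal
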