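import Fermat.Agent.S34.DescendRoot

/-!
# S35, brick U.S35.DescendFrob (helper133): the Frobenius relation `(C2')` over `ℚ̄` from number
fields, Kummer-field form

Twin of `S34/DescendRoot.lean` (helper243), with the inertia element `τ` replaced by a Frobenius
element `σ` and `k = τ h / h` by `k = σ (W h) * h ^ e` (`e = ℓ` in the application).

* `FrobSS N A W ℓ e m` : the `ℚ̄`-level statement "for `σ` a Frobenius element of `A` at `ℓ` and
  `h` toric with `m ∣ div h`, `σ (W h) * h ^ e` is an `m`-th power in `Fb N`".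
* `FrobSSRootE N A W ℓ e m E` : the number-field statement, with the Kummer field
  `M = (LE N E)(θ)`, `θ ^ m = k`, part of the data and `E` algebraically closed in `M`; it carries
  `m ∣ ord_P` at all places of `LE N E / E` for `h`, for `h' = W h` and for `k` itself.
* `FrobSSRootModular N A W ℓ e m` : `FrobSSRootE` over every sufficiently large number field.
* `divBy_algEquiv` : a `ℚ̄`-algebra automorphism of `Fb N` preserves `m ∣ div`.
* `frobSS_of_rootModular` : `FrobSSRootModular → FrobSS` (for `W` preserving `m ∣ div`);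
  `frobSS_of_rootModular_algEquiv` : the same for `W` a `ℚ̄`-algebra automorphism.
-/

set_option autoImplicit false
set_option linter.unusedSectionVars false
set_option synthInstance.maxHeartbeats 400000
set_option maxHeartbeats 1000000

noncomputable section

namespace Fermat.Agent.S35.DescendFrob

open ModularCurve AlgebraicCurve HahnSeries IntermediateField Polynomial
open Fermat.Agent.S18.K1Defs Fermat.Agent.S18.K1Top
open Fermat.Agent.S30 Fermat.Agent.S30.E4
open Fermat.Agent.S34 Fermat.Agent.S34.Descend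

local notation "Qb" => AlgebraicClosure ℚ
local notation "Gq" => (AlgebraicClosure ℚ ≃ₐ[ℚ] AlgebraicClosure ℚ)

/-- **The Frobenius relation over `ℚ̄`**: for `σ` a Frobenius element of `A` at `ℓ` and a toric
`h` with `m ∣ div h`, the product `σ (W h) * h ^ e` is an `m`-th power in `Fb N`. -/
def FrobSS (N : ℕ) (A : ValuationSubring Qb) (W : Fb N ≃+* Fb N) (ℓ e m : ℕ) : Prop :=
  ∀ σ : Gq, A.IsFrobeniusAt σ ℓ → ∀ h : Fb N, Toric.IsToric N A W h → DivBy N m h →
    ∃ k : Fb N, gal N σ (W h) * h ^ e = k ^ m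

/-- **The Frobenius relation over a number field `E`, Kummer-field form.**  `h, h' ∈ LE N E` with
`h' = W h` (after extension of constants), both in the Gauss ring with reduction `1`,
`m ∣ ord_P h`, `m ∣ ord_P h'` at every place of `LE N E` over `E`, `k = σ h' * h ^ e ∈ LE N E`
(`σ` acting on the coefficients through its restriction to `E`), `m ∣ ord_P k` at every place, and `M = (LE N E)(θ)` a finite field extension with
`θ ^ m = k` in which `E` is algebraically closed.  Then `k` is an `m`-th power in `LE N E`. -/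
def FrobSSRootE (N : ℕ) [NeZero N] (A : ValuationSubring Qb) (W : Fb N ≃+* Fb N) (ℓ e m : ℕ)
    (E : IntermediateField ℚ Qb) [Normal ℚ E] [IsDiscreteValuationRing (OE A E)] : Prop :=
  ∀ σ : Gq, A.IsFrobeniusAt σ ℓ →
    ∀ (h h' : LaurentSeries E) (hL : h ∈ LE N E) (hL' : h' ∈ LE N E),
      W ⟨coeffMap (algebraMap E Qb) h, coeffMap_mem_bar N E hL⟩ =
        ⟨coeffMap (algebraMap E Qb) h', coeffMap_mem_bar N E hL'⟩ →
      ∀ (hV : h ∈ GaussDVR.V (OE A E) E) (hV' : h' ∈ GaussDVR.V (OE A E) E),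
        GaussDVR.red (OE A E) E ⟨h, hV⟩ = 1 → GaussDVR.red (OE A E) E ⟨h', hV'⟩ = 1 →
        (∀ P : Place E (LE N E), (m : ℤ) ∣ P.ord (⟨h, hL⟩ : LE N E)) →
        (∀ P : Place E (LE N E), (m : ℤ) ∣ P.ord (⟨h', hL'⟩ : LE N E)) →
        ∀ k : LE N E,
          (k : LaurentSeries E) =
            coeffMap ((σ.restrictNormal E : E ≃ₐ[ℚ] E) : E →+* E) h' * h ^ e →
          (∀ P : Place E (LE N E), (m : ℤ) ∣ P.ord k) →
          ∀ (M : Type) [Field M] [Algebra (LE N E) M] [Algebra E M] [IsScalarTower E (LE N E) M]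
            [FiniteDimensional (LE N E) M] (θ : M),
            θ ^ m = algebraMap (LE N E) M k →
            Algebra.adjoin (LE N E) ({θ} : Set M) = ⊤ →
            (∀ x : M, IsAlgebraic E x → ∃ a : E, algebraMap E M a = x) →
            ∃ g : LE N E, k = g ^ m

/-- **The Frobenius relation for the modular function field, Kummer-field form**: `FrobSSRootE`
over every number field `E ⊆ ℚ̄`, normal over `ℚ`, containing a fixed finite set `S` of algebraic
numbers. -/
def FrobSSRootModular (N : ℕ) [NeZero N] (A : ValuationSubring Qb) (W : Fb N ≃+* Fb N)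
    (ℓ e m : ℕ) : Prop :=
  ∃ S : Finset Qb, ∀ (E : IntermediateField ℚ Qb) [FiniteDimensional ℚ E] [Normal ℚ E]
    [IsDiscreteValuationRing (OE A E)], (∀ s ∈ S, s ∈ E) → FrobSSRootE N A W ℓ e m E

/-- A `ℚ̄`-algebra automorphism of `Fb N` permutes the places, hence preserves `m ∣ div`. -/
theorem divBy_algEquiv {N : ℕ} [NeZero N] (w : Fb N ≃ₐ[Qb] Fb N) {m : ℕ} {f : Fb N}
    (hf : DivBy N m f) : DivBy N m (w f) := fun P => by
  have h1 : (w • (w⁻¹ • P)).ord (w f) = (w⁻¹ • P).ord f := Place.ord_smul w (w⁻¹ • P) f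
  rw [smul_inv_smul] at h1
  rw [h1]
  exact hf _

/-! ### The descent theorem -/

/-- **Descent, Kummer-field form.**  `FrobSSRootModular` implies the Frobenius relation over
`ℚ̄`. -/
theorem frobSS_of_rootModular (N : ℕ) [NeZero N] {ℓ : ℕ} (hℓ : ℓ.Prime)
    (A : ValuationSubring Qb) (hA : A.LiesOverPrime ℓ) (W : Fb N ≃+* Fb N) (e : ℕ) {m : ℕ}
    (hm : 0 < m) (hWdiv : ∀ f : Fb N, DivBy N m f → DivBy N m (W f))
    (hK : FrobSSRootModular N A W ℓ e m) : FrobSS N A W ℓ e m := by
  classical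
  rintro σ hσ h ⟨⟨U, V, hU, hV, hred, hne, hUV⟩, ⟨U', V', hU', hV', hred', hne', hUV'⟩⟩ hdiv
  obtain ⟨S, hS⟩ := hK
  have hh0 : h ≠ 0 := Toric.GaussOne.ne_zero ⟨U, V, hU, hV, hred, hne, hUV⟩
  -- the Kummer polynomial and an irreducible factor
  set x : Fb N := gal N σ (W h) * h ^ e with hx
  set f : (Fb N)[X] := Polynomial.X ^ m - Polynomial.C x with hf
  have hfmonic : f.Monic := Polynomial.monic_X_pow_sub_C x hm.ne'
  have hfdeg : f.degree ≠ 0 := by
    rw [hf, Polynomial.degree_X_pow_sub_C hm x]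
    exact_mod_cast hm.ne'
  obtain ⟨g₀, hg₀irr, hg₀dvd⟩ := Polynomial.exists_irreducible_of_degree_pos
    (f := f) (lt_of_le_of_ne (Polynomial.zero_le_degree_iff.mpr hfmonic.ne_zero) (Ne.symm hfdeg))
  set g : (Fb N)[X] := g₀ * Polynomial.C g₀.leadingCoeff⁻¹ with hgdef
  have hgmonic : g.Monic := Polynomial.monic_mul_leadingCoeff_inv hg₀irr.ne_zero
  have hgassoc : Associated g₀ g :=
    ⟨(Polynomial.isUnit_C.mpr (isUnit_iff_ne_zero.mpr (inv_ne_zero
      (Polynomial.leadingCoeff_ne_zero.mpr hg₀irr.ne_zero)))).unit, rfl⟩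
  have hgirr : Irreducible g := hgassoc.irreducible hg₀irr
  have hgdvd : g ∣ f := (hgassoc.dvd_iff_dvd_left).mp hg₀dvd
  -- coefficient fields
  obtain ⟨E₀, hE₀, hdesc⟩ := exists_finset_descent N
    (insert (⟨_, hU⟩ : Fb N) (insert (⟨_, hV⟩ : Fb N) (insert (⟨_, hU'⟩ : Fb N)
      (insert (⟨_, hV'⟩ : Fb N) (insert x g.coeffs)))))
  let E₅ : IntermediateField ℚ Qb := IntermediateField.adjoin ℚ (S : Set Qb)
  have hE₅ : FiniteDimensional ℚ E₅ :=
    IntermediateField.finiteDimensional_adjoin fun x _ =>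
      ((AlgebraicClosure.isAlgebraic ℚ).isAlgebraic x).isIntegral
  let E' : IntermediateField ℚ Qb := E₀ ⊔ E₅
  have hE' : FiniteDimensional ℚ E' := IntermediateField.finiteDimensional_sup E₀ E₅
  -- the normal closure
  have : Normal ℚ Qb := normal_rat_Qb
  let E : IntermediateField ℚ Qb := IntermediateField.normalClosure ℚ E' Qb
  have hEfin : FiniteDimensional ℚ E := normalClosure.is_finiteDimensional ℚ E' Qb
  have hEnorm : Normal ℚ E := normalClosure.normal ℚ E' Qb
  have hE'E : E' ≤ E := IntermediateField.le_normalClosure E'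
  have h0E : E₀ ≤ E := le_trans le_sup_left hE'E
  have h5E : E₅ ≤ E := le_trans le_sup_right hE'E
  have hSE : ∀ s ∈ S, s ∈ E := fun s hs => h5E (IntermediateField.subset_adjoin ℚ _ hs)
  have hDVRE : IsDiscreteValuationRing (OE A E) := dvrDescent hℓ A hA E
  have hKE := hS E hSE
  have hdE := hdesc E h0E
  -- the series over `E`
  obtain ⟨⟨u, huL⟩, hu⟩ := hdE ⟨_, hU⟩ (by simp)
  obtain ⟨⟨v, hvL⟩, hv⟩ := hdE ⟨_, hV⟩ (by simp)
  obtain ⟨⟨u', hu'L⟩, hu'⟩ := hdE ⟨_, hU'⟩ (by simp)
  obtain ⟨⟨v', hv'L⟩, hv'⟩ := hdE ⟨_, hV'⟩ (by simp)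
  obtain ⟨k, hk⟩ := hdE x (by simp)
  have huU : coeffMap (algebraMap E Qb) u = coeffMap A.subtype U := congrArg Subtype.val hu
  have hvV : coeffMap (algebraMap E Qb) v = coeffMap A.subtype V := congrArg Subtype.val hv
  have hu'U : coeffMap (algebraMap E Qb) u' = coeffMap A.subtype U' := congrArg Subtype.val hu'
  have hv'V : coeffMap (algebraMap E Qb) v' = coeffMap A.subtype V' := congrArg Subtype.val hv'
  obtain ⟨hv0, hgV, hg1⟩ := gauss_descent A E U V u v huU hvV hred hne
  obtain ⟨hv'0, hg'V, hg'1⟩ := gauss_descent A E U' V' u' v' hu'U hv'V hred' hne'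
  have hgL : u / v ∈ LE N E := div_mem huL hvL
  have hg'L : u' / v' ∈ LE N E := div_mem hu'L hv'L
  -- `u / v` is `h`, `u' / v'` is `W h`
  have hupv : coeffMap (algebraMap E Qb) v ≠ 0 := by
    intro h0
    exact hv0 (coeffMap_injective_hom (algebraMap E Qb) (by rw [h0, map_zero]))
  have hupv' : coeffMap (algebraMap E Qb) v' ≠ 0 := by
    intro h0
    exact hv'0 (coeffMap_injective_hom (algebraMap E Qb) (by rw [h0, map_zero]))
  have hgh : coeffMap (algebraMap E Qb) (u / v) = (h : LaurentSeries Qb) := by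
    rw [map_div₀, div_eq_iff hupv, huU, hvV]
    exact hUV.symm
  have hg'h : coeffMap (algebraMap E Qb) (u' / v') = ((W h : Fb N) : LaurentSeries Qb) := by
    rw [map_div₀, div_eq_iff hupv', hu'U, hv'V]
    exact hUV'.symm
  have e1 : (⟨coeffMap (algebraMap E Qb) (u / v), coeffMap_mem_bar N E hgL⟩ : Fb N) = h :=
    Subtype.ext hgh
  have e2 : (⟨coeffMap (algebraMap E Qb) (u' / v'), coeffMap_mem_bar N E hg'L⟩ : Fb N) = W h :=
    Subtype.ext hg'h
  have hW : W ⟨coeffMap (algebraMap E Qb) (u / v), coeffMap_mem_bar N E hgL⟩ =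
      ⟨coeffMap (algebraMap E Qb) (u' / v'), coeffMap_mem_bar N E hg'L⟩ := by
    rw [e1, e2]
  -- divisibility at the places over `E`
  have hgdiv : ∀ P : Place E (LE N E), (m : ℤ) ∣ P.ord (⟨u / v, hgL⟩ : LE N E) := by
    intro P
    obtain ⟨P', hP'⟩ := placeDescent N E P
    rw [← hP' (u / v) hgL, e1]
    exact hdiv P'
  have hgdiv' : ∀ P : Place E (LE N E), (m : ℤ) ∣ P.ord (⟨u' / v', hg'L⟩ : LE N E) := by
    intro P
    obtain ⟨P', hP'⟩ := placeDescent N E P
    rw [← hP' (u' / v') hg'L, e2]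
    exact hWdiv h hdiv P'
  have hWh0 : W h ≠ 0 := fun h0 => hh0 (by simpa using h0)
  have hxdiv : DivBy N m x :=
    DivBy.mul ((map_ne_zero_iff _ (gal N σ).injective).mpr hWh0) (pow_ne_zero e hh0)
      (DivBy.gal (hWdiv h hdiv) σ) (DivBy.pow hdiv e)
  have hkdiv : ∀ P : Place E (LE N E), (m : ℤ) ∣ P.ord k := by
    intro P
    obtain ⟨P', hP'⟩ := placeDescent N E P
    have h1 := hP' (k : LaurentSeries E) k.2
    have h2 : (⟨coeffMap (algebraMap E Qb) (k : LaurentSeries E),
        coeffMap_mem_bar N E k.2⟩ : Fb N) = x := by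
      rw [← hk]; rfl
    rw [h2] at h1
    rw [show (k : LE N E) = ⟨(k : LaurentSeries E), k.2⟩ from rfl, ← h1]
    exact hxdiv P'
  -- `k = σ (W h) * h ^ e` over `E`
  have hkh : (k : LaurentSeries E) =
      coeffMap ((σ.restrictNormal E : E ≃ₐ[ℚ] E) : E →+* E) (u' / v') * (u / v) ^ e := by
    apply coeffMap_injective_hom (algebraMap E Qb)
    rw [map_mul, map_pow, coeffMap_restrictNormal σ E (u' / v'), hg'h, hgh, ← coe_upF, hk,
      ← coe_gal]
    rfl
  -- the polynomial over `E`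
  have hglift : g ∈ Polynomial.lifts (upF N E) := by
    rw [Polynomial.lifts_iff_coeff_lifts]
    intro n
    by_cases hn : g.coeff n = 0
    · exact ⟨0, by rw [map_zero, hn]⟩
    · obtain ⟨y, hy⟩ := hdE (g.coeff n) (by
        simp only [Finset.mem_insert]
        exact Or.inr (Or.inr (Or.inr (Or.inr (Or.inr (Polynomial.coeff_mem_coeffs hn))))))
      exact ⟨y, hy⟩
  obtain ⟨q, hqmap, -, hqmonic⟩ := Polynomial.lifts_and_natDegree_eq_and_monic hglift hgmonic
  have hqirr' : Irreducible (q.map (upF N E)) := by rw [hqmap]; exact hgirr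
  have hqirr : Irreducible q :=
    Polynomial.Monic.irreducible_of_irreducible_map (upF N E) q hqmonic hqirr'
  have hqdvd : q ∣ Polynomial.X ^ m - Polynomial.C k := by
    rw [← Polynomial.map_dvd_map (upF N E) (upF_injective N E) hqmonic, hqmap,
      Polynomial.map_sub, Polynomial.map_pow, Polynomial.map_X, Polynomial.map_C, hk]
    exact hgdvd
  haveI : Fact (Irreducible q) := ⟨hqirr⟩
  have hθ : AdjoinRoot.root q ^ m = algebraMap (LE N E) (AdjoinRoot q) k := by
    have h1 := AdjoinRoot.mk_eq_zero.mpr hqdvd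
    rw [map_sub, map_pow, AdjoinRoot.mk_X, AdjoinRoot.mk_C] at h1
    rw [AdjoinRoot.algebraMap_eq]
    exact sub_eq_zero.mp h1
  haveI : FiniteDimensional (LE N E) (AdjoinRoot q) :=
    (AdjoinRoot.powerBasis hqirr.ne_zero).finite
  -- apply the number-field statement
  obtain ⟨gk, hgk⟩ := hKE σ hσ (u / v) (u' / v') hgL hg'L hW hgV hg'V hg1 hg'1 hgdiv hgdiv'
    k hkh hkdiv (AdjoinRoot q) (AdjoinRoot.root q) hθ AdjoinRoot.adjoinRoot_eq_top
    (fun y hy => no_new_constants N E q hqmonic hqirr' y hy)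
  refine ⟨upF N E gk, ?_⟩
  rw [← map_pow, ← hgk, hk]

/-- **Descent, Kummer-field form, for a `ℚ̄`-algebra automorphism `W`** (e.g. the Atkin–Lehner
swap `ToricSwap.wAL`). -/
theorem frobSS_of_rootModular_algEquiv (N : ℕ) [NeZero N] {ℓ : ℕ} (hℓ : ℓ.Prime)
    (A : ValuationSubring Qb) (hA : A.LiesOverPrime ℓ) (W : Fb N ≃ₐ[Qb] Fb N) (e : ℕ) {m : ℕ}
    (hm : 0 < m) (hK : FrobSSRootModular N A W.toRingEquiv ℓ e m) :
    FrobSS N A W.toRingEquiv ℓ e m :=
  frobSS_of_rootModular N hℓ A hA W.toRingEquiv e hm (fun _ hf => divBy_algEquiv W hf) hK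


end Fermat.Agent.S35.DescendFrob
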