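/-
S35 WIRING, the coefficient ring (helper94).

`exists_coeff_extension`: let `O'` be a complete DVR of characteristic zero with finite residue
field, `R₀ → S` an injective integral extension of domains, `iota : R₀ →+* O'` injective, and
`x : σ → S` a family all of whose members lie in `R₀` except for finitely many values (those in
the finite set `T`).  Then there are a complete DVR `O''`, finite over `O'`, and a family
`c : σ → O''` such that
* `c i = iota r` whenever `x i = r ∈ R₀`;
* the `c i` satisfy exactly the same integer polynomial relations as the `x i`.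

(The frozen statement S35 only provides `iota` on the subring generated by the `a_ℓ(g)`, `ℓ ∉ S`;
the newform condition needs the eigenvalues at the finitely many remaining good primes.)
-/
import Mathlib
import Fermat.Agent.S30.Engine.DVRExt

set_option autoImplicit false

namespace Fermat.Agent.S35.Coeff

open IsLocalRing

/-- Ring homomorphisms commute with the evaluation of integer polynomials. -/
theorem aeval_ringHom {A B : Type*} [CommRing A] [CommRing B]
    (f : A →+* B) {σ : Type*} (x : σ → A) (P : MvPolynomial σ ℤ) :
    MvPolynomial.aeval (fun i => f (x i)) P = f (MvPolynomial.aeval x P) := by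
  induction P using MvPolynomial.induction_on with
  | C a =>
    rw [MvPolynomial.aeval_C, MvPolynomial.aeval_C, eq_intCast (algebraMap ℤ A) a,
      eq_intCast (algebraMap ℤ B) a, map_intCast]
  | add P Q hP hQ => rw [map_add, map_add, map_add, hP, hQ]
  | mul_X P i hP => rw [map_mul, map_mul, map_mul, hP, MvPolynomial.aeval_X, MvPolynomial.aeval_X]

/-- Injective ring homomorphisms reflect integer polynomial relations. -/
theorem aeval_eq_zero_iff_of_injective {A B : Type*} [CommRing A] [CommRing B]
    (f : A →+* B) (hf : Function.Injective f) {σ : Type*} (x : σ → A) (y : σ → B)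
    (hxy : ∀ i, y i = f (x i)) (P : MvPolynomial σ ℤ) :
    MvPolynomial.aeval y P = 0 ↔ MvPolynomial.aeval x P = 0 := by
  have hy : y = fun i => f (x i) := funext hxy
  rw [hy, aeval_ringHom f x P]
  constructor
  · intro h
    exact hf (by rw [h, map_zero])
  · intro h
    rw [h, map_zero]

theorem exists_coeff_extension
    (O' : Type) [CommRing O'] [IsDomain O'] [IsDiscreteValuationRing O']
    [IsAdicComplete (maximalIdeal O') O'] [Finite (ResidueField O')] [CharZero O']
    (R₀ S : Type) [CommRing R₀] [IsDomain R₀] [CommRing S] [IsDomain S] [Algebra R₀ S]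
    (hRS : Function.Injective (algebraMap R₀ S)) [Algebra.IsIntegral R₀ S]
    (iota : R₀ →+* O') (hiota : Function.Injective iota) (T : Finset S)
    {σ : Type} (x : σ → S) (hx : ∀ i, x i ∈ T ∨ ∃ r : R₀, x i = algebraMap R₀ S r) :
    ∃ (O'' : Type) (_ : CommRing O'') (_ : IsDomain O'') (_ : IsDiscreteValuationRing O'')
      (_ : IsAdicComplete (maximalIdeal O'') O'') (_ : Finite (ResidueField O''))
      (_ : CharZero O'') (_ : Algebra O' O'') (_ : Module.Finite O' O'')
      (_ : IsLocalHom (algebraMap O' O'')),
      Function.Injective (algebraMap O' O'') ∧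
      ∃ c : σ → O'',
        (∀ (i : σ) (r : R₀), x i = algebraMap R₀ S r → c i = algebraMap O' O'' (iota r)) ∧
        ∀ P : MvPolynomial σ ℤ, MvPolynomial.aeval c P = 0 ↔ MvPolynomial.aeval x P = 0 := by
  classical
  let K := FractionRing O'
  let Kb := AlgebraicClosure K
  let algR₀O' : Algebra R₀ O' := iota.toAlgebra
  have hiota_def : ∀ x : R₀, algebraMap R₀ O' x = iota x := fun x => rfl
  have hO'Kb : Function.Injective (algebraMap O' Kb) := by
    rw [IsScalarTower.algebraMap_eq O' K Kb]
    exact (algebraMap K Kb).injective.comp (IsFractionRing.injective O' K)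
  have hR₀Kb : ∀ x : R₀, algebraMap R₀ Kb x = algebraMap O' Kb (iota x) := by
    intro x
    rw [IsScalarTower.algebraMap_apply R₀ O' Kb, hiota_def]
  have hinjKb : Function.Injective (algebraMap R₀ Kb) := by
    intro x y hxy
    rw [hR₀Kb, hR₀Kb] at hxy
    exact hiota (hO'Kb hxy)
  haveI : Module.IsTorsionFree R₀ Kb := Module.isTorsionFree_iff_algebraMap_injective.mpr hinjKb
  haveI : Module.IsTorsionFree R₀ S := Module.isTorsionFree_iff_algebraMap_injective.mpr hRS
  let ιt : S →ₐ[R₀] Kb := IsAlgClosed.lift
  have hιt_inj : Function.Injective ιt := by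
    have hker : RingHom.ker (ιt : S →+* Kb) = ⊥ := by
      apply Ideal.eq_bot_of_comap_eq_bot (R := R₀)
      rw [eq_bot_iff]
      intro x hx
      rw [Ideal.mem_comap, RingHom.mem_ker] at hx
      have h1 : algebraMap R₀ Kb x = 0 := by
        rw [← hx]
        exact (ιt.commutes x).symm
      rw [Ideal.mem_bot]
      exact hinjKb (by rw [h1, map_zero])
    exact (RingHom.injective_iff_ker_eq_bot _).mpr hker
  have hint : ∀ x : S, IsIntegral O' (ιt x) := by
    intro x
    have h1 : IsIntegral R₀ (ιt x) := (Algebra.IsIntegral.isIntegral x).map ιt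
    exact h1.tower_top
  -- the finite extension
  let s : Set Kb := ιt '' (T : Set S)
  haveI : Finite s := (T.finite_toSet.image ιt).to_subtype
  let K'' : IntermediateField K Kb := IntermediateField.adjoin K s
  haveI : FiniteDimensional K K'' :=
    IntermediateField.finiteDimensional_adjoin (fun x _ => Algebra.IsIntegral.isIntegral x)
  obtain ⟨O'', i1, i2, i3, i4, i5, i6, i7, i8, i9, i10, i11, hinj, hfrac, -, hic⟩ :=
    Fermat.Agent.S30.DVRExt.exists_dvr_extension O' K K''
  refine ⟨O'', i1, i2, i3, i4, i5, i6, i7, i8, i9, hinj, ?_⟩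
  have hmem : ∀ i : σ, ιt (x i) ∈ K'' := by
    intro i
    rcases hx i with h | ⟨r, hr⟩
    · exact IntermediateField.subset_adjoin K s ⟨x i, h, rfl⟩
    · rw [hr, AlgHom.commutes]
      have : algebraMap R₀ Kb r = algebraMap K Kb (algebraMap O' K (iota r)) := by
        rw [← IsScalarTower.algebraMap_apply O' K Kb, hR₀Kb]
      rw [this]
      exact K''.algebraMap_mem _
  have tower2 : IsScalarTower O' K'' Kb := IsScalarTower.of_algebraMap_eq (fun x => rfl)
  have hex : ∀ i : σ, ∃ b : O'', algebraMap O'' K'' b = ⟨ιt (x i), hmem i⟩ := by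
    intro i
    have h1 : IsIntegral O' (⟨ιt (x i), hmem i⟩ : K'') := by
      have h2 : IsIntegral O' (algebraMap K'' Kb ⟨ιt (x i), hmem i⟩) := hint (x i)
      exact (isIntegral_algebraMap_iff (algebraMap K'' Kb).injective).mp h2
    exact (IsIntegralClosure.isIntegral_iff (A := O'')).mp h1
  choose c hc using hex
  have hOK : Function.Injective (algebraMap O'' K'') := IsFractionRing.injective O'' K''
  let ψ : O'' →+* Kb := (algebraMap K'' Kb).comp (algebraMap O'' K'')
  have hψinj : Function.Injective ψ := (algebraMap K'' Kb).injective.comp hOK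
  have hψc : ∀ i, ψ (c i) = ιt (x i) := by
    intro i
    show algebraMap K'' Kb (algebraMap O'' K'' (c i)) = ιt (x i)
    rw [hc i]
    rfl
  refine ⟨c, ?_, ?_⟩
  · intro i r hr
    apply hψinj
    rw [hψc, hr, AlgHom.commutes, hR₀Kb]
    show algebraMap O' Kb (iota r) = algebraMap K'' Kb (algebraMap O'' K'' (algebraMap O' O'' (iota r)))
    rw [← IsScalarTower.algebraMap_apply O' O'' K'', ← IsScalarTower.algebraMap_apply O' K'' Kb]
  · intro P
    exact (aeval_eq_zero_iff_of_injective ψ hψinj c _ (fun _ => rfl) P).symm.trans
      (aeval_eq_zero_iff_of_injective (ιt : S →+* Kb) hιt_inj x _ (fun i => hψc i) P)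

end Fermat.Agent.S35.Coeff
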