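/-
S35 WIRING, linear algebra (helper94).

* `exists_kernel_projector`: for an integer matrix `B` there are an integer `d ≠ 0` and integer
  matrices `P`, `C` with `B * P = 0` and `d • 1 - P = C * B`.  So over ANY ring, a vector killed
  by `B` satisfies `d • v = P v`, a combination of integer vectors killed by `B`.
* `exists_eigenvector_of_relations`: a commuting family of integer matrices `t i` has a joint
  eigenvector with eigenvalues `lam i` in a field `K` of characteristic zero as soon as every
  integer polynomial relation between the `t i` holds between the `lam i`.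
* `aeval_eq_zero_of_eigenvector`: the converse, over any domain.
-/
import Mathlib
import Fermat.Agent.S30.Eigen

set_option autoImplicit false

namespace Fermat.Agent.S35.LinAlg

open Polynomial Matrix

/-! ### The integer projector onto a kernel -/

theorem exists_kernel_projector {m r : Type*} [Fintype m] [Fintype r] [DecidableEq r]
    (B : Matrix m r ℤ) :
    ∃ (d : ℤ) (P : Matrix r r ℤ) (C : Matrix r m ℤ),
      d ≠ 0 ∧ B * P = 0 ∧ d • (1 : Matrix r r ℤ) - P = C * B := by
  set S : Matrix r r ℤ := Bᴴ * B with hS
  have hχ : S.charpoly ≠ 0 := (Matrix.charpoly_monic S).ne_zero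
  obtain ⟨h, hh, hnd⟩ :=
    Polynomial.exists_eq_pow_rootMultiplicity_mul_and_not_dvd S.charpoly hχ 0
  have hd : h.coeff 0 ≠ 0 := by
    intro h0
    apply hnd
    rw [map_zero, sub_zero]
    exact Polynomial.X_dvd_iff.mpr h0
  set k := Polynomial.rootMultiplicity 0 S.charpoly with hk
  set P : Matrix r r ℤ := Polynomial.aeval S h with hP
  have hCH : S ^ k * P = 0 := by
    have h1 := Matrix.aeval_self_charpoly S
    rw [hh, map_zero, sub_zero, map_mul, map_pow, Polynomial.aeval_X] at h1
    exact h1
  have hstep : ∀ X : Matrix r r ℤ, S * (S * X) = 0 → S * X = 0 := by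
    intro X hX
    have h1 : B * (S * X) = 0 :=
      (Matrix.conjTranspose_mul_self_mul_eq_zero B (S * X)).1 hX
    have h2 : Bᴴ * (B * X) = 0 := by
      apply (Matrix.self_mul_conjTranspose_mul_eq_zero B (B * X)).1
      rw [hS] at h1
      simpa [Matrix.mul_assoc] using h1
    rw [hS, Matrix.mul_assoc]
    exact h2
  have hSP : S * P = 0 := by
    have key : ∀ j : ℕ, S ^ (j + 1) * P = 0 → S * P = 0 := by
      intro j
      induction j with
      | zero => intro h0; simpa using h0
      | succ j ih =>
        intro h0
        apply ih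
        have h1 : S * (S * (S ^ j * P)) = 0 := by
          have e : S * (S * (S ^ j * P)) = S ^ (j + 1 + 1) * P := by
            rw [pow_succ', pow_succ']
            simp only [Matrix.mul_assoc]
          rw [e]
          exact h0
        have h2 := hstep (S ^ j * P) h1
        rw [pow_succ', Matrix.mul_assoc]
        exact h2
    rcases Nat.eq_zero_or_pos k with hk0 | hk0
    · rw [hk0, pow_zero, one_mul] at hCH
      rw [hCH, mul_zero]
    · obtain ⟨j, hj⟩ := Nat.exists_eq_succ_of_ne_zero hk0.ne'
      rw [hj] at hCH
      exact key j hCH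
  have hBP : B * P = 0 := (Matrix.conjTranspose_mul_self_mul_eq_zero B P).1 hSP
  refine ⟨h.coeff 0, P, -(Polynomial.aeval S h.divX * Bᴴ), hd, hBP, ?_⟩
  have hdecomp : P = Polynomial.aeval S h.divX * S + h.coeff 0 • (1 : Matrix r r ℤ) := by
    conv_lhs => rw [hP, ← Polynomial.divX_mul_X_add h]
    rw [map_add, map_mul, Polynomial.aeval_X, Polynomial.aeval_C, Algebra.algebraMap_eq_smul_one]
  rw [hdecomp, hS, Matrix.neg_mul, Matrix.mul_assoc]
  abel

/-! ### Joint eigenvectors of commuting integer matrices -/

section Eigen

open Fermat.Agent.S30.Eigen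

variable {r : ℕ} {I : Type*}

/-- Evaluation of integer polynomials at a commuting family of integer matrices. -/
noncomputable abbrev evZ (t : I → Matrix (Fin r) (Fin r) ℤ) (ht : ∀ i j, t i * t j = t j * t i) :
    MvPolynomial I ℤ →ₐ[ℤ] Matrix (Fin r) (Fin r) ℤ :=
  evalComm (R0 := ℤ) t ht

/-- The family `t` with entries cast to a commutative ring. -/
def castFam (t : I → Matrix (Fin r) (Fin r) ℤ) (K : Type*) [CommRing K] (i : I) :
    Matrix (Fin r) (Fin r) K :=
  (t i).map (Int.castRingHom K)

theorem castFam_comm (t : I → Matrix (Fin r) (Fin r) ℤ) (ht : ∀ i j, t i * t j = t j * t i)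
    (K : Type*) [CommRing K] (i j : I) : castFam t K i * castFam t K j = castFam t K j * castFam t K i := by
  have h := congrArg (fun M : Matrix (Fin r) (Fin r) ℤ => M.map (Int.castRingHom K)) (ht i j)
  simp only [Matrix.map_mul] at h
  exact h

/-- Evaluation of polynomials over `K` at the cast family. -/
noncomputable abbrev evK (t : I → Matrix (Fin r) (Fin r) ℤ) (ht : ∀ i j, t i * t j = t j * t i)
    (K : Type*) [CommRing K] : MvPolynomial I K →ₐ[K] Matrix (Fin r) (Fin r) K :=
  evalComm (R0 := K) (castFam t K) (castFam_comm t ht K)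

theorem evK_map (t : I → Matrix (Fin r) (Fin r) ℤ) (ht : ∀ i j, t i * t j = t j * t i)
    (K : Type*) [CommRing K] (P : MvPolynomial I ℤ) :
    evK t ht K (MvPolynomial.map (Int.castRingHom K) P) = (evZ t ht P).map (Int.castRingHom K) := by
  have h : ((evK t ht K).toRingHom.comp (MvPolynomial.map (Int.castRingHom K)) :
      MvPolynomial I ℤ →+* Matrix (Fin r) (Fin r) K) =
      ((Int.castRingHom K).mapMatrix.comp (evZ t ht).toRingHom) := by
    apply MvPolynomial.ringHom_ext
    · intro a
      rw [eq_intCast (MvPolynomial.C : ℤ →+* MvPolynomial I ℤ) a]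
      simp
    · intro i
      simp [evalComm_X, castFam]
  exact congrArg (fun f => f P) h

/-- Over any commutative ring, a joint eigenvector of the cast family is an eigenvector of every
integer polynomial in the family. -/
theorem evZ_mulVec_eigen (t : I → Matrix (Fin r) (Fin r) ℤ) (ht : ∀ i j, t i * t j = t j * t i)
    {R : Type*} [CommRing R] (μ : I → R) (v : Fin r → R)
    (hev : ∀ i, (castFam t R i).mulVec v = μ i • v) (P : MvPolynomial I ℤ) :
    ((evZ t ht P).map (Int.castRingHom R)).mulVec v = MvPolynomial.aeval μ P • v := by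
  induction P using MvPolynomial.induction_on with
  | C a =>
    rw [eq_intCast (MvPolynomial.C : ℤ →+* MvPolynomial I ℤ) a, map_intCast, map_intCast]
    have h1 : (((a : ℤ) : Matrix (Fin r) (Fin r) ℤ)).map (Int.castRingHom R) =
        ((a : ℤ) : Matrix (Fin r) (Fin r) R) := by
      have := map_intCast ((Int.castRingHom R).mapMatrix :
        Matrix (Fin r) (Fin r) ℤ →+* Matrix (Fin r) (Fin r) R) a
      exact this
    rw [h1, Matrix.intCast_mulVec, Int.cast_smul_eq_zsmul]
  | add Q₁ Q₂ h₁ h₂ =>
    rw [map_add, map_add, Matrix.map_add, Matrix.add_mulVec, h₁, h₂, add_smul]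
    · intro x y; simp
  | mul_X Q i h =>
    rw [map_mul, map_mul, evalComm_X, MvPolynomial.aeval_X, Matrix.map_mul,
      ← Matrix.mulVec_mulVec]
    have hi := hev i
    unfold castFam at hi
    rw [hi, Matrix.mulVec_smul, h, smul_smul, mul_comm]

/-- **Relations from an eigenvector.**  If the cast family has a joint eigenvector `v ≠ 0` with
eigenvalues `μ i` in a domain, every integer polynomial relation between the `t i` holds between
the `μ i`. -/
theorem aeval_eq_zero_of_eigenvector (t : I → Matrix (Fin r) (Fin r) ℤ)
    (ht : ∀ i j, t i * t j = t j * t i) {R : Type*} [CommRing R] [IsDomain R] (μ : I → R)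
    (v : Fin r → R) (hv : v ≠ 0) (hev : ∀ i, (castFam t R i).mulVec v = μ i • v)
    (P : MvPolynomial I ℤ) (hP : evZ t ht P = 0) : MvPolynomial.aeval μ P = 0 := by
  have h := evZ_mulVec_eigen t ht μ v hev P
  rw [hP] at h
  have h0 : ((0 : Matrix (Fin r) (Fin r) ℤ).map (Int.castRingHom R)).mulVec v = 0 := by
    rw [Matrix.map_zero _ (map_zero _), Matrix.zero_mulVec]
  rw [h0] at h
  rcases smul_eq_zero.mp h.symm with h1 | h1
  · exact h1
  · exact absurd h1 hv

/-- **Eigenvector from relations.**  If every integer polynomial relation between the commuting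
integer matrices `t i` holds between the `lam i` (in a field of characteristic zero), the cast
family has a joint eigenvector with eigenvalues `lam i`. -/
theorem exists_eigenvector_of_relations (t : I → Matrix (Fin r) (Fin r) ℤ)
    (ht : ∀ i j, t i * t j = t j * t i) {K : Type*} [Field K] [CharZero K] (lam : I → K)
    (hrel : ∀ P : MvPolynomial I ℤ, evZ t ht P = 0 → MvPolynomial.aeval lam P = 0) :
    ∃ v : Fin r → K, v ≠ 0 ∧ ∀ i, (castFam t K i).mulVec v = lam i • v := by
  classical
  let lamZ : MvPolynomial I ℤ →+* K := (MvPolynomial.aeval lam : MvPolynomial I ℤ →ₐ[ℤ] K).toRingHom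
  -- extension of the character to an additive functional on all integer matrices
  obtain ⟨ψ, hψ⟩ : ∃ ψ : Matrix (Fin r) (Fin r) ℤ →+ K, ∀ P, ψ (evZ t ht P) = lamZ P := by
    let e : MvPolynomial I ℤ →+ Matrix (Fin r) (Fin r) ℤ :=
      (evZ t ht).toRingHom.toAddMonoidHom
    have hker : e.ker ≤ (lamZ.toAddMonoidHom).ker := by
      intro P hP
      rw [AddMonoidHom.mem_ker] at hP ⊢
      exact hrel P hP
    obtain ⟨g', hg'⟩ := (Module.Baer.of_divisible K).extension_property_addMonoidHom
      (QuotientAddGroup.kerLift e) (QuotientAddGroup.kerLift_injective e)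
      (QuotientAddGroup.lift e.ker lamZ.toAddMonoidHom hker)
    refine ⟨g', fun P => ?_⟩
    have h := DFunLike.congr_fun hg' (QuotientAddGroup.mk P)
    rw [AddMonoidHom.comp_apply, QuotientAddGroup.kerLift_mk, QuotientAddGroup.lift_mk] at h
    exact h
  -- the `K`-linear functional on matrices over `K`
  let Ψ : Matrix (Fin r) (Fin r) K →ₗ[K] K :=
    ∑ a, ∑ b, (ψ (Matrix.single a b (1 : ℤ))) • Matrix.entryLinearMap K K a b
  have hΨint : ∀ m : Matrix (Fin r) (Fin r) ℤ, Ψ (m.map (Int.castRingHom K)) = ψ m := by
    intro m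
    conv_rhs => rw [Matrix.matrix_eq_sum_single m]
    simp only [Ψ, LinearMap.sum_apply, LinearMap.smul_apply, Matrix.entryLinearMap_apply,
      Matrix.map_apply, map_sum]
    refine Finset.sum_congr rfl fun a _ => Finset.sum_congr rfl fun b _ => ?_
    have h1 : Matrix.single a b (m a b) = (m a b) • Matrix.single a b (1 : ℤ) := by
      rw [Matrix.smul_single]
      simp
    rw [h1, map_zsmul, zsmul_eq_mul, smul_eq_mul, mul_comm]
    simp
  have hΨZ : ∀ Q : MvPolynomial I ℤ,
      Ψ (evK t ht K (MvPolynomial.map (Int.castRingHom K) Q)) =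
        MvPolynomial.aeval lam (MvPolynomial.map (Int.castRingHom K) Q) := by
    intro Q
    rw [evK_map, hΨint, hψ]
    have h : lamZ = ((MvPolynomial.aeval lam : MvPolynomial I K →ₐ[K] K).toRingHom.comp
        (MvPolynomial.map (Int.castRingHom K))) := by
      apply MvPolynomial.ringHom_ext
      · intro a
        rw [eq_intCast (MvPolynomial.C : ℤ →+* MvPolynomial I ℤ) a]
        simp
      · intro i
        simp [lamZ]
    exact congrArg (fun f => f Q) h
  have hΨ : ∀ P : MvPolynomial I K, Ψ (evK t ht K P) = MvPolynomial.aeval lam P := by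
    intro P
    induction P using MvPolynomial.induction_on' with
    | monomial u a =>
      have h1 : MvPolynomial.monomial u a =
          a • MvPolynomial.map (Int.castRingHom K) (MvPolynomial.monomial u (1 : ℤ)) := by
        rw [MvPolynomial.map_monomial, MvPolynomial.smul_monomial]
        simp
      rw [h1, map_smul, map_smul, map_smul, hΨZ]
    | add P Q hP hQ => rw [map_add, map_add, map_add, hP, hQ]
  -- the eigenvector over `K`
  let ρ : MvPolynomial I K →ₐ[K] Module.End K (Fin r → K) :=
    (Matrix.toLinAlgEquiv' :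
      Matrix (Fin r) (Fin r) K ≃ₐ[K] Module.End K (Fin r → K)).toAlgHom.comp (evK t ht K)
  obtain ⟨v, hv0, hv⟩ := exists_eigenvector ρ (MvPolynomial.aeval lam) (by
    intro P hP
    have h0 : evK t ht K P = 0 := by
      apply (Matrix.toLinAlgEquiv' :
        Matrix (Fin r) (Fin r) K ≃ₐ[K] Module.End K (Fin r → K)).injective
      rw [map_zero]
      exact hP
    rw [← hΨ, h0, map_zero])
  refine ⟨v, hv0, fun i => ?_⟩
  have := hv (MvPolynomial.X i)
  simpa [ρ, evalComm_X, Matrix.toLinAlgEquiv'_apply] using this

/-- Clearing denominators: a joint eigenvector over the fraction field of a domain `R`, with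
eigenvalues in `R`, gives one over `R`. -/
theorem exists_integral_eigenvector (t : I → Matrix (Fin r) (Fin r) ℤ)
    {R : Type*} [CommRing R] [IsDomain R] (K : Type*) [Field K] [Algebra R K] [IsFractionRing R K]
    (μ : I → R) (v : Fin r → K) (hv : v ≠ 0)
    (hev : ∀ i, (castFam t K i).mulVec v = algebraMap R K (μ i) • v) :
    ∃ w : Fin r → R, w ≠ 0 ∧ ∀ i, (castFam t R i).mulVec w = μ i • w := by
  classical
  obtain ⟨b, hb⟩ := IsLocalization.exist_integer_multiples_of_finite (nonZeroDivisors R) v
  have hb' : ∀ i, ∃ x : R, algebraMap R K x = (b : R) • v i := fun i => hb i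
  choose w hw using hb'
  have hb0 : algebraMap R K (b : R) ≠ 0 :=
    IsFractionRing.to_map_ne_zero_of_mem_nonZeroDivisors b.2
  have hwv : (fun j => algebraMap R K (w j)) = algebraMap R K (b : R) • v := by
    funext j
    rw [hw j, Pi.smul_apply, Algebra.smul_def, smul_eq_mul]
  refine ⟨w, ?_, fun i => ?_⟩
  · intro h
    apply hv
    funext j
    have h1 := hw j
    rw [h, Pi.zero_apply, map_zero, Algebra.smul_def] at h1
    exact (mul_eq_zero.mp h1.symm).resolve_left hb0
  · funext j
    apply IsFractionRing.injective R K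
    have h1 : algebraMap R K ((castFam t R i).mulVec w j) =
        (castFam t K i).mulVec (fun j => algebraMap R K (w j)) j := by
      simp only [Matrix.mulVec, dotProduct, map_sum, map_mul, castFam, Matrix.map_apply]
      refine Finset.sum_congr rfl fun x _ => ?_
      simp
    rw [h1, hwv, Matrix.mulVec_smul, hev i]
    have e1 : (algebraMap R K (b : R) • algebraMap R K (μ i) • v) j =
        algebraMap R K (b : R) * (algebraMap R K (μ i) * v j) := rfl
    have e2 : algebraMap R K ((μ i • w) j) = algebraMap R K (μ i) * algebraMap R K (w j) := by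
      rw [Pi.smul_apply, smul_eq_mul, map_mul]
    have e3 : algebraMap R K (w j) = algebraMap R K (b : R) * v j := by
      rw [hw j, Algebra.smul_def]
    rw [e1, e2, e3]
    ring

end Eigen

end Fermat.Agent.S35.LinAlg
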