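/-
S35 WIRING, the eigenvalue system of a newform on an `ESData` lattice (helper94).

For a normalised eigenform `g` of level `M` and an `ESData M p` whose `occ` holds at ALL primes
`ℓ ∤ M` (field `occ'` of `SSData`):

* `aeval_qCoeff_eq_zero`: every integer polynomial relation between the Hecke matrices `D.t ℓ`
  (`ℓ` prime, `ℓ ∤ M`) holds between the eigenvalues `a_ℓ(g)`;
* `isIntegral_qCoeff`: the `a_ℓ(g)` are algebraic integers (S22 via `S29.Eigen`);
* `isIntegral_range`, `injective_of_isIntegral`: the coefficient embedding `iota` of S35 is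
  injective.
-/
import Mathlib
import Fermat.Agent.S35.LinAlg
import Fermat.Agent.S30.Defs
import Fermat.Agent.S29.Eigen
import Fermat.Prelude.Def_FLTPrelim_ModularRep

set_option autoImplicit false

namespace Fermat.Agent.S35.NewEigen

open Fermat.Agent.S30 Fermat.Agent.S35.LinAlg CongruenceSubgroup ModularFormClass

/-- The good primes of level `M`. -/
abbrev Idx (M : ℕ) : Type := {ℓ : ℕ // ℓ.Prime ∧ ¬ ℓ ∣ M}

/-- The set of divisors of `M`: `heckeAlgebra M 2 (Sd M)` is generated by all `T_ℓ`, `ℓ ∤ M`. -/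
def Sd (M : ℕ) : Set ℕ := {q | q ∣ M}

theorem not_mem_Sd {M : ℕ} (i : Idx M) : i.1 ∉ Sd M := i.2.2

theorem mem_Sd_of_dvd {M : ℕ} : ∀ q : ℕ, q.Prime → q ∣ M → q ∈ Sd M := fun _ _ h => h

/-- The Hecke operator attached to a good prime. -/
noncomputable def heckeT {M : ℕ} [NeZero M] (i : Idx M) : CuspForm.heckeAlgebra M 2 (Sd M) :=
  CuspForm.heckeAlgebra.T i.2.1 i.2.2 (not_mem_Sd i)

/-- Evaluation of integer polynomials at the Hecke operators `T_ℓ`, `ℓ ∤ M`. -/
noncomputable def evT (M : ℕ) [NeZero M] :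
    MvPolynomial (Idx M) ℤ →ₐ[ℤ] CuspForm.heckeAlgebra M 2 (Sd M) :=
  MvPolynomial.aeval (heckeT (M := M))

theorem evT_X {M : ℕ} [NeZero M] (i : Idx M) : evT M (MvPolynomial.X i) = heckeT i := by
  simp [evT]

theorem coe_heckeT {M : ℕ} [NeZero M] (i : Idx M) :
    ((heckeT i : CuspForm.heckeAlgebra M 2 (Sd M)) :
      Module.End ℂ (CuspForm (Gamma0 M) 2)) = CuspForm.heckeTLin 2 i.2.1 i.2.2 := rfl

section

variable {M p : ℕ} [NeZero M] [Fact p.Prime]

/-- The Hecke matrices of `D` at the good primes. -/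
def tI (D : ESData M p) (i : Idx M) : Matrix (Fin D.r) (Fin D.r) ℤ := D.t i.1

theorem tI_comm (D : ESData M p) (i j : Idx M) : tI D i * tI D j = tI D j * tI D i :=
  (D.t_comm i.1 j.1).eq

/-- An eigenform is an eigenvector of every integer polynomial in the `T_ℓ`. -/
theorem evT_apply_eigenform {g : CuspForm (Gamma0 M) 2} (hg : g.IsNormalizedEigenform)
    (P : MvPolynomial (Idx M) ℤ) :
    ((evT M P : CuspForm.heckeAlgebra M 2 (Sd M)) : Module.End ℂ (CuspForm (Gamma0 M) 2)) g =
      MvPolynomial.aeval (fun i : Idx M => qCoeff g i.1) P • g := by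
  induction P using MvPolynomial.induction_on with
  | C a =>
    rw [eq_intCast (MvPolynomial.C : ℤ →+* MvPolynomial (Idx M) ℤ) a, map_intCast, map_intCast,
      SubringClass.coe_intCast, Module.End.intCast_apply, Int.cast_smul_eq_zsmul]
  | add Q₁ Q₂ h₁ h₂ =>
    rw [map_add, map_add, Subalgebra.coe_add, LinearMap.add_apply, h₁, h₂, add_smul]
  | mul_X Q i h =>
    rw [map_mul, map_mul, Subalgebra.coe_mul, Module.End.mul_apply, evT_X, coe_heckeT,
      Fermat.Agent.S29.Eigen.heckeTLin_eq_smul hg i.2.1 i.2.2, map_smul, h,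
      MvPolynomial.aeval_X, smul_smul, mul_comm]

/-- Transfer along an equivariant map `Φ` (field `occ'`). -/
theorem occ_evT (D : ESData M p)
    (Φ : CuspForm (Gamma0 M) 2 →ₗ[ℂ] (Fin D.r → ℂ))
    (hΦ : ∀ (ℓ : ℕ) (hℓ : ℓ.Prime) (hℓM : ¬ ℓ ∣ M) (f : CuspForm (Gamma0 M) 2),
      Φ (CuspForm.heckeTLin 2 hℓ hℓM f) = ((D.t ℓ).map (Int.castRingHom ℂ)).mulVec (Φ f))
    (P : MvPolynomial (Idx M) ℤ) (f : CuspForm (Gamma0 M) 2) :
    Φ (((evT M P : CuspForm.heckeAlgebra M 2 (Sd M)) :
        Module.End ℂ (CuspForm (Gamma0 M) 2)) f) =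
      ((evZ (tI D) (tI_comm D) P).map (Int.castRingHom ℂ)).mulVec (Φ f) := by
  induction P using MvPolynomial.induction_on generalizing f with
  | C a =>
    rw [eq_intCast (MvPolynomial.C : ℤ →+* MvPolynomial (Idx M) ℤ) a, map_intCast, map_intCast]
    have h1 : (((a : ℤ) : Matrix (Fin D.r) (Fin D.r) ℤ)).map (Int.castRingHom ℂ) =
        ((a : ℤ) : Matrix (Fin D.r) (Fin D.r) ℂ) := by
      have := map_intCast ((Int.castRingHom ℂ).mapMatrix :
        Matrix (Fin D.r) (Fin D.r) ℤ →+* Matrix (Fin D.r) (Fin D.r) ℂ) a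
      exact this
    rw [h1, Matrix.intCast_mulVec, SubringClass.coe_intCast, Module.End.intCast_apply, map_zsmul,
      Int.cast_smul_eq_zsmul]
  | add Q₁ Q₂ h₁ h₂ =>
    rw [map_add, map_add, Subalgebra.coe_add, LinearMap.add_apply, map_add, h₁, h₂,
      Matrix.map_add, Matrix.add_mulVec]
    · intro x y; simp
  | mul_X Q i h =>
    rw [map_mul, map_mul, Subalgebra.coe_mul, Module.End.mul_apply, h, evT_X, coe_heckeT,
      hΦ i.1 i.2.1 i.2.2 f, Fermat.Agent.S30.Eigen.evalComm_X, Matrix.mulVec_mulVec,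
      Matrix.map_mul]
    rfl

/-- **Relations.**  Every integer polynomial relation between the Hecke matrices of `D` at the
good primes holds between the eigenvalues of a normalised eigenform. -/
theorem aeval_qCoeff_eq_zero (D : ESData M p)
    (hocc : ∃ Φ : CuspForm (Gamma0 M) 2 →ₗ[ℂ] (Fin D.r → ℂ), Function.Injective Φ ∧
      ∀ (ℓ : ℕ) (hℓ : ℓ.Prime) (hℓM : ¬ ℓ ∣ M) (f : CuspForm (Gamma0 M) 2),
        Φ (CuspForm.heckeTLin 2 hℓ hℓM f) = ((D.t ℓ).map (Int.castRingHom ℂ)).mulVec (Φ f))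
    {g : CuspForm (Gamma0 M) 2} (hg : g.IsNormalizedEigenform)
    (P : MvPolynomial (Idx M) ℤ) (hP : evZ (tI D) (tI_comm D) P = 0) :
    MvPolynomial.aeval (fun i : Idx M => qCoeff g i.1) P = 0 := by
  obtain ⟨Φ, hΦinj, hΦ⟩ := hocc
  have h1 := occ_evT D Φ hΦ P g
  rw [hP, evT_apply_eigenform hg P] at h1
  have h0 : ((0 : Matrix (Fin D.r) (Fin D.r) ℤ).map (Int.castRingHom ℂ)).mulVec (Φ g) = 0 := by
    rw [Matrix.map_zero _ (map_zero _), Matrix.zero_mulVec]
  rw [h0] at h1
  have h2 : MvPolynomial.aeval (fun i : Idx M => qCoeff g i.1) P • g = 0 := by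
    apply hΦinj
    rw [h1, map_zero]
  rcases smul_eq_zero.mp h2 with h3 | h3
  · exact h3
  · exact absurd h3 hg.ne_zero

/-- The eigenvalues of a normalised eigenform at the good primes are algebraic integers. -/
theorem isIntegral_qCoeff {g : CuspForm (Gamma0 M) 2} (hg : g.IsNormalizedEigenform)
    (i : Idx M) : IsIntegral ℤ (qCoeff g i.1) := by
  have h := Fermat.Agent.S29.Eigen.isIntegral_eigenChar hg (S := Sd M) mem_Sd_of_dvd (heckeT i)
  have h2 := Fermat.Agent.S29.Eigen.eigenChar_T hg (S := Sd M) mem_Sd_of_dvd i.2.1 i.2.2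
    (not_mem_Sd i)
  rw [← h2]
  exact h

/-- The values of a character of the Hecke algebra are algebraic integers (S22). -/
theorem isIntegral_range {S : Set ℕ} (chig : CuspForm.heckeAlgebra M 2 S →+* ℂ)
    (x : chig.range) : IsIntegral ℤ x := by
  obtain ⟨t, ht⟩ := x.2
  haveI : Module.Finite ℤ (CuspForm.heckeAlgebra M 2 S) := Fermat.Agent.S22.result M 2 S
  have h1 : IsIntegral ℤ t := IsIntegral.of_finite ℤ t
  have h2 : IsIntegral ℤ (chig t) := h1.map chig.toIntAlgHom
  have h3 : IsIntegral ℤ (algebraMap chig.range ℂ x) := by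
    have : algebraMap chig.range ℂ x = chig t := ht.symm
    rw [this]
    exact h2
  have hinj : Function.Injective (algebraMap chig.range ℂ) := Subtype.val_injective
  exact (isIntegral_algebraMap_iff hinj).mp h3

end

/-- A ring homomorphism from a domain integral over `ℤ` to a domain of characteristic zero is
injective. -/
theorem injective_of_isIntegral {R₀ O' : Type*} [CommRing R₀] [IsDomain R₀]
    [Algebra.IsIntegral ℤ R₀] [CommRing O'] [IsDomain O'] [CharZero O'] (iota : R₀ →+* O') :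
    Function.Injective iota := by
  rw [RingHom.injective_iff_ker_eq_bot]
  apply Ideal.eq_bot_of_comap_eq_bot (R := ℤ)
  rw [eq_bot_iff]
  intro n hn
  rw [Ideal.mem_comap, RingHom.mem_ker, eq_intCast, map_intCast] at hn
  rw [Ideal.mem_bot]
  exact_mod_cast hn

end Fermat.Agent.S35.NewEigen
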