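/-
S35 WIRING, auxiliary lemmas (helper94): pure linear algebra over a commutative ring.

* `exists_joint_sign`   : commuting involutions on a sublattice have a joint `±1`-eigenvector;
* `rel_base_change`     : the semistable relation on `ker n ∩ ker (n w)` over `ℤ_[p]` holds on the
                          corresponding kernel over any characteristic-zero domain;
* `quad_of_rel`         : `(ρ + q w)(ρ + w) m = 0` and `w m = u m` give the quadratic relation
                          `ρ² m + u (q + 1) ρ m + q m = 0`.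
-/
import Mathlib
import Fermat.Agent.S35.LinAlg

set_option autoImplicit false

namespace Fermat.Agent.S35.WiringAux

open Fermat.Agent.S35.LinAlg

theorem map_cast_map {p : ℕ} [Fact p.Prime] {R : Type*} [CommRing R] (ι : ℤ_[p] →+* R)
    {m n : Type*} (A : Matrix m n ℤ) :
    (A.map (Int.castRingHom ℤ_[p])).map ι = A.map (Int.castRingHom R) := by
  ext i j
  simp

/-- Ring homomorphisms commute with the evaluation of integer polynomials (for arbitrary
`ℤ`-algebra instances). -/
theorem aeval_ringHom {A B : Type*} [CommRing A] [CommRing B] [Algebra ℤ A] [Algebra ℤ B]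
    (f : A →+* B) {σ : Type*} (x : σ → A) (P : MvPolynomial σ ℤ) :
    MvPolynomial.aeval (fun i => f (x i)) P = f (MvPolynomial.aeval x P) := by
  induction P using MvPolynomial.induction_on with
  | C a =>
    rw [MvPolynomial.aeval_C, MvPolynomial.aeval_C, eq_intCast (algebraMap ℤ A) a,
      eq_intCast (algebraMap ℤ B) a, map_intCast]
  | add P Q hP hQ => rw [map_add, map_add, map_add, hP, hQ]
  | mul_X P i hP => rw [map_mul, map_mul, map_mul, hP, MvPolynomial.aeval_X, MvPolynomial.aeval_X]

/-- Commuting involutions preserving a sublattice have a joint `±1`-eigenvector in it. -/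
theorem exists_joint_sign {R : Type*} [CommRing R] {n : Type*} [Fintype n] [DecidableEq n]
    (E : Submodule R (n → R)) (w : ℕ → Matrix n n R) (Q : Finset ℕ)
    (hsq : ∀ q ∈ Q, w q * w q = 1) (hcomm : ∀ q ∈ Q, ∀ q' ∈ Q, w q * w q' = w q' * w q)
    (hE : ∀ q ∈ Q, ∀ v ∈ E, (w q).mulVec v ∈ E) (v₀ : n → R) (hv₀ : v₀ ∈ E) (hv₀0 : v₀ ≠ 0) :
    ∃ u : ℕ → R, (∀ q, u q = 1 ∨ u q = -1) ∧
      ∃ v ∈ E, v ≠ 0 ∧ ∀ q ∈ Q, (w q).mulVec v = u q • v := by
  classical
  have key : ∀ Q' : Finset ℕ, Q' ⊆ Q → ∃ u : ℕ → R, (∀ q, u q = 1 ∨ u q = -1) ∧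
      ∃ v ∈ E, v ≠ 0 ∧ ∀ q ∈ Q', (w q).mulVec v = u q • v := by
    intro Q'
    induction Q' using Finset.induction_on with
    | empty =>
      intro _
      exact ⟨fun _ => 1, fun _ => Or.inl rfl, v₀, hv₀, hv₀0, fun q hq => absurd hq (by simp)⟩
    | insert q₀ Q' hq₀ ih =>
      intro hsub
      have hq₀Q : q₀ ∈ Q := hsub (Finset.mem_insert_self q₀ Q')
      have hQ'Q : Q' ⊆ Q := fun x hx => hsub (Finset.mem_insert_of_mem hx)
      obtain ⟨u, hu, v, hvE, hv0, hv⟩ := ih hQ'Q
      by_cases h : (w q₀).mulVec v + v = 0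
      · -- `w q₀ v = - v`
        refine ⟨Function.update u q₀ (-1), ?_, v, hvE, hv0, ?_⟩
        · intro q
          by_cases hq : q = q₀
          · rw [hq, Function.update_self]; exact Or.inr rfl
          · rw [Function.update_of_ne hq]; exact hu q
        · intro q hq
          rcases Finset.mem_insert.mp hq with rfl | hq'
          · rw [Function.update_self, neg_smul, one_smul]
            exact eq_neg_of_add_eq_zero_left h
          · have hne : q ≠ q₀ := fun e => hq₀ (e ▸ hq')
            rw [Function.update_of_ne hne]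
            exact hv q hq'
      · -- `v₁ = w q₀ v + v` is fixed by `w q₀`
        refine ⟨Function.update u q₀ 1, ?_, (w q₀).mulVec v + v,
          E.add_mem (hE q₀ hq₀Q v hvE) hvE, h, ?_⟩
        · intro q
          by_cases hq : q = q₀
          · rw [hq, Function.update_self]; exact Or.inl rfl
          · rw [Function.update_of_ne hq]; exact hu q
        · intro q hq
          rcases Finset.mem_insert.mp hq with rfl | hq'
          · rw [Function.update_self, one_smul, Matrix.mulVec_add, Matrix.mulVec_mulVec,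
              hsq q hq₀Q, Matrix.one_mulVec, add_comm]
          · have hne : q ≠ q₀ := fun e => hq₀ (e ▸ hq')
            rw [Function.update_of_ne hne, Matrix.mulVec_add, Matrix.mulVec_mulVec,
              hcomm q (hQ'Q hq') q₀ hq₀Q, ← Matrix.mulVec_mulVec, hv q hq', Matrix.mulVec_smul,
              smul_add]
  exact key Q (Finset.Subset.refl Q)

/-- **Base change of the semistable relation.** -/
theorem rel_base_change {r r' p : ℕ} [Fact p.Prime] (n : Matrix (Fin r') (Fin r) ℤ)
    (w : Matrix (Fin r) (Fin r) ℤ) (X : Matrix (Fin r) (Fin r) ℤ_[p]) (q : ℕ)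
    (hrel : ∀ m : Fin r → ℤ_[p], (n.map (Int.castRingHom ℤ_[p])).mulVec m = 0 →
      (n.map (Int.castRingHom ℤ_[p])).mulVec ((w.map (Int.castRingHom ℤ_[p])).mulVec m) = 0 →
      (X + (q : ℤ_[p]) • w.map (Int.castRingHom ℤ_[p])).mulVec
        ((X + w.map (Int.castRingHom ℤ_[p])).mulVec m) = 0)
    {R : Type*} [CommRing R] [IsDomain R] [CharZero R] (ι : ℤ_[p] →+* R)
    (v : Fin r → R) (h1 : (n.map (Int.castRingHom R)).mulVec v = 0)
    (h2 : (n.map (Int.castRingHom R)).mulVec ((w.map (Int.castRingHom R)).mulVec v) = 0) :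
    (X.map ι + (q : R) • w.map (Int.castRingHom R)).mulVec
      ((X.map ι + w.map (Int.castRingHom R)).mulVec v) = 0 := by
  classical
  obtain ⟨d, P, C, hd, hBP, hdP⟩ := exists_kernel_projector (Matrix.fromRows n (n * w))
  rw [Matrix.fromRows_mul] at hBP
  have hnP : n * P = 0 := by
    ext i j
    have := congrFun (congrFun hBP (Sum.inl i)) j
    simpa using this
  have hnwP : n * w * P = 0 := by
    ext i j
    have := congrFun (congrFun hBP (Sum.inr i)) j
    simpa using this
  -- the matrix identity over `ℤ_[p]`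
  set np := n.map (Int.castRingHom ℤ_[p]) with hnp
  set wp := w.map (Int.castRingHom ℤ_[p]) with hwp
  set Pp := P.map (Int.castRingHom ℤ_[p]) with hPp
  have hnPp : np * Pp = 0 := by
    rw [hnp, hPp, ← Matrix.map_mul, hnP, Matrix.map_zero _ (map_zero _)]
  have hnwPp : np * wp * Pp = 0 := by
    rw [hnp, hwp, hPp, ← Matrix.map_mul, ← Matrix.map_mul, hnwP,
      Matrix.map_zero _ (map_zero _)]
  have hY : (X + (q : ℤ_[p]) • wp) * (X + wp) * Pp = 0 := by
    ext i j
    have hm := hrel (Pp.mulVec (Pi.single j 1))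
      (by rw [Matrix.mulVec_mulVec, hnPp, Matrix.zero_mulVec])
      (by rw [Matrix.mulVec_mulVec, Matrix.mulVec_mulVec, hnwPp, Matrix.zero_mulVec])
    rw [Matrix.mulVec_mulVec, Matrix.mulVec_mulVec, Matrix.mulVec_single_one] at hm
    exact congrFun hm i
  -- map to `R`
  have hYR : (X.map ι + (q : R) • w.map (Int.castRingHom R)) *
      (X.map ι + w.map (Int.castRingHom R)) * P.map (Int.castRingHom R) = 0 := by
    have h := congrArg (ι.mapMatrix : Matrix (Fin r) (Fin r) ℤ_[p] →+* Matrix (Fin r) (Fin r) R) hY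
    simp only [map_mul, map_add, map_zero, RingHom.mapMatrix_apply] at h
    have e1 : ((q : ℤ_[p]) • wp).map ι = (q : R) • w.map (Int.castRingHom R) := by
      rw [hwp]
      ext i j
      simp
    rw [e1, hwp, hPp, map_cast_map, map_cast_map] at h
    exact h
  -- `P v = d v`
  have hPv : (P.map (Int.castRingHom R)).mulVec v = (d : R) • v := by
    have e2' : ((Matrix.fromRows n (n * w)).map (Int.castRingHom R)).mulVec v = 0 := by
      have : (Matrix.fromRows n (n * w)).map (Int.castRingHom R) =
          Matrix.fromRows (n.map (Int.castRingHom R))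
            (n.map (Int.castRingHom R) * w.map (Int.castRingHom R)) := by
        ext i j
        rcases i with i | i
        · simp
        · simp only [Matrix.map_apply, Matrix.fromRows_apply_inr]
          rw [← Matrix.map_mul]
          rfl
      rw [this, Matrix.fromRows_mulVec, ← Matrix.mulVec_mulVec, h1, h2]
      funext i
      rcases i with i | i <;> rfl
    have h := congrArg ((Int.castRingHom R).mapMatrix :
      Matrix (Fin r) (Fin r) ℤ →+* Matrix (Fin r) (Fin r) R) hdP
    rw [map_sub, map_zsmul, map_one] at h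
    have h' := congrArg (fun A : Matrix (Fin r) (Fin r) R => A.mulVec v) h
    simp only [RingHom.mapMatrix_apply, Matrix.sub_mulVec] at h'
    have e0 : ((d • (1 : Matrix (Fin r) (Fin r) R)).mulVec v) = (d : R) • v := by
      rw [← Int.cast_smul_eq_zsmul R d (1 : Matrix (Fin r) (Fin r) R), Matrix.smul_mulVec,
        Matrix.one_mulVec]
    have e2 : ((C * Matrix.fromRows n (n * w)).map (Int.castRingHom R)).mulVec v = 0 := by
      rw [Matrix.map_mul, ← Matrix.mulVec_mulVec, e2', Matrix.mulVec_zero]
    rw [e0, e2, sub_eq_zero] at h'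
    exact h'.symm
  have h3 := congrArg (fun A : Matrix (Fin r) (Fin r) R => A.mulVec v) hYR
  simp only [Matrix.zero_mulVec] at h3
  rw [← Matrix.mulVec_mulVec, ← Matrix.mulVec_mulVec, hPv, Matrix.mulVec_smul,
    Matrix.mulVec_smul] at h3
  have hd' : (d : R) ≠ 0 := Int.cast_ne_zero.mpr hd
  exact (smul_eq_zero.mp h3).resolve_left hd'

/-- From `(ρ + q w)(ρ + w) m = 0` and `w m = u m` to a quadratic relation for `ρ`. -/
theorem quad_of_rel {R : Type*} [CommRing R] {n : Type*} [Fintype n] [DecidableEq n]
    (ρ w : Matrix n n R) (hcomm : ρ * w = w * ρ) (hsq : w * w = 1) (u qR : R) (m : n → R)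
    (hwm : w.mulVec m = u • m)
    (h : (ρ + qR • w).mulVec ((ρ + w).mulVec m) = 0) :
    ρ.mulVec (ρ.mulVec m) - (-(u * (qR + 1))) • ρ.mulVec m + qR • m = 0 := by
  have e1 : w.mulVec (ρ.mulVec m) = u • ρ.mulVec m := by
    rw [Matrix.mulVec_mulVec, ← hcomm, ← Matrix.mulVec_mulVec, hwm, Matrix.mulVec_smul]
  have e2 : w.mulVec (w.mulVec m) = m := by
    rw [Matrix.mulVec_mulVec, hsq, Matrix.one_mulVec]
  have e3 : ρ.mulVec (w.mulVec m) = u • ρ.mulVec m := by
    rw [hwm, Matrix.mulVec_smul]
  rw [Matrix.add_mulVec, Matrix.add_mulVec, Matrix.mulVec_add, Matrix.mulVec_add,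
    Matrix.smul_mulVec, Matrix.smul_mulVec, e1, e2, e3] at h
  funext i
  have hi := congrFun h i
  simp only [Pi.add_apply, Pi.smul_apply, Pi.sub_apply, Pi.zero_apply, smul_eq_mul] at hi ⊢
  linear_combination hi

end Fermat.Agent.S35.WiringAux
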