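/-
S35 WIRING (helper94): the statement of S35 from the producer contract `SSData`
(`Fermat/Agent/S35/Defs.lean`) and the engine bricks QuadRel / ConjClifford of S30.

Outline (for a newform `g` of level `M`, `p = lam`):
1. coefficient ring `O''` = a finite extension of `O'` receiving ALL eigenvalues `a_ℓ(g)`,
   `ℓ ∤ M` (`Coeff.exists_coeff_extension`);
2. the all-`ℓ` eigenvector of `g` in `O''^r` (`LinAlg.exists_eigenvector_of_relations`, from
   `occ'`), and a joint `±1`-eigenvector of the Atkin–Lehner involutions `W_q`, `q ∥ M`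
   (`WiringAux.exists_joint_sign`); `Nl` := the lattice of such joint eigenvectors;
3. newness: `Nl` is killed by the traces to level `M/q` (`new_kills`, from `cocc` and `IsNewform`);
4. hence the semistable relation holds on `Nl` (`WiringAux.rel_base_change`), i.e.
   `σ² + u_q (q + 1) σ + q = 0` for every Frobenius lift `σ` at `q`;
5. the engine on `Nl` (`SubEngine.exists_rep_of_sublattice`) gives the representation.
-/
import Mathlib
import Fermat.Agent.S35.Defs
import Fermat.Agent.S35.LinAlg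
import Fermat.Agent.S35.Coeff
import Fermat.Agent.S35.SubEngine
import Fermat.Agent.S35.NewEigen
import Fermat.Agent.S35.WiringAux
import Fermat.Agent.S30.EngineMain

set_option autoImplicit false
open Polynomial

namespace Fermat.Agent.S35.Wiring

open Fermat.Agent.S30 Fermat.Agent.S35.LinAlg Fermat.Agent.S35.NewEigen
  Fermat.Agent.S35.WiringAux
open CongruenceSubgroup ModularFormClass

section

variable {M p : ℕ} [NeZero M] [Fact p.Prime]

/-- The Hecke matrices of the level-`M/q` lattice at the good primes of level `M`. -/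
def t'I (SD : SSData M p) (q : ℕ) (i : Idx M) : Matrix (Fin (SD.r' q)) (Fin (SD.r' q)) ℤ :=
  SD.t' q i.1

theorem t'I_comm (SD : SSData M p) {q : ℕ} (hq : SSPrime M p q) (i j : Idx M) :
    t'I SD q i * t'I SD q j = t'I SD q j * t'I SD q i :=
  (SD.t'_comm q hq i.1 j.1 i.2.1 i.2.2 j.2.1 j.2.2).eq

/-- **Newness.**  A joint eigenvector of the Hecke matrices (over a domain `R`) whose eigenvalue
system satisfies no more integer relations than that of the newform `g` is killed by the trace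
to level `M/q`. -/
theorem new_kills (SD : SSData M p) {g : CuspForm (Gamma0 M) 2} (hg : g.IsNewform) {q : ℕ}
    (hq : SSPrime M p q) {R : Type*} [CommRing R] [IsDomain R] (c : Idx M → R)
    (hc : ∀ P : MvPolynomial (Idx M) ℤ, MvPolynomial.aeval c P = 0 →
      MvPolynomial.aeval (fun i : Idx M => qCoeff g i.1) P = 0)
    (v : Fin SD.D.r → R) (hv : ∀ i : Idx M, (castFam (tI SD.D) R i).mulVec v = c i • v) :
    ((SD.n q).map (Int.castRingHom R)).mulVec v = 0 := by
  by_contra hne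
  have hev : ∀ i : Idx M, (castFam (t'I SD q) R i).mulVec
      (((SD.n q).map (Int.castRingHom R)).mulVec v) =
      c i • ((SD.n q).map (Int.castRingHom R)).mulVec v := by
    intro i
    have h := congrArg (fun A : Matrix (Fin (SD.r' q)) (Fin SD.D.r) ℤ =>
      A.map (Int.castRingHom R)) (SD.n_t q hq i.1 i.2.1 i.2.2)
    simp only [Matrix.map_mul] at h
    rw [Matrix.mulVec_mulVec]
    show ((SD.t' q i.1).map (Int.castRingHom R) * (SD.n q).map (Int.castRingHom R)).mulVec v = _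
    rw [← h, ← Matrix.mulVec_mulVec]
    have h1 : ((SD.D.t i.1).map (Int.castRingHom R)).mulVec v = c i • v := hv i
    rw [h1, Matrix.mulVec_smul]
  have hrelC : ∀ P : MvPolynomial (Idx M) ℤ, evZ (t'I SD q) (t'I_comm SD hq) P = 0 →
      MvPolynomial.aeval (fun i : Idx M => qCoeff g i.1) P = 0 :=
    fun P hP => hc P (aeval_eq_zero_of_eigenvector (t'I SD q) (t'I_comm SD hq) c _ hne hev P hP)
  obtain ⟨vC, hvC0, hvC⟩ := exists_eigenvector_of_relations (t'I SD q) (t'I_comm SD hq) (K := ℂ)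
    (fun i : Idx M => qCoeff g i.1) hrelC
  obtain ⟨g', hg'n, hg'⟩ := SD.cocc q hq (fun ℓ => qCoeff g ℓ) vC hvC0
    (fun ℓ hℓ hℓM => hvC ⟨ℓ, hℓ, hℓM⟩)
  have hM : M ≠ 0 := NeZero.ne M
  have hlt : M / q < M := Nat.div_lt_self (Nat.pos_of_ne_zero hM) hq.1.one_lt
  exact hg.2 (M / q) (Nat.div_dvd_of_dvd hq.2.1) hlt.ne
    ⟨g', hg'n, fun ℓ hℓ hℓM => hg' ℓ hℓ hℓM⟩

/-- The joint eigen-lattice: eigenvalues `c` for the Hecke matrices at the good primes, signs `u`
for the Atkin–Lehner involutions `W_q`, `q ∈ Q`. -/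
def signLattice (SD : SSData M p) {R : Type*} [CommRing R] (c : Idx M → R) (Q : Finset ℕ)
    (u : ℕ → R) : Submodule R (Fin SD.D.r → R) where
  carrier := {v | (∀ i : Idx M, (castFam (tI SD.D) R i).mulVec v = c i • v) ∧
    ∀ q ∈ Q, ((SD.w q).map (Int.castRingHom R)).mulVec v = u q • v}
  add_mem' := by
    rintro v w ⟨hv1, hv2⟩ ⟨hw1, hw2⟩
    exact ⟨fun i => by rw [Matrix.mulVec_add, hv1 i, hw1 i, smul_add],
      fun q hq => by rw [Matrix.mulVec_add, hv2 q hq, hw2 q hq, smul_add]⟩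
  zero_mem' := ⟨fun i => by simp, fun q hq => by simp⟩
  smul_mem' := by
    rintro a v ⟨hv1, hv2⟩
    exact ⟨fun i => by rw [Matrix.mulVec_smul, hv1 i, smul_comm],
      fun q hq => by rw [Matrix.mulVec_smul, hv2 q hq, smul_comm]⟩

end

/-- **S35 from the producer contract.**  The statement of S35 from `Nonempty (SSData M p)` and the
engine bricks QuadRel and ConjClifford. -/
theorem result_of_ssData (h2 : EngineMain.QuadRelStatement)
    (h3 : EngineMain.ConjCliffordStatement)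
    (hSS : ∀ (M p : ℕ) [NeZero M] [Fact p.Prime], Nonempty (SSData M p))
    {M : ℕ} [NeZero M] {g : CuspForm (CongruenceSubgroup.Gamma0 M) 2} (hg : g.IsNewform)
    (lam : ℕ) [Fact lam.Prime]
    (S : Finset ℕ)
    (O' : Type) [CommRing O'] [IsDomain O'] [IsDiscreteValuationRing O']
    [IsAdicComplete (IsLocalRing.maximalIdeal O') O'] [Finite (IsLocalRing.ResidueField O')]
    [CharZero O'] (hlamO' : (lam : O') ∈ IsLocalRing.maximalIdeal O')
    (chig : CuspForm.heckeAlgebra M 2 (↑S : Set ℕ) →+* ℂ)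
    (hchig : ∀ (ℓ : ℕ) (hℓ : ℓ.Prime) (hℓM : ¬ ℓ ∣ M) (hℓS : ℓ ∉ (↑S : Set ℕ)),
      chig (CuspForm.heckeAlgebra.T hℓ hℓM hℓS) = ModularFormClass.qCoeff g ℓ)
    (iota : chig.range →+* O')
    (hlamS : lam ∈ S) (hMS : ∀ q : ℕ, q.Prime → q ∣ M → q ∈ S) :
    ∃ (O'' : Type) (_ : CommRing O'') (_ : IsDomain O'') (_ : IsDiscreteValuationRing O'')
      (_ : IsAdicComplete (IsLocalRing.maximalIdeal O'') O'')
      (_ : Finite (IsLocalRing.ResidueField O''))
      (_ : CharZero O'') (_ : Algebra O' O'') (_ : Module.Finite O' O'')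
      (_ : IsLocalHom (algebraMap O' O'')),
      Function.Injective (algebraMap O' O'') ∧
      ∃ ρ : GaloisRepAdic O'',
        (∀ (ℓ : ℕ) (hℓ : ℓ.Prime) (hℓM : ¬ ℓ ∣ M) (hℓS : ℓ ∉ (↑S : Set ℕ)),
          ∀ A : ValuationSubring (AlgebraicClosure ℚ), A.LiesOverPrime ℓ →
            ∀ σ : AlgebraicClosure ℚ ≃ₐ[ℚ] AlgebraicClosure ℚ, A.IsFrobeniusAt σ ℓ →
              LinearMap.charpoly (ρ.ρ σ) =
                X ^ 2 - C (algebraMap O' O'' ((iota.comp chig.rangeRestrict)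
                  (CuspForm.heckeAlgebra.T hℓ hℓM hℓS))) * X + C ((ℓ : O''))) ∧
        (∀ q : ℕ, q.Prime → q ≠ lam → q ∣ M → ¬ q ^ 2 ∣ M →
          ∀ A : ValuationSubring (AlgebraicClosure ℚ), A.LiesOverPrime q →
            ∀ σ : AlgebraicClosure ℚ ≃ₐ[ℚ] AlgebraicClosure ℚ, A.IsFrobeniusAt σ q →
              LinearMap.charpoly (ρ.ρ σ) = X ^ 2 - C ((q : O'') + 1) * X + C ((q : O'')) ∨
              LinearMap.charpoly (ρ.ρ σ) = X ^ 2 + C ((q : O'') + 1) * X + C ((q : O''))) := by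
  classical
  obtain ⟨SD⟩ := hSS M lam
  have hgn : g.IsNormalizedEigenform := hg.1
  -- Step 1: the coefficient ring
  haveI hintR : Algebra.IsIntegral ℤ chig.range := ⟨fun x => isIntegral_range chig x⟩
  have hiota : Function.Injective iota := injective_of_isIntegral iota
  have hRS : Function.Injective (algebraMap chig.range (integralClosure chig.range ℂ)) := by
    intro x y h
    have := congrArg (algebraMap (integralClosure chig.range ℂ) ℂ) h
    exact Subtype.ext this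
  let aS : Idx M → integralClosure chig.range ℂ :=
    fun i => ⟨qCoeff g i.1, (isIntegral_qCoeff hgn i).tower_top⟩
  let aN : ℕ → integralClosure chig.range ℂ :=
    fun ℓ => if h : ℓ.Prime ∧ ¬ ℓ ∣ M then aS ⟨ℓ, h⟩ else 0
  have hxS : ∀ i : Idx M, aS i ∈ S.image aN ∨
      ∃ r : chig.range, aS i = algebraMap chig.range (integralClosure chig.range ℂ) r := by
    intro i
    by_cases hS : i.1 ∈ S
    · left
      rw [Finset.mem_image]
      refine ⟨i.1, hS, ?_⟩
      show (if h : i.1.Prime ∧ ¬ i.1 ∣ M then aS ⟨i.1, h⟩ else 0) = aS i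
      rw [dif_pos i.2]
    · right
      have hS' : i.1 ∉ (↑S : Set ℕ) := by simpa using hS
      refine ⟨chig.rangeRestrict (CuspForm.heckeAlgebra.T i.2.1 i.2.2 hS'), ?_⟩
      apply Subtype.ext
      exact (hchig i.1 i.2.1 i.2.2 hS').symm
  obtain ⟨O'', i1, i2, i3, i4, i5, i6, i7, i8, i9, hinj, c, hcR, hciff⟩ :=
    Coeff.exists_coeff_extension O' chig.range (integralClosure chig.range ℂ) hRS iota hiota
      (S.image aN) aS hxS
  have hSC : ∀ P : MvPolynomial (Idx M) ℤ,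
      MvPolynomial.aeval (fun i : Idx M => qCoeff g i.1) P = 0 ↔ MvPolynomial.aeval aS P = 0 :=
    fun P => Coeff.aeval_eq_zero_iff_of_injective
      (algebraMap (integralClosure chig.range ℂ) ℂ) Subtype.val_injective aS _ (fun _ => rfl) P
  have hc : ∀ P : MvPolynomial (Idx M) ℤ, MvPolynomial.aeval c P = 0 →
      MvPolynomial.aeval (fun i : Idx M => qCoeff g i.1) P = 0 :=
    fun P hP => (hSC P).mpr ((hciff P).mp hP)
  have hc' : ∀ P : MvPolynomial (Idx M) ℤ,
      MvPolynomial.aeval (fun i : Idx M => qCoeff g i.1) P = 0 → MvPolynomial.aeval c P = 0 :=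
    fun P hP => (hciff P).mpr ((hSC P).mp hP)
  -- Step 2: the eigenvector of `g` over `O''`
  obtain ⟨vK, hvK0, hvK⟩ := exists_eigenvector_of_relations (tI SD.D) (tI_comm SD.D)
    (fun i => algebraMap O'' (FractionRing O'') (c i))
    (fun P hP => by
      have h1 := hc' P (aeval_qCoeff_eq_zero SD.D SD.occ' hgn P hP)
      rw [Coeff.aeval_ringHom (algebraMap O'' (FractionRing O'')) c P, h1, map_zero])
  obtain ⟨w₀, hw₀0, hw₀⟩ := exists_integral_eigenvector (tI SD.D) (FractionRing O'') c vK hvK0 hvK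
  -- Step 3: the signs
  let Qs : Finset ℕ := M.primeFactors.filter (fun q => ¬ q ^ 2 ∣ M ∧ q ≠ lam)
  have hQs : ∀ q ∈ Qs, SSPrime M lam q := by
    intro q hq
    rw [Finset.mem_filter, Nat.mem_primeFactors] at hq
    exact ⟨hq.1.1, hq.1.2.1, hq.2.1, hq.2.2⟩
  let wR : ℕ → Matrix (Fin SD.D.r) (Fin SD.D.r) O'' :=
    fun q => (SD.w q).map (Int.castRingHom O'')
  have hwsq : ∀ q ∈ Qs, wR q * wR q = 1 := by
    intro q hq
    have h := congrArg (fun A : Matrix (Fin SD.D.r) (Fin SD.D.r) ℤ =>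
      A.map (Int.castRingHom O'')) (SD.w_sq q (hQs q hq))
    simp only [Matrix.map_mul] at h
    rw [h]
    exact Matrix.map_one _ (map_zero _) (map_one _)
  have hwcomm : ∀ q ∈ Qs, ∀ q' ∈ Qs, wR q * wR q' = wR q' * wR q := by
    intro q hq q' hq'
    have h := congrArg (fun A : Matrix (Fin SD.D.r) (Fin SD.D.r) ℤ =>
      A.map (Int.castRingHom O'')) (SD.w_comm q q' (hQs q hq) (hQs q' hq')).eq
    simp only [Matrix.map_mul] at h
    exact h
  have hwt : ∀ q ∈ Qs, ∀ i : Idx M,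
      wR q * castFam (tI SD.D) O'' i = castFam (tI SD.D) O'' i * wR q := by
    intro q hq i
    have h := congrArg (fun A : Matrix (Fin SD.D.r) (Fin SD.D.r) ℤ =>
      A.map (Int.castRingHom O'')) (SD.w_t q (hQs q hq) i.1 i.2.1 i.2.2).eq
    simp only [Matrix.map_mul] at h
    exact h
  have hE : ∀ q ∈ Qs, ∀ v ∈ signLattice SD c ∅ (fun _ => 1),
      (wR q).mulVec v ∈ signLattice SD c ∅ (fun _ => 1) := by
    intro q hq v hv
    refine ⟨fun i => ?_, fun q' hq' => absurd hq' (by simp)⟩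
    rw [Matrix.mulVec_mulVec, ← hwt q hq i, ← Matrix.mulVec_mulVec, hv.1 i, Matrix.mulVec_smul]
  obtain ⟨u, hu, v₁, hv₁E, hv₁0, hv₁⟩ := exists_joint_sign (signLattice SD c ∅ (fun _ => 1)) wR Qs
    hwsq hwcomm hE w₀ ⟨hw₀, fun q hq => absurd hq (by simp)⟩ hw₀0
  have hv₁Nl : v₁ ∈ signLattice SD c Qs u := ⟨hv₁E.1, hv₁⟩
  have hNl_ne : signLattice SD c Qs u ≠ ⊥ := by
    intro h
    rw [h, Submodule.mem_bot] at hv₁Nl
    exact hv₁0 hv₁Nl
  -- Step 4: the engine data
  have hlamO'' : (lam : O'') ∈ IsLocalRing.maximalIdeal O'' := by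
    rw [IsLocalRing.mem_maximalIdeal, mem_nonunits_iff]
    intro hunit
    have h1 : (lam : O'') = algebraMap O' O'' (lam : O') := (map_natCast _ _).symm
    rw [h1] at hunit
    have h2 := IsLocalHom.map_nonunit (f := algebraMap O' O'') _ hunit
    rw [IsLocalRing.mem_maximalIdeal, mem_nonunits_iff] at hlamO'
    exact hlamO' h2
  let ι : ℤ_[lam] →+* O'' :=
    Fermat.Agent.Lib.CycloChar.padicHom lam (IsLocalRing.maximalIdeal O'') hlamO''
  let χ'' : CuspForm.heckeAlgebra M 2 (↑S : Set ℕ) →+* O'' :=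
    (algebraMap O' O'').comp (iota.comp chig.rangeRestrict)
  have hNl_le : signLattice SD c Qs u ≤ eigenLattice SD.D S χ'' := by
    intro v hv ℓ hℓ hℓM hℓS
    have h1 : ((SD.D.t ℓ).map (Int.castRingHom O'')).mulVec v = c ⟨ℓ, hℓ, hℓM⟩ • v :=
      hv.1 ⟨ℓ, hℓ, hℓM⟩
    have h2 : c ⟨ℓ, hℓ, hℓM⟩ = χ'' (CuspForm.heckeAlgebra.T hℓ hℓM hℓS) :=
      hcR ⟨ℓ, hℓ, hℓM⟩ (chig.rangeRestrict (CuspForm.heckeAlgebra.T hℓ hℓM hℓS))
        (Subtype.ext (hchig ℓ hℓ hℓM hℓS).symm)
    rw [← h2]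
    exact h1
  have hρw : ∀ (σ : GQ) (q : ℕ), q ∈ Qs → SD.D.ρR ι σ * wR q = wR q * SD.D.ρR ι σ := by
    intro σ q hq
    have h := congrArg (fun A : Matrix (Fin SD.D.r) (Fin SD.D.r) ℤ_[lam] => A.map ι)
      (SD.w_ρ q (hQs q hq) σ).eq
    simp only [Matrix.map_mul] at h
    rw [map_cast_map] at h
    exact h
  have hst : ∀ σ : GQ, ∀ m ∈ signLattice SD c Qs u,
      SD.D.ρEnd ι σ m ∈ signLattice SD c Qs u := by
    intro σ m hm
    rw [SD.D.ρEnd_apply]
    refine ⟨fun i => ?_, fun q hq => ?_⟩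
    · have h1 := SD.D.ρR_comm ι σ i.1
      have h2 : (SD.D.tR O'' i.1).mulVec m = c i • m := hm.1 i
      show (SD.D.tR O'' i.1).mulVec _ = _
      rw [Matrix.mulVec_mulVec, ← h1, ← Matrix.mulVec_mulVec, h2, Matrix.mulVec_smul]
    · show (wR q).mulVec _ = _
      have h2 : (wR q).mulVec m = u q • m := hm.2 q hq
      rw [Matrix.mulVec_mulVec, ← hρw σ q hq, ← Matrix.mulVec_mulVec, h2, Matrix.mulVec_smul]
  have hrel : ∀ σ : GQ, ∃ a : O'', ∀ m ∈ signLattice SD c Qs u,
      SD.D.ρEnd ι σ (SD.D.ρEnd ι σ m) - a • SD.D.ρEnd ι σ m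
        + ((CycloChar.epsO lam ι σ : O''ˣ) : O'') • m = 0 := by
    intro σ
    obtain ⟨a, ha⟩ := h2 M lam SD.D S hlamS hMS O'' hlamO'' ι χ'' σ
    refine ⟨a, fun m hm => ?_⟩
    rw [SD.D.ρEnd_apply, SD.D.ρEnd_apply, CycloChar.epsO_apply]
    exact ha m (hNl_le hm)
  have hrank : Engine.RankTwoConclusion (SD.D.ρEnd ι) (signLattice SD c Qs u)
      (CycloChar.epsO lam ι) :=
    h3 O'' two_ne_zero GQ (Fin SD.D.r → O'') (SD.D.ρEnd ι) (signLattice SD c Qs u) hNl_ne hst
      (CycloChar.epsO lam ι) hrel complexConjugation complexConjugation_mul_self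
      (CycloChar.epsO_complexConjugation lam ι)
  obtain ⟨ρ, hρ1, -, hρ3⟩ := SubEngine.exists_rep_of_sublattice SD.D S hlamS O'' hlamO'' χ'' ι
    (CycloChar.eps lam)
    (fun hℓ hℓp A hA σ hσ => CycloChar.eps_frobenius lam hℓ hℓp A hA σ hσ)
    (fun hq hqp P hP σ hσ => CycloChar.eps_inertia lam hq hqp P hP σ hσ)
    (fun n => ⟨CycloChar.cycloField lam n, CycloChar.finiteDimensional_cycloField lam n,
      fun σ hσ => CycloChar.eps_sub_one_mem lam n σ hσ⟩)
    (signLattice SD c Qs u) hNl_le hrank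
  refine ⟨O'', i1, i2, i3, i4, i5, i6, i7, i8, i9, hinj, ρ, ?_, ?_⟩
  · intro ℓ hℓ hℓM hℓS A hA σ hσ
    exact hρ1 ℓ hℓ hℓM hℓS A hA σ hσ
  · intro q hq hqlam hqM hq2 A hA σ hσ
    have hqs : q ∈ Qs := by
      rw [Finset.mem_filter, Nat.mem_primeFactors]
      exact ⟨⟨hq, hqM, NeZero.ne M⟩, hq2, hqlam⟩
    have hSSq := hQs q hqs
    have hεσ : (((Units.map (ι : ℤ_[lam] →* O'')).comp (CycloChar.eps lam) σ : O''ˣ) : O'') =
        (q : O'') := by
      simp [CycloChar.eps_frobenius lam hq hqlam A hA σ hσ]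
    have hquad : ∀ m ∈ signLattice SD c Qs u,
        SD.D.ρEnd ι σ (SD.D.ρEnd ι σ m) - (-(u q * ((q : O'') + 1))) • SD.D.ρEnd ι σ m
          + (((Units.map (ι : ℤ_[lam] →* O'')).comp (CycloChar.eps lam) σ : O''ˣ) : O'') • m
          = 0 := by
      intro m hm
      rw [hεσ, SD.D.ρEnd_apply, SD.D.ρEnd_apply]
      have hn1 := new_kills SD hg hSSq c hc m hm.1
      have hwm : (wR q).mulVec m = u q • m := hm.2 q hqs
      have hn2 : ((SD.n q).map (Int.castRingHom O'')).mulVec ((wR q).mulVec m) = 0 := by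
        rw [hwm, Matrix.mulVec_smul, hn1, smul_zero]
      have hbc := rel_base_change (SD.n q) (SD.w q) (SD.D.ρ σ) q (SD.rel q hSSq A hA σ hσ) ι m
        hn1 hn2
      exact quad_of_rel (SD.D.ρR ι σ) (wR q) (hρw σ q hqs) (hwsq q hqs) (u q) (q : O'') m hwm hbc
    have hcp := hρ3 σ _ hquad
    rw [hεσ] at hcp
    rcases hu q with h1 | h1
    · right
      have e : -(u q * ((q : O'') + 1)) = -((q : O'') + 1) := by rw [h1, one_mul]
      rw [e, map_neg, neg_mul, sub_neg_eq_add] at hcp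
      exact hcp
    · left
      have e : -(u q * ((q : O'') + 1)) = (q : O'') + 1 := by rw [h1]; ring
      rw [e] at hcp
      exact hcp

end Fermat.Agent.S35.Wiring
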