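/-
S35 FINAL WIRING, part 2 (helper94, S35 sub-captain): S35 from the two geometric exits.

* `FrobRootGt3`   : the exit of `S35/FrobGt3.lean`   (residue characteristic `3 < l`);
* `FrobRootSmall` : the exit of `S35/FrobSmall.lean` (`l = 3`, `2 ∣ M`  or  `l = 2`, `3 ∣ M`);
  both are the Kummer-field statement `DescendFrob.FrobSSRootModular (M * l) A wAL l l m`.
* `hswapAt_of_cases`         : descent to `ℚ̄` (`DescendFrob`) + auxiliary-level descent
                               (`AuxFrob.hswapAt_of_aux`) ⟹ the relation `(C2')` at every level;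
* `nonempty_ssData_of_cases` : the producer contract (`ConcreteFinal.nonempty_ssData`);
* `result_of_cases`          : the frozen statement of S35.

`Fermat/Agent/S35.lean` is then the template + one line
`FinalCases.result_of_cases frobRootGt3 frobRootSmall hg lam S O' hlamO' chig hchig iota hlamS hMS`.
-/
import Mathlib
import Fermat.Agent.S35.Final
import Fermat.Agent.S35.ConcreteFinal
import Fermat.Agent.S35.AuxFrob
import Fermat.Agent.S35.DescendFrob

set_option autoImplicit false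
open Polynomial

namespace Fermat.Agent.S35.FinalCases

open Fermat.Agent.S30 Fermat.Agent.S30.E4 Fermat.Agent.S34.ToricSwap

local notation "Qb" => AlgebraicClosure ℚ
local notation "Gq" => (AlgebraicClosure ℚ ≃ₐ[ℚ] AlgebraicClosure ℚ)

/-- The geometric exit at residue characteristic `3 < l` (literal statement of
`FrobGt3.frobRootGt3`). -/
def FrobRootGt3 : Prop :=
  ∀ (M l : ℕ) [NeZero M] [NeZero l] (hl : l.Prime) (hlM : ¬ l ∣ M), 3 < l →
    ∀ A : ValuationSubring Qb, A.LiesOverPrime l → ∀ m : ℕ, 0 < m → ¬ l ∣ m →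
      DescendFrob.FrobSSRootModular (M * l) A (wAL M l hl hlM).toRingEquiv l l m

/-- The geometric exit at residue characteristic `l ∈ {2, 3}`, at the auxiliary levels (literal
statement of `FrobSmall.frobRootSmall`). -/
def FrobRootSmall : Prop :=
  ∀ (M l : ℕ) [NeZero M] [NeZero l] (hl : l.Prime) (hlM : ¬ l ∣ M),
    (l = 3 ∧ 2 ∣ M) ∨ (l = 2 ∧ 3 ∣ M) →
    ∀ A : ValuationSubring Qb, A.LiesOverPrime l → ∀ m : ℕ, 0 < m → ¬ l ∣ m →
      DescendFrob.FrobSSRootModular (M * l) A (wAL M l hl hlM).toRingEquiv l l m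

/-- The relation `(C2')` at the level `M l` from the Kummer-field statement at that level. -/
theorem hswapAt_of_rootModular (M l : ℕ) [NeZero M] [NeZero l] (hl : l.Prime) (hlM : ¬ l ∣ M)
    (A : ValuationSubring Qb) (hA : A.LiesOverPrime l) (σ : Gq) (hσ : A.IsFrobeniusAt σ l)
    {m : ℕ} (hm : 0 < m)
    (hK : DescendFrob.FrobSSRootModular (M * l) A (wAL M l hl hlM).toRingEquiv l l m) :
    AuxFrob.HSwapAt M l hl hlM A σ m := by
  intro h htor hdiv
  exact DescendFrob.frobSS_of_rootModular_algEquiv (M * l) hl A hA (wAL M l hl hlM) l hm hK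
    σ hσ h htor hdiv

/-- **The relation `(C2')` at every level `M l`, `l ∤ M`, for `l ∤ m`**, from the two geometric
exits. -/
theorem hswapAt_of_cases (hGt3 : FrobRootGt3) (hSmall : FrobRootSmall)
    (M l : ℕ) [NeZero M] [NeZero l] (hl : l.Prime) (hlM : ¬ l ∣ M)
    (A : ValuationSubring Qb) (hA : A.LiesOverPrime l) (σ : Gq) (hσ : A.IsFrobeniusAt σ l)
    {m : ℕ} (hm : 0 < m) (hlm : ¬ l ∣ m) :
    AuxFrob.HSwapAt M l hl hlM A σ m := by
  refine AuxFrob.hswapAt_of_aux hl hlM A σ hlm ?_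
  intro M' _ hlM' h3 h2
  refine hswapAt_of_rootModular M' l hl hlM' A hA σ hσ hm ?_
  by_cases e3 : l = 3
  · exact hSmall M' l hl hlM' (Or.inl ⟨e3, h3 e3⟩) A hA m hm hlm
  · by_cases e2 : l = 2
    · exact hSmall M' l hl hlM' (Or.inr ⟨e2, h2 e2⟩) A hA m hm hlm
    · have h2l : 2 ≤ l := hl.two_le
      exact hGt3 M' l hl hlM' (by omega) A hA m hm hlm

/-- **The producer contract of S35 from the two geometric exits.** -/
theorem nonempty_ssData_of_cases (hGt3 : FrobRootGt3) (hSmall : FrobRootSmall)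
    (M p : ℕ) [NeZero M] [hp : Fact p.Prime] : Nonempty (SSData M p) := by
  refine ConcreteFinal.nonempty_ssData M p ?_
  intro N l _ _ hl hlN _ hlp A hA σ hσ n h htor hdiv
  have hlm : ¬ l ∣ p ^ n := fun hd =>
    hlp ((Nat.prime_dvd_prime_iff_eq hl hp.out).mp (hl.dvd_of_dvd_pow hd))
  obtain ⟨k, hk⟩ := hswapAt_of_cases hGt3 hSmall N l hl hlN A hA σ hσ
    (pow_pos hp.out.pos n) hlm h htor hdiv
  exact ⟨1, k, by rw [hk, map_one, one_mul]⟩

/-- **S35 from the two geometric exits.** -/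
theorem result_of_cases (hGt3 : FrobRootGt3) (hSmall : FrobRootSmall)
    {M : ℕ} [NeZero M] {g : CuspForm (CongruenceSubgroup.Gamma0 M) 2} (hg : g.IsNewform)
    (lam : ℕ) [Fact lam.Prime]
    (S : Finset ℕ)
    (O' : Type) [CommRing O'] [IsDomain O'] [IsDiscreteValuationRing O']
    [IsAdicComplete (IsLocalRing.maximalIdeal O') O'] [Finite (IsLocalRing.ResidueField O')]
    [CharZero O'] (hlamO' : (lam : O') ∈ IsLocalRing.maximalIdeal O')
    (chig : CuspForm.heckeAlgebra M 2 (↑S : Set ℕ) →+* ℂ)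
    (hchig : ∀ (ℓ : ℕ) (hℓ : ℓ.Prime) (hℓM : ¬ ℓ ∣ M) (hℓS : ℓ ∉ (↑S : Set ℕ)),
      chig (CuspForm.heckeAlgebra.T hℓ hℓM hℓS) = ModularFormClass.qCoeff g ℓ)
    (iota : chig.range →+* O')
    (hlamS : lam ∈ S) (hMS : ∀ q : ℕ, q.Prime → q ∣ M → q ∈ S) :
    ∃ (O'' : Type) (_ : CommRing O'') (_ : IsDomain O'') (_ : IsDiscreteValuationRing O'')
      (_ : IsAdicComplete (IsLocalRing.maximalIdeal O'') O'')
      (_ : Finite (IsLocalRing.ResidueField O''))
      (_ : CharZero O'') (_ : Algebra O' O'') (_ : Module.Finite O' O'')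
      (_ : IsLocalHom (algebraMap O' O'')),
      Function.Injective (algebraMap O' O'') ∧
      ∃ ρ : GaloisRepAdic O'',
        (∀ (ℓ : ℕ) (hℓ : ℓ.Prime) (hℓM : ¬ ℓ ∣ M) (hℓS : ℓ ∉ (↑S : Set ℕ)),
          ∀ A : ValuationSubring (AlgebraicClosure ℚ), A.LiesOverPrime ℓ →
            ∀ σ : AlgebraicClosure ℚ ≃ₐ[ℚ] AlgebraicClosure ℚ, A.IsFrobeniusAt σ ℓ →
              LinearMap.charpoly (ρ.ρ σ) =
                X ^ 2 - C (algebraMap O' O'' ((iota.comp chig.rangeRestrict)
                  (CuspForm.heckeAlgebra.T hℓ hℓM hℓS))) * X + C ((ℓ : O''))) ∧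
        (∀ q : ℕ, q.Prime → q ≠ lam → q ∣ M → ¬ q ^ 2 ∣ M →
          ∀ A : ValuationSubring (AlgebraicClosure ℚ), A.LiesOverPrime q →
            ∀ σ : AlgebraicClosure ℚ ≃ₐ[ℚ] AlgebraicClosure ℚ, A.IsFrobeniusAt σ q →
              LinearMap.charpoly (ρ.ρ σ) = X ^ 2 - C ((q : O'') + 1) * X + C ((q : O'')) ∨
              LinearMap.charpoly (ρ.ρ σ) = X ^ 2 + C ((q : O'') + 1) * X + C ((q : O''))) :=
  Final.result_of_ssData'
    (fun M p _ _ => nonempty_ssData_of_cases hGt3 hSmall M p)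
    hg lam S O' hlamO' chig hchig iota hlamS hMS

end Fermat.Agent.S35.FinalCases
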