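/-
S35 / PROGRAM U brick (helper133): a Frobenius lift composed with the Atkin–Lehner involution
fixes the crossing points and exchanges the two components.

Abstract setting of `S34/Fibre.lean` (`R` = level-`M` chart ring, `C` = level-`ℓM` chart ring,
`P₁`, `P₂` the two components, `W` the involution, `ev : C → R/π` the restriction to `P₁`,
`frob = ev ∘ W` on `R/π`), plus

* `φ : C ≃+* C` commuting with `W` (a Frobenius lift acting on coefficients),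
* `ψ : R/π →+* R/π` with `frob x = (ψ x) ^ l` (the Kronecker congruence: `ψ` is the reduction of
  `φ⁻¹`) and `ψ (ev (φ c)) = ev c`.

Then `σ = φ ∘ W` satisfies `σ⁻¹ M = M` for every prime `M ⊇ P₁ ⊔ P₂` (`comap_frobSwap_eq`),
`σ⁻¹ P₁ = P₂`, `σ⁻¹ P₂ = P₁`; and `φ ∘ φ` fixes every such `M` as well (`comap_frobSq_eq`).
These are the hypotheses `hnode`, `h₁₂`, `h₂₁` of `S35/SigmaLoc.hloc_swap` (resp.
`hloc_preserve`) on the chart zero.

Proof of the first statement: for `c : C` the pair `(ev c, ev (W c))` lies in the glued ring, so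
`ev c - frob (ev (W c))` is in the node ideal; hence `c ∈ M ↔ d ∈ M` for any `d` with
`ev d = ψ (ev (W c))`.  For `c' = φ (W c)` one may take `d = c`.
-/
import Mathlib
import Fermat.Agent.S34.Fibre

set_option autoImplicit false

namespace Fermat.Agent.S35.FrobNodes

open Fermat.Agent.S34 Fermat.Agent.S34.Fibre

variable {R C : Type*} [CommRing R] [CommRing C] [Algebra R C]
variable {π : R} {P₁ P₂ : Ideal C} {W : C ≃+* C}

/-- Key step: `c ∈ M ↔ d ∈ M` whenever `ev d = ψ (ev (W c))`. -/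
theorem mem_iff_of_ev_eq (h : Data π P₁ P₂ W)
    (ψ : R ⧸ Ideal.span {π} →+* R ⧸ Ideal.span {π}) (l : ℕ) (hl : 0 < l)
    (hfrob : ∀ x, h.frob x = ψ x ^ l) (M : Ideal C) [hM : M.IsPrime] (hPM : P₁ ⊔ P₂ ≤ M)
    (c d : C) (hd : h.ev d = ψ (h.ev (W c))) : c ∈ M ↔ d ∈ M := by
  have h1 : h.ev c - h.frob (h.ev (W c)) ∈ h.nodeIdeal := by
    rw [← h.mem_range_phi_iff]
    exact ⟨c, h.phi_apply c⟩
  have h2 : c - d ^ l ∈ M := by
    apply hPM
    rw [h.sup_eq_comap, Ideal.mem_comap, map_sub, map_pow, hd, ← hfrob]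
    exact h1
  constructor
  · intro hc
    have h3 : d ^ l ∈ M := by
      have : d ^ l = c - (c - d ^ l) := by ring
      rw [this]
      exact M.sub_mem hc h2
    exact hM.mem_of_pow_mem l h3
  · intro hdM
    have : c = (c - d ^ l) + d ^ l := by ring
    rw [this]
    exact M.add_mem h2 (M.pow_mem_of_mem hdM l hl)

/-- **`φ ∘ W` fixes the crossing points.** -/
theorem comap_frobSwap_eq (h : Data π P₁ P₂ W) (φ : C ≃+* C) (hφW : ∀ c, φ (W c) = W (φ c))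
    (ψ : R ⧸ Ideal.span {π} →+* R ⧸ Ideal.span {π}) (l : ℕ) (hl : 0 < l)
    (hfrob : ∀ x, h.frob x = ψ x ^ l) (hψ : ∀ c : C, ψ (h.ev (φ c)) = h.ev c)
    (M : Ideal C) [M.IsPrime] (hPM : P₁ ⊔ P₂ ≤ M) :
    M.comap (W.trans φ : C ≃+* C) = M := by
  ext c
  rw [Ideal.mem_comap]
  have e : (W.trans φ : C ≃+* C) c = φ (W c) := rfl
  rw [e]
  refine mem_iff_of_ev_eq h ψ l hl hfrob M hPM (φ (W c)) c ?_
  rw [← hφW, h.invol, hψ]

/-- **`φ ∘ φ` fixes the crossing points.** -/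
theorem comap_frobSq_eq (h : Data π P₁ P₂ W) (φ : C ≃+* C) (hφW : ∀ c, φ (W c) = W (φ c))
    (ψ : R ⧸ Ideal.span {π} →+* R ⧸ Ideal.span {π}) (l : ℕ) (hl : 0 < l)
    (hfrob : ∀ x, h.frob x = ψ x ^ l) (hψ : ∀ c : C, ψ (h.ev (φ c)) = h.ev c)
    (M : Ideal C) [M.IsPrime] (hPM : P₁ ⊔ P₂ ≤ M) :
    M.comap (φ.trans φ : C ≃+* C) = M := by
  ext c
  rw [Ideal.mem_comap]
  have e : (φ.trans φ : C ≃+* C) c = φ (φ c) := rfl
  rw [e]
  have h1 : φ (φ c) ∈ M ↔ φ (W c) ∈ M := by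
    refine mem_iff_of_ev_eq h ψ l hl hfrob M hPM (φ (φ c)) (φ (W c)) ?_
    rw [← hφW, hψ, hφW]
  have h2 : φ (W c) ∈ M ↔ c ∈ M := by
    refine mem_iff_of_ev_eq h ψ l hl hfrob M hPM (φ (W c)) c ?_
    rw [← hφW, h.invol, hψ]
  exact h1.trans h2

/-- `φ ∘ W` exchanges the components (1). -/
theorem comap_frobSwap_left (h : Data π P₁ P₂ W) (φ : C ≃+* C)
    (hφP : ∀ c, φ c ∈ P₁ ↔ c ∈ P₁) : P₁.comap (W.trans φ : C ≃+* C) = P₂ := by
  ext c
  rw [Ideal.mem_comap]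
  have e : (W.trans φ : C ≃+* C) c = φ (W c) := rfl
  rw [e, hφP, h.swap]

/-- `φ ∘ W` exchanges the components (2). -/
theorem comap_frobSwap_right (h : Data π P₁ P₂ W) (φ : C ≃+* C)
    (hφW : ∀ c, φ (W c) = W (φ c)) (hφP : ∀ c, φ c ∈ P₁ ↔ c ∈ P₁) :
    P₂.comap (W.trans φ : C ≃+* C) = P₁ := by
  ext c
  rw [Ideal.mem_comap]
  have e : (W.trans φ : C ≃+* C) c = φ (W c) := rfl
  rw [e, ← h.swap, ← hφW, h.invol, hφP]

/-- `φ` preserves `P₂` as soon as it preserves `P₁` and commutes with `W`. -/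
theorem mem_right_iff (h : Data π P₁ P₂ W) (φ : C ≃+* C)
    (hφW : ∀ c, φ (W c) = W (φ c)) (hφP : ∀ c, φ c ∈ P₁ ↔ c ∈ P₁) (c : C) :
    φ c ∈ P₂ ↔ c ∈ P₂ := by
  rw [← h.swap, ← hφW, hφP, h.swap]

/-- The compatibility `ψ ∘ ev ∘ φ = ev` from its form on `R`: `φ` maps `R` into `R + P₁` and
`ψ` is the inverse of the induced map on `R/π`. -/
theorem psi_ev_of (h : Data π P₁ P₂ W) (φ : C ≃+* C) (hφP : ∀ c, φ c ∈ P₁ ↔ c ∈ P₁)
    (ψ : R ⧸ Ideal.span {π} →+* R ⧸ Ideal.span {π})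
    (hφR : ∀ r : R, ∃ r' : R, φ (algebraMap R C r) - algebraMap R C r' ∈ P₁ ∧
      ψ (Ideal.Quotient.mk (Ideal.span {π}) r') = Ideal.Quotient.mk (Ideal.span {π}) r)
    (c : C) : ψ (h.ev (φ c)) = h.ev c := by
  obtain ⟨r, hr⟩ := h.onto c
  obtain ⟨r', hr', hψ⟩ := hφR r
  have h1 : φ c - algebraMap R C r' ∈ P₁ := by
    have h2 : φ (c - algebraMap R C r) ∈ P₁ := (hφP _).2 hr
    rw [map_sub] at h2
    have : φ c - algebraMap R C r' =
        (φ c - φ (algebraMap R C r)) + (φ (algebraMap R C r) - algebraMap R C r') := by ring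
    rw [this]
    exact P₁.add_mem h2 hr'
  rw [h.ev_eq_mk_of_sub_mem h1, hψ, h.ev_eq_mk_of_sub_mem hr]

end Fermat.Agent.S35.FrobNodes
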