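import Mathlib
import Fermat.Agent.S35.FrobNodes
import Fermat.Agent.S34.Modular.ChartZero
import Fermat.Agent.S34.Modular.Kronecker
import Fermat.Agent.S34.Modular.SwapE
import Fermat.Agent.S34.Nodal.Defs

/-!
# S35 / PROGRAM U, (d3): the modular instantiation of `FrobNodes`

`σ₀` a Frobenius element at the prime `ℓ`; `Σ := φ ∘ w`, where `φ` is the coefficientwise action
of `σ₀` on the level-`ℓM` function field and `w` is the Atkin–Lehner involution.  This file
produces the hypotheses of `S35/NodalSigma.hloc_chart_swap_of_cartierRoot` for `Σ` on the chart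
zero, for the two Gauss primes `p_∞ = ker redInf`, `p_0 = ker redZero` of
`S34/TwoPrimesGauss.lean`:

* `hB`    : `Σ` preserves the chart ring;
* `h₁₂`, `h₂₁` : `Σ` exchanges the two components;
* `hnode` : `Σ` fixes the crossing points (`Nodal.FixesNodes`), via `FrobNodes.comap_frobSwap_eq`;
* `hσζ`   : `Σ ζ = ζ ^ ℓ` for roots of unity of order prime to `ℓ` in `O`.

Layer (A) is level-free, in the `Package` vocabulary of `TwoPrimesGauss` / `Modular/ChartZero`
plus abstract "Frobenius data" `(sO, sE, φ, φ')`.  Layer (B) instantiates the Frobenius data for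
`L' = LE M E`, `L = LE (M * ℓ) E`, `O = A ∩ E`.
-/

set_option autoImplicit false
set_option linter.unusedSectionVars false
set_option linter.style.haveILetI false

open ModularCurve Polynomial

noncomputable section

namespace Fermat.Agent.S35.FrobNodesE

open Fermat.Agent.S30 Fermat.Agent.S34 Fermat.Agent.S34.TwoPrimesGauss

/-! ### Roots of unity are determined by their residues -/

section Roots

/-- In a local ring in which `m` is a unit, two `m`-th roots of unity with the same residue are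
equal. -/
theorem eq_of_pow_eq_one_of_residue_eq {O : Type*} [CommRing O] [IsLocalRing O] (m : ℕ)
    (hm : IsUnit (m : O)) {a b : O} (ha : a ^ m = 1) (hb : b ^ m = 1)
    (hab : IsLocalRing.residue O a = IsLocalRing.residue O b) : a = b := by
  have hm0 : m ≠ 0 := by
    rintro rfl
    rw [Nat.cast_zero] at hm
    exact not_isUnit_zero hm
  obtain ⟨k, rfl⟩ : ∃ k, m = k + 1 := ⟨m - 1, by omega⟩
  set c := a * b ^ k with hc
  have hcm : c ^ (k + 1) = 1 := by
    rw [hc, mul_pow, ha, one_mul, ← pow_mul, mul_comm, pow_mul, hb, one_pow]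
  have hres : IsLocalRing.residue O c = 1 := by
    rw [hc, map_mul, map_pow, hab, ← pow_succ', ← map_pow, hb, map_one]
  have hS : IsUnit (∑ i ∈ Finset.range (k + 1), c ^ i) := by
    have h1 : IsLocalRing.residue O (∑ i ∈ Finset.range (k + 1), c ^ i)
        = IsLocalRing.residue O ((k + 1 : ℕ) : O) := by
      rw [map_sum]
      simp [map_pow, hres]
    by_contra hnu
    have h0 : IsLocalRing.residue O (∑ i ∈ Finset.range (k + 1), c ^ i) = 0 :=
      (IsLocalRing.residue_eq_zero_iff _).mpr hnu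
    rw [h1] at h0
    exact ((IsLocalRing.residue_eq_zero_iff _).mp h0) hm
  have h1 : (c - 1) * ∑ i ∈ Finset.range (k + 1), c ^ i = 0 := by
    rw [mul_geom_sum, hcm, sub_self]
  have hc1 : c = 1 := sub_eq_zero.mp (hS.mul_left_eq_zero.mp h1)
  calc a = a * b ^ (k + 1) := by rw [hb, mul_one]
    _ = c * b := by rw [hc, pow_succ]; ring
    _ = b := by rw [hc1, one_mul]

end Roots

/-! ### The coefficientwise Frobenius on the Gauss ring -/

section Gauss

variable {O E : Type*} [CommRing O] [IsDomain O] [IsDiscreteValuationRing O] [Field E]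
  [Algebra O E] [FaithfulSMul O E]
variable (ℓ : ℕ) [Fact ℓ.Prime] [CharP (IsLocalRing.ResidueField O) ℓ]

/-- The Gauss ring is stable under a coefficientwise Frobenius lift. -/
theorem coeffMap_frob_mem_V (sO : O →+* O)
    (hres : ∀ a : O, IsLocalRing.residue O (sO a) = IsLocalRing.residue O a ^ ℓ)
    (sE : E →+* E) (hsE : ∀ a : O, sE (algebraMap O E a) = algebraMap O E (sO a))
    {y : LaurentSeries E} (hy : y ∈ GaussDVR.V O E) : coeffMap sE y ∈ GaussDVR.V O E := by
  obtain ⟨a, b, hb, h⟩ := (GaussDVR.mem_V O E).mp hy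
  refine (GaussDVR.mem_V O E).mpr ⟨coeffMap sO a, coeffMap sO b, ?_, ?_⟩
  · rw [Modular.Kronecker.rho_coeffMap_frob ℓ sO hres]
    intro h0
    exact hb (Congr.coeffMap_injective _ (frobenius_inj _ ℓ) (by rw [h0, map_zero]))
  · rw [← TrivModE.coeffMap_iota sO sE hsE, ← TrivModE.coeffMap_iota sO sE hsE, ← map_mul, h]

/-- The reduction of the coefficientwise Frobenius lift is the coefficientwise Frobenius. -/
theorem red_coeffMap_frob (sO : O →+* O)
    (hres : ∀ a : O, IsLocalRing.residue O (sO a) = IsLocalRing.residue O a ^ ℓ)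
    (sE : E →+* E) (hsE : ∀ a : O, sE (algebraMap O E a) = algebraMap O E (sO a))
    {y : LaurentSeries E} (hy : y ∈ GaussDVR.V O E) :
    GaussDVR.red O E ⟨coeffMap sE y, coeffMap_frob_mem_V ℓ sO hres sE hsE hy⟩
      = coeffMap (frobenius (IsLocalRing.ResidueField O) ℓ) (GaussDVR.red O E ⟨y, hy⟩) := by
  obtain ⟨a, b, hb, h⟩ := (GaussDVR.mem_V O E).mp hy
  have hb' : GaussDVR.rho O (coeffMap sO b) ≠ 0 := by
    rw [Modular.Kronecker.rho_coeffMap_frob ℓ sO hres]
    intro h0
    exact hb (Congr.coeffMap_injective _ (frobenius_inj _ ℓ) (by rw [h0, map_zero]))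
  have h' : coeffMap sE y * GaussDVR.iota O E (coeffMap sO b)
      = GaussDVR.iota O E (coeffMap sO a) := by
    rw [← TrivModE.coeffMap_iota sO sE hsE, ← TrivModE.coeffMap_iota sO sE hsE, ← map_mul, h]
  rw [GaussDVR.red_eq O E ⟨coeffMap sE y, _⟩ (coeffMap sO a) (coeffMap sO b) hb' h',
    GaussDVR.red_eq O E ⟨y, hy⟩ a b hb h, Modular.Kronecker.rho_coeffMap_frob ℓ sO hres,
    Modular.Kronecker.rho_coeffMap_frob ℓ sO hres, map_div₀]

end Gauss

/-! ### A semilinear automorphism fixing the coordinate acts on the chart ring -/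

section ChartAut

/-- A ring endomorphism preserving the image of `O` and fixing `u` maps `O[u]` into itself. -/
theorem map_mem_adjoin_of {O K : Type*} [CommRing O] [CommRing K] [Algebra O K] (f : K →+* K)
    (hf : ∀ r : O, ∃ r' : O, f (algebraMap O K r) = algebraMap O K r') (u : K) (hfu : f u = u)
    {d : K} (hd : d ∈ Algebra.adjoin O ({u} : Set K)) : f d ∈ Algebra.adjoin O ({u} : Set K) := by
  induction hd using Algebra.adjoin_induction with
  | mem s hs =>
      rw [Set.mem_singleton_iff] at hs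
      rw [hs, hfu]
      exact Algebra.subset_adjoin rfl
  | algebraMap a =>
      obtain ⟨a', ha'⟩ := hf a
      rw [ha']
      exact Subalgebra.algebraMap_mem _ _
  | add a b _ _ ha hb => rw [map_add]; exact Subalgebra.add_mem _ ha hb
  | mul a b _ _ ha hb => rw [map_mul]; exact Subalgebra.mul_mem _ ha hb

variable {O E : Type*} [CommRing O] [IsDomain O] [IsDiscreteValuationRing O] [Field E]
  [Algebra O E] [FaithfulSMul O E]
  {K : Type*} [Field K] [Algebra O K]
  (τ : K →+* LaurentSeries E)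
  (hτO : ∀ r : O, τ (algebraMap O K r) = HahnSeries.C (algebraMap O E r))
  (sO sO' : O →+* O) (hsO : ∀ a : O, sO (sO' a) = a)
  (sE : E →+* E) (hsE : ∀ a : O, sE (algebraMap O E a) = algebraMap O E (sO a))
  (θ : K ≃+* K) (hθτ : ∀ z : K, τ (θ z) = coeffMap sE (τ z))
  (u : K) (hθu : θ u = u)

include hτO hsE hθτ in
/-- A coefficientwise action is semilinear over `O`. -/
theorem aut_algebraMap (r : O) : θ (algebraMap O K r) = algebraMap O K (sO r) := by
  apply τ.injective
  rw [hθτ, hτO, hτO, ← hsE, HahnSeries.C_apply, HahnSeries.C_apply, coeffMap_single]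

include hτO hsE hθτ hsO in
theorem aut_symm_algebraMap (r : O) : θ.symm (algebraMap O K r) = algebraMap O K (sO' r) := by
  rw [RingEquiv.symm_apply_eq, aut_algebraMap τ hτO sO sE hsE θ hθτ, hsO]

include hτO hsE hθτ hsO hθu in
/-- The automorphism preserves integrality over `O[u]`, in both directions. -/
theorem isIntegral_aut_iff (x : K) :
    IsIntegral (Algebra.adjoin O ({u} : Set K)) x ↔
      IsIntegral (Algebra.adjoin O ({u} : Set K)) (θ x) := by
  constructor
  · intro hx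
    exact TrivModE.isIntegral_map_of_stable _ (θ : K →+* K)
      (fun d hd => map_mem_adjoin_of (θ : K →+* K)
        (fun r => ⟨sO r, aut_algebraMap τ hτO sO sE hsE θ hθτ r⟩) u hθu hd) hx
  · intro hx
    have h := TrivModE.isIntegral_map_of_stable _ (θ.symm : K →+* K)
      (fun d hd => map_mem_adjoin_of (θ.symm : K →+* K)
        (fun r => ⟨sO' r, aut_symm_algebraMap τ hτO sO sO' hsO sE hsE θ hθτ r⟩) u
        ((RingEquiv.symm_apply_eq θ).mpr hθu.symm) hd) hx
    rwa [RingEquiv.coe_toRingHom, θ.symm_apply_apply] at h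

/-- The restriction of the automorphism to the chart ring of `u`. -/
def chartAut : Chart O u ≃+* Chart O u where
  toFun c := ⟨θ (c : K), (isIntegral_aut_iff τ hτO sO sO' hsO sE hsE θ hθτ u hθu (c : K)).1 c.2⟩
  invFun c := ⟨θ.symm (c : K),
    (isIntegral_aut_iff τ hτO sO sO' hsO sE hsE θ hθτ u hθu (θ.symm (c : K))).2
      (by rw [θ.apply_symm_apply]; exact c.2)⟩
  left_inv c := Subtype.ext (θ.symm_apply_apply _)
  right_inv c := Subtype.ext (θ.apply_symm_apply _)
  map_mul' _ _ := Subtype.ext (map_mul θ _ _)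
  map_add' _ _ := Subtype.ext (map_add θ _ _)

theorem coe_chartAut (c : Chart O u) :
    ((chartAut τ hτO sO sO' hsO sE hsE θ hθτ u hθu c : Chart O u) : K) = θ (c : K) := rfl

theorem coe_chartAut_symm (c : Chart O u) :
    (((chartAut τ hτO sO sO' hsO sE hsE θ hθτ u hθu).symm c : Chart O u) : K)
      = θ.symm (c : K) := rfl

variable (ϖ : O) (hϖ : Irreducible ϖ)

include hϖ in
/-- The inverse automorphism maps `ϖ` into `(ϖ)`. -/
theorem chartAut_symm_piC_mem :
    (chartAut τ hτO sO sO' hsO sE hsE θ hθτ u hθu).symm (piC u ϖ) ∈ Ideal.span {piC u ϖ} := by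
  have hnu : ¬ IsUnit (sO' ϖ) := fun hu => hϖ.not_isUnit (by
    have h := hu.map sO
    rwa [hsO] at h)
  have hmem : sO' ϖ ∈ IsLocalRing.maximalIdeal O := hnu
  rw [(IsDiscreteValuationRing.irreducible_iff_uniformizer ϖ).mp hϖ,
    Ideal.mem_span_singleton] at hmem
  obtain ⟨d, hd⟩ := hmem
  rw [Ideal.mem_span_singleton]
  refine ⟨piC u d, Subtype.ext ?_⟩
  show θ.symm (algebraMap O K ϖ) = algebraMap O K ϖ * algebraMap O K d
  rw [aut_symm_algebraMap τ hτO sO sO' hsO sE hsE θ hθτ, hd, map_mul]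

variable (hτfrac : ∀ x : K, τ x ∈ GaussDVR.fracField O E)
  (U : LaurentSeries O) (hτu : τ u = GaussDVR.iota O E U)
  (ℓ : ℕ) [Fact ℓ.Prime] [CharP (IsLocalRing.ResidueField O) ℓ]
  (hres : ∀ a : O, IsLocalRing.residue O (sO a) = IsLocalRing.residue O a ^ ℓ)

include hres in
/-- **Reduction commutes with Frobenius**: the reduction of `θ c` is the coefficientwise
Frobenius of the reduction of `c`. -/
theorem redHom_chartAut (c : Chart O u) :
    redHom τ hτO ϖ hϖ hτfrac u U hτu (chartAut τ hτO sO sO' hsO sE hsE θ hθτ u hθu c)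
      = coeffMap (frobenius (IsLocalRing.ResidueField O) ℓ)
          (redHom τ hτO ϖ hϖ hτfrac u U hτu c) := by
  have hV : τ (c : K) ∈ GaussDVR.V O E := sigma_mem_V τ hτO ϖ hϖ hτfrac u U hτu c.2
  have h := red_coeffMap_frob ℓ sO hres sE hsE hV
  show GaussDVR.red O E _ = coeffMap _ (GaussDVR.red O E ⟨τ (c : K), hV⟩)
  rw [← h]
  congr 1
  exact Subtype.ext (hθτ (c : K))

include hres in
/-- `θ c` reduces to zero iff `c` does. -/
theorem redHom_chartAut_eq_zero_iff (c : Chart O u) :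
    redHom τ hτO ϖ hϖ hτfrac u U hτu (chartAut τ hτO sO sO' hsO sE hsE θ hθτ u hθu c) = 0 ↔
      redHom τ hτO ϖ hϖ hτfrac u U hτu c = 0 := by
  rw [redHom_chartAut τ hτO sO sO' hsO sE hsE θ hθτ u hθu ϖ hϖ hτfrac U hτu ℓ hres]
  constructor
  · intro h0
    exact Congr.coeffMap_injective _ (frobenius_inj _ ℓ) (by rw [h0, map_zero])
  · intro h0
    rw [h0, map_zero]

end ChartAut

/-! ### Layer (A): the level-free statement -/

section Main

variable {O E : Type*} [CommRing O] [IsDomain O] [IsDiscreteValuationRing O] [Field E]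
  [Algebra O E] [FaithfulSMul O E]
  {L' L : Type*} [Field L'] [Field L] [Algebra O L'] [Algebra O L]
  (ϖ : O) (hϖ : Irreducible ϖ)
  (α : L' →+* L) (hαO : ∀ r : O, α (algebraMap O L' r) = algebraMap O L r)
  (σ : L →+* LaurentSeries E)
  (hσO : ∀ r : O, σ (algebraMap O L r) = HahnSeries.C (algebraMap O E r))
  (hσfrac : ∀ x : L, σ x ∈ GaussDVR.fracField O E)
  (u' : L') (U : LaurentSeries O) (hσu : σ (α u') = GaussDVR.iota O E U)
  (w : L ≃+* L) (hwO : ∀ r : O, w (algebraMap O L r) = algebraMap O L r)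
  (ℓ : ℕ) [NeZero ℓ]
  (hwα : ∀ x : L', σ (w (α x)) = qExpand E ℓ (σ (α x)))
  (hww : ∀ z : L, w (w z) = z)
  (hwu : IsIntegral (Algebra.adjoin O {α u'}) (w (α u')))
  -- the Frobenius data
  (sO sO' : O →+* O) (hsO : ∀ a : O, sO (sO' a) = a)
  (sE : E →+* E) (hsE : ∀ a : O, sE (algebraMap O E a) = algebraMap O E (sO a))
  (φ : L ≃+* L) (hφσ : ∀ z : L, σ (φ z) = coeffMap sE (σ z))
  (φ' : L' ≃+* L') (hφα : ∀ x : L', φ (α x) = α (φ' x))
  (hφu : φ' u' = u')
  (hφw : ∀ z : L, φ (w z) = w (φ z))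

local notation "rI" => redInf ϖ hϖ α σ hσO hσfrac u' U hσu
local notation "rZ" => redZero ϖ hϖ α σ hσO hσfrac u' U hσu w hwO ℓ hwα
local notation "rM" => redM ϖ hϖ α hαO σ hσO hσfrac u' U hσu
local notation "ι" => incl α hαO u'
local notation "W" => Modular.ChartZero.wChart α u' w hwO hww hwu

include hφα hφu in
theorem frob_alpha_u : φ (α u') = α u' := by rw [hφα, hφu]

include hφσ hφα in
theorem sigmaM_frob (x : L') : (σ.comp α) (φ' x) = coeffMap sE ((σ.comp α) x) := by
  rw [RingHom.comp_apply, ← hφα, hφσ]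
  rfl

include hφσ hφw in
theorem sigmaW_frob (z : L) :
    (σ.comp (w : L →+* L)) (φ z) = coeffMap sE ((σ.comp (w : L →+* L)) z) := by
  rw [RingHom.comp_apply, RingEquiv.coe_toRingHom, ← hφw, hφσ]
  rfl

/-- The Frobenius on the level-`ℓM` chart ring `C`. -/
def frobC : Chart O (α u') ≃+* Chart O (α u') :=
  chartAut σ hσO sO sO' hsO sE hsE φ hφσ (α u') (frob_alpha_u α u' φ φ' hφα hφu)

/-- The Frobenius on the level-`M` chart ring `R`. -/
def frobR : Chart O u' ≃+* Chart O u' :=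
  chartAut (σ.comp α) (sigmaM_O α hαO σ hσO) sO sO' hsO sE hsE φ'
    (sigmaM_frob α σ sE φ hφσ φ' hφα) u' hφu

local notation "φC" => frobC α σ hσO u' sO sO' hsO sE hsE φ hφσ φ' hφα hφu
local notation "φR" => frobR α hαO σ hσO u' sO sO' hsO sE hsE φ hφσ φ' hφα hφu

theorem coe_frobC (c : Chart O (α u')) : ((φC c : Chart O (α u')) : L) = φ (c : L) := rfl

theorem coe_frobR (r : Chart O u') : ((φR r : Chart O u') : L') = φ' (r : L') := rfl

/-- The Frobenius commutes with the inclusion `R → C`. -/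
theorem frobC_incl (r : Chart O u') : φC (ι r) = ι (φR r) :=
  Subtype.ext (hφα (r : L'))

include hφw in
/-- The Frobenius commutes with the Atkin–Lehner involution of the chart ring. -/
theorem frobC_wChart (c : Chart O (α u')) : φC (W c) = W (φC c) :=
  Subtype.ext (hφw (c : L))

include hwO hσO hsO hsE hφσ hφα hφu hww hwu in
/-- **`hB`**: `Σ = φ ∘ w` preserves the chart ring, in both directions. -/
theorem isIntegral_frobSwap_iff (x : L) :
    IsIntegral (Algebra.adjoin O ({α u'} : Set L)) x ↔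
      IsIntegral (Algebra.adjoin O ({α u'} : Set L)) ((w.trans φ) x) := by
  have h1 : IsIntegral (Algebra.adjoin O ({α u'} : Set L)) x ↔
      IsIntegral (Algebra.adjoin O ({α u'} : Set L)) (w x) := by
    constructor
    · exact fun hx => Modular.ChartZero.isIntegral_swap w hwO (α u') hwu hx
    · intro hx
      have h := Modular.ChartZero.isIntegral_swap w hwO (α u') hwu hx
      rwa [hww] at h
  rw [h1]
  exact isIntegral_aut_iff σ hσO sO sO' hsO sE hsE φ hφσ (α u')
    (frob_alpha_u α u' φ φ' hφα hφu) (w x)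

variable [Fact ℓ.Prime] [CharP (IsLocalRing.ResidueField O) ℓ]
  (hres : ∀ a : O, IsLocalRing.residue O (sO a) = IsLocalRing.residue O a ^ ℓ)

include hres in
/-- Reduction at `∞` commutes with Frobenius. -/
theorem redInf_frobC (c : Chart O (α u')) :
    rI (φC c) = coeffMap (frobenius (IsLocalRing.ResidueField O) ℓ) (rI c) :=
  redHom_chartAut σ hσO sO sO' hsO sE hsE φ hφσ (α u') (frob_alpha_u α u' φ φ' hφα hφu) ϖ hϖ
    hσfrac U hσu ℓ hres c

include hres hφw in
/-- Reduction at `0` commutes with Frobenius. -/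
theorem redZero_frobC (c : Chart O (α u')) :
    rZ (φC c) = coeffMap (frobenius (IsLocalRing.ResidueField O) ℓ) (rZ c) :=
  redHom_chartAut (σ.comp (w : L →+* L)) (sigmaW_O σ hσO w hwO) sO sO' hsO sE hsE φ
    (sigmaW_frob σ w sE φ hφσ hφw) (α u') (frob_alpha_u α u' φ φ' hφα hφu) ϖ hϖ
    (fun x => hσfrac (w x)) (qExpand O ℓ U) (sigmaW_u α σ u' U hσu w ℓ hwα) ℓ hres c

include hres in
/-- Reduction at level `M` commutes with Frobenius. -/
theorem redM_frobR (r : Chart O u') :
    rM (φR r) = coeffMap (frobenius (IsLocalRing.ResidueField O) ℓ) (rM r) :=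
  redHom_chartAut (σ.comp α) (sigmaM_O α hαO σ hσO) sO sO' hsO sE hsE φ'
    (sigmaM_frob α σ sE φ hφσ φ' hφα) u' hφu ϖ hϖ (fun x => hσfrac (α x)) U hσu ℓ hres r

include hres in
/-- The Frobenius preserves the component `p_∞`. -/
theorem frobC_mem_ker_redInf (c : Chart O (α u')) :
    φC c ∈ RingHom.ker rI ↔ c ∈ RingHom.ker rI := by
  rw [RingHom.mem_ker, RingHom.mem_ker,
    redInf_frobC ϖ hϖ α σ hσO hσfrac u' U hσu ℓ sO sO' hsO sE hsE φ hφσ φ' hφα hφu hres]
  constructor
  · intro h0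
    exact Congr.coeffMap_injective _ (frobenius_inj _ ℓ) (by rw [h0, map_zero])
  · intro h0
    rw [h0, map_zero]

include hres hφw in
/-- The Frobenius preserves the component `p_0`. -/
theorem frobC_mem_ker_redZero (c : Chart O (α u')) :
    φC c ∈ RingHom.ker rZ ↔ c ∈ RingHom.ker rZ := by
  rw [RingHom.mem_ker, RingHom.mem_ker,
    redZero_frobC ϖ hϖ α σ hσO hσfrac u' U hσu w hwO ℓ hwα sO sO' hsO sE hsE φ hφσ φ' hφα hφu
      hφw hres]
  constructor
  · intro h0
    exact Congr.coeffMap_injective _ (frobenius_inj _ ℓ) (by rw [h0, map_zero])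
  · intro h0
    rw [h0, map_zero]

include hres in
/-- **The Kronecker congruence in reduction form** (the hypothesis `hK` of
`Modular.ChartZero.isNodalChart_zero`), with the explicit witness `s = φ⁻¹ r`. -/
theorem qExpand_redM_eq_pow (r : Chart O u') :
    qExpand (IsLocalRing.ResidueField O) ℓ (rM r) = rM ((φR).symm r) ^ ℓ := by
  have h := redM_frobR ϖ hϖ α hαO σ hσO hσfrac u' U hσu ℓ sO sO' hsO sE hsE φ hφσ φ' hφα hφu hres
    ((φR).symm r)
  rw [RingEquiv.apply_symm_apply] at h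
  rw [h, ← Modular.Kronecker.expand_eq_qExpand ℓ (Fact.out : ℓ.Prime).pos,
    Congr.expand_coeffMap_frobenius]

include hres hsO hsE hφσ hφα hφu in
theorem exists_qExpand_redM_eq_pow (r : Chart O u') :
    ∃ s : Chart O u', qExpand (IsLocalRing.ResidueField O) ℓ (rM r) = rM s ^ ℓ :=
  ⟨_, qExpand_redM_eq_pow ϖ hϖ α hαO σ hσO hσfrac u' U hσu ℓ sO sO' hsO sE hsE φ hφσ φ' hφα hφu
    hres r⟩

include hww hwu hsO hsE hφσ hφα hφu hφw hres in
/-- **`h₁₂`**: `Σ = φ ∘ w` maps `p_0` onto `p_∞`. -/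
theorem mem_ker_redZero_iff_frobSwap (x y : Chart O (α u'))
    (hxy : (y : L) = (w.trans φ) (x : L)) : x ∈ RingHom.ker rZ ↔ y ∈ RingHom.ker rI := by
  have hy : y = φC (W x) := Subtype.ext hxy
  rw [hy, frobC_mem_ker_redInf ϖ hϖ α σ hσO hσfrac u' U hσu ℓ sO sO' hsO sE hsE φ hφσ φ' hφα hφu
    hres]
  exact (Modular.ChartZero.wChart_mem_ker_redInf ϖ hϖ α σ hσO hσfrac u' U hσu w hwO ℓ hwα hww
    hwu x).symm

include hww hwu hsO hsE hφσ hφα hφu hφw hres in
/-- **`h₂₁`**: `Σ = φ ∘ w` maps `p_∞` onto `p_0`. -/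
theorem mem_ker_redInf_iff_frobSwap (x y : Chart O (α u'))
    (hxy : (y : L) = (w.trans φ) (x : L)) : x ∈ RingHom.ker rI ↔ y ∈ RingHom.ker rZ := by
  have hy : y = φC (W x) := Subtype.ext hxy
  rw [hy, frobC_mem_ker_redZero ϖ hϖ α σ hσO hσfrac u' U hσu w hwO ℓ hwα sO sO' hsO sE hsE φ hφσ
    φ' hφα hφu hφw hres]
  exact (Modular.ChartZero.wChart_mem_ker_redZero ϖ hϖ α σ hσO hσfrac u' U hσu w hwO ℓ hwα hww
    hwu x).symm

include hwO hσO hsE hφσ hres in
/-- **`hσζ`**: `Σ ζ = ζ ^ ℓ` for an `m`-th root of unity `ζ ∈ O`, `m` a unit of `O`. -/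
theorem frobSwap_root (m : ℕ) (hm : IsUnit (m : O)) (ζ : O) (hζ : ζ ^ m = 1) :
    (w.trans φ) (algebraMap O L ζ) = algebraMap O L ζ ^ ℓ := by
  show φ (w (algebraMap O L ζ)) = _
  rw [hwO, aut_algebraMap σ hσO sO sE hsE φ hφσ, ← map_pow]
  congr 1
  refine eq_of_pow_eq_one_of_residue_eq m hm ?_ ?_ ?_
  · rw [← map_pow, hζ, map_one]
  · rw [← pow_mul, mul_comm, pow_mul, hζ, one_pow]
  · rw [hres, map_pow]

/-! #### The crossing points -/

include hww hwu hsO hsE hφσ hφα hφu hφw hres hϖ in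
/-- **`hnode` from the fibre datum**: `Σ = φ ∘ w` fixes every crossing point of the two
components (`FrobNodes.comap_frobSwap_eq`, with `ψ` the class of `φ⁻¹` on `R ⧸ (ϖ)`). -/
theorem fixesNodes_of_data
    (hdata : @Fibre.Data (Chart O u') (Chart O (α u')) _ _ (ι).toAlgebra (piC u' ϖ)
      (RingHom.ker rI) (RingHom.ker rZ) W) :
    Nodal.FixesNodes (α u') (RingHom.ker rI) (RingHom.ker rZ) (w.trans φ) := by
  letI : Algebra (Chart O u') (Chart O (α u')) := (ι).toAlgebra
  have halg : ∀ a : Chart O u', algebraMap (Chart O u') (Chart O (α u')) a = ι a := fun _ => rfl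
  -- `ψ` : the class of `φ⁻¹` on `R ⧸ (ϖ)`
  let ψ : Chart O u' ⧸ Ideal.span {piC u' ϖ} →+* Chart O u' ⧸ Ideal.span {piC u' ϖ} :=
    Ideal.Quotient.lift _
      ((Ideal.Quotient.mk (Ideal.span {piC u' ϖ})).comp ((φR).symm : Chart O u' →+* Chart O u'))
      (by
        intro a ha
        obtain ⟨b, rfl⟩ := Ideal.mem_span_singleton'.mp ha
        rw [RingHom.comp_apply, Ideal.Quotient.eq_zero_iff_mem, map_mul]
        exact Ideal.mul_mem_left _ _
          (chartAut_symm_piC_mem (σ.comp α) (sigmaM_O α hαO σ hσO) sO sO' hsO sE hsE φ'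
            (sigmaM_frob α σ sE φ hφσ φ' hφα) u' hφu ϖ hϖ))
  have hψmk : ∀ r : Chart O u', ψ (Ideal.Quotient.mk _ r) = Ideal.Quotient.mk _ ((φR).symm r) :=
    fun r => rfl
  have hWι : ∀ r : Chart O u',
      rI (W (ι r)) = qExpand (IsLocalRing.ResidueField O) ℓ (rM r) := fun r => by
    rw [Modular.ChartZero.redInf_wChart ϖ hϖ α σ hσO hσfrac u' U hσu w hwO ℓ hwα hww hwu,
      redZero_incl]
  have hfr : ∀ x, hdata.frob x = ψ x ^ ℓ := by
    refine hdata.frob_eq_pow_of_kronecker ψ ℓ (fun r => ⟨(φR).symm r, (hψmk r).symm, ?_⟩)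
    rw [RingHom.mem_ker, map_sub, halg, halg, hWι, redInf_incl, map_pow,
      qExpand_redM_eq_pow ϖ hϖ α hαO σ hσO hσfrac u' U hσu ℓ sO sO' hsO sE hsE φ hφσ φ' hφα hφu
        hres, sub_self]
  have hφP : ∀ c, φC c ∈ RingHom.ker rI ↔ c ∈ RingHom.ker rI :=
    frobC_mem_ker_redInf ϖ hϖ α σ hσO hσfrac u' U hσu ℓ sO sO' hsO sE hsE φ hφσ φ' hφα hφu hres
  have hψ : ∀ c, ψ (hdata.ev (φC c)) = hdata.ev c := by
    refine FrobNodes.psi_ev_of hdata φC hφP ψ (fun r => ⟨φR r, ?_, ?_⟩)
    · rw [halg, halg, frobC_incl, sub_self]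
      exact zero_mem _
    · rw [hψmk, RingEquiv.symm_apply_apply]
  intro M hM h1 h2 x hx
  haveI := hM.isPrime
  have hcomap := FrobNodes.comap_frobSwap_eq hdata φC
    (frobC_wChart α σ hσO u' w hwO hww hwu sO sO' hsO sE hsE φ hφσ φ' hφα hφu hφw) ψ ℓ
    (Fact.out : ℓ.Prime).pos hfr hψ M (sup_le h1 h2)
  refine ⟨φC (W x), ?_, rfl⟩
  have hx' : x ∈ M.comap (RingEquiv.trans W φC) := by
    rw [hcomap]; exact hx
  exact hx'

include hϖ hαO hσO hσfrac hσu hsO hsE hφσ hφα hφu hres in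
/-- The hypothesis `hfrob` of the `Package` follows from the Frobenius data: the coordinate is
fixed by `φ'`, so `(ρ U)(q^ℓ) = (ρ U)^ℓ`. -/
theorem qExpand_rho_eq_pow :
    qExpand (IsLocalRing.ResidueField O) ℓ (GaussDVR.rho O U) = GaussDVR.rho O U ^ ℓ := by
  have huR : rM (polyChart u' X) = GaussDVR.rho O U := by
    rw [redM_polyChart, Polynomial.map_X, eval₂_X]
  have hfix : (φR).symm (polyChart u' X) = polyChart u' X := by
    rw [RingEquiv.symm_apply_eq]
    apply Subtype.ext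
    show (polyChart u' X : L') = φ' (polyChart u' X : L')
    rw [coe_polyChart, aeval_X, hφu]
  have h := qExpand_redM_eq_pow ϖ hϖ α hαO σ hσO hσfrac u' U hσu ℓ sO sO' hsO sE hsE φ hφσ φ'
    hφα hφu hres (polyChart u' X)
  rwa [hfix, huR] at h

/-- **The fibre datum of the chart zero** (`Fibre.Data`, as in the proof of
`Modular.ChartZero.isNodalChart_zero`), from the hypotheses of `TwoPrimesGauss.package` and the
normality of the level-`M` special fibre. -/
theorem fibreData (hprime : Prime (piC u' ϖ))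
    (hcop : IsCoprime (GaussDVR.rho O U).order (ℓ : ℤ)) (hord : (GaussDVR.rho O U).order ≠ 0)
    (hℓ : 2 ≤ ℓ)
    (hfrob : qExpand (IsLocalRing.ResidueField O) ℓ (GaussDVR.rho O U) = GaussDVR.rho O U ^ ℓ)
    (hrank : ∀ v : Option (Fin 1 ⊕ Fin ℓ) → Chart O (α u'),
      ∃ c : Option (Fin 1 ⊕ Fin ℓ) → Chart O u', c ≠ 0 ∧ ∑ i, ι (c i) * v i = 0)
    (hnormal : IsIntegrallyClosed (Chart O u' ⧸ Ideal.span {piC u' ϖ})) :
    @Fibre.Data (Chart O u') (Chart O (α u')) _ _ (ι).toAlgebra (piC u' ϖ)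
      (RingHom.ker rI) (RingHom.ker rZ) W := by
  letI : Algebra (Chart O u') (Chart O (α u')) := (ι).toAlgebra
  have halg : ∀ a : Chart O u', algebraMap (Chart O u') (Chart O (α u')) a = ι a := fun _ => rfl
  have htr : ∀ p : (IsLocalRing.ResidueField O)[X], p ≠ 0 →
      p.eval₂ HahnSeries.C (GaussDVR.rho O U) ≠ 0 :=
    fun p hp => ExpandIndep.eval₂_ne_zero_of_order_ne_zero (GaussDVR.rho O U) hord p hp
  have hcentre : ∀ a : Chart O u', rM a = 0 → piC u' ϖ ∣ a :=
    dvd_of_redM_eq_zero ϖ hϖ α hαO σ hσO hσfrac u' U hσu hprime htr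
  have hπI : rI (piC (α u') ϖ) = 0 := redHom_piC σ hσO ϖ hϖ hσfrac (α u') U hσu
  have hπZ : rZ (piC (α u') ϖ) = 0 :=
    redHom_piC (σ.comp (w : L →+* L)) (sigmaW_O σ hσO w hwO) ϖ hϖ (fun x => hσfrac (w x))
      (α u') (qExpand O ℓ U) (sigmaW_u α σ u' U hσu w ℓ hwα)
  have hπalg : algebraMap (Chart O u') (Chart O (α u')) (piC u' ϖ) = piC (α u') ϖ :=
    incl_piC ϖ α hαO u'
  exact
    { inf_eq := by
        apply le_antisymm
        · rintro c ⟨hI, hZ⟩
          rw [hπalg, Ideal.mem_span_singleton]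
          exact dvd_of_redInf_redZero ϖ hϖ α hαO σ hσO hσfrac u' U hσu w hwO ℓ hwα hww hprime
            hcop hord hℓ hfrob hwu hrank c hI hZ
        · rw [Ideal.span_singleton_le_iff_mem, hπalg]
          exact ⟨hπI, hπZ⟩
      swap := fun c => Iff.rfl
      invol := fun c => Modular.ChartZero.wChart_wChart α u' w hwO hww hwu c
      onto := fun c => by
        obtain ⟨a, ha⟩ := exists_redInf_sub_eq_zero ϖ hϖ α hαO σ hσO hσfrac u' U hσu w hwO ℓ hwα
          hww hprime hcop hord hℓ hfrob hwu hrank hnormal c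
        exact ⟨a, ha⟩
      ker := fun r hr => by
        rw [RingHom.mem_ker, halg, redInf_incl] at hr
        exact hcentre r hr }

include hww hwu hsO hsE hφσ hφα hφu hφw hres in
/-- **`hnode`**: `Σ = φ ∘ w` fixes the crossing points of the chart zero — from the hypotheses of
`TwoPrimesGauss.package` (without `hfrob`, which follows from the Frobenius data) and the
normality of the level-`M` special fibre. -/
theorem fixesNodes (hprime : Prime (piC u' ϖ))
    (hcop : IsCoprime (GaussDVR.rho O U).order (ℓ : ℤ)) (hord : (GaussDVR.rho O U).order ≠ 0)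
    (hrank : ∀ v : Option (Fin 1 ⊕ Fin ℓ) → Chart O (α u'),
      ∃ c : Option (Fin 1 ⊕ Fin ℓ) → Chart O u', c ≠ 0 ∧ ∑ i, ι (c i) * v i = 0)
    (hnormal : IsIntegrallyClosed (Chart O u' ⧸ Ideal.span {piC u' ϖ})) :
    Nodal.FixesNodes (α u') (RingHom.ker rI) (RingHom.ker rZ) (w.trans φ) :=
  fixesNodes_of_data ϖ hϖ α hαO σ hσO hσfrac u' U hσu w hwO ℓ hwα hww hwu sO sO' hsO sE hsE φ hφσ
    φ' hφα hφu hφw hres
    (fibreData ϖ hϖ α hαO σ hσO hσfrac u' U hσu w hwO ℓ hwα hww hwu hprime hcop hord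
      (Fact.out : ℓ.Prime).two_le
      (qExpand_rho_eq_pow ϖ hϖ α hαO σ hσO hσfrac u' U hσu ℓ sO sO' hsO sE hsE φ hφσ φ' hφα hφu
        hres) hrank hnormal)

end Main

end Fermat.Agent.S35.FrobNodesE
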