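import Fermat.Agent.S35.RootGlueFrobNodal
import Fermat.Agent.S35.FrobNodesE
import Fermat.Agent.S34.ToricSwap
import Fermat.Agent.S34.Modular.Kronecker
import Fermat.Agent.S18.K1Main.Units
import Fermat.Agent.S18.K1Main.JBase

/-!
# PROGRAM U (S35), brick (P1) `FrobDatum`: from an `E`-level datum to `FrobSSRootModular`

Twin of `S34/RootDatum.lean` for the Frobenius relation `(C2')`.

* `HasFrobDatum N A W ℓ E π` : **the exact `E`-level input of S35** at one number field `E` and one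
  uniformiser `π` of `O = A ∩ E`: a coordinate `u`, an `E`-automorphism `w_E` of `LE N E` inducing
  `W`, a nodal datum `D` for `(π, u)` whose primes are the centres of the Gauss valuation and of
  its `w_E`-twist, no crossing point at `u = ∞`, and for every Frobenius element `σ` at `ℓ` the
  chart-zero properties of `Σ = (σ|_E on coefficients) ∘ w_E` (`StabilizesChart`, the two
  inclusions, `FixesNodes`).
* `frobSwap_zeta` : `Σ ζ = ζ ^ ℓ` for a root of unity `ζ ∈ O` of order prime to `ℓ`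
  (so this is NOT a field of the datum).
* `frobSSRootE_of_datum` : `HasFrobDatum → DescendFrob.FrobSSRootE N A W ℓ ℓ m E`
  (given `m ∈ O^×` and a primitive `m`-th root of unity in `O`).
* `frobSSRootModular_of_datum` : the datum over every sufficiently large number field gives
  `DescendFrob.FrobSSRootModular N A W ℓ ℓ m` for every `m > 0` prime to `ℓ`
  (`S := S₀ ∪ {ζ_m}`).
* `frobSS_of_datum` : ... hence `DescendFrob.FrobSS N A W ℓ ℓ m` over `ℚ̄`, for `W` a `ℚ̄`-algebra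
  automorphism; `frobSS_wAL_of_datum` : the case `W = ToricSwap.wAL M ℓ`.
-/

set_option autoImplicit false
set_option linter.unusedSectionVars false
set_option synthInstance.maxHeartbeats 400000
set_option maxHeartbeats 1000000

noncomputable section

namespace Fermat.Agent.S35.FrobDatum

open ModularCurve AlgebraicCurve HahnSeries
open Fermat.Agent.S18.K1Defs Fermat.Agent.S18.K1Top Fermat.Agent.S18.K1Main
open Fermat.Agent.S30 Fermat.Agent.S30.E4 Fermat.Agent.S30.Model Fermat.Agent.S30.Model.GlueChart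
open Fermat.Agent.S34 Fermat.Agent.S34.Nodal Fermat.Agent.S34.Descend Fermat.Agent.S34.TrivModE
open Fermat.Agent.S35.RootGlueFrob

local notation "Qb" => AlgebraicClosure ℚ
local notation "Gq" => (AlgebraicClosure ℚ ≃ₐ[ℚ] AlgebraicClosure ℚ)

/-! ### The `E`-level datum -/

section ELevel

variable (N : ℕ) [NeZero N] (A : ValuationSubring Qb) (E : IntermediateField ℚ Qb) [Normal ℚ E]

/-- **`Σ ζ = ζ ^ ℓ`**: for a Frobenius element `σ` at `ℓ` and an `m`-th root of unity `ζ` of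
`O_E` with `m ∈ O_E^×`, the Frobenius–Atkin–Lehner automorphism raises `ζ` to the `ℓ`-th
power. -/
theorem frobSwap_zeta [Algebra (OE A E) (LE N E)] [IsScalarTower (OE A E) E (LE N E)]
    (wE : LE N E ≃ₐ[E] LE N E) {ℓ : ℕ} {σ : Gq} (hσ : A.IsFrobeniusAt σ ℓ) (m : ℕ)
    (hm : IsUnit (m : OE A E)) (ζ : OE A E) (hζ : ζ ^ m = 1) :
    frobSwap N E wE σ (algebraMap (OE A E) (LE N E) ζ) = algebraMap (OE A E) (LE N E) ζ ^ ℓ := by
  rw [frobSwap_algebraMap N A E wE ⟨σ, hσ.mem_decompositionSubgroup⟩ ζ, ← map_pow]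
  congr 1
  refine FrobNodesE.eq_of_pow_eq_one_of_residue_eq m hm ?_ ?_ ?_
  · rw [← map_pow, hζ, map_one]
  · rw [← pow_mul, mul_comm, pow_mul, hζ, one_pow]
  · rw [map_pow]
    exact Fermat.Agent.S34.Modular.Kronecker.residue_sOE_frob A E hσ ζ

variable [IsDiscreteValuationRing (OE A E)]

/-- **The `E`-level datum of S35** at the number field `E` and the uniformiser `π` of
`O = A ∩ E`, for the level `N`, the swap `W` of `Fb N` and the prime `ℓ` (`O`-algebra structure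
of `LE N E`: the canonical one, `K1Main.algebraOL`):

* a coordinate `u` (transcendental over `E`, `LE N E / E(u)` finite), an `E`-automorphism `w_E`
  of `LE N E` inducing `W` on `Fb N`, a nodal datum `D` for `(π, u)`;
* `u`, `w_E u` are units of the Gauss ring;
* `D.P₁` is the centre of the Gauss valuation `red` on the overlap chart, `D.P₂` the centre of
  `red ∘ w_E`;
* no crossing point of the two components at `u = ∞`;
* for every Frobenius element `σ` at `ℓ`, `Σ = (σ|_E on coefficients) ∘ w_E` stabilises the chart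
  of `u`, maps each of its two primes into the other, and fixes its crossing points. -/
def HasFrobDatum (W : Fb N ≃+* Fb N) (ℓ : ℕ) (π : OE A E) : Prop :=
  letI := algebraOL (OE A E) E (LE N E)
  ∃ (u : LE N E) (wE : LE N E ≃ₐ[E] LE N E) (D : NodalDatum π u),
    Transcendental E u ∧ FiniteDimensional (IntermediateField.adjoin E {u}) (LE N E) ∧
    (∀ z : LE N E, upF N E (wE z) = W (upF N E z)) ∧
    ((u : LaurentSeries E) ∈ GaussDVR.V (OE A E) E) ∧
    (((u⁻¹ : LE N E) : LaurentSeries E) ∈ GaussDVR.V (OE A E) E) ∧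
    (((wE u : LE N E) : LaurentSeries E) ∈ GaussDVR.V (OE A E) E) ∧
    ((((wE u)⁻¹ : LE N E) : LaurentSeries E) ∈ GaussDVR.V (OE A E) E) ∧
    (∀ (x : Overlap (OE A E) u)
      (hx : ((x : LE N E) : LaurentSeries E) ∈ GaussDVR.V (OE A E) E),
      x ∈ D.P₁ ↔ GaussDVR.red (OE A E) E ⟨_, hx⟩ = 0) ∧
    (∀ (x : Overlap (OE A E) u)
      (hx : ((wE (x : LE N E) : LE N E) : LaurentSeries E) ∈ GaussDVR.V (OE A E) E),
      x ∈ D.P₂ ↔ GaussDVR.red (OE A E) E ⟨_, hx⟩ = 0) ∧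
    (∀ (y : Ideal (Chart (OE A E) u⁻¹)) (g : Chart (OE A E) u⁻¹), (g : LE N E) = u⁻¹ →
      y.IsMaximal → g ∈ y → D.P₁.comap (toOverlapInf (OE A E) u) ≤ y →
      D.P₂.comap (toOverlapInf (OE A E) u) ≤ y → False) ∧
    ∀ σ : Gq, A.IsFrobeniusAt σ ℓ →
      StabilizesChart (OE A E) u (frobSwap N E wE σ) ∧
      MapsIntoChart (D.P₁.comap (toOverlapZero (OE A E) u))
        (D.P₂.comap (toOverlapZero (OE A E) u)) (frobSwap N E wE σ) ∧
      MapsIntoChart (D.P₂.comap (toOverlapZero (OE A E) u))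
        (D.P₁.comap (toOverlapZero (OE A E) u)) (frobSwap N E wE σ) ∧
      FixesNodes u (D.P₁.comap (toOverlapZero (OE A E) u))
        (D.P₂.comap (toOverlapZero (OE A E) u)) (frobSwap N E wE σ)

/-- A unit of the Gauss ring has nonzero reduction. -/
theorem red_ne_zero_of_inv_mem {x : LaurentSeries E} (hx : x ∈ GaussDVR.V (OE A E) E)
    (hx' : x⁻¹ ∈ GaussDVR.V (OE A E) E) (hx0 : x ≠ 0) :
    GaussDVR.red (OE A E) E ⟨x, hx⟩ ≠ 0 := by
  intro h0
  have h1 : (⟨x, hx⟩ : GaussDVR.V (OE A E) E) * ⟨x⁻¹, hx'⟩ = 1 :=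
    Subtype.ext (mul_inv_cancel₀ hx0)
  have h2 := congrArg (GaussDVR.red (OE A E) E) h1
  rw [map_mul, h0, zero_mul, map_one] at h2
  exact zero_ne_one h2

/-- **`FrobSSRootE` from the datum.** -/
theorem frobSSRootE_of_datum (W : Fb N ≃+* Fb N) (ℓ m : ℕ) (π : OE A E) (hπ : Irreducible π)
    (hD : HasFrobDatum N A E W ℓ π) (hm : IsUnit (m : OE A E)) (ζ : OE A E)
    (hζ : IsPrimitiveRoot ζ m) : DescendFrob.FrobSSRootE N A W ℓ ℓ m E := by
  letI := algebraOL (OE A E) E (LE N E)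
  haveI := isScalarTower_OL (OE A E) E (LE N E)
  obtain ⟨u, wE, D, hu, hfin, hwE, huV, huV', hwu, hwu', hP₁, hP₂, hNC, hSig⟩ := hD
  have hu0 : u ≠ 0 := fun h0 => hu (h0 ▸ isAlgebraic_zero)
  have hu0' : (u : LaurentSeries E) ≠ 0 := fun h0 => hu0 (Subtype.ext h0)
  have hwu0 : (wE u : LE N E) ≠ 0 := fun h0 => hu0 (wE.injective (by rw [h0, map_zero]))
  have hwu0' : ((wE u : LE N E) : LaurentSeries E) ≠ 0 := fun h0 => hwu0 (Subtype.ext h0)
  have hured : GaussDVR.red (OE A E) E ⟨_, huV⟩ ≠ 0 :=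
    red_ne_zero_of_inv_mem A E huV (by rw [← IntermediateField.coe_inv]; exact huV') hu0'
  have hwured : GaussDVR.red (OE A E) E ⟨_, hwu⟩ ≠ 0 :=
    red_ne_zero_of_inv_mem A E hwu (by rw [← IntermediateField.coe_inv]; exact hwu') hwu0'
  exact frobSSRootE_of_nodal_gauss N A E W ℓ ℓ m π hπ u hu D hm ζ hζ wE hwE huV hured hwu hwured
    hP₁ hP₂ hNC (fun σ hσ => (hSig σ hσ).1) (fun σ hσ => (hSig σ hσ).2.1)
    (fun σ hσ => (hSig σ hσ).2.2.1) (fun σ hσ => (hSig σ hσ).2.2.2)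
    (fun σ hσ => frobSwap_zeta N A E wE hσ m hm ζ hζ.pow_eq_one)

end ELevel

/-! ### The wrapper: `S := S₀ ∪ {ζ_m}` -/

/-- **`FrobSSRootModular` from the datum.**  If over every sufficiently large number field `E`
(normal over `ℚ`) and for every uniformiser `π` of `A ∩ E` the datum `HasFrobDatum` exists, then
`DescendFrob.FrobSSRootModular N A W ℓ ℓ m` holds for every `m > 0` prime to `ℓ`. -/
theorem frobSSRootModular_of_datum (N : ℕ) [NeZero N] {ℓ : ℕ} (hℓ : ℓ.Prime)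
    (A : ValuationSubring Qb) (hA : A.LiesOverPrime ℓ) (W : Fb N ≃+* Fb N) {m : ℕ} (hm : 0 < m)
    (hℓm : ¬ ℓ ∣ m)
    (h : ∃ S₀ : Finset Qb, ∀ (E : IntermediateField ℚ Qb) [FiniteDimensional ℚ E] [Normal ℚ E]
      [IsDiscreteValuationRing (OE A E)], (∀ s ∈ S₀, s ∈ E) →
      ∀ π : OE A E, Irreducible π → HasFrobDatum N A E W ℓ π) :
    DescendFrob.FrobSSRootModular N A W ℓ ℓ m := by
  classical
  obtain ⟨S₀, hS₀⟩ := h
  have : NeZero (m : Qb) := ⟨Nat.cast_ne_zero.mpr hm.ne'⟩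
  obtain ⟨z, hz⟩ := HasEnoughRootsOfUnity.exists_primitiveRoot Qb m
  refine ⟨insert z S₀, fun E _ _ _ hE => ?_⟩
  have hzE : z ∈ E := hE z (Finset.mem_insert_self z S₀)
  obtain ⟨ζ, hζ⟩ := exists_primitiveRoot_OE A E hm hz hzE
  have hmU : IsUnit ((m : ℕ) : OE A E) :=
    isUnit_natCast_OE A E hA m (Nat.Coprime.symm ((Nat.Prime.coprime_iff_not_dvd hℓ).mpr hℓm))
  obtain ⟨π, hπ⟩ := IsDiscreteValuationRing.exists_irreducible (OE A E)
  exact frobSSRootE_of_datum N A E W ℓ m π hπ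
    (hS₀ E (fun s hs => hE s (Finset.mem_insert_of_mem hs)) π hπ) hmU ζ hζ

/-- **(C2') over `ℚ̄` from the datum**, for `W = w` a `ℚ̄`-algebra automorphism of `Fb N`. -/
theorem frobSS_of_datum (N : ℕ) [NeZero N] {ℓ : ℕ} (hℓ : ℓ.Prime)
    (A : ValuationSubring Qb) (hA : A.LiesOverPrime ℓ) (w : Fb N ≃ₐ[Qb] Fb N) {m : ℕ}
    (hm : 0 < m) (hℓm : ¬ ℓ ∣ m)
    (h : ∃ S₀ : Finset Qb, ∀ (E : IntermediateField ℚ Qb) [FiniteDimensional ℚ E] [Normal ℚ E]
      [IsDiscreteValuationRing (OE A E)], (∀ s ∈ S₀, s ∈ E) →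
      ∀ π : OE A E, Irreducible π → HasFrobDatum N A E w.toRingEquiv ℓ π) :
    DescendFrob.FrobSS N A w.toRingEquiv ℓ ℓ m :=
  DescendFrob.frobSS_of_rootModular_algEquiv N hℓ A hA w ℓ hm
    (frobSSRootModular_of_datum N hℓ A hA w.toRingEquiv hm hℓm h)

/-- **(C2') over `ℚ̄` for the Atkin–Lehner swap `wAL M ℓ` from the datum at the level `M ℓ`.** -/
theorem frobSS_wAL_of_datum (M ℓ : ℕ) [NeZero M] [NeZero ℓ] (hℓ : ℓ.Prime) (hℓM : ¬ ℓ ∣ M)
    (A : ValuationSubring Qb) (hA : A.LiesOverPrime ℓ) {m : ℕ} (hm : 0 < m) (hℓm : ¬ ℓ ∣ m)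
    (h : ∃ S₀ : Finset Qb, ∀ (E : IntermediateField ℚ Qb) [FiniteDimensional ℚ E] [Normal ℚ E]
      [IsDiscreteValuationRing (OE A E)], (∀ s ∈ S₀, s ∈ E) →
      ∀ π : OE A E, Irreducible π →
        HasFrobDatum (M * ℓ) A E (ToricSwap.wAL M ℓ hℓ hℓM).toRingEquiv ℓ π) :
    DescendFrob.FrobSS (M * ℓ) A (ToricSwap.wAL M ℓ hℓ hℓM).toRingEquiv ℓ ℓ m :=
  frobSS_of_datum (M * ℓ) hℓ A hA (ToricSwap.wAL M ℓ hℓ hℓM) hm hℓm h

end Fermat.Agent.S35.FrobDatum
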