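import Fermat.Agent.S34.Nodal.Swap
import Fermat.Agent.S34.LocPowK
import Fermat.Agent.S34.TrivModE
import Fermat.Agent.S35.DescendFrob

/-!
# PROGRAM U (S35), brick (d2) `RootGlueFrob`: the `E`-level Frobenius statement from the
`K`-level swap exit

`S35/DescendFrob.lean` (Frobenius twin of `S34/DescendRoot.lean`) reduces the `ℚ̄`-level relation
`(C2')`, `gal σ (W h) * h ^ e = k ^ m`, to the number-field statement
`DescendFrob.FrobSSRootE N A W ℓ e m E`: for a Frobenius element `σ` at `ℓ`, `h ∈ LE N E` with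
`h' = W h`, both Gauss-one, `m ∣ div h` at the places of `LE N E / E`, `k = σ(h') * h ^ e`, and a
Kummer field `M = (LE N E)(θ)`, `θ ^ m = k`, without new constants over `E`: `k` is an `m`-th
power.

This file proves `FrobSSRootE` from

* the `K`-level exit `Nodal.inj_ss_swap` (`S34/Nodal/SwapExit.lean`), consumed here through the
  statement `SwapExit` (its conclusion for one automorphism), so that this file does not depend
  on the proof of the exit (`S35/RootGlueFrobNodal.lean` plugs `inj_ss_swap` in);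
* the modular inputs, as hypotheses: a nodal datum `D` on `L = LE N E`, `O = OE A E`, the swap
  `w_E` over `E`, "Gauss-one at both cusps ⇒ toric".

What is done here:

* `dvd_ord_smul` : semilinear automorphisms permute the places (`m ∣ div (g • h)`); in
  particular NO divisibility hypothesis on `W h` or on `k` is needed;
* `exists_base_of_isIntegral`, `KummerExit.of_field` : conversion of the Kummer-field binders
  (`E`-algebra, no new constants over `E`) into the `O`-form of the `K`-level exit;
* `pow_of_swapExit` : the `K`-level statement with place hypotheses and `E`-binders;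
* `stabilizesChart_of_iff`, `mapsIntoChart_of_iff` : the chart-level shapes of
  `S35/NodalSigma.lean` imply those of `Nodal/Swap.lean`;
* `frobSwap`, `isBaseAut_frobSwap` : `Σ = (σ|_E on coefficients) ∘ w_E`, semilinear over `O_E`;
* `frobSSRootE_of_swapExit` : `FrobSSRootE N A W ℓ e m E`.
-/

set_option autoImplicit false
set_option linter.unusedSectionVars false
set_option synthInstance.maxHeartbeats 400000
set_option maxHeartbeats 1000000

noncomputable section

namespace Fermat.Agent.S35.RootGlueFrob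

open AlgebraicCurve
open Fermat.Agent.S30.Model Fermat.Agent.S30.Model.GlueChart
open Fermat.Agent.S34 Fermat.Agent.S34.Nodal

/-! ### Semilinear automorphisms permute the places -/

section Places

variable {E L : Type*} [Field E] [Field L] [Algebra E L]

/-- A semilinear automorphism permutes the places, hence preserves `m ∣ div`. -/
theorem dvd_ord_smul (g : SemilinearAut E L) {m : ℤ} {h : L}
    (hh : ∀ P : Place E L, m ∣ P.ord h) (P : Place E L) : m ∣ P.ord (g • h) := by
  have h1 : (g • (g⁻¹ • P)).ord (g • h) = (g⁻¹ • P).ord h :=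
    SemilinearAut.ord_smul g (g⁻¹ • P) h
  rw [smul_inv_smul] at h1
  rw [h1]
  exact hh _

/-- `m ∣ div (h ^ c)`. -/
theorem dvd_ord_pow {m : ℤ} {h : L} (hh : ∀ P : Place E L, m ∣ P.ord h) (c : ℕ)
    (P : Place E L) : m ∣ P.ord (h ^ c) := by
  have h1 := P.ord_zpow h (c : ℤ)
  rw [zpow_natCast] at h1
  rw [h1]
  exact Dvd.dvd.mul_left (hh P) _

end Places

/-! ### The Kummer-field binders -/

section Binders

/-- If `E = Frac O` is algebraically closed in `M` and `O` is integrally closed, then `O` is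
integrally closed in `M`. -/
theorem exists_base_of_isIntegral {O E M : Type*} [CommRing O] [IsDomain O]
    [IsIntegrallyClosed O] [Field E] [Algebra O E] [IsFractionRing O E] [Field M] [Algebra E M]
    [Algebra O M] [IsScalarTower O E M]
    (hEM : ∀ x : M, IsAlgebraic E x → ∃ a : E, algebraMap E M a = x) (x : M)
    (hx : IsIntegral O x) : ∃ a : O, algebraMap O M a = x := by
  have halg : IsAlgebraic E x := (hx.tower_top (A := E)).isAlgebraic
  obtain ⟨e, rfl⟩ := hEM x halg
  have he : IsIntegral O e := (isIntegral_algebraMap_iff (algebraMap E M).injective).mp hx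
  obtain ⟨a, rfl⟩ := (IsIntegrallyClosed.isIntegral_iff (K := E)).mp he
  exact ⟨a, IsScalarTower.algebraMap_apply O E M a⟩

/-- **The `K`-level Kummer exit for one element `k`** (`O`-form, the form in which
`Nodal.inj_ss_inertia` / `Nodal.inj_ss_swap` conclude): for every field `M = L(θ)`, `θ ^ m = k`,
in which `O` is integrally closed, `k` is an `m`-th power in `L`. -/
def KummerExit (O : Type*) {L : Type*} [CommRing O] [Field L] [Algebra O L] (m : ℕ) (k : L) :
    Prop :=
  ∀ (M : Type) [Field M] [Algebra L M] [Algebra O M] [IsScalarTower O L M] (θ : M),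
    θ ^ m = algebraMap L M k → Algebra.adjoin L ({θ} : Set M) = ⊤ →
    (∀ x : M, IsIntegral O x → ∃ a : O, algebraMap O M a = x) → ∃ g : L, k = g ^ m

/-- The Kummer exit in the form produced by the descent (`DescendRoot`, `DescendFrob`): `M` an
`E`-algebra (`E = Frac O`) without new constants over `E`. -/
theorem KummerExit.of_field {O E L : Type*} [CommRing O] [IsDomain O] [IsIntegrallyClosed O]
    [Field E] [Algebra O E] [IsFractionRing O E] [Field L] [Algebra E L] [Algebra O L]
    [IsScalarTower O E L] {m : ℕ} {k : L} (hk : KummerExit O m k)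
    (M : Type) [Field M] [Algebra L M] [Algebra E M] [IsScalarTower E L M] (θ : M)
    (hθ : θ ^ m = algebraMap L M k) (hgen : Algebra.adjoin L ({θ} : Set M) = ⊤)
    (hEM : ∀ x : M, IsAlgebraic E x → ∃ a : E, algebraMap E M a = x) : ∃ g : L, k = g ^ m := by
  letI : Algebra O M := ((algebraMap L M).comp (algebraMap O L)).toAlgebra
  haveI : IsScalarTower O L M := IsScalarTower.of_algebraMap_eq (fun _ => rfl)
  haveI : IsScalarTower O E M := IsScalarTower.of_algebraMap_eq (fun a => by
    show algebraMap L M (algebraMap O L a) = algebraMap E M (algebraMap O E a)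
    rw [IsScalarTower.algebraMap_apply O E L, ← IsScalarTower.algebraMap_apply E L M])
  exact hk M θ hθ hgen (exists_base_of_isIntegral hEM)

end Binders

/-! ### Chart-level shapes: `NodalSigma` ⇒ `Nodal/Swap` -/

section Shapes

variable {O L : Type*} [CommRing O] [Field L] [Algebra O L]

/-- The "iff" form of chart stability (hypothesis `hB` of `S35/NodalSigma.lean`) gives
`StabilizesChart`. -/
theorem stabilizesChart_of_iff (t : L) (σ : L ≃+* L)
    (hB : ∀ x : L, IsIntegral (Algebra.adjoin O ({t} : Set L)) x ↔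
      IsIntegral (Algebra.adjoin O ({t} : Set L)) (σ x)) : StabilizesChart O t σ :=
  ⟨fun x hx => (hB x).mp hx, fun x hx => (hB (σ.symm x)).mpr (by rwa [σ.apply_symm_apply])⟩

/-- The "iff" form of "`σ` maps `p` onto `q`" (hypotheses `h₁₂`, `h₂₁` of
`S35/NodalSigma.lean`) gives `MapsIntoChart p q σ`. -/
theorem mapsIntoChart_of_iff {t : L} {σ : L ≃+* L} (hσB : StabilizesChart O t σ)
    {p q : Ideal (Chart O t)}
    (h : ∀ x y : Chart O t, (y : L) = σ (x : L) → (x ∈ p ↔ y ∈ q)) : MapsIntoChart p q σ :=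
  fun x hx => ⟨hσB.equiv x, (h x (hσB.equiv x) rfl).mp hx, rfl⟩

end Shapes

/-! ### The `K`-level statement with place hypotheses -/

section KLevel

variable {O E L : Type*} [CommRing O] [IsDomain O] [IsDiscreteValuationRing O]
  [Field E] [CharZero E] [Algebra O E] [IsFractionRing O E]
  [Field L] [Algebra E L] [Algebra O L] [IsScalarTower O E L]

/-- **The `K`-level swap exit for one automorphism `σ`**: the conclusion of
`Nodal.inj_ss_swap`, for all toric `h` with `m ∣ div h` and `m ∣ div (σ h)` at the places of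
`L / E` (every `LocPow` hypothesis of the exit, for `h`, `σ h` or `σ h * h ^ c`, on either
chart, follows from these by `LocPowK.locPow_both_of_places`). -/
def SwapExit (E : Type*) {O L : Type*} [CommRing O] [Field E] [Field L] [Algebra E L]
    [Algebra O L] {π : O} {u : L} (D : NodalDatum π u) (m : ℕ) (σ : L ≃+* L) (c : ℕ) : Prop :=
  ∀ h : L, D.Toric h → (∀ P : Place E L, (m : ℤ) ∣ P.ord h) →
    (∀ P : Place E L, (m : ℤ) ∣ P.ord (σ h)) → KummerExit O m (σ h * h ^ c)

/-- **`K`-level relation `(C2')` with place hypotheses and `E`-binders.**  `g` a semilinear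
automorphism of `L / E` whose underlying ring automorphism satisfies the swap exit; `h` toric
with `m ∣ ord_P h` at every place of `L / E`; `M = L(θ)`, `θ ^ m = g h * h ^ c`, without new
constants over `E`.  Then `g h * h ^ c` is an `m`-th power in `L`. -/
theorem pow_of_swapExit {π : O} {u : L} (D : NodalDatum π u) (m : ℕ)
    (g : SemilinearAut E L) (c : ℕ)
    (hexit : SwapExit E D m (SemilinearAut.toRingAut g) c)
    (h : L) (hh : D.Toric h) (hdiv : ∀ P : Place E L, (m : ℤ) ∣ P.ord h)
    (M : Type) [Field M] [Algebra L M] [Algebra E M] [IsScalarTower E L M] (θ : M)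
    (hθ : θ ^ m = algebraMap L M (SemilinearAut.toRingAut g h * h ^ c))
    (hgen : Algebra.adjoin L ({θ} : Set M) = ⊤)
    (hEM : ∀ x : M, IsAlgebraic E x → ∃ a : E, algebraMap E M a = x) :
    ∃ r : L, SemilinearAut.toRingAut g h * h ^ c = r ^ m :=
  (hexit h hh hdiv (fun P => dvd_ord_smul g hdiv P)).of_field M θ hθ hgen hEM

end KLevel

/-! ### The `E`-level statement -/

section ELevel

open ModularCurve HahnSeries
open Fermat.Agent.S18.K1Defs Fermat.Agent.S18.K1Top
open Fermat.Agent.S30 Fermat.Agent.S30.E4 Fermat.Agent.S34.Descend Fermat.Agent.S34.TrivModE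

local notation "Qb" => AlgebraicClosure ℚ
local notation "Gq" => (AlgebraicClosure ℚ ≃ₐ[ℚ] AlgebraicClosure ℚ)

variable (N : ℕ) [NeZero N] (A : ValuationSubring Qb) (E : IntermediateField ℚ Qb) [Normal ℚ E]

/-- **The Frobenius–Atkin–Lehner automorphism** `Σ = (σ|_E on the coefficients) ∘ w_E` of
`LE N E`. -/
def frobSwap (wE : LE N E ≃ₐ[E] LE N E) (σ : Gq) : LE N E ≃+* LE N E :=
  (wE : LE N E ≃+* LE N E).trans (galE E N σ)

theorem frobSwap_apply (wE : LE N E ≃ₐ[E] LE N E) (σ : Gq) (x : LE N E) :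
    frobSwap N E wE σ x = galE E N σ (wE x) := rfl

theorem coe_frobSwap (wE : LE N E ≃ₐ[E] LE N E) (σ : Gq) (x : LE N E) :
    ((frobSwap N E wE σ x : LE N E) : LaurentSeries E)
      = coeffMap ((σ.restrictNormal E : E ≃ₐ[ℚ] E) : E →+* E) ((wE x : LE N E) : LaurentSeries E) :=
  rfl

/-- `Σ` as a semilinear automorphism of `LE N E / E` (over `σ|_E`). -/
def frobSwapSL (wE : LE N E ≃ₐ[E] LE N E) (σ : Gq) : SemilinearAut E (LE N E) :=
  arithmeticGalois (modularFunctionFieldFull N) (σ.restrictNormal E) * SemilinearAut.ofAlgAut wE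

theorem toRingAut_frobSwapSL (wE : LE N E ≃ₐ[E] LE N E) (σ : Gq) :
    SemilinearAut.toRingAut (frobSwapSL N E wE σ) = frobSwap N E wE σ := rfl

theorem restrictNormal_inv_apply (σ : Gq) (x : E) :
    σ.restrictNormal E ((σ⁻¹).restrictNormal E x) = x := by
  apply (algebraMap E Qb).injective
  rw [AlgEquiv.restrictNormal_commutes, AlgEquiv.restrictNormal_commutes]
  exact σ.apply_symm_apply _

/-- `Σ` maps constants of `O_E` to constants of `O_E` (through `σ|_E`). -/
theorem frobSwap_algebraMap [Algebra (OE A E) (LE N E)] [IsScalarTower (OE A E) E (LE N E)]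
    (wE : LE N E ≃ₐ[E] LE N E) (σ : A.decompositionSubgroup ℚ) (a : OE A E) :
    frobSwap N E wE (σ : Gq) (algebraMap (OE A E) (LE N E) a)
      = algebraMap (OE A E) (LE N E) (sOE A E σ a) := by
  rw [frobSwap_apply, IsScalarTower.algebraMap_apply (OE A E) E (LE N E), AlgEquiv.commutes,
    IsScalarTower.algebraMap_apply (OE A E) E (LE N E)]
  exact arithmeticRingAut_algebraMap (modularFunctionFieldFull N) _ _

/-- `Σ` is semilinear over `O_E` for `σ` in the decomposition group of `A`. -/
theorem isBaseAut_frobSwap [Algebra (OE A E) (LE N E)] [IsScalarTower (OE A E) E (LE N E)]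
    (wE : LE N E ≃ₐ[E] LE N E) {σ : Gq} (hσ : σ ∈ A.decompositionSubgroup ℚ) :
    IsBaseAut (OE A E) (frobSwap N E wE σ) := by
  constructor
  · intro a
    exact ⟨sOE A E ⟨σ, hσ⟩ a, frobSwap_algebraMap N A E wE ⟨σ, hσ⟩ a⟩
  · intro a
    have hσ' : σ⁻¹ ∈ A.decompositionSubgroup ℚ := inv_mem hσ
    refine ⟨sOE A E ⟨σ⁻¹, hσ'⟩ a, ?_⟩
    rw [RingEquiv.symm_apply_eq, frobSwap_algebraMap N A E wE ⟨σ, hσ⟩]
    congr 1
    apply Subtype.ext
    rw [coe_sOE, coe_sOE]
    exact (restrictNormal_inv_apply E σ (a : E)).symm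

variable [IsDiscreteValuationRing (OE A E)]

/-- **(d2) `FrobSSRootE N A W ℓ e m E` from the `K`-level swap exit.**

Modular inputs (hypotheses): instances `Algebra (OE A E) (LE N E)`, a coordinate `u`, a nodal
datum `D` for `π`, `u`; an `E`-automorphism `w_E` of `LE N E` inducing `W` on `Fb N`; "Gauss-one
for `x` and `w_E x` ⇒ `x` toric for `D`"; and for every Frobenius element `σ` at `ℓ` the
`K`-level swap exit (`Nodal.inj_ss_swap`) for `Σ = σ ∘ w_E` and the exponent `e`.

The two hypotheses `m ∣ div h'`, `m ∣ div k` of `FrobSSRootE` are not used. -/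
theorem frobSSRootE_of_swapExit (W : Fb N ≃+* Fb N) (ℓ e m : ℕ)
    [Algebra (OE A E) (LE N E)] [IsScalarTower (OE A E) E (LE N E)]
    {π : OE A E} {u : LE N E} (D : NodalDatum π u)
    (wE : LE N E ≃ₐ[E] LE N E) (hwE : ∀ z : LE N E, upF N E (wE z) = W (upF N E z))
    (htoric : ∀ (x : LE N E) (hV : (x : LaurentSeries E) ∈ GaussDVR.V (OE A E) E)
      (hV' : ((wE x : LE N E) : LaurentSeries E) ∈ GaussDVR.V (OE A E) E),
      GaussDVR.red (OE A E) E ⟨_, hV⟩ = 1 → GaussDVR.red (OE A E) E ⟨_, hV'⟩ = 1 → D.Toric x)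
    (hexit : ∀ σ : Gq, A.IsFrobeniusAt σ ℓ → SwapExit E D m (frobSwap N E wE σ) e) :
    DescendFrob.FrobSSRootE N A W ℓ e m E := by
  intro σ hσ h h' hL hL' hW hV hV' hred hred' hdiv _ k hk _ M _ _ _ _ _ θ hθ hgen hEM
  -- `h' = w_E h`
  have hw : wE ⟨h, hL⟩ = ⟨h', hL'⟩ := by
    apply upF_injective N E
    rw [hwE]
    exact hW
  have hVw : ((wE ⟨h, hL⟩ : LE N E) : LaurentSeries E) ∈ GaussDVR.V (OE A E) E := by
    rw [hw]; exact hV'
  have hredw : GaussDVR.red (OE A E) E ⟨_, hVw⟩ = 1 := by
    have e0 : ((wE ⟨h, hL⟩ : LE N E) : LaurentSeries E) = h' := by rw [hw]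
    have e1 : (⟨((wE ⟨h, hL⟩ : LE N E) : LaurentSeries E), hVw⟩ : GaussDVR.V (OE A E) E)
        = ⟨h', hV'⟩ := Subtype.ext e0
    rw [e1]; exact hred'
  have hT : D.Toric (⟨h, hL⟩ : LE N E) := htoric ⟨h, hL⟩ hV hVw hred hredw
  -- `k = Σ h * h ^ e`
  have hkeq : k = SemilinearAut.toRingAut (frobSwapSL N E wE σ) ⟨h, hL⟩ * (⟨h, hL⟩ : LE N E) ^ e := by
    apply Subtype.ext
    rw [hk, toRingAut_frobSwapSL]
    show _ = ((frobSwap N E wE σ ⟨h, hL⟩ : LE N E) : LaurentSeries E) * h ^ e
    rw [coe_frobSwap, hw]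
  have hex : SwapExit E D m (SemilinearAut.toRingAut (frobSwapSL N E wE σ)) e := hexit σ hσ
  obtain ⟨r, hr⟩ := pow_of_swapExit D m (frobSwapSL N E wE σ) e hex ⟨h, hL⟩ hT hdiv M θ
    (by rw [← hkeq]; exact hθ) hgen hEM
  exact ⟨r, by rw [hkeq, hr]⟩

end ELevel

end Fermat.Agent.S35.RootGlueFrob
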