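import Mathlib
import Fermat.Agent.S35.FrobNodesE
import Fermat.Agent.S35.RootGlueFrob
import Fermat.Agent.S34.Modular.DatumInf

/-!
# S35 / PROGRAM U (helper133): the Frobenius–Atkin–Lehner hypotheses of the `K`-level swap exit,
level-free, in the contract vocabulary

Setting: the `Package` variable block of `S34/TwoPrimesGauss.lean` together with the abstract
Frobenius data `(sO, sO', sE, φ, φ')` of `S35/FrobNodesE.lean` (layer (A)).  `Σ := w.trans φ`
(`Σ x = φ (w x)`), `t := α u'`, and `P₁`, `P₂` the two Gauss primes of the overlap chart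
(`S34/Modular/Datum.lean`).

This file restates the exits of `FrobNodesE` (which are in the `NodalSigma` vocabulary, for the
chart-zero primes `ker redInf`, `ker redZero`) in the LITERAL shapes consumed by
`Nodal.inj_ss_swap` / `RootGlueFrob.swapExit_of_nodal` / `RootGlueFrob.frobSSRootE_of_nodal_gauss`
for ANY nodal datum whose primes are `Datum.P₁`, `Datum.P₂` (`Datum.mkDatum`,
`Datum.nodalDatum`, `Datum.nodalDatum_of_inv`, … : `rfl`):

* `isBaseAut` : `IsBaseAut O Σ`;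
* `stabilizesChart` : `StabilizesChart O (α u') Σ`;
* `mapsIntoChart₁₂`, `mapsIntoChart₂₁` : `Σ` exchanges `P₁.comap toOverlapZero` and
  `P₂.comap toOverlapZero`;
* `fixesNodes` : `FixesNodes (α u') (P₁.comap toOverlapZero) (P₂.comap toOverlapZero) Σ`;
* `map_root` : `Σ ζ = ζ ^ ℓ` for `ζ` a primitive `m`-th root of unity of `O`, `m ∈ O^×`;
* `no_node_inf` : the hypothesis `hNC` (no crossing point at `u = ∞`) from the cusp separation
  `hsep` at a level-`M` coordinate `x'` with `α x' = (α u')⁻¹` (the shape of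
  `Modular/DatumInf.chartInf_of_cusp`, produced by `Modular/ThetaInf.hsep_of_shape`).
-/

set_option autoImplicit false
set_option linter.unusedSectionVars false
set_option linter.style.haveILetI false

open ModularCurve Polynomial

noncomputable section

namespace Fermat.Agent.S35.FrobPkg

open Fermat.Agent.S30 Fermat.Agent.S30.Model Fermat.Agent.S30.Model.GlueChart Fermat.Agent.S34
  Fermat.Agent.S34.TwoPrimesGauss Fermat.Agent.S34.Modular.Datum

section Main

variable {O E : Type*} [CommRing O] [IsDomain O] [IsDiscreteValuationRing O] [Field E]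
  [Algebra O E] [FaithfulSMul O E]
  {L' L : Type*} [Field L'] [Field L] [Algebra O L'] [Algebra O L]
  (ϖ : O) (hϖ : Irreducible ϖ)
  (α : L' →+* L) (hαO : ∀ r : O, α (algebraMap O L' r) = algebraMap O L r)
  (σ : L →+* LaurentSeries E)
  (hσO : ∀ r : O, σ (algebraMap O L r) = HahnSeries.C (algebraMap O E r))
  (hσfrac : ∀ x : L, σ x ∈ GaussDVR.fracField O E)
  (u' : L') (U : LaurentSeries O) (hσu : σ (α u') = GaussDVR.iota O E U)
  (w : L ≃+* L) (hwO : ∀ r : O, w (algebraMap O L r) = algebraMap O L r)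
  (ℓ : ℕ) [NeZero ℓ]
  (hwα : ∀ x : L', σ (w (α x)) = qExpand E ℓ (σ (α x)))
  (hww : ∀ z : L, w (w z) = z)
  (hwu : IsIntegral (Algebra.adjoin O {α u'}) (w (α u')))
  -- the Frobenius data
  (sO sO' : O →+* O) (hsO : ∀ a : O, sO (sO' a) = a)
  (sE : E →+* E) (hsE : ∀ a : O, sE (algebraMap O E a) = algebraMap O E (sO a))
  (φ : L ≃+* L) (hφσ : ∀ z : L, σ (φ z) = coeffMap sE (σ z))
  (φ' : L' ≃+* L') (hφα : ∀ x : L', φ (α x) = α (φ' x))
  (hφu : φ' u' = u')
  (hφw : ∀ z : L, φ (w z) = w (φ z))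
  (hρ : GaussDVR.rho O U ≠ 0)

local notation "p₁" => P₁ ϖ hϖ α σ hσO hσfrac u' U hσu hρ
local notation "p₂" => P₂ ϖ hϖ α σ hσO hσfrac u' U hσu w hwO ℓ hwα hρ

include hσO hwO hsO hsE hφσ in
/-- `Σ = φ ∘ w` is semilinear over `O`. -/
theorem isBaseAut : Nodal.IsBaseAut O (w.trans φ) := by
  constructor
  · intro a
    refine ⟨sO a, ?_⟩
    show φ (w (algebraMap O L a)) = _
    rw [hwO]
    exact FrobNodesE.aut_algebraMap σ hσO sO sE hsE φ hφσ a
  · intro a
    refine ⟨sO' a, ?_⟩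
    show w.symm (φ.symm (algebraMap O L a)) = _
    rw [FrobNodesE.aut_symm_algebraMap σ hσO sO sO' hsO sE hsE φ hφσ a, RingEquiv.symm_apply_eq,
      hwO]

include hσO hwO hww hwu hsO hsE hφσ hφα hφu in
/-- `Σ = φ ∘ w` maps the chart ring of `α u'` onto itself. -/
theorem stabilizesChart : Nodal.StabilizesChart O (α u') (w.trans φ) :=
  RootGlueFrob.stabilizesChart_of_iff (α u') (w.trans φ)
    (FrobNodesE.isIntegral_frobSwap_iff α σ hσO u' w hwO hww hwu sO sO' hsO sE hsE φ hφσ φ' hφα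
      hφu)

variable [Fact ℓ.Prime] [CharP (IsLocalRing.ResidueField O) ℓ]
  (hres : ∀ a : O, IsLocalRing.residue O (sO a) = IsLocalRing.residue O a ^ ℓ)

include hww hwu hsO hsE hφσ hφα hφu hφw hres in
/-- `Σ` maps the `∞`-component of the chart zero into the `0`-component. -/
theorem mapsIntoChart₁₂ :
    Nodal.MapsIntoChart ((p₁).comap (Nodal.toOverlapZero O (α u')))
      ((p₂).comap (Nodal.toOverlapZero O (α u'))) (w.trans φ) := by
  rw [comap_zero_P₁, comap_zero_P₂]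
  exact RootGlueFrob.mapsIntoChart_of_iff
    (stabilizesChart α σ hσO u' w hwO hww hwu sO sO' hsO sE hsE φ hφσ φ' hφα hφu)
    (FrobNodesE.mem_ker_redInf_iff_frobSwap ϖ hϖ α σ hσO hσfrac u' U hσu w hwO ℓ hwα hww hwu sO
      sO' hsO sE hsE φ hφσ φ' hφα hφu hφw hres)

include hww hwu hsO hsE hφσ hφα hφu hφw hres in
/-- `Σ` maps the `0`-component of the chart zero into the `∞`-component. -/
theorem mapsIntoChart₂₁ :
    Nodal.MapsIntoChart ((p₂).comap (Nodal.toOverlapZero O (α u')))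
      ((p₁).comap (Nodal.toOverlapZero O (α u'))) (w.trans φ) := by
  rw [comap_zero_P₁, comap_zero_P₂]
  exact RootGlueFrob.mapsIntoChart_of_iff
    (stabilizesChart α σ hσO u' w hwO hww hwu sO sO' hsO sE hsE φ hφσ φ' hφα hφu)
    (FrobNodesE.mem_ker_redZero_iff_frobSwap ϖ hϖ α σ hσO hσfrac u' U hσu w hwO ℓ hwα hww hwu sO
      sO' hsO sE hsE φ hφσ φ' hφα hφu hφw hres)

include hαO hww hwu hsO hsE hφσ hφα hφu hφw hres in
/-- `Σ` fixes the crossing points of the chart zero. -/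
theorem fixesNodes (hprime : Prime (piC u' ϖ))
    (hcop : IsCoprime (GaussDVR.rho O U).order (ℓ : ℤ)) (hord : (GaussDVR.rho O U).order ≠ 0)
    (hrank : ∀ v : Option (Fin 1 ⊕ Fin ℓ) → TwoPrimesGauss.Chart O (α u'),
      ∃ c : Option (Fin 1 ⊕ Fin ℓ) → TwoPrimesGauss.Chart O u',
        c ≠ 0 ∧ ∑ i, incl α hαO u' (c i) * v i = 0)
    (hnormal : IsIntegrallyClosed (TwoPrimesGauss.Chart O u' ⧸ Ideal.span {piC u' ϖ})) :
    Nodal.FixesNodes (α u') ((p₁).comap (Nodal.toOverlapZero O (α u')))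
      ((p₂).comap (Nodal.toOverlapZero O (α u'))) (w.trans φ) := by
  rw [comap_zero_P₁, comap_zero_P₂]
  exact FrobNodesE.fixesNodes ϖ hϖ α hαO σ hσO hσfrac u' U hσu w hwO ℓ hwα hww hwu sO sO' hsO sE
    hsE φ hφσ φ' hφα hφu hφw hres hprime hcop hord hrank hnormal

include hσO hwO hsE hφσ hres in
/-- `Σ ζ = ζ ^ ℓ` for a primitive `m`-th root of unity `ζ` of `O`, `m` a unit of `O`. -/
theorem map_root (m : ℕ) (hm : IsUnit (m : O)) (ζ : O) (hζ : IsPrimitiveRoot ζ m) :
    (w.trans φ) (algebraMap O L ζ) = algebraMap O L ζ ^ ℓ :=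
  FrobNodesE.frobSwap_root σ hσO w hwO ℓ sO sE hsE φ hφσ hres m hm ζ hζ.pow_eq_one

end Main

/-! ### No crossing point at infinity -/

section Inf

variable {O E : Type*} [CommRing O] [IsDomain O] [IsDiscreteValuationRing O] [Field E]
  [Algebra O E] [FaithfulSMul O E]
  {L' L : Type*} [Field L'] [Field L] [Algebra O L'] [Algebra O L]
  (ϖ : O) (hϖ : Irreducible ϖ)
  (α : L' →+* L)
  (σ : L →+* LaurentSeries E)
  (hσO : ∀ r : O, σ (algebraMap O L r) = HahnSeries.C (algebraMap O E r))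
  (hσfrac : ∀ x : L, σ x ∈ GaussDVR.fracField O E)
  (w : L ≃+* L) (hwO : ∀ r : O, w (algebraMap O L r) = algebraMap O L r)
  (ℓ : ℕ) [NeZero ℓ]
  (hwα : ∀ x : L', σ (w (α x)) = qExpand E ℓ (σ (α x)))
  (u' : L') (U : LaurentSeries O) (hσu : σ (α u') = GaussDVR.iota O E U)
  (hρ : GaussDVR.rho O U ≠ 0)
  (x' : L') (Xq : LaurentSeries O) (hσx : σ (α x') = GaussDVR.iota O E Xq)
  (hx : α x' = (α u')⁻¹)

local notation "p₁" => P₁ ϖ hϖ α σ hσO hσfrac u' U hσu hρ
local notation "p₂" => P₂ ϖ hϖ α σ hσO hσfrac u' U hσu w hwO ℓ hwα hρ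
local notation "q₁" => RingHom.ker (redInf ϖ hϖ α σ hσO hσfrac x' Xq hσx)
local notation "q₂" => RingHom.ker (redZero ϖ hϖ α σ hσO hσfrac x' Xq hσx w hwO ℓ hwα)

include hx in
/-- **`hNC`**: no crossing point of the two components on `u = ∞`, from the cusp separation at
the coordinate `x'` (`α x' = (α u')⁻¹`). -/
theorem no_node_inf
    (hsep : ∀ M : Ideal (TwoPrimesGauss.Chart O (α x')), M.IsMaximal →
      Nodal.ChartTransfer.tZero (α x') ∈ M → q₁ ≤ M → q₂ ≤ M → False) :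
    ∀ (y : Ideal (Nodal.Chart O (α u')⁻¹)) (g : Nodal.Chart O (α u')⁻¹), (g : L) = (α u')⁻¹ →
      y.IsMaximal → g ∈ y → (p₁).comap (Nodal.toOverlapInf O (α u')) ≤ y →
      (p₂).comap (Nodal.toOverlapInf O (α u')) ≤ y → False := by
  have h := transport_inf ϖ hϖ α σ hσO hσfrac w hwO ℓ hwα x' Xq hσx u' U hσu hρ hx
    (fun s a b => ∀ M : Ideal (Nodal.Chart O s), M.IsMaximal →
      Nodal.ChartTransfer.tZero s ∈ M → a ≤ M → b ≤ M → False) hsep
  intro y g hg hy hgy h1 h2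
  have hg' : g = Nodal.ChartTransfer.tZero (α u')⁻¹ := Subtype.ext hg
  exact h y hy (hg' ▸ hgy) h1 h2

end Inf

end Fermat.Agent.S35.FrobPkg
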