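import Mathlib
import Fermat.Agent.S35.FrobPkg
import Fermat.Agent.S34.Modular.ThetaInf
import Fermat.Agent.S34.HauptU.Rel

/-!
# S35 / PROGRAM U: the Frobenius–Atkin–Lehner package for ANY nodal datum with Gauss primes

`S35/FrobPkg.lean` (helper133) states the hypotheses of the `K`-level swap exit for the two
overlap primes `Modular.Datum.P₁`, `Modular.Datum.P₂`.  Here the same exits are stated for an
ARBITRARY nodal datum `D : NodalDatum ϖ (α u')` of which only the two membership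
characterisations are known (the conjuncts `hP₁`, `hP₂` of `S34/RootDatum.HasRootDatum` and of
`S35/FrobDatum.HasFrobDatum`):

  `x ∈ D.P₁ ↔ red (σ x) = 0`,   `x ∈ D.P₂ ↔ red (σ (w x)) = 0`.

* `P₁_eq`, `P₂_eq` : such a datum has `D.P₁ = Datum.P₁ ..`, `D.P₂ = Datum.P₂ ..`;
* `sigma_block` : the per-Frobenius block of `HasFrobDatum` (`StabilizesChart`, the two
  inclusions, `FixesNodes`) for `Σ = w.trans φ`;
* `no_node_inf` : `hNC` for `D` from the cusp separation `hsep` at a coordinate `x'` with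
  `α x' = (α u')⁻¹`;
* `no_node_inf_of_theta` : `hNC` for `D` from the integrality of `θ' = w u · x^ℓ` over `O[x]`
  (`x = α x'`, `u = α u' = x⁻¹`), via `Modular.ThetaInf.hsep`;
* `isIntegral_theta_of_relTwo`, `isIntegral_theta_of_relThree` : that integrality for the
  explicit modular equations of the Hauptmoduln of `Γ₀(2)` (`ℓ = 3`) and `Γ₀(3)` (`ℓ = 2`).
-/

set_option autoImplicit false
set_option linter.unusedSectionVars false
set_option linter.style.haveILetI false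

open ModularCurve Polynomial

noncomputable section

namespace Fermat.Agent.S35.FrobPkgD

open Fermat.Agent.S30 Fermat.Agent.S30.Model Fermat.Agent.S30.Model.GlueChart Fermat.Agent.S34
  Fermat.Agent.S34.TwoPrimesGauss Fermat.Agent.S34.Modular.Datum

/-! ### The explicit equations: integrality of `θ' = y⁻¹ x^ℓ` over `O[x]` -/

section Theta

open Fermat.Agent.S34.HauptU.Rel

variable {O L : Type*} [CommRing O] [Field L] [Algebra O L]

/-- `ℓ = 3`, `r = 2`: for `x = s₂(q)`, `y = s₂(q³)`, the function `x³ / y` is integral over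
`O[x]` (divide the modular equation by `x⁴`). -/
theorem isIntegral_theta_of_relTwo {x y : L} (h : RelTwo x y) (hy : y ≠ 0) :
    IsIntegral (Algebra.adjoin O {x}) (y⁻¹ * x ^ 3) := by
  let X : Algebra.adjoin O {x} := ⟨x, Algebra.subset_adjoin rfl⟩
  refine isIntegral_of_monic_rel 4
    ![-X ^ 8, 900 * X ^ 6 + 294912 * X ^ 7 + 16777216 * X ^ 8,
      72 * X ^ 3 - 28422 * X ^ 4 + 294912 * X ^ 5, 1 + 72 * X + 900 * X ^ 2] (y⁻¹ * x ^ 3) ?_
  unfold RelTwo at h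
  simp only [Fin.sum_univ_four, Matrix.cons_val_zero, Matrix.cons_val_one, Matrix.cons_val_two,
    Matrix.cons_val_three, Matrix.head_cons, Matrix.tail_cons, Fin.coe_ofNat_eq_mod, map_neg,
    map_add, map_sub, map_mul, map_pow, map_ofNat, map_one]
  have hX : algebraMap (Algebra.adjoin O {x}) L X = x := rfl
  rw [hX]
  norm_num
  field_simp
  linear_combination x ^ 8 * h

/-- `ℓ = 2`, `r = 3`: for `x = s₃(q)`, `y = s₃(q²)`, the function `x² / y` is integral over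
`O[x]` (divide the modular equation by `x³`). -/
theorem isIntegral_theta_of_relThree {x y : L} (h : RelThree x y) (hy : y ≠ 0) :
    IsIntegral (Algebra.adjoin O {x}) (y⁻¹ * x ^ 2) := by
  let X : Algebra.adjoin O {x} := ⟨x, Algebra.subset_adjoin rfl⟩
  refine isIntegral_of_monic_rel 3
    ![-X ^ 3, 24 * X ^ 2 + 729 * X ^ 3, 1 + 24 * X] (y⁻¹ * x ^ 2) ?_
  unfold RelThree at h
  simp only [Fin.sum_univ_three, Matrix.cons_val_zero, Matrix.cons_val_one, Matrix.cons_val_two,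
    Matrix.head_cons, Matrix.tail_cons, Fin.val_zero, Fin.val_one, Fin.val_two, map_neg, map_add,
    map_mul, map_pow, map_ofNat, map_one]
  have hX : algebraMap (Algebra.adjoin O {x}) L X = x := rfl
  rw [hX]
  norm_num
  field_simp
  linear_combination x ^ 3 * h

end Theta

/-! ### The per-Frobenius block for a datum with Gauss primes -/

section Main

variable {O E : Type*} [CommRing O] [IsDomain O] [IsDiscreteValuationRing O] [Field E]
  [Algebra O E] [FaithfulSMul O E]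
  {L' L : Type*} [Field L'] [Field L] [Algebra O L'] [Algebra O L]
  (ϖ : O) (hϖ : Irreducible ϖ)
  (α : L' →+* L) (hαO : ∀ r : O, α (algebraMap O L' r) = algebraMap O L r)
  (σ : L →+* LaurentSeries E)
  (hσO : ∀ r : O, σ (algebraMap O L r) = HahnSeries.C (algebraMap O E r))
  (hσfrac : ∀ x : L, σ x ∈ GaussDVR.fracField O E)
  (u' : L') (U : LaurentSeries O) (hσu : σ (α u') = GaussDVR.iota O E U)
  (w : L ≃+* L) (hwO : ∀ r : O, w (algebraMap O L r) = algebraMap O L r)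
  (ℓ : ℕ) [NeZero ℓ]
  (hwα : ∀ x : L', σ (w (α x)) = qExpand E ℓ (σ (α x)))
  (hww : ∀ z : L, w (w z) = z)
  (hwu : IsIntegral (Algebra.adjoin O {α u'}) (w (α u')))
  -- the Frobenius data
  (sO sO' : O →+* O) (hsO : ∀ a : O, sO (sO' a) = a)
  (sE : E →+* E) (hsE : ∀ a : O, sE (algebraMap O E a) = algebraMap O E (sO a))
  (φ : L ≃+* L) (hφσ : ∀ z : L, σ (φ z) = coeffMap sE (σ z))
  (φ' : L' ≃+* L') (hφα : ∀ x : L', φ (α x) = α (φ' x))
  (hφu : φ' u' = u')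
  (hφw : ∀ z : L, φ (w z) = w (φ z))
  (hρ : GaussDVR.rho O U ≠ 0)
  -- the datum
  (D : Nodal.NodalDatum ϖ (α u'))
  (hP₁ : ∀ (x : Nodal.Overlap O (α u')) (hx : σ (x : L) ∈ GaussDVR.V O E),
    x ∈ D.P₁ ↔ GaussDVR.red O E ⟨σ (x : L), hx⟩ = 0)
  (hP₂ : ∀ (x : Nodal.Overlap O (α u')) (hx : σ (w (x : L)) ∈ GaussDVR.V O E),
    x ∈ D.P₂ ↔ GaussDVR.red O E ⟨σ (w (x : L)), hx⟩ = 0)

include hP₁ in
/-- A datum whose first prime is the centre of the Gauss valuation has `D.P₁ = Datum.P₁`. -/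
theorem P₁_eq : D.P₁ = P₁ ϖ hϖ α σ hσO hσfrac u' U hσu hρ := by
  ext x
  rw [hP₁ x (sigma_mem_V_overlap ϖ hϖ α σ hσO hσfrac u' U hσu hρ x)]
  exact (mem_P₁_iff ϖ hϖ α σ hσO hσfrac u' U hσu hρ x _).symm

include hP₂ in
/-- A datum whose second prime is the centre of the twisted Gauss valuation has
`D.P₂ = Datum.P₂`. -/
theorem P₂_eq : D.P₂ = P₂ ϖ hϖ α σ hσO hσfrac u' U hσu w hwO ℓ hwα hρ := by
  ext x
  rw [hP₂ x (sigma_w_mem_V_overlap ϖ hϖ α σ hσO hσfrac u' U hσu w hwO ℓ hwα hρ x)]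
  exact (mem_P₂_iff ϖ hϖ α σ hσO hσfrac u' U hσu w hwO ℓ hwα hρ x _).symm

variable [Fact ℓ.Prime] [CharP (IsLocalRing.ResidueField O) ℓ]
  (hres : ∀ a : O, IsLocalRing.residue O (sO a) = IsLocalRing.residue O a ^ ℓ)

include hϖ hαO hσO hσfrac hσu hwO hwα hww hwu hsO hsE hφσ hφα hφu hφw hρ hres hP₁ hP₂ in
/-- **The per-Frobenius block of `HasFrobDatum`** for a datum with Gauss primes:
`Σ = φ ∘ w` stabilises the chart of `α u'`, exchanges the two primes of the chart and fixes its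
crossing points. -/
theorem sigma_block (hprime : Prime (piC u' ϖ))
    (hcop : IsCoprime (GaussDVR.rho O U).order (ℓ : ℤ)) (hord : (GaussDVR.rho O U).order ≠ 0)
    (hrank : ∀ v : Option (Fin 1 ⊕ Fin ℓ) → TwoPrimesGauss.Chart O (α u'),
      ∃ c : Option (Fin 1 ⊕ Fin ℓ) → TwoPrimesGauss.Chart O u',
        c ≠ 0 ∧ ∑ i, incl α hαO u' (c i) * v i = 0)
    (hnormal : IsIntegrallyClosed (TwoPrimesGauss.Chart O u' ⧸ Ideal.span {piC u' ϖ})) :
    Nodal.StabilizesChart O (α u') (w.trans φ) ∧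
    Nodal.MapsIntoChart (D.P₁.comap (Nodal.toOverlapZero O (α u')))
      (D.P₂.comap (Nodal.toOverlapZero O (α u'))) (w.trans φ) ∧
    Nodal.MapsIntoChart (D.P₂.comap (Nodal.toOverlapZero O (α u')))
      (D.P₁.comap (Nodal.toOverlapZero O (α u'))) (w.trans φ) ∧
    Nodal.FixesNodes (α u') (D.P₁.comap (Nodal.toOverlapZero O (α u')))
      (D.P₂.comap (Nodal.toOverlapZero O (α u'))) (w.trans φ) := by
  rw [P₁_eq ϖ hϖ α σ hσO hσfrac u' U hσu hρ D hP₁,
    P₂_eq ϖ hϖ α σ hσO hσfrac u' U hσu w hwO ℓ hwα hρ D hP₂]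
  exact ⟨FrobPkg.stabilizesChart α σ hσO u' w hwO hww hwu sO sO' hsO sE hsE φ hφσ φ' hφα hφu,
    FrobPkg.mapsIntoChart₁₂ ϖ hϖ α σ hσO hσfrac u' U hσu w hwO ℓ hwα hww hwu sO sO' hsO sE hsE φ
      hφσ φ' hφα hφu hφw hρ hres,
    FrobPkg.mapsIntoChart₂₁ ϖ hϖ α σ hσO hσfrac u' U hσu w hwO ℓ hwα hww hwu sO sO' hsO sE hsE φ
      hφσ φ' hφα hφu hφw hρ hres,
    FrobPkg.fixesNodes ϖ hϖ α hαO σ hσO hσfrac u' U hσu w hwO ℓ hwα hww hwu sO sO' hsO sE hsE φ
      hφσ φ' hφα hφu hφw hρ hres hprime hcop hord hrank hnormal⟩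

end Main

/-! ### No crossing point at infinity -/

section Inf

variable {O E : Type*} [CommRing O] [IsDomain O] [IsDiscreteValuationRing O] [Field E]
  [Algebra O E] [FaithfulSMul O E]
  {L' L : Type*} [Field L'] [Field L] [Algebra O L'] [Algebra O L]
  (ϖ : O) (hϖ : Irreducible ϖ)
  (α : L' →+* L)
  (σ : L →+* LaurentSeries E)
  (hσO : ∀ r : O, σ (algebraMap O L r) = HahnSeries.C (algebraMap O E r))
  (hσfrac : ∀ x : L, σ x ∈ GaussDVR.fracField O E)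
  (w : L ≃+* L) (hwO : ∀ r : O, w (algebraMap O L r) = algebraMap O L r)
  (ℓ : ℕ) [NeZero ℓ]
  (hwα : ∀ x : L', σ (w (α x)) = qExpand E ℓ (σ (α x)))
  (u' : L') (U : LaurentSeries O) (hσu : σ (α u') = GaussDVR.iota O E U)
  (hρ : GaussDVR.rho O U ≠ 0)
  (x' : L') (Xq : LaurentSeries O) (hσx : σ (α x') = GaussDVR.iota O E Xq)
  (hx : α x' = (α u')⁻¹)
  (D : Nodal.NodalDatum ϖ (α u'))
  (hP₁ : ∀ (x : Nodal.Overlap O (α u')) (hx : σ (x : L) ∈ GaussDVR.V O E),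
    x ∈ D.P₁ ↔ GaussDVR.red O E ⟨σ (x : L), hx⟩ = 0)
  (hP₂ : ∀ (x : Nodal.Overlap O (α u')) (hx : σ (w (x : L)) ∈ GaussDVR.V O E),
    x ∈ D.P₂ ↔ GaussDVR.red O E ⟨σ (w (x : L)), hx⟩ = 0)

local notation "q₁" => RingHom.ker (redInf ϖ hϖ α σ hσO hσfrac x' Xq hσx)
local notation "q₂" => RingHom.ker (redZero ϖ hϖ α σ hσO hσfrac x' Xq hσx w hwO ℓ hwα)

include hϖ hσO hσfrac hwO hwα hσx hx hP₁ hP₂ hρ hσu in
/-- **`hNC` for a datum with Gauss primes**, from the cusp separation at the coordinate `x'`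
(`α x' = (α u')⁻¹`). -/
theorem no_node_inf
    (hsep : ∀ M : Ideal (TwoPrimesGauss.Chart O (α x')), M.IsMaximal →
      Nodal.ChartTransfer.tZero (α x') ∈ M → q₁ ≤ M → q₂ ≤ M → False) :
    ∀ (y : Ideal (Nodal.Chart O (α u')⁻¹)) (g : Nodal.Chart O (α u')⁻¹), (g : L) = (α u')⁻¹ →
      y.IsMaximal → g ∈ y → D.P₁.comap (Nodal.toOverlapInf O (α u')) ≤ y →
      D.P₂.comap (Nodal.toOverlapInf O (α u')) ≤ y → False := by
  rw [P₁_eq ϖ hϖ α σ hσO hσfrac u' U hσu hρ D hP₁,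
    P₂_eq ϖ hϖ α σ hσO hσfrac u' U hσu w hwO ℓ hwα hρ D hP₂]
  exact FrobPkg.no_node_inf ϖ hϖ α σ hσO hσfrac w hwO ℓ hwα u' U hσu hρ x' Xq hσx hx hsep

include hϖ hσO hσfrac hwO hwα hσx hx hP₁ hP₂ hρ hσu in
/-- **`hNC` from the function `θ' = w u · x^ℓ`**: if `θ'` is integral over `O[x]`
(`x = α x' = u⁻¹`), the two components do not meet on `u = ∞`. -/
theorem no_node_inf_of_theta (hww : ∀ z : L, w (w z) = z) (hℓ : 2 ≤ ℓ)
    (hord : (GaussDVR.rho O Xq).order ≠ 0)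
    (hfrob : qExpand (IsLocalRing.ResidueField O) ℓ (GaussDVR.rho O Xq) = GaussDVR.rho O Xq ^ ℓ)
    (hu0 : α u' ≠ 0)
    (hθ : IsIntegral (Algebra.adjoin O {α x'}) (w (α u') * α x' ^ ℓ)) :
    ∀ (y : Ideal (Nodal.Chart O (α u')⁻¹)) (g : Nodal.Chart O (α u')⁻¹), (g : L) = (α u')⁻¹ →
      y.IsMaximal → g ∈ y → D.P₁.comap (Nodal.toOverlapInf O (α u')) ≤ y →
      D.P₂.comap (Nodal.toOverlapInf O (α u')) ≤ y → False :=
  no_node_inf ϖ hϖ α σ hσO hσfrac w hwO ℓ hwα u' U hσu hρ x' Xq hσx hx D hP₁ hP₂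
    (Modular.ThetaInf.hsep ϖ hϖ α σ hσO hσfrac x' Xq hσx w hwO ℓ hwα hww hord hfrob (α u')
      (by rw [hx]; exact mul_inv_cancel₀ hu0) hℓ ⟨w (α u') * α x' ^ ℓ, hθ⟩ rfl
      (Nodal.ChartTransfer.tZero (α x')) rfl)

end Inf

end Fermat.Agent.S35.FrobPkgD
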