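import Mathlib
import Fermat.Agent.S35.FrobDatum
import Fermat.Agent.S35.FrobPkgD
import Fermat.Agent.S34.RootDatumAlpha
import Fermat.Agent.S34.Sat

/-!
# S35 / PROGRAM U (helper133): the Frobenius datum of a GENERAL level-`M` coordinate

Twin of `S34/RootDatumAlpha.hasRootDatum_alpha` for `S35/FrobDatum.HasFrobDatum`.

For ANY level-`M` coordinate `u' ∈ LE M E` (`j`, a Hauptmodul `h_r`, …) with `q`-expansion
`ι U`, `ρ U ≠ 0`, fixed by the coefficientwise Galois action, `LE M E / E(u')` finite: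

* `frob_block` : the per-Frobenius block of `HasFrobDatum` at level `M ℓ` for the coordinate
  `u = α u'`, the swap `HauptU.Plug.wE` and every nodal datum `D` with Gauss primes —
  the `E`-level instantiation of `FrobPkgD.sigma_block` (`sO = σ|_{O_E}`, `sE = σ|_E`,
  `φ = galE E (M ℓ) σ`, `φ' = galE E M σ`);
* `hasFrobDatum_alpha` : `FrobDatum.HasFrobDatum (M ℓ) A E (wAL M ℓ) ℓ π` from a nodal datum `D`
  for `(π, α u')`, the two Gauss characterisations of its primes, `hNC` (no crossing point at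
  `u = ∞`) and the level-`M` facts `hprime`, `hnormal`, `hcop`, `hord`, `hwu`.
-/

set_option autoImplicit false
set_option linter.unusedSectionVars false
set_option linter.unusedVariables false
set_option linter.style.haveILetI false
set_option synthInstance.maxHeartbeats 400000
set_option maxHeartbeats 1000000

open ModularCurve

noncomputable section

namespace Fermat.Agent.S35.FrobAlphaE

open IntermediateField
open Fermat.Agent.S30 Fermat.Agent.S18.K1Defs Fermat.Agent.S18.K1Main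
open Fermat.Agent.S34 Fermat.Agent.S34.TrivModE Fermat.Agent.S34.Nodal
  Fermat.Agent.S34.TwoPrimesRank Fermat.Agent.S34.HauptU
open Fermat.Agent.S35.RootGlueFrob

local notation "Qb" => AlgebraicClosure ℚ
local notation "Gq" => (AlgebraicClosure ℚ ≃ₐ[ℚ] AlgebraicClosure ℚ)

section Datum

variable (M ℓ : ℕ) [NeZero M] [NeZero ℓ] (hℓ : ℓ.Prime) (hℓM : ¬ ℓ ∣ M)
  (A : ValuationSubring Qb) (hA : A.LiesOverPrime ℓ) (E : IntermediateField ℚ Qb) [Normal ℚ E]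
  [IsDiscreteValuationRing (OE A E)]

include hA in
/-- **The per-Frobenius block, `E`-level, general coordinate.** -/
theorem frob_block (π : OE A E) (hπ : Irreducible π) (u' : LE M E)
    [FiniteDimensional (IntermediateField.adjoin E {u'}) (LE M E)]
    (U : LaurentSeries (OE A E))
    (hσu : ((alphaHom M ℓ E u' : LE (M * ℓ) E) : LaurentSeries E) = GaussDVR.iota (OE A E) E U)
    (hρ : GaussDVR.rho (OE A E) U ≠ 0)
    (hgal : ∀ τ : Gq, galE E M τ u' = u')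
    (D : letI := algebraOL (OE A E) E (LE (M * ℓ) E); NodalDatum π (alphaHom M ℓ E u'))
    (hP₁ : letI := algebraOL (OE A E) E (LE (M * ℓ) E)
      ∀ (x : Overlap (OE A E) (alphaHom M ℓ E u'))
      (hx : (((x : LE (M * ℓ) E) : LE (M * ℓ) E) : LaurentSeries E) ∈ GaussDVR.V (OE A E) E),
      x ∈ D.P₁ ↔ GaussDVR.red (OE A E) E ⟨_, hx⟩ = 0)
    (hP₂ : letI := algebraOL (OE A E) E (LE (M * ℓ) E)
      ∀ (x : Overlap (OE A E) (alphaHom M ℓ E u'))
      (hx : ((Plug.wE M ℓ E hℓ hℓM (x : LE (M * ℓ) E) : LE (M * ℓ) E) : LaurentSeries E)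
        ∈ GaussDVR.V (OE A E) E),
      x ∈ D.P₂ ↔ GaussDVR.red (OE A E) E ⟨_, hx⟩ = 0)
    (hprime : letI := algebraOL (OE A E) E (LE M E); Prime (TwoPrimesGauss.piC u' π))
    (hcop : IsCoprime (GaussDVR.rho (OE A E) U).order (ℓ : ℤ))
    (hord : (GaussDVR.rho (OE A E) U).order ≠ 0)
    (hnormal : letI := algebraOL (OE A E) E (LE M E)
      IsIntegrallyClosed (TwoPrimesGauss.Chart (OE A E) u' ⧸
        Ideal.span {TwoPrimesGauss.piC u' π}))
    (hwu : letI := algebraOL (OE A E) E (LE (M * ℓ) E)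
      IsIntegral (Algebra.adjoin (OE A E) {alphaHom M ℓ E u'})
        (Plug.wHom M ℓ E hℓ hℓM (alphaHom M ℓ E u')))
    (σ : Gq) (hσ : A.IsFrobeniusAt σ ℓ) :
    letI := algebraOL (OE A E) E (LE (M * ℓ) E)
    StabilizesChart (OE A E) (alphaHom M ℓ E u')
        (frobSwap (M * ℓ) E (Plug.wE M ℓ E hℓ hℓM) σ) ∧
      MapsIntoChart (D.P₁.comap (toOverlapZero (OE A E) (alphaHom M ℓ E u')))
        (D.P₂.comap (toOverlapZero (OE A E) (alphaHom M ℓ E u')))
        (frobSwap (M * ℓ) E (Plug.wE M ℓ E hℓ hℓM) σ) ∧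
      MapsIntoChart (D.P₂.comap (toOverlapZero (OE A E) (alphaHom M ℓ E u')))
        (D.P₁.comap (toOverlapZero (OE A E) (alphaHom M ℓ E u')))
        (frobSwap (M * ℓ) E (Plug.wE M ℓ E hℓ hℓM) σ) ∧
      FixesNodes (alphaHom M ℓ E u')
        (D.P₁.comap (toOverlapZero (OE A E) (alphaHom M ℓ E u')))
        (D.P₂.comap (toOverlapZero (OE A E) (alphaHom M ℓ E u')))
        (frobSwap (M * ℓ) E (Plug.wE M ℓ E hℓ hℓM) σ) := by
  letI := algebraOL (OE A E) E (LE M E)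
  haveI := isScalarTower_OL (OE A E) E (LE M E)
  letI := algebraOL (OE A E) E (LE (M * ℓ) E)
  haveI := isScalarTower_OL (OE A E) E (LE (M * ℓ) E)
  haveI : Fact ℓ.Prime := ⟨hℓ⟩
  haveI := Sat.charP_residue_OE' A E hℓ hA
  have hσ' : σ⁻¹ ∈ A.decompositionSubgroup ℚ := inv_mem hσ.mem_decompositionSubgroup
  have hsO : ∀ a : OE A E, sOE A E ⟨σ, hσ.mem_decompositionSubgroup⟩ (sOE A E ⟨σ⁻¹, hσ'⟩ a) = a := by
    intro a
    apply Subtype.ext
    rw [coe_sOE, coe_sOE]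
    exact restrictNormal_inv_apply E σ (a : E)
  exact FrobPkgD.sigma_block π hπ (alphaHom M ℓ E) (alphaHom_algebraMap M ℓ E)
    (Plug.sigmaHom (M * ℓ) E) (Plug.sigmaHom_algebraMap (M * ℓ) E)
    (Plug.sigmaHom_mem_fracField (M * ℓ) E A) u' U hσu
    (Plug.wHom M ℓ E hℓ hℓM) (Plug.wHom_algebraMap M ℓ E hℓ hℓM) ℓ
    (Plug.sigmaHom_wHom_alpha M ℓ E hℓ hℓM) (Plug.wHom_wHom M ℓ E hℓ hℓM) hwu
    (sOE A E ⟨σ, hσ.mem_decompositionSubgroup⟩) (sOE A E ⟨σ⁻¹, hσ'⟩) hsO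
    ((σ.restrictNormal E : E ≃ₐ[ℚ] E) : E →+* E)
    (restrictNormal_algebraMap_OE A E ⟨σ, hσ.mem_decompositionSubgroup⟩)
    (galE E (M * ℓ) σ) (coe_galE E (M * ℓ) σ) (galE E M σ)
    (fun x => Plug.galE_alpha M E σ ℓ x) (hgal σ)
    (fun z => (Plug.wE_arithmeticRingAut M ℓ E hℓ hℓM (σ.restrictNormal E) z).symm)
    hρ D hP₁ hP₂ (Modular.Kronecker.residue_sOE_frob A E hσ) hprime hcop hord
    (fun v => hrank_modular_of_finite M ℓ E hℓ hℓM u' v) hnormal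

include hA in
/-- **The Frobenius datum of the coordinate `u = α u'`** at level `M ℓ` (swap `Plug.wE`, the
restriction of `ToricSwap.wAL`), from a nodal datum with the two Gauss characterisations of its
primes, no crossing point at `u = ∞`, and the level-`M` facts. -/
theorem hasFrobDatum_alpha (π : OE A E) (hπ : Irreducible π) (u' : LE M E)
    (hu' : Transcendental E u')
    [FiniteDimensional (IntermediateField.adjoin E {u'}) (LE M E)]
    (U : LaurentSeries (OE A E))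
    (hσu : ((alphaHom M ℓ E u' : LE (M * ℓ) E) : LaurentSeries E) = GaussDVR.iota (OE A E) E U)
    (hρ : GaussDVR.rho (OE A E) U ≠ 0)
    (hgal : ∀ τ : Gq, galE E M τ u' = u')
    (D : letI := algebraOL (OE A E) E (LE (M * ℓ) E); NodalDatum π (alphaHom M ℓ E u'))
    (hP₁ : letI := algebraOL (OE A E) E (LE (M * ℓ) E)
      ∀ (x : Overlap (OE A E) (alphaHom M ℓ E u'))
      (hx : (((x : LE (M * ℓ) E) : LE (M * ℓ) E) : LaurentSeries E) ∈ GaussDVR.V (OE A E) E),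
      x ∈ D.P₁ ↔ GaussDVR.red (OE A E) E ⟨_, hx⟩ = 0)
    (hP₂ : letI := algebraOL (OE A E) E (LE (M * ℓ) E)
      ∀ (x : Overlap (OE A E) (alphaHom M ℓ E u'))
      (hx : ((Plug.wE M ℓ E hℓ hℓM (x : LE (M * ℓ) E) : LE (M * ℓ) E) : LaurentSeries E)
        ∈ GaussDVR.V (OE A E) E),
      x ∈ D.P₂ ↔ GaussDVR.red (OE A E) E ⟨_, hx⟩ = 0)
    (hNC : letI := algebraOL (OE A E) E (LE (M * ℓ) E)
      ∀ (y : Ideal (Chart (OE A E) (alphaHom M ℓ E u')⁻¹))
      (g : Chart (OE A E) (alphaHom M ℓ E u')⁻¹),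
      (g : LE (M * ℓ) E) = (alphaHom M ℓ E u')⁻¹ → y.IsMaximal → g ∈ y →
      D.P₁.comap (toOverlapInf (OE A E) (alphaHom M ℓ E u')) ≤ y →
      D.P₂.comap (toOverlapInf (OE A E) (alphaHom M ℓ E u')) ≤ y → False)
    (hprime : letI := algebraOL (OE A E) E (LE M E); Prime (TwoPrimesGauss.piC u' π))
    (hcop : IsCoprime (GaussDVR.rho (OE A E) U).order (ℓ : ℤ))
    (hord : (GaussDVR.rho (OE A E) U).order ≠ 0)
    (hnormal : letI := algebraOL (OE A E) E (LE M E)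
      IsIntegrallyClosed (TwoPrimesGauss.Chart (OE A E) u' ⧸
        Ideal.span {TwoPrimesGauss.piC u' π}))
    (hwu : letI := algebraOL (OE A E) E (LE (M * ℓ) E)
      IsIntegral (Algebra.adjoin (OE A E) {alphaHom M ℓ E u'})
        (Plug.wHom M ℓ E hℓ hℓM (alphaHom M ℓ E u'))) :
    FrobDatum.HasFrobDatum (M * ℓ) A E (ToricSwap.wAL M ℓ hℓ hℓM).toRingEquiv ℓ π := by
  letI := algebraOL (OE A E) E (LE (M * ℓ) E)
  have hσw : (Plug.sigmaHom (M * ℓ) E).comp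
      (Plug.wHom M ℓ E hℓ hℓM : LE (M * ℓ) E →+* LE (M * ℓ) E) (alphaHom M ℓ E u')
        = GaussDVR.iota (OE A E) E (qExpand (OE A E) ℓ U) :=
    TwoPrimesGauss.sigmaW_u (alphaHom M ℓ E) (Plug.sigmaHom (M * ℓ) E) u' U hσu
      (Plug.wHom M ℓ E hℓ hℓM) ℓ (Plug.sigmaHom_wHom_alpha M ℓ E hℓ hℓM)
  have h1 : ((alphaHom M ℓ E u' : LE (M * ℓ) E) : LaurentSeries E) ∈ GaussDVR.V (OE A E) E :=
    Modular.Datum.tau_u_mem_V (Plug.sigmaHom (M * ℓ) E) (alphaHom M ℓ E u') U hσu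
  have h2 : (((alphaHom M ℓ E u')⁻¹ : LE (M * ℓ) E) : LaurentSeries E) ∈ GaussDVR.V (OE A E) E :=
    Modular.Datum.tau_inv_mem_V (Plug.sigmaHom (M * ℓ) E) (alphaHom M ℓ E u') U hσu hρ
  have h3 : ((Plug.wE M ℓ E hℓ hℓM (alphaHom M ℓ E u') : LE (M * ℓ) E) : LaurentSeries E)
      ∈ GaussDVR.V (OE A E) E :=
    Modular.Datum.tau_u_mem_V ((Plug.sigmaHom (M * ℓ) E).comp
      (Plug.wHom M ℓ E hℓ hℓM : LE (M * ℓ) E →+* LE (M * ℓ) E)) (alphaHom M ℓ E u')
      (qExpand (OE A E) ℓ U) hσw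
  have h4 : (((Plug.wE M ℓ E hℓ hℓM (alphaHom M ℓ E u'))⁻¹ : LE (M * ℓ) E) : LaurentSeries E)
      ∈ GaussDVR.V (OE A E) E := by
    have h := Modular.Datum.tau_inv_mem_V ((Plug.sigmaHom (M * ℓ) E).comp
      (Plug.wHom M ℓ E hℓ hℓM : LE (M * ℓ) E →+* LE (M * ℓ) E)) (alphaHom M ℓ E u')
      (qExpand (OE A E) ℓ U) hσw (Modular.Datum.rho_qExpand_ne_zero U ℓ hρ)
    rw [RingHom.comp_apply, RingEquiv.coe_toRingHom, map_inv₀] at h
    exact h
  exact ⟨alphaHom M ℓ E u', Plug.wE M ℓ E hℓ hℓM, D,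
    RootDatumAlpha.transcendental_alpha M ℓ E u' hu',
    RootDatumAlpha.finite_adjoin_alpha M ℓ E hℓ hℓM u', fun z => Plug.upE_wE M ℓ E hℓ hℓM z,
    h1, h2, h3, h4, hP₁, hP₂, hNC,
    fun σ hσ => frob_block M ℓ hℓ hℓM A hA E π hπ u' U hσu hρ hgal D hP₁ hP₂ hprime hcop hord
      hnormal hwu σ hσ⟩

end Datum

end Fermat.Agent.S35.FrobAlphaE
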