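import Mathlib
import Fermat.Agent.S35.FrobPkg
import Fermat.Agent.S34.Sat
import Fermat.Agent.S34.ChartInfAlt.ModEqE

/-!
# S35 / PROGRAM U (helper133): no crossing point at infinity, `E`-level, coordinate `j`

Level `N = M ℓ`, `O = OE A E`, `α = TwoPrimesRank.alphaHom M ℓ E`,
`σ = HauptU.Plug.sigmaHom (M ℓ) E`, `w = HauptU.Plug.wHom M ℓ E hℓ hℓM`, chart-zero coordinate
`u' = jE M E` (`U = jqModC O`), coordinate at infinity `x' = (jE M E)⁻¹` (`Xq = Sat.XqO O`).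

* `hsep_j` : the cusp separation `hsep` of `Modular/DatumInf.chartInf_of_cusp` at `x' = 1/j`,
  from any modular equation `P` of level `ℓ` over `O` (`PhiShape.IsShape O ℓ P`,
  `ChartInfAlt.exists_isShape_OE`): `Modular/ThetaInf.hsep_of_shape`.
* `hNC_j` : the hypothesis `hNC` of `Nodal.inj_ss_swap` /
  `RootGlueFrob.frobSSRootE_of_nodal_gauss` for every nodal datum with primes `Datum.P₁`,
  `Datum.P₂` at `u' = jE M E`: no maximal ideal of the chart of `(α j)⁻¹` contains the coordinate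
  and both components.
-/

set_option autoImplicit false
set_option linter.unusedSectionVars false
set_option linter.unusedVariables false
set_option linter.style.haveILetI false
set_option synthInstance.maxHeartbeats 400000

open ModularCurve Polynomial

noncomputable section

namespace Fermat.Agent.S35.FrobInfE

open Fermat.Agent.S18.K1Defs Fermat.Agent.S30 Fermat.Agent.S30.E2Deg
open Fermat.Agent.S34 Fermat.Agent.S34.TwoPrimesRank Fermat.Agent.S34.HauptU.Plug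
  Fermat.Agent.S34.TwoPrimesGauss Fermat.Agent.S34.Sat

local notation "Qb" => AlgebraicClosure ℚ

section Main

variable (M ℓ : ℕ) [NeZero M] [NeZero ℓ] (hℓ : ℓ.Prime) (hℓM : ¬ ℓ ∣ M)
  (A : ValuationSubring Qb) (hA : A.LiesOverPrime ℓ) (E : IntermediateField ℚ Qb)
  [IsDiscreteValuationRing (OE A E)]
  [Algebra (OE A E) (LE M E)] [IsScalarTower (OE A E) E (LE M E)]
  [Algebra (OE A E) (LE (M * ℓ) E)] [IsScalarTower (OE A E) E (LE (M * ℓ) E)]
  (π : OE A E) (hπ : Irreducible π)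

theorem jE_ne_zero : jE M E ≠ 0 := fun h0 =>
  transcendental_jE M E (h0 ▸ isAlgebraic_zero)

/-- `α j * α (1/j) = 1`. -/
theorem alpha_mul_alpha_inv : alphaHom M ℓ E (jE M E) * alphaHom M ℓ E (jE M E)⁻¹ = 1 := by
  rw [← map_mul, mul_inv_cancel₀ (jE_ne_zero M E), map_one]

include hA in
/-- **`hsep` at the cusps, `E`-level**: no maximal ideal of the chart ring of `α (1/j)` contains
the coordinate and both Gauss primes. -/
theorem hsep_j (P : (OE A E)[X][X]) (hP : PhiShape.IsShape (OE A E) ℓ P) :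
    ∀ I : Ideal (Chart (OE A E) (alphaHom M ℓ E (jE M E)⁻¹)), I.IsMaximal →
      Nodal.ChartTransfer.tZero (alphaHom M ℓ E (jE M E)⁻¹) ∈ I →
      RingHom.ker (redInf π hπ (alphaHom M ℓ E) (sigmaHom (M * ℓ) E)
        (sigmaHom_algebraMap (M * ℓ) E) (sigmaHom_mem_fracField (M * ℓ) E A) (jE M E)⁻¹
        (XqO (OE A E)) (hσu_inv M ℓ E)) ≤ I →
      RingHom.ker (redZero π hπ (alphaHom M ℓ E) (sigmaHom (M * ℓ) E)
        (sigmaHom_algebraMap (M * ℓ) E) (sigmaHom_mem_fracField (M * ℓ) E A) (jE M E)⁻¹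
        (XqO (OE A E)) (hσu_inv M ℓ E) (wHom M ℓ E hℓ hℓM) (wHom_algebraMap M ℓ E hℓ hℓM) ℓ
        (sigmaHom_wHom_alpha M ℓ E hℓ hℓM)) ≤ I → False := by
  haveI := charP_residue_OE' A E hℓ hA
  exact Modular.ThetaInf.hsep_of_shape π hπ (alphaHom M ℓ E) (sigmaHom (M * ℓ) E)
    (sigmaHom_algebraMap (M * ℓ) E) (sigmaHom_mem_fracField (M * ℓ) E A) (jE M E)⁻¹
    (XqO (OE A E)) (hσu_inv M ℓ E) (wHom M ℓ E hℓ hℓM) (wHom_algebraMap M ℓ E hℓ hℓM) ℓ
    (sigmaHom_wHom_alpha M ℓ E hℓ hℓM) (wHom_wHom M ℓ E hℓ hℓM) (hord_inv _)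
    (hfrob_inv _ ℓ hℓ) (alphaHom M ℓ E (jE M E)) (alpha_mul_alpha_inv M ℓ E) hℓ.two_le P
    hP.monic
    (Modular.ThetaInf.bound_of_shape ℓ hℓ.one_le P hP.natDegree_eq hP.natDegree_coeff_le
      hP.natDegree_coeff_zero_le)
    (ChartInfAlt.root_of_isShape (sigmaHom (M * ℓ) E) (sigmaHom_algebraMap (M * ℓ) E)
      (alphaHom M ℓ E (jE M E)) (hσu_j M ℓ E) (wHom M ℓ E hℓ hℓM (alphaHom M ℓ E (jE M E))) ℓ
      (sigmaHom_wHom_alpha M ℓ E hℓ hℓM (jE M E)) hP)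
    (Nodal.ChartTransfer.tZero (alphaHom M ℓ E (jE M E)⁻¹)) (Nodal.ChartTransfer.coe_tZero _)

include hA in
/-- **`hNC`, `E`-level, coordinate `j`**: no crossing point of the two components of the
overlap primes `Datum.P₁`, `Datum.P₂` on `u = ∞`. -/
theorem hNC_j (P : (OE A E)[X][X]) (hP : PhiShape.IsShape (OE A E) ℓ P) :
    ∀ (y : Ideal (Nodal.Chart (OE A E) (alphaHom M ℓ E (jE M E))⁻¹))
      (g : Nodal.Chart (OE A E) (alphaHom M ℓ E (jE M E))⁻¹),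
      (g : LE (M * ℓ) E) = (alphaHom M ℓ E (jE M E))⁻¹ → y.IsMaximal → g ∈ y →
      (Modular.Datum.P₁ π hπ (alphaHom M ℓ E) (sigmaHom (M * ℓ) E)
        (sigmaHom_algebraMap (M * ℓ) E) (sigmaHom_mem_fracField (M * ℓ) E A) (jE M E)
        (jqModC (OE A E)) (hσu_j M ℓ E) (hρ_j _)).comap
          (Nodal.toOverlapInf (OE A E) (alphaHom M ℓ E (jE M E))) ≤ y →
      (Modular.Datum.P₂ π hπ (alphaHom M ℓ E) (sigmaHom (M * ℓ) E)
        (sigmaHom_algebraMap (M * ℓ) E) (sigmaHom_mem_fracField (M * ℓ) E A) (jE M E)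
        (jqModC (OE A E)) (hσu_j M ℓ E) (wHom M ℓ E hℓ hℓM) (wHom_algebraMap M ℓ E hℓ hℓM) ℓ
        (sigmaHom_wHom_alpha M ℓ E hℓ hℓM) (hρ_j _)).comap
          (Nodal.toOverlapInf (OE A E) (alphaHom M ℓ E (jE M E))) ≤ y → False :=
  FrobPkg.no_node_inf π hπ (alphaHom M ℓ E) (sigmaHom (M * ℓ) E)
    (sigmaHom_algebraMap (M * ℓ) E) (sigmaHom_mem_fracField (M * ℓ) E A) (wHom M ℓ E hℓ hℓM)
    (wHom_algebraMap M ℓ E hℓ hℓM) ℓ (sigmaHom_wHom_alpha M ℓ E hℓ hℓM) (jE M E)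
    (jqModC (OE A E)) (hσu_j M ℓ E) (hρ_j _) (jE M E)⁻¹ (XqO (OE A E)) (hσu_inv M ℓ E)
    (map_inv₀ (alphaHom M ℓ E) (jE M E)) (hsep_j M ℓ hℓ hℓM A hA E π hπ P hP)

end Main

end Fermat.Agent.S35.FrobInfE
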