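import Mathlib
import Fermat.Agent.S34.ChartInfAlt.RootGt3Eps
import Fermat.Agent.S35.FrobAlphaE
import Fermat.Agent.S35.FrobInfE

/-!
# S35 / PROGRAM U (helper133): the geometric exit at residue characteristic `ℓ > 3`

`frobRootGt3` : for every level `M`, every prime `ℓ > 3` not dividing `M`, every place `A` of
`ℚ̄` above `ℓ` and every `m > 0` prime to `ℓ`, the Kummer-field statement
`DescendFrob.FrobSSRootModular (M ℓ) A (wAL M ℓ) ℓ ℓ m` (literally `FinalCases.FrobRootGt3`).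

`E`-level assembly, twin of `S34/ChartInfAlt/RootGt3Eps.lean` (helper24) for the coordinate
`u = α j` at level `M ℓ`:

* `hasFrobDatum_E` : `FrobDatum.HasFrobDatum` from the nodal datum `Modular.Datum.nodalDatum`
  (chart zero: `Sat` + `KroneckerChart.hK_redM_of_coeffEmb`; chart infinity:
  `RootGt3Eps.hinf_E`), the absence of crossing points at `u = ∞` (`FrobInfE.hNC_j`) and the
  per-Frobenius block (`FrobAlphaE.hasFrobDatum_alpha`), given the level-`M` facts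
  (`HauptU.LevelMAux.ChartFacts`) and a modular equation `P` over `OE A E`;
* `frobDatumGt3` : the same uniformly in the number field
  (`HauptU.LevelMAux.exists_levelM_jE`, `ChartInfAlt.exists_isShape_OE`);
* `frobRootGt3` : `FrobDatum.frobSSRootModular_of_datum`.
-/

set_option autoImplicit false
set_option linter.unusedSectionVars false
set_option linter.unusedVariables false
set_option linter.style.haveILetI false
set_option synthInstance.maxHeartbeats 400000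

open ModularCurve Polynomial

noncomputable section

namespace Fermat.Agent.S35.FrobGt3

open Fermat.Agent.S18.K1Defs Fermat.Agent.S30 Fermat.Agent.S30.E2Deg
open Fermat.Agent.S34 Fermat.Agent.S34.Sat
open Fermat.Agent.S34.TwoPrimesRank Fermat.Agent.S34.HauptU.Plug Fermat.Agent.S34.TwoPrimesGauss
open Fermat.Agent.S34.Modular

local notation "Qb" => AlgebraicClosure ℚ
local notation "Gq" => (AlgebraicClosure ℚ ≃ₐ[ℚ] AlgebraicClosure ℚ)

set_option maxHeartbeats 1600000 in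
/-- **The Frobenius datum of the coordinate `u = α j`** at level `M ℓ`, from the level-`M` facts
and a modular equation over `OE A E`. -/
theorem hasFrobDatum_E (M ℓ : ℕ) [NeZero M] [NeZero ℓ] (hℓ : ℓ.Prime) (hℓM : ¬ ℓ ∣ M)
    (A : ValuationSubring Qb) (hA : A.LiesOverPrime ℓ)
    (E : IntermediateField ℚ Qb) [Normal ℚ E] [IsDiscreteValuationRing (OE A E)]
    (π : OE A E) (hπ : Irreducible π)
    (hfacts : letI := Fermat.Agent.S18.K1Main.algebraOL (OE A E) E (LE M E)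
      HauptU.LevelMAux.ChartFacts E π (jE M E) (jE M E)⁻¹)
    (P : (OE A E)[X][X]) (hP : PhiShape.IsShape (OE A E) ℓ P) :
    FrobDatum.HasFrobDatum (M * ℓ) A E (ToricSwap.wAL M ℓ hℓ hℓM).toRingEquiv ℓ π := by
  letI := Fermat.Agent.S18.K1Main.algebraOL (OE A E) E (LE M E)
  haveI := Fermat.Agent.S18.K1Main.isScalarTower_OL (OE A E) E (LE M E)
  letI := Fermat.Agent.S18.K1Main.algebraOL (OE A E) E (LE (M * ℓ) E)
  haveI := Fermat.Agent.S18.K1Main.isScalarTower_OL (OE A E) E (LE (M * ℓ) E)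
  haveI := charP_residue_OE' A E hℓ hA
  have hex := Fermat.Agent.Lib.Frobenius.exists_isFrobeniusAt A hℓ hA
  obtain ⟨φ, hφ⟩ := hex
  have hinf := ChartInfAlt.RootGt3Eps.hinf_E M ℓ hℓ hℓM A hA E π hπ hfacts P hP
  haveI : FiniteDimensional (IntermediateField.adjoin E {jE M E}) (LE M E) := finite_LE M E
  have hgal : ∀ τ : Gq, TrivModE.galE E M τ (jE M E) = jE M E := fun τ =>
    galE_eq_self_of_coe M E τ (jE M E) jq (coe_jE M E)
  exact FrobAlphaE.hasFrobDatum_alpha M ℓ hℓ hℓM A hA E π hπ (jE M E) (transcendental_jE M E)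
    (jqModC (OE A E)) (hσu_j M ℓ E) (hρ_j _) hgal
    (Datum.nodalDatum π hπ (alphaHom M ℓ E) (alphaHom_algebraMap M ℓ E) (sigmaHom (M * ℓ) E)
      (sigmaHom_algebraMap (M * ℓ) E) (sigmaHom_mem_fracField (M * ℓ) E A) (jE M E)
      (jqModC (OE A E)) (hσu_j M ℓ E) (wHom M ℓ E hℓ hℓM) (wHom_algebraMap M ℓ E hℓ hℓM) ℓ
      (sigmaHom_wHom_alpha M ℓ E hℓ hℓM) (wHom_wHom M ℓ E hℓ hℓM) hfacts.prime_zero
      (hcop_j _ ℓ) (hord_j _) hℓ.two_le (hfrob_j _ ℓ hℓ) (hwu_j M ℓ E hℓ hℓM)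
      (hrank_j M ℓ E hℓ hℓM) (hρ_j _) hfacts.dedekind_zero
      (KroneckerChart.hK_redM_of_coeffEmb A E ℓ hℓ hA hφ M π hπ (alphaHom M ℓ E)
        (alphaHom_algebraMap M ℓ E) (sigmaHom (M * ℓ) E) (sigmaHom_algebraMap (M * ℓ) E)
        (sigmaHom_mem_fracField (M * ℓ) E A) (jE M E) (jqModC (OE A E)) (hσu_j M ℓ E)
        (sigma_alpha M ℓ E) jq (coe_jE M E))
      hinf)
    (fun x hx => Datum.mem_P₁_iff π hπ (alphaHom M ℓ E) (sigmaHom (M * ℓ) E)
      (sigmaHom_algebraMap (M * ℓ) E) (sigmaHom_mem_fracField (M * ℓ) E A) (jE M E)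
      (jqModC (OE A E)) (hσu_j M ℓ E) (hρ_j _) x hx)
    (fun x hx => Datum.mem_P₂_iff π hπ (alphaHom M ℓ E) (sigmaHom (M * ℓ) E)
      (sigmaHom_algebraMap (M * ℓ) E) (sigmaHom_mem_fracField (M * ℓ) E A) (jE M E)
      (jqModC (OE A E)) (hσu_j M ℓ E) (wHom M ℓ E hℓ hℓM) (wHom_algebraMap M ℓ E hℓ hℓM) ℓ
      (sigmaHom_wHom_alpha M ℓ E hℓ hℓM) (hρ_j _) x hx)
    (FrobInfE.hNC_j M ℓ hℓ hℓM A hA E π hπ P hP)
    hfacts.prime_zero (hcop_j _ ℓ) (hord_j _) hfacts.normal_zero (hwu_j M ℓ E hℓ hℓM)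

/-- **The Frobenius datum for `ℓ > 3`, uniformly in the number field.** -/
theorem frobDatumGt3 (M ℓ : ℕ) [NeZero M] [NeZero ℓ] (hℓ : ℓ.Prime) (hℓM : ¬ ℓ ∣ M) (h3 : 3 < ℓ)
    (A : ValuationSubring Qb) (hA : A.LiesOverPrime ℓ) :
    ∃ S₀ : Finset Qb, ∀ (E : IntermediateField ℚ Qb) [FiniteDimensional ℚ E] [Normal ℚ E]
      [IsDiscreteValuationRing (OE A E)], (∀ s ∈ S₀, s ∈ E) →
      ∀ π : OE A E, Irreducible π →
        FrobDatum.HasFrobDatum (M * ℓ) A E (ToricSwap.wAL M ℓ hℓ hℓM).toRingEquiv ℓ π := by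
  haveI : Fact ℓ.Prime := ⟨hℓ⟩
  have h1 := HauptU.LevelMAux.exists_levelM_jE A M hℓM h3 hA
  obtain ⟨S₁, hS₁⟩ := h1
  have h2 := ChartInfAlt.exists_isShape_OE hℓ A
  obtain ⟨S₂, hS₂⟩ := h2
  classical
  refine ⟨S₁ ∪ S₂, fun E _ _ _ hE π hπ => ?_⟩
  have hf := hS₁ E (fun s hs => hE s (Finset.mem_union_left _ hs)) π hπ
  have hP' := hS₂ E (fun s hs => hE s (Finset.mem_union_right _ hs))
  obtain ⟨P, hP⟩ := hP'
  exact hasFrobDatum_E M ℓ hℓ hℓM A hA E π hπ hf P hP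

/-- **The geometric exit of S35 at residue characteristic `ℓ > 3`** (literally
`FinalCases.FrobRootGt3`). -/
theorem frobRootGt3 :
    ∀ (M l : ℕ) [NeZero M] [NeZero l] (hl : l.Prime) (hlM : ¬ l ∣ M), 3 < l →
      ∀ A : ValuationSubring Qb, A.LiesOverPrime l → ∀ m : ℕ, 0 < m → ¬ l ∣ m →
        DescendFrob.FrobSSRootModular (M * l) A (ToricSwap.wAL M l hl hlM).toRingEquiv l l m :=
  fun M l _ _ hl hlM h3 A hA _ hm hlm =>
    FrobDatum.frobSSRootModular_of_datum (M * l) hl A hA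
      (ToricSwap.wAL M l hl hlM).toRingEquiv hm hlm (frobDatumGt3 M l hl hlM h3 A hA)

end Fermat.Agent.S35.FrobGt3
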