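/-
S35 / PROGRAM U (helper43; U captain RULING #11) — the small residue characteristics `ℓ ∈ {2, 3}`.

S35 twin of `S34/HauptU/RootDatumH.rootSmall_of_exits`.  Level `M ℓ`, `r = 5 - ℓ ∣ M`, coordinate
`u = α h_r` (the level-`M` Hauptmodul `h_r = 1 / s_r` seen at level `M ℓ`), swap `Plug.wE`.

* `hasFrobDatum_two`, `hasFrobDatum_three` : `FrobDatum.HasFrobDatum (M ℓ) A E wAL ℓ π` from the
  nodal exit `RootDatumH.NodalExit` (a nodal datum with the two Gauss characterisations of its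
  primes) and the level-`M` chart facts `LevelMAux.ChartFacts` of the Hauptmodul:
  `FrobAlphaE.hasFrobDatum_alpha` at `u' = h_r`, with `hNC := NoCuspHaupt.hNC_two / hNC_three`.
* `frobRootSmall_of_exits` : the exit `FrobRootSmall` of S35 (literally
  `S35/FinalCases.FrobRootSmall`) from the SAME two hypotheses as
  `RootDatumH.rootSmall_of_exits` (the nodal exits over all sufficiently large number fields).
-/
import Mathlib
import Fermat.Agent.S35.FrobAlphaE
import Fermat.Agent.S35.NoCuspHaupt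
import Fermat.Agent.S34.HauptU.RootDatumH
import Fermat.Agent.S34.HauptU.LevelMAux

set_option autoImplicit false
set_option linter.unusedSectionVars false
set_option linter.style.haveILetI false
set_option synthInstance.maxHeartbeats 400000
set_option maxHeartbeats 1000000

open ModularCurve

noncomputable section

namespace Fermat.Agent.S35.FrobSmall

open Fermat.Agent.S30 Fermat.Agent.S30.Haupt Fermat.Agent.S18.K1Defs Fermat.Agent.S18.K1Main
open Fermat.Agent.S34 Fermat.Agent.S34.TrivModE Fermat.Agent.S34.Nodal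
open Fermat.Agent.S34.TwoPrimesRank Fermat.Agent.S34.HauptU
open Fermat.Agent.S34.HauptU.RootDatumH

local notation "Qb" => AlgebraicClosure ℚ
local notation "Gq" => (AlgebraicClosure ℚ ≃ₐ[ℚ] AlgebraicClosure ℚ)

section Haupt

variable (M : ℕ) [NeZero M] (A : ValuationSubring Qb) (E : IntermediateField ℚ Qb) [Normal ℚ E]
  [IsDiscreteValuationRing (OE A E)] (π : OE A E)

/-- **`HasFrobDatum` for `ℓ = 3`, `2 ∣ M`**: coordinate `u = α h₂`. -/
theorem hasFrobDatum_two (h3 : Nat.Prime 3) (h3M : ¬ 3 ∣ M) (h2M : 2 ∣ M)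
    (hA : A.LiesOverPrime 3) (hπ : Irreducible π)
    (cf : letI := algebraOL (OE A E) E (LE M E)
      LevelMAux.ChartFacts E π (HorizTwo.h2E M E h2M) (HorizTwo.s2E M E h2M))
    (h : NodalExit M 3 h3 h3M A E π (heckeAlphaBar E M 3 (HorizTwo.h2E M E h2M))) :
    FrobDatum.HasFrobDatum (M * 3) A E (ToricSwap.wAL M 3 h3 h3M).toRingEquiv 3 π := by
  letI := algebraOL (OE A E) E (LE M E)
  letI := algebraOL (OE A E) E (LE (M * 3) E)
  obtain ⟨D, hP₁, hP₂⟩ := h
  haveI := cf.finite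
  haveI : Fact (Nat.Prime 3) := ⟨h3⟩
  haveI : CharP (IsLocalRing.ResidueField (OE A E)) 3 :=
    Modular.Kronecker.charP_residue_OE A E hA
  have hord : (GaussDVR.rho (OE A E) (E2G1Aux.invO (OE A E) Two.s2Z)).order ≠ 0 :=
    HauptU.E.order_rho_invO_ne_zero Two.s2Z
  exact FrobAlphaE.hasFrobDatum_alpha M 3 h3 h3M A hA E π hπ (HorizTwo.h2E M E h2M)
    cf.transcendental (E2G1Aux.invO (OE A E) Two.s2Z) (HauptU.E.coe_alpha_h2E M E 3 h2M)
    (fun h0 => hord (by rw [h0, HahnSeries.order_zero]))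
    (fun τ => Plug.galE_h2E M E τ h2M) D hP₁ hP₂
    (NoCuspHaupt.hNC_two M A E h3 h3M h2M π D hP₁ hP₂) cf.prime_zero
    (HauptU.E.isCoprime_order_rho_invO Two.s2Z 3) hord cf.normal_zero
    (Plug.hwu_h2E M E h3 h3M h2M)

/-- **`HasFrobDatum` for `ℓ = 2`, `3 ∣ M`**: coordinate `u = α h₃`. -/
theorem hasFrobDatum_three (h2 : Nat.Prime 2) (h2M : ¬ 2 ∣ M) (h3M : 3 ∣ M)
    (hA : A.LiesOverPrime 2) (hπ : Irreducible π)
    (cf : letI := algebraOL (OE A E) E (LE M E)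
      LevelMAux.ChartFacts E π (HorizThree.h3E M E h3M) (HorizThree.s3E M E h3M))
    (h : NodalExit M 2 h2 h2M A E π (heckeAlphaBar E M 2 (HorizThree.h3E M E h3M))) :
    FrobDatum.HasFrobDatum (M * 2) A E (ToricSwap.wAL M 2 h2 h2M).toRingEquiv 2 π := by
  letI := algebraOL (OE A E) E (LE M E)
  letI := algebraOL (OE A E) E (LE (M * 2) E)
  obtain ⟨D, hP₁, hP₂⟩ := h
  haveI := cf.finite
  haveI : Fact (Nat.Prime 2) := ⟨h2⟩
  haveI : CharP (IsLocalRing.ResidueField (OE A E)) 2 :=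
    Modular.Kronecker.charP_residue_OE A E hA
  have hord : (GaussDVR.rho (OE A E) (E2G1Aux.invO (OE A E) Three.s3Z)).order ≠ 0 :=
    HauptU.E.order_rho_invO_ne_zero Three.s3Z
  exact FrobAlphaE.hasFrobDatum_alpha M 2 h2 h2M A hA E π hπ (HorizThree.h3E M E h3M)
    cf.transcendental (E2G1Aux.invO (OE A E) Three.s3Z) (HauptU.E.coe_alpha_h3E M E 2 h3M)
    (fun h0 => hord (by rw [h0, HahnSeries.order_zero]))
    (fun τ => Plug.galE_h3E M E τ h3M) D hP₁ hP₂
    (NoCuspHaupt.hNC_three M A E h2 h2M h3M π D hP₁ hP₂) cf.prime_zero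
    (HauptU.E.isCoprime_order_rho_invO Three.s3Z 2) hord cf.normal_zero
    (Plug.hwu_h3E M E h2 h2M h3M)

end Haupt

/-! ### The exit `FrobRootSmall` -/

/-- **The small-characteristic exit of S35** (`= S35/FinalCases.FrobRootSmall`, spelled out) from
the two nodal exits (`ℓ = 3`, `2 ∣ M`, coordinate `α h₂`; `ℓ = 2`, `3 ∣ M`, coordinate `α h₃`)
over all sufficiently large number fields — the SAME hypotheses as
`S34/HauptU/RootDatumH.rootSmall_of_exits`. -/
theorem frobRootSmall_of_exits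
    (hTwo : ∀ (M : ℕ) [NeZero M] (h3 : Nat.Prime 3) (h3M : ¬ 3 ∣ M) (h2M : 2 ∣ M)
      (A : ValuationSubring Qb), A.LiesOverPrime 3 →
      ∃ S₀ : Finset Qb, ∀ (E : IntermediateField ℚ Qb) [FiniteDimensional ℚ E] [Normal ℚ E]
        [IsDiscreteValuationRing (OE A E)], (∀ s ∈ S₀, s ∈ E) →
        ∀ π : OE A E, Irreducible π →
          NodalExit M 3 h3 h3M A E π (heckeAlphaBar E M 3 (HorizTwo.h2E M E h2M)))
    (hThree : ∀ (M : ℕ) [NeZero M] (h2 : Nat.Prime 2) (h2M : ¬ 2 ∣ M) (h3M : 3 ∣ M)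
      (A : ValuationSubring Qb), A.LiesOverPrime 2 →
      ∃ S₀ : Finset Qb, ∀ (E : IntermediateField ℚ Qb) [FiniteDimensional ℚ E] [Normal ℚ E]
        [IsDiscreteValuationRing (OE A E)], (∀ s ∈ S₀, s ∈ E) →
        ∀ π : OE A E, Irreducible π →
          NodalExit M 2 h2 h2M A E π (heckeAlphaBar E M 2 (HorizThree.h3E M E h3M))) :
    ∀ (M l : ℕ) [NeZero M] [NeZero l] (hl : l.Prime) (hlM : ¬ l ∣ M),
      (l = 3 ∧ 2 ∣ M) ∨ (l = 2 ∧ 3 ∣ M) →
      ∀ A : ValuationSubring Qb, A.LiesOverPrime l → ∀ m : ℕ, 0 < m → ¬ l ∣ m →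
        DescendFrob.FrobSSRootModular (M * l) A (ToricSwap.wAL M l hl hlM).toRingEquiv l l m := by
  classical
  intro M ℓ _ _ hℓ hℓM hcase A hA m hm hℓm
  rcases hcase with ⟨rfl, h2M⟩ | ⟨rfl, h3M⟩
  · obtain ⟨S₀, hS₀⟩ := hTwo M hℓ hℓM h2M A hA
    haveI : Fact (Nat.Prime 3) := ⟨hℓ⟩
    obtain ⟨S₁, hS₁⟩ := LevelMAux.exists_levelM_two A M h2M hℓM (by norm_num) hA
    exact FrobDatum.frobSSRootModular_of_datum (M * 3) hℓ A hA _ hm hℓm
      ⟨S₀ ∪ S₁, fun E _ _ _ hE π hπ => hasFrobDatum_two M A E π hℓ hℓM h2M hA hπ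
        (hS₁ E (fun s hs => hE s (Finset.mem_union_right _ hs)) π hπ)
        (hS₀ E (fun s hs => hE s (Finset.mem_union_left _ hs)) π hπ)⟩
  · obtain ⟨S₀, hS₀⟩ := hThree M hℓ hℓM h3M A hA
    haveI : Fact (Nat.Prime 2) := ⟨hℓ⟩
    obtain ⟨S₁, hS₁⟩ := LevelMAux.exists_levelM_three A M h3M hℓM (by norm_num) hA
    exact FrobDatum.frobSSRootModular_of_datum (M * 2) hℓ A hA _ hm hℓm
      ⟨S₀ ∪ S₁, fun E _ _ _ hE π hπ => hasFrobDatum_three M A E π hℓ hℓM h3M hA hπ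
        (hS₁ E (fun s hs => hE s (Finset.mem_union_right _ hs)) π hπ)
        (hS₀ E (fun s hs => hE s (Finset.mem_union_left _ hs)) π hπ)⟩

end Fermat.Agent.S35.FrobSmall
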