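/-
S35 / PROGRAM U (helper43; U captain RULING #11) — the exit `frobRootSmall` of S35.

`FrobSmall.frobRootSmall` : the case `ℓ ∈ {2, 3}` of the Frobenius root statement of S35
(literally `S35/FinalCases.FrobRootSmall`, spelled out), from `FrobSmall.frobRootSmall_of_exits`
and the two nodal exits `S34/HauptU/DatumH.exists_nodalExit_two / _three`
(the same exits that give `S34.Final.RootSmall`).
-/
import Mathlib
import Fermat.Agent.S35.FrobSmall
import Fermat.Agent.S34.HauptU.DatumH

set_option autoImplicit false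

noncomputable section

namespace Fermat.Agent.S35.FrobSmall

open Fermat.Agent.S34

local notation "Qb" => AlgebraicClosure ℚ

/-- **The small-characteristic exit of S35** (`ℓ = 3`, `2 ∣ M` and `ℓ = 2`, `3 ∣ M`). -/
theorem frobRootSmall :
    ∀ (M l : ℕ) [NeZero M] [NeZero l] (hl : l.Prime) (hlM : ¬ l ∣ M),
      (l = 3 ∧ 2 ∣ M) ∨ (l = 2 ∧ 3 ∣ M) →
      ∀ A : ValuationSubring Qb, A.LiesOverPrime l → ∀ m : ℕ, 0 < m → ¬ l ∣ m →
        DescendFrob.FrobSSRootModular (M * l) A (ToricSwap.wAL M l hl hlM).toRingEquiv l l m :=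
  frobRootSmall_of_exits
    (fun M _ h3 h3M h2M A hA => HauptU.DatumH.exists_nodalExit_two M h3 h3M h2M A hA)
    (fun M _ h2 h2M h3M A hA => HauptU.DatumH.exists_nodalExit_three M h2 h2M h3M A hA)

end Fermat.Agent.S35.FrobSmall
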