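/-
PROGRAM U / S35, brick `EigenNormalize`, part 2 (helper63): Betti and Hecke-algebra forms.

* `eq_zero_of_isNewform_parabolic` (C): the eigensystem of a newform of level `M` does not occur
  in the parabolic cohomology `Hom_par(Γ₀(M'), ℂ)` of a proper divisor level `M'`.
* `sum_mul_eq_zero_of_integral` : linear disjointness of an integral structure from `ℂ`.
* `exists_eigenvector_of_character` (E'): every ring homomorphism `χ` from the Hecke algebra
  (away from a set containing the primes of the level) to `ℂ` is the eigencharacter of a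
  nonzero cusp form.
* `not_exists_character_of_isNewform` (E), `exists_separating_poly` (D): consequences for
  newforms.
-/
import Mathlib
import Fermat.Agent.S35.EigenNormalize
import Fermat.Agent.S30.BettiHecke.Occ
import Fermat.Agent.S30.Eigen

set_option autoImplicit false

open CongruenceSubgroup ModularCurve ModularCurve.Period
open scoped TensorProduct

namespace Fermat.Agent.S35.EigenOccurs

open Fermat.Agent.S30.BettiHecke Fermat.Agent.S35.EigenNormalize

/-- **(C)** The eigensystem of a newform of level `M` does not occur in the parabolic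
cohomology of `Γ₀(M')` for a proper divisor `M'` of `M`. -/
theorem eq_zero_of_isNewform_parabolic {M : ℕ} [NeZero M] {g : CuspForm (Gamma0 M) 2}
    (hg : g.IsNewform) {M' : ℕ} [NeZero M'] (hM' : M' ∣ M) (hne : M' ≠ M)
    (φ : Additive (Gamma0 M') →+ ℂ) (hφ : φ ∈ parabolicHoms ℂ (Gamma0 M') ℂ)
    (hT : ∀ (ℓ : ℕ) [NeZero ℓ] (hℓ : ℓ.Prime) (hℓM : ¬ ℓ ∣ M),
      tHom ℂ hℓ (fun h => hℓM (h.trans hM')) φ = ModularFormClass.qCoeff g ℓ • φ) : φ = 0 := by
  rw [← (Fermat.Agent.S21.result M').2] at hφ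
  obtain ⟨⟨f1, f2⟩, rfl⟩ := hφ
  have hinj := (Fermat.Agent.S21.result M').1
  have key : ∀ (ℓ : ℕ) (hℓ : ℓ.Prime) (hℓM : ¬ ℓ ∣ M),
      (CuspForm.heckeTLin 2 hℓ (fun h => hℓM (h.trans hM')) f1,
        CuspForm.heckeTLin 2 hℓ (fun h => hℓM (h.trans hM')) f2) =
      ModularFormClass.qCoeff g ℓ • (f1, f2) := by
    intro ℓ hℓ hℓM
    have : NeZero ℓ := ⟨hℓ.ne_zero⟩
    apply hinj
    rw [← tHom_periodHomPair, hT ℓ hℓ hℓM, map_smul]
  have h1 : f1 = 0 := eq_zero_of_isNewform hg hM' hne f1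
    (fun ℓ hℓ hℓM => congrArg Prod.fst (key ℓ hℓ hℓM))
  have h2 : f2 = 0 := eq_zero_of_isNewform hg hM' hne f2
    (fun ℓ hℓ hℓM => congrArg Prod.snd (key ℓ hℓ hℓM))
  rw [h1, h2]
  exact map_zero _

section LD

/-- **Linear disjointness.**  Let `T` be an abelian group with jointly injective integer
coordinates `e x`, mapped by `ρ` to a complex vector space on which `ℂ`-linear functionals
`ε x` restrict to the `e x`.  Then every `ℂ`-linear relation between the `ρ (m j)` is also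
satisfied by the values `χ (m j)` of any additive `χ : T → ℂ`. -/
theorem sum_mul_eq_zero_of_integral {T Vsp X ι : Type*} [AddCommGroup T] [AddCommGroup Vsp]
    [Module ℂ Vsp] (ρ : T →+ Vsp) (e : X → T →+ ℤ) (he : ∀ t, (∀ x, e x t = 0) → t = 0)
    (ε : X → Vsp →ₗ[ℂ] ℂ) (hε : ∀ x t, ε x (ρ t) = (e x t : ℂ))
    (χ : T →+ ℂ) (s : Finset ι) (q : ι → ℂ) (m : ι → T)
    (h : ∑ j ∈ s, q j • ρ (m j) = 0) : ∑ j ∈ s, q j * χ (m j) = 0 := by
  classical
  -- the `ℚ`-span of the coefficients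
  let W : Submodule ℚ ℂ := Submodule.span ℚ (q '' (s : Set ι))
  have hqW : ∀ j ∈ s, q j ∈ W := fun j hj => Submodule.subset_span ⟨j, hj, rfl⟩
  have : FiniteDimensional ℚ W :=
    FiniteDimensional.span_of_finite ℚ ((Finset.finite_toSet s).image q)
  let b := Module.finBasis ℚ W
  -- coordinates of the coefficients
  let r : ι → Fin (Module.finrank ℚ W) → ℚ := fun j k =>
    if hj : j ∈ s then b.repr ⟨q j, hqW j hj⟩ k else 0
  have hq : ∀ j ∈ s, q j = ∑ k, (r j k : ℂ) * (b k : ℂ) := by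
    intro j hj
    have h1 := b.sum_repr ⟨q j, hqW j hj⟩
    have h2 : ((∑ i, (b.repr ⟨q j, hqW j hj⟩) i • b i : W) : ℂ) = q j :=
      congrArg (Subtype.val : W → ℂ) h1
    rw [← h2]
    simp only [Submodule.coe_sum, Submodule.coe_smul]
    refine Finset.sum_congr rfl fun k _ => ?_
    simp only [r, dif_pos hj]
    rw [Rat.smul_def]
  -- each coordinate family satisfies the relation
  have hk : ∀ k, ∑ j ∈ s, (r j k : ℂ) * χ (m j) = 0 := by
    intro k
    obtain ⟨D, hD⟩ := IsLocalization.exist_integer_multiples (nonZeroDivisors ℤ) s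
      (fun j => r j k)
    choose! n hn using hD
    have hD0 : (D : ℤ) ≠ 0 := nonZeroDivisors.coe_ne_zero D
    have hn' : ∀ j ∈ s, ((n j : ℤ) : ℚ) = (D : ℤ) * r j k := by
      intro j hj
      have := hn j hj
      simpa [zsmul_eq_mul] using this
    -- the integral combination `∑ n j • m j` vanishes
    have ht : ∑ j ∈ s, n j • m j = 0 := by
      apply he
      intro x
      have h1 : ∑ j ∈ s, q j * ((e x (m j) : ℤ) : ℂ) = 0 := by
        have := congrArg (ε x) h
        simpa [map_sum, hε] using this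
      -- the same relation inside `W`
      have h2 : ∑ j ∈ s.attach, ((e x (m j.1) : ℤ) : ℚ) • (⟨q j.1, hqW j.1 j.2⟩ : W) = 0 := by
        apply Subtype.ext
        simp only [Submodule.coe_sum, Submodule.coe_smul, Submodule.coe_zero]
        rw [Finset.sum_attach s (fun j => ((e x (m j) : ℤ) : ℚ) • q j)]
        rw [← h1]
        refine Finset.sum_congr rfl fun j _ => ?_
        rw [Rat.smul_def, mul_comm]
        simp
      have h3 := congrArg (fun w => b.repr w k) h2
      simp only [map_sum, map_smul, Finsupp.coe_finsetSum, Finsupp.coe_smul, Finset.sum_apply,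
        Pi.smul_apply, smul_eq_mul, map_zero, Finsupp.coe_zero, Pi.zero_apply] at h3
      have h4 : ∑ j ∈ s, ((e x (m j) : ℤ) : ℚ) * r j k = 0 := by
        rw [← Finset.sum_attach]
        rw [← h3]
        refine Finset.sum_congr rfl fun j _ => ?_
        simp only [r, dif_pos j.2]
      have h5 : ((∑ j ∈ s, e x (m j) * n j : ℤ) : ℚ) = 0 := by
        push_cast
        rw [Finset.sum_congr rfl fun j hj => by rw [hn' j hj]]
        have : ∑ j ∈ s, ((e x (m j) : ℤ) : ℚ) * (((D : ℤ) : ℚ) * r j k) =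
            ((D : ℤ) : ℚ) * ∑ j ∈ s, ((e x (m j) : ℤ) : ℚ) * r j k := by
          rw [Finset.mul_sum]
          exact Finset.sum_congr rfl fun j _ => by ring
        rw [this, h4, mul_zero]
      have h6 : ∑ j ∈ s, e x (m j) * n j = 0 := by exact_mod_cast h5
      rw [map_sum]
      rw [← h6]
      refine Finset.sum_congr rfl fun j _ => ?_
      rw [map_zsmul, smul_eq_mul, mul_comm]
    have h7 : ∑ j ∈ s, ((n j : ℤ) : ℂ) * χ (m j) = 0 := by
      have := congrArg χ ht
      simpa [map_sum, map_zsmul, zsmul_eq_mul] using this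
    have h8 : (((D : ℤ) : ℚ) : ℂ) * ∑ j ∈ s, (r j k : ℂ) * χ (m j) = 0 := by
      rw [← h7, Finset.mul_sum]
      refine Finset.sum_congr rfl fun j hj => ?_
      have := congrArg (fun z : ℚ => (z : ℂ)) (hn' j hj)
      simp only [Rat.cast_intCast, Rat.cast_mul] at this
      rw [this]
      push_cast
      ring
    have hDC : (((D : ℤ) : ℚ) : ℂ) ≠ 0 := by
      exact_mod_cast hD0
    exact (mul_eq_zero.mp h8).resolve_left hDC
  calc ∑ j ∈ s, q j * χ (m j)
      = ∑ j ∈ s, ∑ k, (b k : ℂ) * ((r j k : ℂ) * χ (m j)) := by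
        refine Finset.sum_congr rfl fun j hj => ?_
        rw [hq j hj, Finset.sum_mul]
        exact Finset.sum_congr rfl fun k _ => by ring
    _ = ∑ k, (b k : ℂ) * ∑ j ∈ s, (r j k : ℂ) * χ (m j) := by
        rw [Finset.sum_comm]
        exact Finset.sum_congr rfl fun k _ => by rw [Finset.mul_sum]
    _ = 0 := by
        refine Finset.sum_eq_zero fun k _ => ?_
        rw [hk k, mul_zero]

end LD

section Occurs

variable {N : ℕ} [NeZero N] (S : Set ℕ) (hS : ∀ q : ℕ, q.Prime → q ∣ N → q ∈ S)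

/-- the integer coordinates of the Hecke algebra: `t ↦ (t • φ) γ` on the Betti lattice. -/
noncomputable def coordZ (x : Lam N × Additive (Gamma0 N)) :
    CuspForm.heckeAlgebra N 2 S →+ ℤ where
  toFun t := ((heckeAct S hS t x.1 : Lam N) : Additive (Gamma0 N) →+ ℤ) x.2
  map_zero' := by simp
  map_add' t t' := by simp

/-- evaluation of a homomorphism at `γ`, as a `ℂ`-linear map. -/
noncomputable def evalL (γ : Additive (Gamma0 N)) : (Additive (Gamma0 N) →+ ℂ) →ₗ[ℂ] ℂ where
  toFun ψ := ψ γ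
  map_add' _ _ := rfl
  map_smul' _ _ := rfl

/-- the complex coordinates on `End(S₂(Γ₀(N)))` restricting to `coordZ`. -/
noncomputable def coordC (x : Lam N × Additive (Gamma0 N)) :
    Module.End ℂ (CuspForm (Gamma0 N) 2) →ₗ[ℂ] ℂ :=
  (evalL x.2).comp ((periodHomPair N).comp
    (LinearMap.prod (LinearMap.applyₗ (exists_periodHomPair_eq x.1).choose)
      (LinearMap.applyₗ (exists_periodHomPair_eq x.1).choose_spec.choose)))

theorem coordC_coe (x : Lam N × Additive (Gamma0 N)) (t : CuspForm.heckeAlgebra N 2 S) :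
    coordC x (t : Module.End ℂ (CuspForm (Gamma0 N) 2)) = (coordZ S hS x t : ℂ) := by
  have h := heckeAct_compat S hS t x.1 _ _ (exists_periodHomPair_eq x.1).choose_spec.choose_spec
  have h' := congrArg (fun ψ : Additive (Gamma0 N) →+ ℂ => ψ x.2) h
  simp only [castHom_apply] at h'
  exact h'.symm

theorem coordZ_injective (t : CuspForm.heckeAlgebra N 2 S) (h : ∀ x, coordZ S hS x t = 0) :
    t = 0 := by
  apply heckeAct_injective S hS
  rw [map_zero]
  refine LinearMap.ext fun φ => Subtype.ext (AddMonoidHom.ext fun γ => ?_)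
  exact h (φ, γ)

include hS in
/-- **(E')** Every ring homomorphism from the Hecke algebra (away from a set `S` containing
the primes of the level) to `ℂ` is the eigencharacter of a nonzero cusp form. -/
theorem exists_eigenvector_of_character (χ : CuspForm.heckeAlgebra N 2 S →+* ℂ) :
    ∃ v : CuspForm (Gamma0 N) 2, v ≠ 0 ∧ ∀ t : CuspForm.heckeAlgebra N 2 S,
      (t : Module.End ℂ (CuspForm (Gamma0 N) 2)) v = χ t • v := by
  have : FiniteDimensional ℂ (CuspForm (Gamma0 N) 2) :=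
    Fermat.Agent.S23.FinDim.finiteDimensional_cuspForm N 2
  let ρ : ℂ ⊗[ℤ] (CuspForm.heckeAlgebra N 2 S) →ₐ[ℂ] Module.End ℂ (CuspForm (Gamma0 N) 2) :=
    Algebra.TensorProduct.lift (Algebra.ofId ℂ _) (CuspForm.heckeAlgebra N 2 S).val
      (fun c t => Algebra.commutes c _)
  let φ : ℂ ⊗[ℤ] (CuspForm.heckeAlgebra N 2 S) →ₐ[ℂ] ℂ :=
    Algebra.TensorProduct.lift (AlgHom.id ℂ ℂ) χ.toIntAlgHom (fun _ _ => Commute.all _ _)
  have key : ∀ a, ρ a = 0 → φ a = 0 := by
    intro a ha
    obtain ⟨s, rfl⟩ := TensorProduct.exists_finset a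
    have h1 : ∑ i ∈ s, i.1 • ((CuspForm.heckeAlgebra N 2 S).val.toRingHom.toAddMonoidHom i.2) = 0 := by
      rw [← ha, map_sum]
      refine Finset.sum_congr rfl fun i _ => ?_
      show _ = ρ (i.1 ⊗ₜ[ℤ] i.2)
      rw [Algebra.TensorProduct.lift_tmul, Algebra.ofId_apply, ← Algebra.smul_def]
      rfl
    have h2 := sum_mul_eq_zero_of_integral
      ((CuspForm.heckeAlgebra N 2 S).val.toRingHom.toAddMonoidHom) (coordZ S hS)
      (coordZ_injective S hS) coordC (fun x t => coordC_coe S hS x t) χ.toAddMonoidHom s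
      (fun i => i.1) (fun i => i.2) h1
    rw [map_sum, ← h2]
    refine Finset.sum_congr rfl fun i _ => ?_
    show φ (i.1 ⊗ₜ[ℤ] i.2) = _
    rw [Algebra.TensorProduct.lift_tmul]
    rfl
  obtain ⟨v, hv0, hv⟩ := Fermat.Agent.S30.Eigen.exists_eigenvector ρ φ key
  refine ⟨v, hv0, fun t => ?_⟩
  have h := hv ((1 : ℂ) ⊗ₜ[ℤ] t)
  have e1 : ρ ((1 : ℂ) ⊗ₜ[ℤ] t) = (t : Module.End ℂ (CuspForm (Gamma0 N) 2)) := by
    show Algebra.TensorProduct.lift _ _ _ _ = _
    rw [Algebra.TensorProduct.lift_tmul, map_one, one_mul]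
    rfl
  have e2 : φ ((1 : ℂ) ⊗ₜ[ℤ] t) = χ t := by
    show Algebra.TensorProduct.lift _ _ _ _ = _
    rw [Algebra.TensorProduct.lift_tmul, map_one, one_mul]
    rfl
  rw [e1, e2] at h
  exact h

end Occurs

section Newform

/-- the set of primes dividing `M`. -/
def badSet (M : ℕ) : Set ℕ := {q | q.Prime ∧ q ∣ M}

theorem badSet_spec {M M' : ℕ} (hM' : M' ∣ M) : ∀ q : ℕ, q.Prime → q ∣ M' → q ∈ badSet M :=
  fun _ hq h => ⟨hq, h.trans hM'⟩

variable {M : ℕ} [NeZero M] {g : CuspForm (Gamma0 M) 2} {M' : ℕ} [NeZero M']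

/-- **(E)** The eigensystem of a newform of level `M` is not a character of the Hecke algebra
(away from `M`) of a proper divisor level `M'`. -/
theorem not_exists_character_of_isNewform (hg : g.IsNewform) (hM' : M' ∣ M) (hne : M' ≠ M)
    (χ : CuspForm.heckeAlgebra M' 2 (badSet M) →+* ℂ)
    (hχ : ∀ (ℓ : ℕ) (hℓ : ℓ.Prime) (hℓM : ¬ ℓ ∣ M),
      χ (CuspForm.heckeAlgebra.T hℓ (fun h => hℓM (h.trans hM')) (fun h => hℓM h.2)) =
        ModularFormClass.qCoeff g ℓ) : False := by
  obtain ⟨v, hv0, hv⟩ := exists_eigenvector_of_character (badSet M) (badSet_spec hM') χ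
  refine hv0 (eq_zero_of_isNewform hg hM' hne v fun ℓ hℓ hℓM => ?_)
  have h := hv (CuspForm.heckeAlgebra.T hℓ (fun h => hℓM (h.trans hM')) (fun h => hℓM h.2))
  rw [hχ ℓ hℓ hℓM] at h
  exact h

/-- the primes not dividing `M`. -/
abbrev GoodPrime (M : ℕ) : Type := {ℓ : ℕ // ℓ.Prime ∧ ¬ ℓ ∣ M}

/-- the generators `T_ℓ`, `ℓ ∤ M`, of the Hecke algebra of level `M' ∣ M` away from `M`. -/
noncomputable def Tgen (hM' : M' ∣ M) (i : GoodPrime M) :
    CuspForm.heckeAlgebra M' 2 (badSet M) :=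
  CuspForm.heckeAlgebra.T i.2.1 (fun h => i.2.2 (h.trans hM')) (fun h => i.2.2 h.2)

omit [NeZero M] in
theorem exists_aeval_Tgen_eq (hM' : M' ∣ M) (x : Module.End ℂ (CuspForm (Gamma0 M') 2))
    (hx : x ∈ CuspForm.heckeAlgebra M' 2 (badSet M)) :
    ∃ P : MvPolynomial (GoodPrime M) ℤ,
      ((MvPolynomial.aeval (Tgen hM') P : CuspForm.heckeAlgebra M' 2 (badSet M)) :
        Module.End ℂ (CuspForm (Gamma0 M') 2)) = x := by
  induction hx using Algebra.adjoin_induction with
  | mem x hx =>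
    rcases hx with ⟨ℓ, hℓ, hℓN, hℓS, rfl⟩ | ⟨q, hqN, hq, hqS, rfl⟩
    · have hℓM : ¬ ℓ ∣ M := fun h => hℓS ⟨hℓ, h⟩
      exact ⟨MvPolynomial.X ⟨ℓ, hℓ, hℓM⟩, by rw [MvPolynomial.aeval_X]; rfl⟩
    · exact absurd ⟨hq, hqN.trans hM'⟩ hqS
  | algebraMap n => exact ⟨MvPolynomial.C n, by rw [MvPolynomial.aeval_C]; rfl⟩
  | add x y _ _ hx hy =>
    obtain ⟨P, rfl⟩ := hx
    obtain ⟨Q, rfl⟩ := hy
    exact ⟨P + Q, by rw [map_add]; rfl⟩
  | mul x y _ _ hx hy =>
    obtain ⟨P, rfl⟩ := hx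
    obtain ⟨Q, rfl⟩ := hy
    exact ⟨P * Q, by rw [map_mul]; rfl⟩

omit [NeZero M] in
theorem aeval_Tgen_surjective (hM' : M' ∣ M) :
    Function.Surjective (MvPolynomial.aeval (R := ℤ) (Tgen (M' := M') hM')) := by
  rintro ⟨x, hx⟩
  obtain ⟨P, hP⟩ := exists_aeval_Tgen_eq hM' x hx
  exact ⟨P, Subtype.ext hP⟩

/-- **(D)** A separating Hecke polynomial: an integral polynomial in the `T_ℓ`, `ℓ ∤ M`, which
vanishes at level `M'` but not at the eigenvalues of the newform `g` of level `M`. -/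
theorem exists_separating_poly (hg : g.IsNewform) (hM' : M' ∣ M) (hne : M' ≠ M) :
    ∃ P : MvPolynomial (GoodPrime M) ℤ, MvPolynomial.aeval (Tgen (M' := M') hM') P = 0 ∧
      MvPolynomial.aeval (fun i : GoodPrime M => ModularFormClass.qCoeff g i.1) P ≠ 0 := by
  by_contra hcon
  push Not at hcon
  let f : MvPolynomial (GoodPrime M) ℤ →+* CuspForm.heckeAlgebra M' 2 (badSet M) :=
    (MvPolynomial.aeval (Tgen (M' := M') hM')).toRingHom
  let e : MvPolynomial (GoodPrime M) ℤ →+* ℂ :=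
    (MvPolynomial.aeval (fun i : GoodPrime M => ModularFormClass.qCoeff g i.1)).toRingHom
  have hsurj : Function.Surjective f := aeval_Tgen_surjective hM'
  have hker : RingHom.ker f ≤ RingHom.ker e := fun P hP => hcon P hP
  refine not_exists_character_of_isNewform hg hM' hne (f.liftOfSurjective hsurj ⟨e, hker⟩)
    (fun ℓ hℓ hℓM => ?_)
  have h1 : f (MvPolynomial.X ⟨ℓ, hℓ, hℓM⟩) =
      CuspForm.heckeAlgebra.T hℓ (fun h => hℓM (h.trans hM')) (fun h => hℓM h.2) :=
    MvPolynomial.aeval_X _ _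
  rw [← h1, RingHom.liftOfSurjective_comp_apply]
  exact MvPolynomial.aeval_X _ _

end Newform

end Fermat.Agent.S35.EigenOccurs
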