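/-
PROGRAM U / S35, brick `EigenNormalize`, part 3 (helper63): the form a `p`-adic consumer uses.

`eq_zero_of_isNewform_of_hom` (D''): let `g` be a newform of level `M`, `M' ∣ M`, `M' ≠ M`, and
let `R` be a domain of characteristic zero receiving the Hecke eigenvalues of `g` through
ring homomorphisms `ℂ ←j— A0 —ι→ R` with `ι` injective.  Then no nonzero parabolic homomorphism
`φ : Γ₀(M') → R` satisfies `T_ℓ φ = ι (a_ℓ) • φ` for all primes `ℓ ∤ M`
(`T_ℓ = BettiHecke.tHom R`).

Proof: the separating Hecke polynomial `P` of `EigenOccurs.exists_separating_poly` kills the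
Betti lattice `Lam M'`, hence (integer matrices in the basis `parBasis`) every parabolic
homomorphism into `R`; on an eigenvector it acts through `ι (P(a)) ≠ 0`.
-/
import Mathlib
import Fermat.Agent.S35.EigenOccurs
import Fermat.Agent.S30.BettiHecke.Basis

set_option autoImplicit false

open CongruenceSubgroup ModularCurve ModularCurve.Period

namespace Fermat.Agent.S35.EigenAbsent

open Fermat.Agent.S30.BettiHecke Fermat.Agent.S35.EigenOccurs

variable {M : ℕ} [NeZero M] {g : CuspForm (Gamma0 M) 2} {M' : ℕ} [NeZero M']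

/-- **(D'')** The eigensystem of a newform of level `M` does not occur in the parabolic
homomorphisms `Γ₀(M') → R`, for a proper divisor `M'` of `M` and any domain `R` of
characteristic zero receiving the eigenvalues. -/
theorem eq_zero_of_isNewform_of_hom (hg : g.IsNewform) (hM' : M' ∣ M) (hne : M' ≠ M)
    {A0 R : Type*} [CommRing A0] [CommRing R] [IsDomain R] [CharZero R]
    (j : A0 →+* ℂ) (ι : A0 →+* R) (hι : Function.Injective ι) (α : ℕ → A0)
    (hα : ∀ ℓ : ℕ, ℓ.Prime → ¬ ℓ ∣ M → j (α ℓ) = ModularFormClass.qCoeff g ℓ)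
    (φ : Additive (Gamma0 M') →+ R) (hφ : IsParabolicHom (Gamma0 M') φ)
    (hT : ∀ (ℓ : ℕ) [NeZero ℓ] (hℓ : ℓ.Prime) (hℓM : ¬ ℓ ∣ M),
      tHom R hℓ (fun h => hℓM (h.trans hM')) φ = ι (α ℓ) • φ) : φ = 0 := by
  classical
  obtain ⟨P, hP0, hPa⟩ := exists_separating_poly (M' := M') hg hM' hne
  have hS := badSet_spec hM'
  let b := parBasis M' ℤ
  let μ : CuspForm.heckeAlgebra M' 2 (badSet M) →+*
      Matrix (Fin (parRank M')) (Fin (parRank M')) R :=
    (Int.castRingHom R).mapMatrix.comp
      ((LinearMap.toMatrixAlgEquiv b).toRingEquiv.toRingHom.comp (heckeAct (badSet M) hS))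
  let x : Fin (parRank M') → R := fun i => φ (Additive.ofMul (parGen M' i))
  -- the generators act on the coordinates of `φ` through the eigenvalues
  have hgen : ∀ i : GoodPrime M, Matrix.mulVec (μ (Tgen hM' i)) x = ι (α i.1) • x := by
    intro i
    have : NeZero i.1 := ⟨i.2.1.ne_zero⟩
    funext k
    have hexp := tHom_expand i.2.1 (fun h => i.2.2 (h.trans hM')) φ hφ
      (Additive.ofMul (parGen M' k))
    rw [hT i.1 i.2.1 i.2.2] at hexp
    have hlhs : (ι (α i.1) • x) k = (ι (α i.1) • φ) (Additive.ofMul (parGen M' k)) := rfl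
    rw [hlhs, hexp]
    simp only [Matrix.mulVec, dotProduct]
    refine Finset.sum_congr rfl fun i' _ => ?_
    have hentry : μ (Tgen hM' i) k i' =
        ((tHom ℤ i.2.1 (fun h => i.2.2 (h.trans hM')) (parDual M' i')
          (Additive.ofMul (parGen M' k)) : ℤ) : R) := by
      show ((Int.castRingHom R)
        ((LinearMap.toMatrixAlgEquiv b (heckeAct (badSet M) hS (Tgen hM' i))) k i')) = _
      rw [LinearMap.toMatrixAlgEquiv_apply, parBasis_repr]
      have h1 : ((heckeAct (badSet M) hS (Tgen hM' i) (b i') : Lam M') :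
          Additive (Gamma0 M') →+ ℤ) =
          tHom ℤ i.2.1 (fun h => i.2.2 (h.trans hM')) (b i' : Additive (Gamma0 M') →+ ℤ) :=
        heckeAct_T_apply (badSet M) hS i.2.1 (fun h => i.2.2 (h.trans hM'))
          (fun h => i.2.2 h.2) (b i')
      have h2 : ((b i' : Lam M') : Additive (Gamma0 M') →+ ℤ) = parDual M' i' := by
        show ((parBasis M' ℤ i' : parabolicHoms ℤ (Gamma0 M') ℤ) :
          Additive (Gamma0 M') →+ ℤ) = _
        rw [parBasis_apply]
        refine AddMonoidHom.ext fun γ => ?_
        rw [parDualR_apply]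
        simp
      rw [h1, h2]
      rfl
    rw [hentry, zsmul_eq_mul]
  -- hence every polynomial in the generators acts through its value at the eigenvalues
  have hall : ∀ Q : MvPolynomial (GoodPrime M) ℤ,
      Matrix.mulVec (μ (MvPolynomial.aeval (Tgen hM') Q)) x =
        MvPolynomial.aeval (fun i : GoodPrime M => ι (α i.1)) Q • x := by
    intro Q
    induction Q using MvPolynomial.induction_on with
    | C n =>
      rw [MvPolynomial.aeval_C, MvPolynomial.aeval_C, eq_intCast, eq_intCast, map_intCast,
        Matrix.intCast_mulVec]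
    | add p q hp hq =>
      rw [map_add, map_add, Matrix.add_mulVec, hp, hq, map_add, add_smul]
    | mul_X p i hp =>
      rw [map_mul, map_mul, MvPolynomial.aeval_X, ← Matrix.mulVec_mulVec, hgen i,
        Matrix.mulVec_smul, hp, map_mul, MvPolynomial.aeval_X, smul_smul, mul_comm]
  -- the separating polynomial
  have h0 := hall P
  rw [hP0, map_zero, Matrix.zero_mulVec] at h0
  have hc1 : MvPolynomial.aeval (fun i : GoodPrime M => ι (α i.1)) P =
      ι (MvPolynomial.aeval (fun i : GoodPrime M => α i.1) P) :=
    (DFunLike.congr_fun (MvPolynomial.comp_aeval (f := fun i : GoodPrime M => α i.1)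
      ι.toIntAlgHom) P).symm
  have hc2 : MvPolynomial.aeval (fun i : GoodPrime M => ModularFormClass.qCoeff g i.1) P =
      j (MvPolynomial.aeval (fun i : GoodPrime M => α i.1) P) := by
    have h := (DFunLike.congr_fun (MvPolynomial.comp_aeval (f := fun i : GoodPrime M => α i.1)
      j.toIntAlgHom) P).symm
    have hfun : (fun i : GoodPrime M => ModularFormClass.qCoeff g i.1) =
        fun i : GoodPrime M => j.toIntAlgHom (α i.1) :=
      funext fun i => (hα i.1 i.2.1 i.2.2).symm
    rw [hfun]
    exact h
  have hne0 : ι (MvPolynomial.aeval (fun i : GoodPrime M => α i.1) P) ≠ 0 := by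
    intro h
    have h' : MvPolynomial.aeval (fun i : GoodPrime M => α i.1) P = 0 :=
      hι (h.trans (map_zero ι).symm)
    exact hPa (by rw [hc2, h', map_zero])
  rw [hc1] at h0
  have hx : ∀ k, x k = 0 := by
    intro k
    have := congrFun h0 k
    simp only [Pi.zero_apply, Pi.smul_apply, smul_eq_mul] at this
    exact (mul_eq_zero.mp this.symm).resolve_left hne0
  refine AddMonoidHom.ext fun γ => ?_
  rw [par_expand φ hφ γ]
  refine Finset.sum_eq_zero fun i _ => ?_
  have := hx i
  simp only [x] at this
  rw [this, smul_zero]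

end Fermat.Agent.S35.EigenAbsent
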