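/-
PROGRAM U / S35 (helper63): transfer of joint eigenvectors of commuting INTEGER matrices from a
domain `R` (e.g. a `p`-adic ring) to `ℂ`.

`exists_complex_eigenvector`: let `t i` be pairwise commuting integer matrices, and let
`ℂ ←j— A0 —ι→ R` be ring homomorphisms with `ι` injective and `R` a domain.  If `y ≠ 0` in `R^r`
satisfies `t i y = ι (a i) y` for all `i`, then some `v ≠ 0` in `ℂ^r` satisfies
`t i v = j (a i) v` for all `i`.

(The eigenvector gives the implication `P(t) = 0 ⇒ P(a) = 0` for integer polynomials; by linear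
disjointness of `ℤ`-structures from `ℂ` it persists for complex polynomials, and a character of
a commutative algebra vanishing on the annihilator of a finite-dimensional module occurs in it.)
-/
import Mathlib
import Fermat.Agent.S30.Eigen

set_option autoImplicit false

namespace Fermat.Agent.S35.EigenTransfer

open Fermat.Agent.S30.Eigen

/-- **Linear disjointness**, general form.  Let `T` be an abelian group with integer
coordinates `e x`, mapped by `ρ` to a complex vector space on which `ℂ`-linear functionals `ε x`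
restrict to the `e x`, and let `χ : T → ℂ` be additive and vanish on the elements all of whose
coordinates vanish.  Then every `ℂ`-linear relation between the `ρ (m j)` is also satisfied by
the `χ (m j)`. -/
theorem sum_mul_eq_zero_of_coords {T Vsp X ι : Type*} [AddCommGroup T] [AddCommGroup Vsp]
    [Module ℂ Vsp] (ρ : T →+ Vsp) (e : X → T →+ ℤ)
    (ε : X → Vsp →ₗ[ℂ] ℂ) (hε : ∀ x t, ε x (ρ t) = (e x t : ℂ))
    (χ : T →+ ℂ) (he : ∀ t, (∀ x, e x t = 0) → χ t = 0) (s : Finset ι) (q : ι → ℂ) (m : ι → T)
    (h : ∑ j ∈ s, q j • ρ (m j) = 0) : ∑ j ∈ s, q j * χ (m j) = 0 := by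
  classical
  -- the `ℚ`-span of the coefficients
  let W : Submodule ℚ ℂ := Submodule.span ℚ (q '' (s : Set ι))
  have hqW : ∀ j ∈ s, q j ∈ W := fun j hj => Submodule.subset_span ⟨j, hj, rfl⟩
  have : FiniteDimensional ℚ W :=
    FiniteDimensional.span_of_finite ℚ ((Finset.finite_toSet s).image q)
  let b := Module.finBasis ℚ W
  -- coordinates of the coefficients
  let r : ι → Fin (Module.finrank ℚ W) → ℚ := fun j k =>
    if hj : j ∈ s then b.repr ⟨q j, hqW j hj⟩ k else 0
  have hq : ∀ j ∈ s, q j = ∑ k, (r j k : ℂ) * (b k : ℂ) := by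
    intro j hj
    have h1 := b.sum_repr ⟨q j, hqW j hj⟩
    have h2 : ((∑ i, (b.repr ⟨q j, hqW j hj⟩) i • b i : W) : ℂ) = q j :=
      congrArg (Subtype.val : W → ℂ) h1
    rw [← h2]
    simp only [Submodule.coe_sum, Submodule.coe_smul]
    refine Finset.sum_congr rfl fun k _ => ?_
    simp only [r, dif_pos hj]
    rw [Rat.smul_def]
  -- each coordinate family satisfies the relation
  have hk : ∀ k, ∑ j ∈ s, (r j k : ℂ) * χ (m j) = 0 := by
    intro k
    obtain ⟨D, hD⟩ := IsLocalization.exist_integer_multiples (nonZeroDivisors ℤ) s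
      (fun j => r j k)
    choose! n hn using hD
    have hD0 : (D : ℤ) ≠ 0 := nonZeroDivisors.coe_ne_zero D
    have hn' : ∀ j ∈ s, ((n j : ℤ) : ℚ) = (D : ℤ) * r j k := by
      intro j hj
      have := hn j hj
      simpa [zsmul_eq_mul] using this
    -- `χ` kills the integral combination `∑ n j • m j`
    have ht : χ (∑ j ∈ s, n j • m j) = 0 := by
      apply he
      intro x
      have h1 : ∑ j ∈ s, q j * ((e x (m j) : ℤ) : ℂ) = 0 := by
        have := congrArg (ε x) h
        simpa [map_sum, hε] using this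
      -- the same relation inside `W`
      have h2 : ∑ j ∈ s.attach, ((e x (m j.1) : ℤ) : ℚ) • (⟨q j.1, hqW j.1 j.2⟩ : W) = 0 := by
        apply Subtype.ext
        simp only [Submodule.coe_sum, Submodule.coe_smul, Submodule.coe_zero]
        rw [Finset.sum_attach s (fun j => ((e x (m j) : ℤ) : ℚ) • q j)]
        rw [← h1]
        refine Finset.sum_congr rfl fun j _ => ?_
        rw [Rat.smul_def, mul_comm]
        simp
      have h3 := congrArg (fun w => b.repr w k) h2
      simp only [map_sum, map_smul, Finsupp.coe_finsetSum, Finsupp.coe_smul, Finset.sum_apply,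
        Pi.smul_apply, smul_eq_mul, map_zero, Finsupp.coe_zero, Pi.zero_apply] at h3
      have h4 : ∑ j ∈ s, ((e x (m j) : ℤ) : ℚ) * r j k = 0 := by
        rw [← Finset.sum_attach]
        rw [← h3]
        refine Finset.sum_congr rfl fun j _ => ?_
        simp only [r, dif_pos j.2]
      have h5 : ((∑ j ∈ s, e x (m j) * n j : ℤ) : ℚ) = 0 := by
        push_cast
        rw [Finset.sum_congr rfl fun j hj => by rw [hn' j hj]]
        have : ∑ j ∈ s, ((e x (m j) : ℤ) : ℚ) * (((D : ℤ) : ℚ) * r j k) =
            ((D : ℤ) : ℚ) * ∑ j ∈ s, ((e x (m j) : ℤ) : ℚ) * r j k := by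
          rw [Finset.mul_sum]
          exact Finset.sum_congr rfl fun j _ => by ring
        rw [this, h4, mul_zero]
      have h6 : ∑ j ∈ s, e x (m j) * n j = 0 := by exact_mod_cast h5
      rw [map_sum]
      rw [← h6]
      refine Finset.sum_congr rfl fun j _ => ?_
      rw [map_zsmul, smul_eq_mul, mul_comm]
    have h7 : ∑ j ∈ s, ((n j : ℤ) : ℂ) * χ (m j) = 0 := by
      simpa [map_sum, map_zsmul, zsmul_eq_mul] using ht
    have h8 : (((D : ℤ) : ℚ) : ℂ) * ∑ j ∈ s, (r j k : ℂ) * χ (m j) = 0 := by
      rw [← h7, Finset.mul_sum]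
      refine Finset.sum_congr rfl fun j hj => ?_
      have := congrArg (fun z : ℚ => (z : ℂ)) (hn' j hj)
      simp only [Rat.cast_intCast, Rat.cast_mul] at this
      rw [this]
      push_cast
      ring
    have hDC : (((D : ℤ) : ℚ) : ℂ) ≠ 0 := by
      exact_mod_cast hD0
    exact (mul_eq_zero.mp h8).resolve_left hDC
  calc ∑ j ∈ s, q j * χ (m j)
      = ∑ j ∈ s, ∑ k, (b k : ℂ) * ((r j k : ℂ) * χ (m j)) := by
        refine Finset.sum_congr rfl fun j hj => ?_
        rw [hq j hj, Finset.sum_mul]
        exact Finset.sum_congr rfl fun k _ => by ring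
    _ = ∑ k, (b k : ℂ) * ∑ j ∈ s, (r j k : ℂ) * χ (m j) := by
        rw [Finset.sum_comm]
        exact Finset.sum_congr rfl fun k _ => by rw [Finset.mul_sum]
    _ = 0 := by
        refine Finset.sum_eq_zero fun k _ => ?_
        rw [hk k, mul_zero]

section Transfer

variable {r : ℕ} {I A0 R : Type*} [CommRing A0] [CommRing R] [IsDomain R]

/-- base change of `evalComm` at integer matrices. -/
theorem evalComm_map (t : I → Matrix (Fin r) (Fin r) ℤ) (ht : ∀ i i', t i * t i' = t i' * t i)
    (K : Type*) [CommRing K]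
    (htK : ∀ i i', (t i).map (Int.castRingHom K) * (t i').map (Int.castRingHom K) =
      (t i').map (Int.castRingHom K) * (t i).map (Int.castRingHom K))
    (P : MvPolynomial I ℤ) :
    evalComm (R0 := K) (fun i => (t i).map (Int.castRingHom K)) htK
        (MvPolynomial.map (Int.castRingHom K) P) =
      (evalComm (R0 := ℤ) t ht P).map (Int.castRingHom K) := by
  have h : ((evalComm (R0 := K) (fun i => (t i).map (Int.castRingHom K)) htK).toRingHom.comp
      (MvPolynomial.map (Int.castRingHom K)) : MvPolynomial I ℤ →+* Matrix (Fin r) (Fin r) K) =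
      ((Int.castRingHom K).mapMatrix.comp (evalComm (R0 := ℤ) t ht).toRingHom) := by
    apply MvPolynomial.ringHom_ext
    · intro a
      rw [eq_intCast (MvPolynomial.C : ℤ →+* MvPolynomial I ℤ) a]
      simp
    · intro i
      simp [evalComm_X]
  exact congrArg (fun f => f P) h

/-- **Transfer of joint eigenvectors of commuting integer matrices from a domain to `ℂ`.** -/
theorem exists_complex_eigenvector (t : I → Matrix (Fin r) (Fin r) ℤ)
    (hcomm : ∀ i i', Commute (t i) (t i'))
    (j : A0 →+* ℂ) (ι : A0 →+* R) (hι : Function.Injective ι) (a : I → A0)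
    (y : Fin r → R) (hy : y ≠ 0)
    (hyt : ∀ i, ((t i).map (Int.castRingHom R)).mulVec y = ι (a i) • y) :
    ∃ v : Fin r → ℂ, v ≠ 0 ∧
      ∀ i, ((t i).map (Int.castRingHom ℂ)).mulVec v = j (a i) • v := by
  classical
  have ht : ∀ i i', t i * t i' = t i' * t i := fun i i' => (hcomm i i').eq
  have htK : ∀ (K : Type) [CommRing K] (i i' : I),
      (t i).map (Int.castRingHom K) * (t i').map (Int.castRingHom K) =
        (t i').map (Int.castRingHom K) * (t i).map (Int.castRingHom K) := by
    intro K _ i i'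
    have h := congrArg (fun M : Matrix (Fin r) (Fin r) ℤ => M.map (Int.castRingHom K)) (ht i i')
    simp only [Matrix.map_mul] at h
    exact h
  let evZ : MvPolynomial I ℤ →ₐ[ℤ] Matrix (Fin r) (Fin r) ℤ := evalComm (R0 := ℤ) t ht
  -- Step 1: integer polynomials act on `y` through their values at `a`
  have hall : ∀ Q : MvPolynomial I ℤ,
      ((evZ Q).map (Int.castRingHom R)).mulVec y = ι (MvPolynomial.aeval a Q) • y := by
    intro Q
    induction Q using MvPolynomial.induction_on with
    | C n =>
      have h1 : evZ (MvPolynomial.C n) = (n : Matrix (Fin r) (Fin r) ℤ) := by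
        rw [← MvPolynomial.algebraMap_eq, AlgHom.commutes, eq_intCast]
      rw [h1, MvPolynomial.aeval_C, eq_intCast, map_intCast]
      have h2 : ((n : Matrix (Fin r) (Fin r) ℤ)).map (Int.castRingHom R) =
          (n : Matrix (Fin r) (Fin r) R) := by
        have := map_intCast ((Int.castRingHom R).mapMatrix (m := Fin r)) n
        rw [RingHom.mapMatrix_apply] at this
        exact this
      rw [h2, Matrix.intCast_mulVec]
    | add p q hp hq =>
      rw [map_add, Matrix.map_add (Int.castRingHom R) (map_add _), Matrix.add_mulVec, hp, hq,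
        map_add, map_add, add_smul]
    | mul_X p i hp =>
      rw [map_mul, Matrix.map_mul, ← Matrix.mulVec_mulVec]
      have hX : evZ (MvPolynomial.X i) = t i := evalComm_X _ _ i
      rw [hX, hyt i, Matrix.mulVec_smul, hp, map_mul, MvPolynomial.aeval_X, map_mul, smul_smul,
        mul_comm]
  -- Step 2: integer relations between the matrices hold between the eigenvalues
  obtain ⟨k0, hk0⟩ : ∃ k, y k ≠ 0 := by
    by_contra hcon
    push Not at hcon
    exact hy (funext hcon)
  have hrel : ∀ Q : MvPolynomial I ℤ, evZ Q = 0 →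
      MvPolynomial.aeval (fun i => j (a i)) Q = 0 := by
    intro Q hQ
    have h1 := hall Q
    rw [hQ] at h1
    have h2 : (0 : Fin r → R) = ι (MvPolynomial.aeval a Q) • y := by
      rw [← h1]
      funext k
      simp [Matrix.mulVec, dotProduct]
    have h3 := congrFun h2 k0
    simp only [Pi.zero_apply, Pi.smul_apply, smul_eq_mul] at h3
    have h4 : ι (MvPolynomial.aeval a Q) = 0 := (mul_eq_zero.mp h3.symm).resolve_right hk0
    have h5 : MvPolynomial.aeval a Q = 0 := hι (h4.trans (map_zero ι).symm)
    have h6 := DFunLike.congr_fun (MvPolynomial.comp_aeval (f := a) j.toIntAlgHom) Q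
    have h7 : MvPolynomial.aeval (fun i => j (a i)) Q = j (MvPolynomial.aeval a Q) := h6.symm
    rw [h7, h5, map_zero]
  -- Step 3: the complex algebra
  let tC : I → Matrix (Fin r) (Fin r) ℂ := fun i => (t i).map (Int.castRingHom ℂ)
  let evC : MvPolynomial I ℂ →ₐ[ℂ] Matrix (Fin r) (Fin r) ℂ := evalComm (R0 := ℂ) tC (htK ℂ)
  let ρ : MvPolynomial I ℂ →ₐ[ℂ] Module.End ℂ (Fin r → ℂ) :=
    (Matrix.toLinAlgEquiv' : Matrix (Fin r) (Fin r) ℂ ≃ₐ[ℂ] _).toAlgHom.comp evC
  let φ : MvPolynomial I ℂ →ₐ[ℂ] ℂ := MvPolynomial.aeval (fun i => j (a i))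
  have key : ∀ Q, ρ Q = 0 → φ Q = 0 := by
    intro Q hQ
    have hQ' : evC Q = 0 := by
      have h1 : (Matrix.toLinAlgEquiv' : Matrix (Fin r) (Fin r) ℂ ≃ₐ[ℂ] _) (evC Q) = 0 := hQ
      exact (Matrix.toLinAlgEquiv' : Matrix (Fin r) (Fin r) ℂ ≃ₐ[ℂ] _).injective
        (h1.trans (map_zero _).symm)
    -- expand `Q` in monomials
    have hQsum : Q = ∑ d ∈ Q.support, Q.coeff d •
        MvPolynomial.map (Int.castRingHom ℂ) (MvPolynomial.monomial d (1 : ℤ)) := by
      conv_lhs => rw [← MvPolynomial.support_sum_monomial_coeff Q]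
      refine Finset.sum_congr rfl fun d _ => ?_
      rw [MvPolynomial.map_monomial, MvPolynomial.smul_monomial]
      simp
    have h1 : ∑ d ∈ Q.support, Q.coeff d •
        ((Int.castRingHom ℂ).mapMatrix.toAddMonoidHom.comp evZ.toRingHom.toAddMonoidHom)
          (MvPolynomial.monomial d (1 : ℤ)) = 0 := by
      rw [← hQ']
      conv_rhs => rw [hQsum]
      rw [map_sum]
      refine Finset.sum_congr rfl fun d _ => ?_
      rw [map_smul, evalComm_map t ht ℂ (htK ℂ)]
      rfl
    have h2 := sum_mul_eq_zero_of_coords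
      ((Int.castRingHom ℂ).mapMatrix.toAddMonoidHom.comp evZ.toRingHom.toAddMonoidHom)
      (fun x : Fin r × Fin r =>
        (Matrix.entryAddMonoidHom ℤ x.1 x.2).comp evZ.toRingHom.toAddMonoidHom)
      (fun x : Fin r × Fin r => Matrix.entryLinearMap ℂ ℂ x.1 x.2)
      (fun x P => rfl)
      ((MvPolynomial.aeval (fun i => j (a i)) : MvPolynomial I ℤ →ₐ[ℤ] ℂ).toRingHom.toAddMonoidHom)
      (fun P hP => hrel P (Matrix.ext fun u v => hP (u, v)))
      Q.support (fun d => Q.coeff d) (fun d => MvPolynomial.monomial d (1 : ℤ)) h1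
    show MvPolynomial.aeval (fun i => j (a i)) Q = 0
    conv_lhs => rw [hQsum]
    rw [map_sum, ← h2]
    refine Finset.sum_congr rfl fun d _ => ?_
    rw [map_smul, smul_eq_mul]
    congr 1
    rw [MvPolynomial.map_monomial, MvPolynomial.aeval_monomial]
    show _ = MvPolynomial.aeval (fun i => j (a i)) (MvPolynomial.monomial d (1 : ℤ))
    rw [MvPolynomial.aeval_monomial]
    simp
  obtain ⟨v, hv0, hv⟩ := exists_eigenvector ρ φ key
  refine ⟨v, hv0, fun i => ?_⟩
  have h := hv (MvPolynomial.X i)
  have e1 : ρ (MvPolynomial.X i) v = (tC i).mulVec v := by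
    show (Matrix.toLinAlgEquiv' (evC (MvPolynomial.X i))) v = _
    have hX : evC (MvPolynomial.X i) = tC i := evalComm_X _ _ i
    rw [hX, Matrix.toLinAlgEquiv'_apply]
  have e2 : φ (MvPolynomial.X i) = j (a i) := MvPolynomial.aeval_X _ _
  rw [e1, e2] at h
  exact h

end Transfer

end Fermat.Agent.S35.EigenTransfer
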