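/-
S35 / PROGRAM U (helper43) — the Frobenius datum of a GENERAL level-`M` coordinate.

S35 twin of `S34/RootDatumAlpha.lean` (helper144).  For ANY level-`M` coordinate `u' ∈ LE M E`
(`j`, a Hauptmodul `h_r`, …) with integral `q`-expansion `ι U` (`ord ρ(U) ≠ 0`, prime to `ℓ`),
fixed by the coefficientwise Galois action, `LE M E / E(u')` finite, `π` prime in the level-`M`
chart ring of `u'` with integrally closed special fibre, and `w (α u')` integral over `O[α u']`: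

* `hasFrobDatum_alpha` : `FrobDatum.HasFrobDatum (M ℓ) A E wAL ℓ π` for the coordinate `u = α u'`
  and the swap `HauptU.Plug.wE` (restriction of `ToricSwap.wAL`), from NOTHING BUT a nodal datum
  `D` for `(π, α u')`, the two Gauss characterisations of its primes, and `hNC` (no crossing point
  on `u = ∞`).  The Frobenius data (`sO = σ|_{O_E}`, `sE = σ|_E`, `φ = galE`) are instantiated
  here (layer (B) of `FrobNodesE`), and the per-Frobenius block is `FrobPkgD.sigma_block`.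
-/
import Mathlib
import Fermat.Agent.S35.FrobDatum
import Fermat.Agent.S35.FrobPkgD
import Fermat.Agent.S34.RootDatumAlpha

set_option autoImplicit false
set_option linter.unusedSectionVars false
set_option linter.style.haveILetI false
set_option synthInstance.maxHeartbeats 400000
set_option maxHeartbeats 1000000

open ModularCurve

noncomputable section

namespace Fermat.Agent.S35.FrobDatumAlpha

open IntermediateField
open Fermat.Agent.S30 Fermat.Agent.S18.K1Defs Fermat.Agent.S18.K1Main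
open Fermat.Agent.S34 Fermat.Agent.S34.TrivModE Fermat.Agent.S34.Nodal
open Fermat.Agent.S34.TwoPrimesRank Fermat.Agent.S34.Modular.SwapE Fermat.Agent.S34.HauptU
open Fermat.Agent.S34.RootDatumAlpha

local notation "Qb" => AlgebraicClosure ℚ
local notation "Gq" => (AlgebraicClosure ℚ ≃ₐ[ℚ] AlgebraicClosure ℚ)

section Datum

variable (M ℓ : ℕ) [NeZero M] [NeZero ℓ] (hℓ : ℓ.Prime) (hℓM : ¬ ℓ ∣ M)
  (A : ValuationSubring Qb) (E : IntermediateField ℚ Qb) [Normal ℚ E]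
  [IsDiscreteValuationRing (OE A E)]

/-- **The Frobenius datum of the coordinate `u = α u'`** at level `M ℓ` (swap `Plug.wE`), from a
nodal datum with the two Gauss characterisations of its primes and `hNC`. -/
theorem hasFrobDatum_alpha (hA : A.LiesOverPrime ℓ) (π : OE A E) (hπ : Irreducible π)
    (u' : LE M E) (hu' : Transcendental E u')
    [FiniteDimensional (IntermediateField.adjoin E {u'}) (LE M E)]
    (U : LaurentSeries (OE A E))
    (hσu : ((alphaHom M ℓ E u' : LE (M * ℓ) E) : LaurentSeries E) = GaussDVR.iota (OE A E) E U)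
    (hcop : IsCoprime (GaussDVR.rho (OE A E) U).order (ℓ : ℤ))
    (hord : (GaussDVR.rho (OE A E) U).order ≠ 0)
    (hgal : ∀ τ : Gq, galE E M τ u' = u')
    (hprime : letI := algebraOL (OE A E) E (LE M E); Prime (TwoPrimesGauss.piC u' π))
    (hnormal : letI := algebraOL (OE A E) E (LE M E)
      IsIntegrallyClosed (TwoPrimesGauss.Chart (OE A E) u' ⧸ Ideal.span {TwoPrimesGauss.piC u' π}))
    (hwu : letI := algebraOL (OE A E) E (LE (M * ℓ) E)
      IsIntegral (Algebra.adjoin (OE A E) {alphaHom M ℓ E u'})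
        (Plug.wHom M ℓ E hℓ hℓM (alphaHom M ℓ E u')))
    (D : letI := algebraOL (OE A E) E (LE (M * ℓ) E); NodalDatum π (alphaHom M ℓ E u'))
    (hP₁ : letI := algebraOL (OE A E) E (LE (M * ℓ) E)
      ∀ (x : Overlap (OE A E) (alphaHom M ℓ E u'))
      (hx : (((x : LE (M * ℓ) E) : LE (M * ℓ) E) : LaurentSeries E) ∈ GaussDVR.V (OE A E) E),
      x ∈ D.P₁ ↔ GaussDVR.red (OE A E) E ⟨_, hx⟩ = 0)
    (hP₂ : letI := algebraOL (OE A E) E (LE (M * ℓ) E)
      ∀ (x : Overlap (OE A E) (alphaHom M ℓ E u'))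
      (hx : ((Plug.wHom M ℓ E hℓ hℓM (x : LE (M * ℓ) E) : LE (M * ℓ) E) : LaurentSeries E)
        ∈ GaussDVR.V (OE A E) E),
      x ∈ D.P₂ ↔ GaussDVR.red (OE A E) E ⟨_, hx⟩ = 0)
    (hNC : letI := algebraOL (OE A E) E (LE (M * ℓ) E)
      ∀ (y : Ideal (Chart (OE A E) (alphaHom M ℓ E u')⁻¹))
        (g : Chart (OE A E) (alphaHom M ℓ E u')⁻¹),
        (g : LE (M * ℓ) E) = (alphaHom M ℓ E u')⁻¹ → y.IsMaximal → g ∈ y →
        D.P₁.comap (toOverlapInf (OE A E) (alphaHom M ℓ E u')) ≤ y →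
        D.P₂.comap (toOverlapInf (OE A E) (alphaHom M ℓ E u')) ≤ y → False) :
    FrobDatum.HasFrobDatum (M * ℓ) A E (ToricSwap.wAL M ℓ hℓ hℓM).toRingEquiv ℓ π := by
  letI := algebraOL (OE A E) E (LE M E)
  haveI := isScalarTower_OL (OE A E) E (LE M E)
  letI := algebraOL (OE A E) E (LE (M * ℓ) E)
  haveI := isScalarTower_OL (OE A E) E (LE (M * ℓ) E)
  haveI : Fact ℓ.Prime := ⟨hℓ⟩
  haveI : CharP (IsLocalRing.ResidueField (OE A E)) ℓ :=
    Modular.Kronecker.charP_residue_OE A E hA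
  have hρ : GaussDVR.rho (OE A E) U ≠ 0 := fun h => hord (by rw [h, HahnSeries.order_zero])
  have hσw : (Plug.sigmaHom (M * ℓ) E).comp
      (Plug.wHom M ℓ E hℓ hℓM : LE (M * ℓ) E →+* LE (M * ℓ) E) (alphaHom M ℓ E u')
        = GaussDVR.iota (OE A E) E (qExpand (OE A E) ℓ U) :=
    TwoPrimesGauss.sigmaW_u (alphaHom M ℓ E) (Plug.sigmaHom (M * ℓ) E) u' U hσu
      (Plug.wHom M ℓ E hℓ hℓM) ℓ (Plug.sigmaHom_wHom_alpha M ℓ E hℓ hℓM)
  have h1 : ((alphaHom M ℓ E u' : LE (M * ℓ) E) : LaurentSeries E) ∈ GaussDVR.V (OE A E) E :=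
    Modular.Datum.tau_u_mem_V (Plug.sigmaHom (M * ℓ) E) (alphaHom M ℓ E u') U hσu
  have h2 : (((alphaHom M ℓ E u')⁻¹ : LE (M * ℓ) E) : LaurentSeries E) ∈ GaussDVR.V (OE A E) E :=
    Modular.Datum.tau_inv_mem_V (Plug.sigmaHom (M * ℓ) E) (alphaHom M ℓ E u') U hσu hρ
  have h3 : ((Plug.wHom M ℓ E hℓ hℓM (alphaHom M ℓ E u') : LE (M * ℓ) E) : LaurentSeries E)
      ∈ GaussDVR.V (OE A E) E :=
    Modular.Datum.tau_u_mem_V ((Plug.sigmaHom (M * ℓ) E).comp
      (Plug.wHom M ℓ E hℓ hℓM : LE (M * ℓ) E →+* LE (M * ℓ) E)) (alphaHom M ℓ E u')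
      (qExpand (OE A E) ℓ U) hσw
  have h4 : (((Plug.wHom M ℓ E hℓ hℓM (alphaHom M ℓ E u'))⁻¹ : LE (M * ℓ) E) : LaurentSeries E)
      ∈ GaussDVR.V (OE A E) E := by
    have h := Modular.Datum.tau_inv_mem_V ((Plug.sigmaHom (M * ℓ) E).comp
      (Plug.wHom M ℓ E hℓ hℓM : LE (M * ℓ) E →+* LE (M * ℓ) E)) (alphaHom M ℓ E u')
      (qExpand (OE A E) ℓ U) hσw (Modular.Datum.rho_qExpand_ne_zero U ℓ hρ)
    rw [RingHom.comp_apply, RingEquiv.coe_toRingHom, map_inv₀] at h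
    exact h
  haveI := finite_adjoin_alpha M ℓ E hℓ hℓM u'
  refine ⟨alphaHom M ℓ E u', Plug.wE M ℓ E hℓ hℓM, D, transcendental_alpha M ℓ E u' hu',
    finite_adjoin_alpha M ℓ E hℓ hℓM u', fun z => Plug.upE_wE M ℓ E hℓ hℓM z, h1, h2, h3, h4,
    hP₁, hP₂, hNC, fun σ₀ hσ₀ => ?_⟩
  exact FrobPkgD.sigma_block π hπ (alphaHom M ℓ E) (alphaHom_algebraMap M ℓ E)
    (Plug.sigmaHom (M * ℓ) E) (Plug.sigmaHom_algebraMap (M * ℓ) E)
    (Plug.sigmaHom_mem_fracField (M * ℓ) E A) u' U hσu (Plug.wHom M ℓ E hℓ hℓM)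
    (Plug.wHom_algebraMap M ℓ E hℓ hℓM) ℓ (Plug.sigmaHom_wHom_alpha M ℓ E hℓ hℓM)
    (Plug.wHom_wHom M ℓ E hℓ hℓM) hwu
    (sOE A E ⟨σ₀, hσ₀.mem_decompositionSubgroup⟩)
    (sOE A E (⟨σ₀, hσ₀.mem_decompositionSubgroup⟩ : A.decompositionSubgroup ℚ)⁻¹)
    (InertiaAut.sOE_sOE_inv A E ⟨σ₀, hσ₀.mem_decompositionSubgroup⟩)
    ((σ₀.restrictNormal E : E ≃ₐ[ℚ] E) : E →+* E)
    (restrictNormal_algebraMap_OE A E ⟨σ₀, hσ₀.mem_decompositionSubgroup⟩)
    (galE E (M * ℓ) σ₀) (fun z => coe_galE E (M * ℓ) σ₀ z)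
    (galE E M σ₀) (fun x => Plug.galE_alpha M E σ₀ ℓ x) (hgal σ₀)
    (fun z => (Plug.wE_arithmeticRingAut M ℓ E hℓ hℓM (σ₀.restrictNormal E) z).symm)
    hρ D hP₁ hP₂ (Modular.Kronecker.residue_sOE_frob A E hσ₀) hprime hcop hord
    (hrank_modular_of_finite M ℓ E hℓ hℓM u') hnormal

end Datum

end Fermat.Agent.S35.FrobDatumAlpha
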