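import Fermat.Agent.S35.FrobPkg
import Fermat.Agent.S34.Sat

/-!
# PROGRAM U (S35), brick (G2) `FrobGlueE`: the per-Frobenius block of the `E`-level datum

`S35/FrobPkg.lean` (level-free) gives, for abstract Frobenius data `(sO, sO', sE, φ, φ')` in the
`TwoPrimesGauss` vocabulary, the chart-zero properties of `Σ = w.trans φ` consumed by the
`K`-level swap exit: `StabilizesChart`, the two `MapsIntoChart` inclusions and `FixesNodes` for
the overlap primes `Datum.P₁`, `Datum.P₂`.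

This file instantiates the Frobenius data at the `E`-level (Plug vocabulary of
`S34/HauptU/Plug.lean`): `O = OE A E`, `L' = LE M E`, `L = LE (M ℓ) E`,
`α = TwoPrimesRank.alphaHom M ℓ E`, `σ = sigmaHom (M ℓ) E`, `w = wHom M ℓ E hℓ hℓM`, and for a
Frobenius element `σ₀` at `ℓ`:
`sO = sOE A E σ₀`, `sO' = sOE A E σ₀⁻¹`, `sE = σ₀|_E`, `φ = galE E (M ℓ) σ₀`, `φ' = galE E M σ₀`.
Then `w.trans φ` IS `RootGlueFrob.frobSwap (M ℓ) E (wE M ℓ E hℓ hℓM) σ₀` (by `rfl`), and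

* `frob_block` : for a level-`M` coordinate `u'` fixed by the coefficientwise Galois action and
  ANY nodal datum `D` on `α u'` whose primes are `Datum.P₁`, `Datum.P₂`: the per-`σ` block of
  `FrobDatum.HasFrobDatum` (the four conjuncts), from the chart-zero package inputs
  (`hwu hprime hcop hord hrank hnormal`);
* `frob_block_j` : the case `u' = jE M E` with the `Sat` literals plugged in; the only remaining
  hypotheses are the level-`M` facts `hprime` and `hnormal`.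
-/

set_option autoImplicit false
set_option linter.unusedSectionVars false
set_option linter.style.haveILetI false
set_option synthInstance.maxHeartbeats 400000
set_option maxHeartbeats 1000000

open ModularCurve Polynomial

noncomputable section

namespace Fermat.Agent.S35.FrobGlueE

open Fermat.Agent.S18.K1Defs Fermat.Agent.S18.K1Top
open Fermat.Agent.S30 Fermat.Agent.S30.E2Deg
open Fermat.Agent.S30.Model Fermat.Agent.S30.Model.GlueChart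
open Fermat.Agent.S34 Fermat.Agent.S34.Nodal Fermat.Agent.S34.TrivModE
open Fermat.Agent.S34.TwoPrimesRank Fermat.Agent.S34.HauptU.Plug Fermat.Agent.S34.TwoPrimesGauss
open Fermat.Agent.S35.RootGlueFrob

local notation "Qb" => AlgebraicClosure ℚ
local notation "Gq" => (AlgebraicClosure ℚ ≃ₐ[ℚ] AlgebraicClosure ℚ)

/-- **Normality of the level-`M` special fibre** (the hypothesis `hnormal` of
`FrobNodesE.fixesNodes` / `FrobPkg.fixesNodes`), as a named proposition: at the `E`-level the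
quotient `Chart O u' ⧸ (ϖ)` is stated through this abbreviation (it unfolds to the literal
hypothesis). -/
abbrev FibreNormal (O : Type*) {L' : Type*} [CommRing O] [Field L'] [Algebra O L'] (u' : L')
    (ϖ : O) : Prop :=
  IsIntegrallyClosed (TwoPrimesGauss.Chart O u' ⧸ Ideal.span {piC u' ϖ})

section Data

variable (A : ValuationSubring Qb) (E : IntermediateField ℚ Qb) [Normal ℚ E]

/-- The restrictions of `σ₀` and `σ₀⁻¹` to `O_E` are mutually inverse. -/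
theorem sOE_sOE_inv {σ₀ : Gq} (h : σ₀ ∈ A.decompositionSubgroup ℚ)
    (h' : σ₀⁻¹ ∈ A.decompositionSubgroup ℚ) (a : OE A E) :
    sOE A E ⟨σ₀, h⟩ (sOE A E ⟨σ₀⁻¹, h'⟩ a) = a := by
  apply Subtype.ext
  rw [coe_sOE, coe_sOE]
  exact restrictNormal_inv_apply E σ₀ (a : E)

end Data

section Block

variable (M ℓ : ℕ) [NeZero M] [NeZero ℓ] (hℓ : ℓ.Prime) (hℓM : ¬ ℓ ∣ M)
  (A : ValuationSubring Qb) (E : IntermediateField ℚ Qb) [Normal ℚ E]
  [IsDiscreteValuationRing (OE A E)]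
  [Algebra (OE A E) (LE M E)] [IsScalarTower (OE A E) E (LE M E)]
  [Algebra (OE A E) (LE (M * ℓ) E)] [IsScalarTower (OE A E) E (LE (M * ℓ) E)]

/-- `Σ` in the two vocabularies: `frobSwap` of `RootGlueFrob` is `w.trans φ` of `FrobPkg`. -/
theorem frobSwap_eq_trans (σ₀ : Gq) :
    frobSwap (M * ℓ) E (wE M ℓ E hℓ hℓM) σ₀
      = (wHom M ℓ E hℓ hℓM).trans (galE E (M * ℓ) σ₀) := rfl

set_option maxHeartbeats 16000000 in
/-- **(G2) The per-Frobenius block of `HasFrobDatum`, general level-`M` coordinate `u'`.** -/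
theorem frob_block (hA : A.LiesOverPrime ℓ) (ϖ : OE A E) (hϖ : Irreducible ϖ)
    (u' : LE M E) (U : LaurentSeries (OE A E))
    (hσu : sigmaHom (M * ℓ) E (alphaHom M ℓ E u') = GaussDVR.iota (OE A E) E U)
    (hρ : GaussDVR.rho (OE A E) U ≠ 0)
    (hwu : IsIntegral (Algebra.adjoin (OE A E) {alphaHom M ℓ E u'})
      (wHom M ℓ E hℓ hℓM (alphaHom M ℓ E u')))
    (hgal : ∀ τ : Gq, galE E M τ u' = u')
    (hprime : Prime (piC u' ϖ))
    (hcop : IsCoprime (GaussDVR.rho (OE A E) U).order (ℓ : ℤ))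
    (hord : (GaussDVR.rho (OE A E) U).order ≠ 0)
    (hrank : ∀ v : Option (Fin 1 ⊕ Fin ℓ) → TwoPrimesGauss.Chart (OE A E) (alphaHom M ℓ E u'),
      ∃ c : Option (Fin 1 ⊕ Fin ℓ) → TwoPrimesGauss.Chart (OE A E) u',
        c ≠ 0 ∧ ∑ i, incl (alphaHom M ℓ E) (alphaHom_algebraMap M ℓ E) u' (c i) * v i = 0)
    (hnormal : FibreNormal (OE A E) u' ϖ)
    (D : NodalDatum ϖ (alphaHom M ℓ E u'))
    (hD₁ : D.P₁ = Modular.Datum.P₁ ϖ hϖ (alphaHom M ℓ E) (sigmaHom (M * ℓ) E)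
      (sigmaHom_algebraMap (M * ℓ) E) (sigmaHom_mem_fracField (M * ℓ) E A) u' U hσu hρ)
    (hD₂ : D.P₂ = Modular.Datum.P₂ ϖ hϖ (alphaHom M ℓ E) (sigmaHom (M * ℓ) E)
      (sigmaHom_algebraMap (M * ℓ) E) (sigmaHom_mem_fracField (M * ℓ) E A) u' U hσu
      (wHom M ℓ E hℓ hℓM) (wHom_algebraMap M ℓ E hℓ hℓM) ℓ (sigmaHom_wHom_alpha M ℓ E hℓ hℓM)
      hρ) :
    ∀ σ₀ : Gq, A.IsFrobeniusAt σ₀ ℓ →
      StabilizesChart (OE A E) (alphaHom M ℓ E u')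
        (frobSwap (M * ℓ) E (wE M ℓ E hℓ hℓM) σ₀) ∧
      MapsIntoChart (D.P₁.comap (toOverlapZero (OE A E) (alphaHom M ℓ E u')))
        (D.P₂.comap (toOverlapZero (OE A E) (alphaHom M ℓ E u')))
        (frobSwap (M * ℓ) E (wE M ℓ E hℓ hℓM) σ₀) ∧
      MapsIntoChart (D.P₂.comap (toOverlapZero (OE A E) (alphaHom M ℓ E u')))
        (D.P₁.comap (toOverlapZero (OE A E) (alphaHom M ℓ E u')))
        (frobSwap (M * ℓ) E (wE M ℓ E hℓ hℓM) σ₀) ∧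
      FixesNodes (alphaHom M ℓ E u')
        (D.P₁.comap (toOverlapZero (OE A E) (alphaHom M ℓ E u')))
        (D.P₂.comap (toOverlapZero (OE A E) (alphaHom M ℓ E u')))
        (frobSwap (M * ℓ) E (wE M ℓ E hℓ hℓM) σ₀) := by
  intro σ₀ hσ₀
  haveI : Fact ℓ.Prime := ⟨hℓ⟩
  haveI : CharP (IsLocalRing.ResidueField (OE A E)) ℓ :=
    Modular.Kronecker.charP_residue_OE A E hA
  have hdec : σ₀ ∈ A.decompositionSubgroup ℚ := hσ₀.mem_decompositionSubgroup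
  have hdec' : σ₀⁻¹ ∈ A.decompositionSubgroup ℚ := inv_mem hdec
  -- the Frobenius data
  have hsO : ∀ a : OE A E, sOE A E ⟨σ₀, hdec⟩ (sOE A E ⟨σ₀⁻¹, hdec'⟩ a) = a :=
    sOE_sOE_inv A E hdec hdec'
  have hsE : ∀ a : OE A E,
      (((σ₀.restrictNormal E : E ≃ₐ[ℚ] E) : E →+* E)) (algebraMap (OE A E) E a)
        = algebraMap (OE A E) E (sOE A E ⟨σ₀, hdec⟩ a) :=
    restrictNormal_algebraMap_OE A E ⟨σ₀, hdec⟩
  have hφσ : ∀ z : LE (M * ℓ) E, sigmaHom (M * ℓ) E (galE E (M * ℓ) σ₀ z)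
      = coeffMap (((σ₀.restrictNormal E : E ≃ₐ[ℚ] E) : E →+* E)) (sigmaHom (M * ℓ) E z) :=
    fun z => rfl
  have hφα : ∀ x : LE M E, galE E (M * ℓ) σ₀ (alphaHom M ℓ E x)
      = alphaHom M ℓ E (galE E M σ₀ x) := fun x => galE_alpha M E σ₀ ℓ x
  have hφu : galE E M σ₀ u' = u' := hgal σ₀
  have hφw : ∀ z : LE (M * ℓ) E, galE E (M * ℓ) σ₀ (wHom M ℓ E hℓ hℓM z)
      = wHom M ℓ E hℓ hℓM (galE E (M * ℓ) σ₀ z) :=
    fun z => (wE_arithmeticRingAut M ℓ E hℓ hℓM (σ₀.restrictNormal E) z).symm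
  have hres : ∀ a : OE A E, IsLocalRing.residue (OE A E) (sOE A E ⟨σ₀, hdec⟩ a)
      = IsLocalRing.residue (OE A E) a ^ ℓ := Modular.Kronecker.residue_sOE_frob A E hσ₀
  rw [hD₁, hD₂, frobSwap_eq_trans]
  exact ⟨FrobPkg.stabilizesChart (alphaHom M ℓ E) (sigmaHom (M * ℓ) E)
      (sigmaHom_algebraMap (M * ℓ) E) u' (wHom M ℓ E hℓ hℓM) (wHom_algebraMap M ℓ E hℓ hℓM)
      (wHom_wHom M ℓ E hℓ hℓM) hwu (sOE A E ⟨σ₀, hdec⟩) (sOE A E ⟨σ₀⁻¹, hdec'⟩) hsO _ hsE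
      (galE E (M * ℓ) σ₀) hφσ (galE E M σ₀) hφα hφu,
    FrobPkg.mapsIntoChart₁₂ ϖ hϖ (alphaHom M ℓ E) (sigmaHom (M * ℓ) E)
      (sigmaHom_algebraMap (M * ℓ) E) (sigmaHom_mem_fracField (M * ℓ) E A) u' U hσu
      (wHom M ℓ E hℓ hℓM) (wHom_algebraMap M ℓ E hℓ hℓM) ℓ (sigmaHom_wHom_alpha M ℓ E hℓ hℓM)
      (wHom_wHom M ℓ E hℓ hℓM) hwu (sOE A E ⟨σ₀, hdec⟩) (sOE A E ⟨σ₀⁻¹, hdec'⟩) hsO _ hsE
      (galE E (M * ℓ) σ₀) hφσ (galE E M σ₀) hφα hφu hφw hρ hres,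
    FrobPkg.mapsIntoChart₂₁ ϖ hϖ (alphaHom M ℓ E) (sigmaHom (M * ℓ) E)
      (sigmaHom_algebraMap (M * ℓ) E) (sigmaHom_mem_fracField (M * ℓ) E A) u' U hσu
      (wHom M ℓ E hℓ hℓM) (wHom_algebraMap M ℓ E hℓ hℓM) ℓ (sigmaHom_wHom_alpha M ℓ E hℓ hℓM)
      (wHom_wHom M ℓ E hℓ hℓM) hwu (sOE A E ⟨σ₀, hdec⟩) (sOE A E ⟨σ₀⁻¹, hdec'⟩) hsO _ hsE
      (galE E (M * ℓ) σ₀) hφσ (galE E M σ₀) hφα hφu hφw hρ hres,
    FrobPkg.fixesNodes ϖ hϖ (alphaHom M ℓ E) (alphaHom_algebraMap M ℓ E) (sigmaHom (M * ℓ) E)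
      (sigmaHom_algebraMap (M * ℓ) E) (sigmaHom_mem_fracField (M * ℓ) E A) u' U hσu
      (wHom M ℓ E hℓ hℓM) (wHom_algebraMap M ℓ E hℓ hℓM) ℓ (sigmaHom_wHom_alpha M ℓ E hℓ hℓM)
      (wHom_wHom M ℓ E hℓ hℓM) hwu (sOE A E ⟨σ₀, hdec⟩) (sOE A E ⟨σ₀⁻¹, hdec'⟩) hsO _ hsE
      (galE E (M * ℓ) σ₀) hφσ (galE E M σ₀) hφα hφu hφw hρ hres hprime hcop hord hrank hnormal⟩

/-- The coordinate `j` of level `M` is fixed by the coefficientwise Galois action. -/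
theorem galE_jE (τ : Gq) : galE E M τ (jE M E) = jE M E :=
  galE_eq_self_of_coe M E τ (jE M E) jq (coe_jE M E)

set_option maxHeartbeats 16000000 in
/-- **(G2) at `u' = j`**: the per-Frobenius block of `HasFrobDatum` for ANY nodal datum on
`α j` whose primes are `Datum.P₁`, `Datum.P₂` (in the `Sat` literals).  The only remaining
hypotheses are the level-`M` facts: `ϖ` is prime in the chart ring of `j` (`hprime`) and the
special fibre of that chart is normal (`hnormal`). -/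
theorem frob_block_j (hA : A.LiesOverPrime ℓ) (ϖ : OE A E) (hϖ : Irreducible ϖ)
    (hprime : Prime (piC (jE M E) ϖ))
    (hnormal : FibreNormal (OE A E) (jE M E) ϖ)
    (D : NodalDatum ϖ (alphaHom M ℓ E (jE M E)))
    (hD₁ : D.P₁ = Modular.Datum.P₁ ϖ hϖ (alphaHom M ℓ E) (sigmaHom (M * ℓ) E)
      (sigmaHom_algebraMap (M * ℓ) E) (sigmaHom_mem_fracField (M * ℓ) E A) (jE M E)
      (jqModC (OE A E)) (Sat.hσu_j M ℓ E) (Sat.hρ_j (OE A E)))
    (hD₂ : D.P₂ = Modular.Datum.P₂ ϖ hϖ (alphaHom M ℓ E) (sigmaHom (M * ℓ) E)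
      (sigmaHom_algebraMap (M * ℓ) E) (sigmaHom_mem_fracField (M * ℓ) E A) (jE M E)
      (jqModC (OE A E)) (Sat.hσu_j M ℓ E)
      (wHom M ℓ E hℓ hℓM) (wHom_algebraMap M ℓ E hℓ hℓM) ℓ (sigmaHom_wHom_alpha M ℓ E hℓ hℓM)
      (Sat.hρ_j (OE A E))) :
    ∀ σ₀ : Gq, A.IsFrobeniusAt σ₀ ℓ →
      StabilizesChart (OE A E) (alphaHom M ℓ E (jE M E))
        (frobSwap (M * ℓ) E (wE M ℓ E hℓ hℓM) σ₀) ∧
      MapsIntoChart (D.P₁.comap (toOverlapZero (OE A E) (alphaHom M ℓ E (jE M E))))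
        (D.P₂.comap (toOverlapZero (OE A E) (alphaHom M ℓ E (jE M E))))
        (frobSwap (M * ℓ) E (wE M ℓ E hℓ hℓM) σ₀) ∧
      MapsIntoChart (D.P₂.comap (toOverlapZero (OE A E) (alphaHom M ℓ E (jE M E))))
        (D.P₁.comap (toOverlapZero (OE A E) (alphaHom M ℓ E (jE M E))))
        (frobSwap (M * ℓ) E (wE M ℓ E hℓ hℓM) σ₀) ∧
      FixesNodes (alphaHom M ℓ E (jE M E))
        (D.P₁.comap (toOverlapZero (OE A E) (alphaHom M ℓ E (jE M E))))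
        (D.P₂.comap (toOverlapZero (OE A E) (alphaHom M ℓ E (jE M E))))
        (frobSwap (M * ℓ) E (wE M ℓ E hℓ hℓM) σ₀) :=
  frob_block M ℓ hℓ hℓM A E hA ϖ hϖ (jE M E) (jqModC (OE A E)) (Sat.hσu_j M ℓ E)
    (Sat.hρ_j (OE A E)) (Sat.hwu_j M ℓ E hℓ hℓM) (galE_jE M E) hprime (Sat.hcop_j (OE A E) ℓ)
    (Sat.hord_j (OE A E)) (Sat.hrank_j M ℓ E hℓ hℓM) hnormal D hD₁ hD₂

end Block

end Fermat.Agent.S35.FrobGlueE
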