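import Fermat.Agent.S34.Nodal.NoCuspRed
import Fermat.Agent.S34.HauptU.Plug

/-!
# PROGRAM U (S35): `hNC` for the Hauptmodul coordinates (`ℓ ∈ {2, 3}`)

The hypothesis `hNC` of `S34.Nodal.inj_ss_swap` / `S35.RootGlueFrob.frobSSRootE_of_nodal_gauss`
(no crossing point of the two components on `u = ∞`) for the coordinates `u = α (h_r)`,
`(r, ℓ) = (2, 3)` and `(3, 2)`, for ANY nodal datum whose primes are `{red = 0}` and
`{red ∘ w = 0}` (`w = HauptU.Plug.wHom`).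

* `hNC_of_alpha` : general level `(M, ℓ)`, a coordinate `u` with `u⁻¹ = α s`, `s` with integral
  `q`-expansion `U`, `ρ U (q^ℓ) = (ρ U)^ℓ`, `β s` integral over `O[α s]` and a cusp-shape relation
  `(α s)^(ℓ+1) + (β s)^(ℓ+1) = α s * β s * c`;
* `hNC_two`, `hNC_three` : the instances `s = s₂`, `ℓ = 3` and `s = s₃`, `ℓ = 2`
  (`HauptU.E.cusp_two`, `cusp_three`).
-/

set_option autoImplicit false
set_option linter.unusedSectionVars false
set_option synthInstance.maxHeartbeats 400000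

open ModularCurve

noncomputable section

namespace Fermat.Agent.S35.NoCuspHaupt

open Fermat.Agent.S30 Fermat.Agent.S30.Haupt Fermat.Agent.S18.K1Defs
open Fermat.Agent.S30.Model Fermat.Agent.S30.Model.GlueChart
open Fermat.Agent.S34 Fermat.Agent.S34.Nodal Fermat.Agent.S34.TwoPrimesRank
open Fermat.Agent.S34.HauptU Fermat.Agent.S34.HauptU.Rel Fermat.Agent.S34.HauptU.Plug

local notation "Qb" => AlgebraicClosure ℚ

/-! ### Integrality of the cofactors -/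

section Cof

variable {R L : Type*} [CommRing R] [CommRing L] [Algebra R L]

theorem isIntegral_cofTwo {x y : L} (hx : IsIntegral R x) (hy : IsIntegral R y) :
    IsIntegral R (cofTwo x y) := by
  have hn : ∀ n : ℕ, IsIntegral R ((n : ℕ) : L) := fun n => isIntegral_natCast n
  have e : cofTwo x y = 1 + ((72 : ℕ) : L) * (x + y) + ((900 : ℕ) : L) * (x ^ 2 + y ^ 2)
      - ((28422 : ℕ) : L) * (x * y) + ((294912 : ℕ) : L) * (x ^ 2 * y + x * y ^ 2)
      + ((16777216 : ℕ) : L) * (x ^ 2 * y ^ 2) := by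
    unfold cofTwo; push_cast; ring
  rw [e]
  exact ((((isIntegral_one.add ((hn _).mul (hx.add hy))).add
    ((hn _).mul ((hx.pow 2).add (hy.pow 2)))).sub ((hn _).mul (hx.mul hy))).add
    ((hn _).mul (((hx.pow 2).mul hy).add (hx.mul (hy.pow 2))))).add
    ((hn _).mul ((hx.pow 2).mul (hy.pow 2)))

theorem isIntegral_cofThree {x y : L} (hx : IsIntegral R x) (hy : IsIntegral R y) :
    IsIntegral R (cofThree x y) := by
  have hn : ∀ n : ℕ, IsIntegral R ((n : ℕ) : L) := fun n => isIntegral_natCast n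
  have e : cofThree x y = 1 + ((24 : ℕ) : L) * (x + y) + ((729 : ℕ) : L) * (x * y) := by
    unfold cofThree; push_cast; ring
  rw [e]
  exact (isIntegral_one.add ((hn _).mul (hx.add hy))).add ((hn _).mul (hx.mul hy))

end Cof

/-! ### The general statement -/

section General

variable (M ℓ : ℕ) [NeZero M] [NeZero ℓ] (hℓ : ℓ.Prime) (hℓM : ¬ ℓ ∣ M)
  (A : ValuationSubring Qb) (E : IntermediateField ℚ Qb) [IsDiscreteValuationRing (OE A E)]
  [Algebra (OE A E) (LE (M * ℓ) E)]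

/-- The reduction of an element with integral `q`-expansion is the reduction of its expansion. -/
theorem red_eq_rho_of_coe {N : ℕ} (a : LE N E) (X : LaurentSeries (OE A E))
    (h : (a : LaurentSeries E) = GaussDVR.iota (OE A E) E X)
    (ha : (a : LaurentSeries E) ∈ GaussDVR.V (OE A E) E) :
    GaussDVR.red (OE A E) E ⟨_, ha⟩ = GaussDVR.rho (OE A E) X := by
  have e : (⟨_, ha⟩ : GaussDVR.V (OE A E) E) = ⟨_, GaussDVR.mem_of_int (OE A E) E X⟩ :=
    Subtype.ext h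
  rw [e, GaussDVR.red_of_int]

/-- **`hNC` for a coordinate `u` with `u⁻¹ = α s`** and a cusp-shape relation between `α s` and
`β s = w (α s)`. -/
theorem hNC_of_alpha (s : LE M E) (U : LaurentSeries (OE A E))
    (hsU : (s : LaurentSeries E) = GaussDVR.iota (OE A E) E U)
    (hfrob : qExpand (IsLocalRing.ResidueField (OE A E)) ℓ (GaussDVR.rho (OE A E) U)
      = GaussDVR.rho (OE A E) U ^ ℓ)
    (hne : GaussDVR.rho (OE A E) U ≠ 0)
    (hint : IsIntegral (Algebra.adjoin (OE A E) {alphaHom M ℓ E s}) (heckeBetaBar E M ℓ s))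
    (c : LE (M * ℓ) E) (hc : IsIntegral (Algebra.adjoin (OE A E) {alphaHom M ℓ E s}) c)
    (hrel : alphaHom M ℓ E s ^ (ℓ + 1) + heckeBetaBar E M ℓ s ^ (ℓ + 1)
      = alphaHom M ℓ E s * heckeBetaBar E M ℓ s * c)
    (u : LE (M * ℓ) E) (hu : u⁻¹ = alphaHom M ℓ E s)
    (π : OE A E) (D : NodalDatum π u)
    (hP₁ : ∀ (x : Overlap (OE A E) u)
      (hx : (((x : LE (M * ℓ) E) : LE (M * ℓ) E) : LaurentSeries E) ∈ GaussDVR.V (OE A E) E),
      x ∈ D.P₁ ↔ GaussDVR.red (OE A E) E ⟨_, hx⟩ = 0)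
    (hP₂ : ∀ (x : Overlap (OE A E) u)
      (hWx : ((wHom M ℓ E hℓ hℓM (x : LE (M * ℓ) E) : LE (M * ℓ) E) : LaurentSeries E)
        ∈ GaussDVR.V (OE A E) E),
      x ∈ D.P₂ ↔ GaussDVR.red (OE A E) E ⟨_, hWx⟩ = 0) :
    ∀ (Mx : Ideal (Chart (OE A E) u⁻¹)) (g : Chart (OE A E) u⁻¹), (g : LE (M * ℓ) E) = u⁻¹ →
      Mx.IsMaximal → g ∈ Mx →
      D.P₁.comap (toOverlapInf (OE A E) u) ≤ Mx → D.P₂.comap (toOverlapInf (OE A E) u) ≤ Mx →
      False := by
  have hℓ2 : 2 ≤ ℓ := hℓ.two_le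
  have hWinv : (wHom M ℓ E hℓ hℓM u)⁻¹ = heckeBetaBar E M ℓ s := by
    rw [← map_inv₀, hu, wHom_alpha]
  have hcoeA : ((u⁻¹ : LE (M * ℓ) E) : LaurentSeries E) = GaussDVR.iota (OE A E) E U := by
    rw [hu]; exact coe_alpha_eq_iota M ℓ E s U hsU
  have hcoeB : (((wHom M ℓ E hℓ hℓM u)⁻¹ : LE (M * ℓ) E) : LaurentSeries E)
      = GaussDVR.iota (OE A E) E (qExpand (OE A E) ℓ U) := by
    rw [hWinv]; exact coe_beta_eq_iota M ℓ E s U hsU
  have hu' : ((u⁻¹ : LE (M * ℓ) E) : LaurentSeries E) ∈ GaussDVR.V (OE A E) E := by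
    rw [hcoeA]; exact GaussDVR.mem_of_int (OE A E) E U
  have hWu' : (((wHom M ℓ E hℓ hℓM u)⁻¹ : LE (M * ℓ) E) : LaurentSeries E)
      ∈ GaussDVR.V (OE A E) E := by
    rw [hcoeB]; exact GaussDVR.mem_of_int (OE A E) E _
  have hrA := red_eq_rho_of_coe A E (u⁻¹ : LE (M * ℓ) E) U hcoeA hu'
  have hrB := red_eq_rho_of_coe A E ((wHom M ℓ E hℓ hℓM u)⁻¹ : LE (M * ℓ) E) _ hcoeB hWu'
  have hρq : GaussDVR.rho (OE A E) (qExpand (OE A E) ℓ U)
      = qExpand (IsLocalRing.ResidueField (OE A E)) ℓ (GaussDVR.rho (OE A E) U) :=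
    ModularCurve.coeffMap_qExpand _ _ _
  refine hNC_LE A E (M * ℓ) π u hu' (wHom M ℓ E hℓ hℓM) (wHom_wHom M ℓ E hℓ hℓM u) hWu' D
    hP₁ hP₂ ℓ hℓ2 ?_ ?_ ?_ c ?_ ?_
  · rw [hrA, hrB, hρq, hfrob]
  · rw [hrA]; exact hne
  · rw [hu, hWinv]; exact hint
  · rw [hu]; exact hc
  · rw [hu, hWinv]; exact hrel

end General

/-! ### The two explicit levels -/

section Explicit

variable (M : ℕ) [NeZero M] (A : ValuationSubring Qb) (E : IntermediateField ℚ Qb)
  [IsDiscreteValuationRing (OE A E)]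

/-- **`hNC` at `(r, ℓ) = (2, 3)`**, coordinate `u = α h₂`. -/
theorem hNC_two (h3 : Nat.Prime 3) (h3M : ¬ 3 ∣ M) (h2M : 2 ∣ M)
    [CharP (IsLocalRing.ResidueField (OE A E)) 3]
    [Algebra (OE A E) (LE (M * 3) E)]
    (π : OE A E) (D : NodalDatum π (alphaHom M 3 E (HorizTwo.h2E M E h2M)))
    (hP₁ : ∀ (x : Overlap (OE A E) (alphaHom M 3 E (HorizTwo.h2E M E h2M)))
      (hx : (((x : LE (M * 3) E) : LE (M * 3) E) : LaurentSeries E) ∈ GaussDVR.V (OE A E) E),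
      x ∈ D.P₁ ↔ GaussDVR.red (OE A E) E ⟨_, hx⟩ = 0)
    (hP₂ : ∀ (x : Overlap (OE A E) (alphaHom M 3 E (HorizTwo.h2E M E h2M)))
      (hWx : ((wHom M 3 E h3 h3M (x : LE (M * 3) E) : LE (M * 3) E) : LaurentSeries E)
        ∈ GaussDVR.V (OE A E) E),
      x ∈ D.P₂ ↔ GaussDVR.red (OE A E) E ⟨_, hWx⟩ = 0) :
    ∀ (Mx : Ideal (Chart (OE A E) (alphaHom M 3 E (HorizTwo.h2E M E h2M))⁻¹))
      (g : Chart (OE A E) (alphaHom M 3 E (HorizTwo.h2E M E h2M))⁻¹),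
      (g : LE (M * 3) E) = (alphaHom M 3 E (HorizTwo.h2E M E h2M))⁻¹ →
      Mx.IsMaximal → g ∈ Mx →
      D.P₁.comap (toOverlapInf (OE A E) (alphaHom M 3 E (HorizTwo.h2E M E h2M))) ≤ Mx →
      D.P₂.comap (toOverlapInf (OE A E) (alphaHom M 3 E (HorizTwo.h2E M E h2M))) ≤ Mx →
      False := by
  have hint : IsIntegral (Algebra.adjoin (OE A E) {alphaHom M 3 E (HorizTwo.s2E M E h2M)})
      (heckeBetaBar E M 3 (HorizTwo.s2E M E h2M)) := HauptU.E.hwu_s2E M E h2M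
  have hxi : IsIntegral (Algebra.adjoin (OE A E) {alphaHom M 3 E (HorizTwo.s2E M E h2M)})
      (alphaHom M 3 E (HorizTwo.s2E M E h2M)) :=
    isIntegral_algebraMap (x := (⟨_, Algebra.subset_adjoin (Set.mem_singleton _)⟩ :
      Algebra.adjoin (OE A E) {alphaHom M 3 E (HorizTwo.s2E M E h2M)}))
  refine hNC_of_alpha M 3 h3 h3M A E (HorizTwo.s2E M E h2M) (HauptU.E.posO (OE A E) Two.s2Z)
    (HauptU.E.coe_s2E_eq_iota M E h2M) (HauptU.E.qExpand_rho_posO 3 h3 Two.s2Z) ?_ hint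
    (cofTwo (alphaHom M 3 E (HorizTwo.s2E M E h2M)) (heckeBetaBar E M 3 (HorizTwo.s2E M E h2M)))
    (isIntegral_cofTwo hxi hint) (HauptU.E.cusp_two M E h2M) _
    (alpha_s2E_eq_inv M E 3 h2M).symm π D hP₁ hP₂
  intro h0
  have := HauptU.E.order_rho_posO_ne_zero (O := OE A E) Two.s2Z Two.coeff_zero_s2Z
    Two.coeff_one_s2Z
  rw [h0, HahnSeries.order_zero] at this
  exact this rfl

/-- **`hNC` at `(r, ℓ) = (3, 2)`**, coordinate `u = α h₃`. -/
theorem hNC_three (h2 : Nat.Prime 2) (h2M : ¬ 2 ∣ M) (h3M : 3 ∣ M)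
    [CharP (IsLocalRing.ResidueField (OE A E)) 2]
    [Algebra (OE A E) (LE (M * 2) E)]
    (π : OE A E) (D : NodalDatum π (alphaHom M 2 E (HorizThree.h3E M E h3M)))
    (hP₁ : ∀ (x : Overlap (OE A E) (alphaHom M 2 E (HorizThree.h3E M E h3M)))
      (hx : (((x : LE (M * 2) E) : LE (M * 2) E) : LaurentSeries E) ∈ GaussDVR.V (OE A E) E),
      x ∈ D.P₁ ↔ GaussDVR.red (OE A E) E ⟨_, hx⟩ = 0)
    (hP₂ : ∀ (x : Overlap (OE A E) (alphaHom M 2 E (HorizThree.h3E M E h3M)))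
      (hWx : ((wHom M 2 E h2 h2M (x : LE (M * 2) E) : LE (M * 2) E) : LaurentSeries E)
        ∈ GaussDVR.V (OE A E) E),
      x ∈ D.P₂ ↔ GaussDVR.red (OE A E) E ⟨_, hWx⟩ = 0) :
    ∀ (Mx : Ideal (Chart (OE A E) (alphaHom M 2 E (HorizThree.h3E M E h3M))⁻¹))
      (g : Chart (OE A E) (alphaHom M 2 E (HorizThree.h3E M E h3M))⁻¹),
      (g : LE (M * 2) E) = (alphaHom M 2 E (HorizThree.h3E M E h3M))⁻¹ →
      Mx.IsMaximal → g ∈ Mx →
      D.P₁.comap (toOverlapInf (OE A E) (alphaHom M 2 E (HorizThree.h3E M E h3M))) ≤ Mx →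
      D.P₂.comap (toOverlapInf (OE A E) (alphaHom M 2 E (HorizThree.h3E M E h3M))) ≤ Mx →
      False := by
  have hint : IsIntegral (Algebra.adjoin (OE A E) {alphaHom M 2 E (HorizThree.s3E M E h3M)})
      (heckeBetaBar E M 2 (HorizThree.s3E M E h3M)) := HauptU.E.hwu_s3E M E h3M
  have hxi : IsIntegral (Algebra.adjoin (OE A E) {alphaHom M 2 E (HorizThree.s3E M E h3M)})
      (alphaHom M 2 E (HorizThree.s3E M E h3M)) :=
    isIntegral_algebraMap (x := (⟨_, Algebra.subset_adjoin (Set.mem_singleton _)⟩ :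
      Algebra.adjoin (OE A E) {alphaHom M 2 E (HorizThree.s3E M E h3M)}))
  refine hNC_of_alpha M 2 h2 h2M A E (HorizThree.s3E M E h3M)
    (HauptU.E.posO (OE A E) Three.s3Z)
    (HauptU.E.coe_s3E_eq_iota M E h3M) (HauptU.E.qExpand_rho_posO 2 h2 Three.s3Z) ?_ hint
    (cofThree (alphaHom M 2 E (HorizThree.s3E M E h3M))
      (heckeBetaBar E M 2 (HorizThree.s3E M E h3M)))
    (isIntegral_cofThree hxi hint) (HauptU.E.cusp_three M E h3M) _
    (alpha_s3E_eq_inv M E 2 h3M).symm π D hP₁ hP₂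
  intro h0
  have := HauptU.E.order_rho_posO_ne_zero (O := OE A E) Three.s3Z Three.coeff_zero_s3Z
    Three.coeff_one_s3Z
  rw [h0, HahnSeries.order_zero] at this
  exact this rfl

end Explicit

end Fermat.Agent.S35.NoCuspHaupt
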