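/-
S35 / PROGRAM U brick (helper133): the NODE-ROOT lemma.

Level-free commutative algebra for the Frobenius relation `(C2')` of S35 (and the exit statements
`inj_ss_swapping`, `inj_ss_preserving` of the nodal contract).  No primes of the Kummer cover,
no labels, no going-down, no lifting of idempotents: everything happens in the base chart `B`
and in its fraction field.

* `exists_global_root` (one chart): `B` an integrally closed domain, `F = Frac B`, `p₁`, `p₂`
  primes with `p₁ ⊓ p₂ = (π)`, `k ∈ F` with `k ≡ 1` at `p₁` and at `p₂`.  If at every maximal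
  ideal `y` containing `p₁` or `p₂` (i.e. `y ∋ π`) there is `ρ ∈ F` with `ρ ^ m / k` a unit at `y` and `ρ ≡ 1` at those of `p₁`,
  `p₂` that pass through `y`, then there is a GLOBAL `s ∈ F` with `s ^ m = k (1 + π z)`, `z ∈ B`,
  and `s ≡ 1` at `p₁`, `p₂`.
  Proof: `I = {c | c ^ m / k ∈ B}` is a `B`-module (normality), `J = {x ∈ B | ∃ c ∈ I, c ≡ x at
  p₁ and p₂}` is an ideal containing `π` and not contained in any maximal ideal.
* `pow_sub_eq` (overlap): two such roots differ by an element whose `m`-th power is `k π v`.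
* `idem` and its algebra: `e(T) = (1/m) ∑_{j<m} T ^ j` is an idempotent modulo `π` when
  `T ^ m ≡ 1`; twists by distinct roots of unity are orthogonal and sum to `1`.
The ending (`k = c s ^ m`) is in `S35/NodeRootEnd.lean`.
-/
import Mathlib
import Fermat.Agent.S34.Label

set_option autoImplicit false

namespace Fermat.Agent.S35.NodeRoot

open Fermat.Agent.S34.Label

section Chart

variable {B F : Type*} [CommRing B] [Field F] [Algebra B F] [IsFractionRing B F]

/-- "`c ≡ x` at the prime `p`": `t (c - x) ∈ p` for some `t ∈ B ∖ p`. -/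
def CongAt (p : Ideal B) (c : F) (x : B) : Prop :=
  ∃ t e : B, t ∉ p ∧ e ∈ p ∧ algebraMap B F t * (c - algebraMap B F x) = algebraMap B F e

omit [IsFractionRing B F] in
theorem congAt_one_iff (p : Ideal B) (c : F) : CongAt p c 1 ↔ OneAt p c := by
  unfold CongAt OneAt
  simp only [map_one]

omit [IsFractionRing B F] in
theorem congAt_zero_of_mem (p : Ideal B) [p.IsPrime] {x : B} (hx : x ∈ p) : CongAt p (0 : F) x :=
  ⟨1, -x, fun h => Ideal.IsPrime.ne_top inferInstance (p.eq_top_of_isUnit_mem h isUnit_one),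
    p.neg_mem hx, by simp⟩

omit [IsFractionRing B F] in
theorem CongAt.add {p : Ideal B} [p.IsPrime] {c c' : F} {x x' : B} (h : CongAt p c x)
    (h' : CongAt p c' x') : CongAt p (c + c') (x + x') := by
  obtain ⟨t, e, ht, he, hte⟩ := h
  obtain ⟨t', e', ht', he', hte'⟩ := h'
  refine ⟨t * t', t' * e + t * e', fun h => ?_, ?_, ?_⟩
  · rcases Ideal.IsPrime.mem_or_mem inferInstance h with h | h
    · exact ht h
    · exact ht' h
  · exact p.add_mem (p.mul_mem_left _ he) (p.mul_mem_left _ he')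
  · simp only [map_mul, map_add, ← hte, ← hte']
    ring

omit [IsFractionRing B F] in
theorem CongAt.smul {p : Ideal B} {c : F} {x : B} (z : B) (h : CongAt p c x) :
    CongAt p (algebraMap B F z * c) (z * x) := by
  obtain ⟨t, e, ht, he, hte⟩ := h
  refine ⟨t, z * e, ht, p.mul_mem_left _ he, ?_⟩
  simp only [map_mul, ← hte]
  ring

/-- `c ^ m / k ∈ B`. -/
def IsRootMul (m : ℕ) (k c : F) : Prop := ∃ w : B, c ^ m = k * algebraMap B F w

omit [IsFractionRing B F] in
theorem isRootMul_zero {m : ℕ} (hm : 0 < m) (k : F) : IsRootMul (B := B) m k 0 :=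
  ⟨0, by simp [hm.ne']⟩

omit [IsFractionRing B F] in
theorem IsRootMul.smul {m : ℕ} {k c : F} (z : B) (h : IsRootMul (B := B) m k c) :
    IsRootMul (B := B) m k (algebraMap B F z * c) := by
  obtain ⟨w, hw⟩ := h
  refine ⟨z ^ m * w, ?_⟩
  rw [mul_pow, hw, map_mul, map_pow]
  ring

theorem IsRootMul.add [IsIntegrallyClosed B] {m : ℕ} (hm : 0 < m) {k c c' : F} (hk : k ≠ 0)
    (h : IsRootMul (B := B) m k c) (h' : IsRootMul (B := B) m k c') :
    IsRootMul (B := B) m k (c + c') := by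
  obtain ⟨w, hw⟩ := h
  obtain ⟨w', hw'⟩ := h'
  have key : ∀ j : ℕ, j ≤ m → ∃ b : B, algebraMap B F b = c ^ j * c' ^ (m - j) / k := by
    intro j hj
    have h1 : (c ^ j * c' ^ (m - j) / k) ^ m = algebraMap B F (w ^ j * w' ^ (m - j)) := by
      have e1 : (c ^ j) ^ m = (c ^ m) ^ j := by rw [← pow_mul, mul_comm, pow_mul]
      have e2 : (c' ^ (m - j)) ^ m = (c' ^ m) ^ (m - j) := by rw [← pow_mul, mul_comm, pow_mul]
      have e3 : k ^ m = k ^ j * k ^ (m - j) := by rw [← pow_add, Nat.add_sub_cancel' hj]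
      rw [div_pow, mul_pow, e1, e2, hw, hw', div_eq_iff (pow_ne_zero m hk), e3, map_mul, map_pow,
        map_pow]
      ring
    have hint : IsIntegral B (c ^ j * c' ^ (m - j) / k) := by
      refine IsIntegral.of_pow hm ?_
      rw [h1]
      exact isIntegral_algebraMap
    exact IsIntegrallyClosed.isIntegral_iff.1 hint
  choose! b hb using key
  refine ⟨∑ j ∈ Finset.range (m + 1), b j * (m.choose j : B), ?_⟩
  rw [add_pow, map_sum, Finset.mul_sum]
  refine Finset.sum_congr rfl fun j hj => ?_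
  have hj' : j ≤ m := Nat.lt_succ_iff.1 (Finset.mem_range.1 hj)
  rw [map_mul, hb j hj', map_natCast]
  field_simp

/-- The ideal of all `x ∈ B` which are the common value at `p₁`, `p₂` of an element of
`{c | c ^ m / k ∈ B}`. -/
def congIdeal [IsIntegrallyClosed B] (p₁ p₂ : Ideal B) [p₁.IsPrime] [p₂.IsPrime] (m : ℕ)
    (hm : 0 < m) (k : F) (hk : k ≠ 0) : Ideal B where
  carrier := {x | ∃ c : F, IsRootMul (B := B) m k c ∧ CongAt p₁ c x ∧ CongAt p₂ c x}
  add_mem' := by
    rintro x x' ⟨c, hc, h1, h2⟩ ⟨c', hc', h1', h2'⟩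
    exact ⟨c + c', hc.add hm hk hc', h1.add h1', h2.add h2'⟩
  zero_mem' := ⟨0, isRootMul_zero hm k, congAt_zero_of_mem p₁ p₁.zero_mem,
    congAt_zero_of_mem p₂ p₂.zero_mem⟩
  smul_mem' := by
    rintro z x ⟨c, hc, h1, h2⟩
    exact ⟨algebraMap B F z * c, hc.smul z, h1.smul z, h2.smul z⟩

omit [IsFractionRing B F] in
theorem oneAt_mul {p : Ideal B} [p.IsPrime] {a b : F} (ha : OneAt p a) (hb : OneAt p b) :
    OneAt p (a * b) := by
  obtain ⟨t, e, ht, he, hte⟩ := ha
  obtain ⟨t', e', ht', he', hte'⟩ := hb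
  refine ⟨t * t', e * e' + t' * e + t * e', fun h => ?_, ?_, ?_⟩
  · rcases Ideal.IsPrime.mem_or_mem inferInstance h with h | h
    · exact ht h
    · exact ht' h
  · exact p.add_mem (p.add_mem (p.mul_mem_left _ he') (p.mul_mem_left _ he)) (p.mul_mem_left _ he')
  · simp only [map_mul, map_add, ← hte, ← hte']
    ring

omit [IsFractionRing B F] in
theorem oneAt_one (p : Ideal B) [p.IsPrime] : OneAt p (1 : F) :=
  ⟨1, 0, fun h => Ideal.IsPrime.ne_top inferInstance (p.eq_top_of_isUnit_mem h isUnit_one),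
    p.zero_mem, by simp⟩

omit [IsFractionRing B F] in
theorem oneAt_pow {p : Ideal B} [p.IsPrime] {a : F} (ha : OneAt p a) (n : ℕ) :
    OneAt p (a ^ n) := by
  induction n with
  | zero => simpa using oneAt_one (F := F) p
  | succ n ih => rw [pow_succ]; exact oneAt_mul ih ha

/-- If `k ≡ 1` at `p` and `c ^ m / k ∈ B`, then `c` is integral at `p`; hence for `e ∈ p` the
element `e c` is `≡ e x` at `p` for every `x`. -/
theorem congAt_of_mem [IsIntegrallyClosed B] {p : Ideal B} [p.IsPrime] {m : ℕ} (hm : 0 < m)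
    {k c : F} (hk : OneAt p k) (hc : IsRootMul (B := B) m k c) {e : B} (he : e ∈ p) (x : B) :
    CongAt p (algebraMap B F e * c) (e * x) := by
  obtain ⟨β, α, hβ, hα, hβα⟩ := hk
  obtain ⟨w, hw⟩ := hc
  have hβk : algebraMap B F β * k = algebraMap B F (β + α) := by
    rw [map_add, ← hβα]; ring
  have h1 : (algebraMap B F β * c) ^ m = algebraMap B F (β ^ (m - 1) * (β + α) * w) := by
    have h2 : algebraMap B F β ^ m = algebraMap B F β ^ (m - 1) * algebraMap B F β := by
      rw [← pow_succ, Nat.sub_add_cancel hm]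
    rw [mul_pow, h2, hw, map_mul, map_mul, map_pow, ← hβk]
    ring
  have hint : IsIntegral B (algebraMap B F β * c) := by
    refine IsIntegral.of_pow hm ?_
    rw [h1]
    exact isIntegral_algebraMap
  obtain ⟨b₀, hb₀⟩ := IsIntegrallyClosed.isIntegral_iff.1 hint
  refine ⟨β, e * b₀ - e * β * x, hβ, ?_, ?_⟩
  · exact p.sub_mem (p.mul_mem_right _ he) (p.mul_mem_right _ (p.mul_mem_right _ he))
  · simp only [map_mul, map_sub, hb₀]
    ring

/-- If `k ≡ 1` and `s ≡ 1` at `p` and `s ^ m = k w` with `w ∈ B`, then `w ≡ 1` modulo `p`. -/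
theorem sub_one_mem {p : Ideal B} [p.IsPrime] {m : ℕ} {k s : F} (hk : OneAt p k)
    (hs : OneAt p s) {w : B} (hw : s ^ m = k * algebraMap B F w) : w - 1 ∈ p := by
  obtain ⟨β, α, hβ, hα, hβα⟩ := hk
  obtain ⟨t, e, ht, he, hte⟩ := oneAt_pow hs m
  have hinj := IsFractionRing.injective B F
  have hβk : algebraMap B F β * k = algebraMap B F (β + α) := by
    rw [map_add, ← hβα]; ring
  have hts : algebraMap B F t * s ^ m = algebraMap B F (t + e) := by
    rw [map_add, ← hte]; ring
  have h1 : t * β * (w - 1) = β * e - t * α * w := by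
    apply hinj
    have h2 : algebraMap B F β * (algebraMap B F t * s ^ m) =
        algebraMap B F t * (algebraMap B F β * k) * algebraMap B F w := by
      rw [hw]; ring
    rw [hts, hβk] at h2
    simp only [map_mul, map_sub, map_add, map_one] at h2 ⊢
    linear_combination (-1 : F) * h2
  have h3 : t * β * (w - 1) ∈ p := by
    rw [h1]
    exact p.sub_mem (p.mul_mem_left _ he) (p.mul_mem_right _ (p.mul_mem_left _ hα))
  rcases Ideal.IsPrime.mem_or_mem inferInstance h3 with h | h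
  · rcases Ideal.IsPrime.mem_or_mem inferInstance h with h | h
    · exact absurd h ht
    · exact absurd h hβ
  · exact h

/-- **The node-root lemma (one chart).**  Local `m`-th roots of `k` which are `≡ 1` on the
branches glue to a global `m`-th root modulo `π`. -/
theorem exists_global_root [IsIntegrallyClosed B] (π : B) (p₁ p₂ : Ideal B) [p₁.IsPrime]
    [p₂.IsPrime] (hinf : p₁ ⊓ p₂ = Ideal.span {π}) (m : ℕ) (hm : 0 < m) (k : F) (hk : k ≠ 0)
    (hk₁ : OneAt p₁ k) (hk₂ : OneAt p₂ k)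
    (hloc : ∀ y : Ideal B, y.IsMaximal → (p₁ ≤ y ∨ p₂ ≤ y) → ∃ ρ : F,
      (∃ s s' : B, s ∉ y ∧ s' ∉ y ∧ algebraMap B F s * ρ ^ m = algebraMap B F s' * k) ∧
      (p₁ ≤ y → OneAt p₁ ρ) ∧ (p₂ ≤ y → OneAt p₂ ρ)) :
    ∃ (s : F) (z : B), s ^ m = k * (1 + algebraMap B F (π * z)) ∧ OneAt p₁ s ∧ OneAt p₂ s := by
  have hπ : π ∈ p₁ ⊓ p₂ := by rw [hinf]; exact Ideal.mem_span_singleton_self π
  have hπ₁ : π ∈ p₁ := hπ.1
  have hπ₂ : π ∈ p₂ := hπ.2
  have hJ : congIdeal p₁ p₂ m hm k hk = ⊤ := by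
    by_contra hne
    obtain ⟨y, hy, hJy⟩ := Ideal.exists_le_maximal _ hne
    have hyp : y.IsPrime := hy.isPrime
    have hπJ : π ∈ congIdeal p₁ p₂ m hm k hk :=
      ⟨0, isRootMul_zero hm k, congAt_zero_of_mem p₁ hπ₁, congAt_zero_of_mem p₂ hπ₂⟩
    have hle : p₁ ⊓ p₂ ≤ y := by
      rw [hinf, Ideal.span_singleton_le_iff_mem]
      exact hJy hπJ
    have hor : p₁ ≤ y ∨ p₂ ≤ y := hyp.inf_le.1 hle
    obtain ⟨ρ, ⟨s, s', hs, hs', hρ⟩, h1, h2⟩ := hloc y hy hor
    have hroot : IsRootMul (B := B) m k (algebraMap B F s * ρ) := by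
      refine ⟨s ^ (m - 1) * s', ?_⟩
      have h3 : algebraMap B F s ^ m = algebraMap B F s ^ (m - 1) * algebraMap B F s := by
        rw [← pow_succ, Nat.sub_add_cancel hm]
      rw [mul_pow, h3, mul_assoc, hρ, map_mul, map_pow]
      ring
    have hcong : ∀ p : Ideal B, OneAt p ρ → CongAt p (algebraMap B F s * ρ) s := by
      intro p hp
      have := ((congAt_one_iff p ρ).2 hp).smul s
      rwa [mul_one] at this
    by_cases hp1 : p₁ ≤ y <;> by_cases hp2 : p₂ ≤ y
    · exact hs (hJy ⟨_, hroot, hcong p₁ (h1 hp1), hcong p₂ (h2 hp2)⟩)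
    · obtain ⟨e, he2, hey⟩ := SetLike.not_le_iff_exists.1 hp2
      have hmem : e * s ∈ congIdeal p₁ p₂ m hm k hk :=
        ⟨algebraMap B F e * (algebraMap B F s * ρ), hroot.smul e, (hcong p₁ (h1 hp1)).smul e,
          congAt_of_mem hm hk₂ hroot he2 s⟩
      rcases hyp.mem_or_mem (hJy hmem) with h | h
      · exact hey h
      · exact hs h
    · obtain ⟨e, he1, hey⟩ := SetLike.not_le_iff_exists.1 hp1
      have hmem : e * s ∈ congIdeal p₁ p₂ m hm k hk :=
        ⟨algebraMap B F e * (algebraMap B F s * ρ), hroot.smul e,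
          congAt_of_mem hm hk₁ hroot he1 s, (hcong p₂ (h2 hp2)).smul e⟩
      rcases hyp.mem_or_mem (hJy hmem) with h | h
      · exact hey h
      · exact hs h
    · rcases hor with h | h
      · exact hp1 h
      · exact hp2 h
  have h1J : (1 : B) ∈ congIdeal p₁ p₂ m hm k hk := by rw [hJ]; trivial
  obtain ⟨s, ⟨w, hw⟩, hc1, hc2⟩ := h1J
  have hs1 : OneAt p₁ s := (congAt_one_iff p₁ s).1 hc1
  have hs2 : OneAt p₂ s := (congAt_one_iff p₂ s).1 hc2
  have hw1 : w - 1 ∈ p₁ ⊓ p₂ := ⟨sub_one_mem hk₁ hs1 hw, sub_one_mem hk₂ hs2 hw⟩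
  rw [hinf, Ideal.mem_span_singleton'] at hw1
  obtain ⟨z, hz⟩ := hw1
  refine ⟨s, z, ?_, hs1, hs2⟩
  rw [hw, mul_comm π z, hz]
  simp

end Chart

section Overlap

variable {B F : Type*} [CommRing B] [Field F] [Algebra B F] [IsFractionRing B F]

/-- **Overlap compatibility.**  Two elements `s`, `s'` with `s ^ m / k`, `s' ^ m / k ∈ B`, both
`≡ 1` at `P₁` and `P₂`, where `P₁ ⊓ P₂ = (π)` and `k ≡ 1` at `P₁`, `P₂`:
`(s - s') ^ m = k π v` with `v ∈ B`. -/
theorem pow_sub_eq [IsIntegrallyClosed B] (π : B) (P₁ P₂ : Ideal B) [P₁.IsPrime] [P₂.IsPrime]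
    (hinf : P₁ ⊓ P₂ = Ideal.span {π}) (m : ℕ) (hm : 0 < m) (k : F) (hk : k ≠ 0)
    (hk₁ : OneAt P₁ k) (hk₂ : OneAt P₂ k) (s s' : F)
    (hs : IsRootMul (B := B) m k s) (hs' : IsRootMul (B := B) m k s')
    (hs₁ : OneAt P₁ s) (hs₂ : OneAt P₂ s) (hs'₁ : OneAt P₁ s') (hs'₂ : OneAt P₂ s') :
    ∃ v : B, (s - s') ^ m = k * algebraMap B F (π * v) := by
  have hinj := IsFractionRing.injective B F
  have hd : IsRootMul (B := B) m k (s - s') := by
    have h := hs.add hm hk (hs'.smul (-1))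
    have e : s + algebraMap B F (-1) * s' = s - s' := by rw [map_neg, map_one]; ring
    rwa [e] at h
  obtain ⟨w, hw⟩ := hd
  have key : ∀ P : Ideal B, P.IsPrime → OneAt P k → OneAt P s → OneAt P s' → w ∈ P := by
    intro P hP hkP hsP hs'P
    obtain ⟨β, α, hβ, hα, hβα⟩ := hkP
    obtain ⟨t, e, ht, he, hte⟩ := hsP
    obtain ⟨t', e', ht', he', hte'⟩ := hs'P
    have hβk : algebraMap B F β * k = algebraMap B F (β + α) := by
      rw [map_add, ← hβα]; ring
    have hd' : algebraMap B F (t * t') * (s - s') = algebraMap B F (t' * e - t * e') := by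
      simp only [map_mul, map_sub, ← hte, ← hte']
      ring
    have h1 : (t * t') ^ m * (β + α) * w = β * (t' * e - t * e') ^ m := by
      apply hinj
      have h2 : (algebraMap B F (t * t') * (s - s')) ^ m * algebraMap B F β =
          algebraMap B F (t * t') ^ m * (algebraMap B F β * k) * algebraMap B F w := by
        rw [mul_pow, hw]; ring
      rw [hd', hβk] at h2
      simp only [map_mul, map_pow] at h2 ⊢
      linear_combination (-1 : F) * h2
    have h3 : (t * t') ^ m * (β + α) * w ∈ P := by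
      rw [h1]
      exact P.mul_mem_left _ (P.pow_mem_of_mem
        (P.sub_mem (P.mul_mem_left _ he) (P.mul_mem_left _ he')) m hm)
    rcases hP.mem_or_mem h3 with h | h
    · rcases hP.mem_or_mem h with h | h
      · rcases hP.mem_or_mem (hP.mem_of_pow_mem _ h) with h | h
        · exact absurd h ht
        · exact absurd h ht'
      · exact absurd (by simpa using P.sub_mem h hα) hβ
    · exact h
  have hw12 : w ∈ P₁ ⊓ P₂ :=
    ⟨key P₁ inferInstance hk₁ hs₁ hs'₁, key P₂ inferInstance hk₂ hs₂ hs'₂⟩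
  rw [hinf, Ideal.mem_span_singleton'] at hw12
  obtain ⟨v, hv⟩ := hw12
  exact ⟨v, by rw [hw, mul_comm π v, hv]⟩

end Overlap

section Idem

variable {R : Type*} [CommRing R]

/-- `e(T) = n (1 + T + ⋯ + T ^ (m - 1))`; for `n = 1 / m` and `T ^ m ≡ 1` this is the idempotent
cutting out `T ≡ 1`. -/
def idem (n : R) (m : ℕ) (T : R) : R := n * ∑ j ∈ Finset.range m, T ^ j

theorem sub_one_mul_idem (n : R) (m : ℕ) (T : R) : (T - 1) * idem n m T = n * (T ^ m - 1) := by
  unfold idem
  rw [mul_left_comm, mul_geom_sum]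

theorem pow_mul_idem_sub_mem (π n z T : R) (m : ℕ) (hT : T ^ m = 1 + π * z) (j : ℕ) :
    T ^ j * idem n m T - idem n m T ∈ Ideal.span {π} := by
  induction j with
  | zero => simp
  | succ j ih =>
    have h1 : T ^ (j + 1) * idem n m T - idem n m T =
        T ^ j * ((T - 1) * idem n m T) + (T ^ j * idem n m T - idem n m T) := by ring
    rw [h1, sub_one_mul_idem, hT]
    refine Ideal.add_mem _ ?_ ih
    have h2 : T ^ j * (n * (1 + π * z - 1)) = (T ^ j * n * z) * π := by ring
    rw [h2]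
    exact Ideal.mul_mem_left _ _ (Ideal.mem_span_singleton_self π)

theorem idem_sq_sub_mem (π n z T : R) (m : ℕ) (hn : n * (m : R) = 1) (hT : T ^ m = 1 + π * z) :
    idem n m T ^ 2 - idem n m T ∈ Ideal.span {π} := by
  have h1 : idem n m T ^ 2 - idem n m T =
      n * ∑ j ∈ Finset.range m, (T ^ j * idem n m T - idem n m T) := by
    rw [Finset.sum_sub_distrib, Finset.sum_const, Finset.card_range, nsmul_eq_mul, mul_sub,
      ← mul_assoc n (m : R), hn, one_mul, ← Finset.sum_mul, pow_two]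
    conv_lhs => rw [show idem n m T * idem n m T = (n * ∑ j ∈ Finset.range m, T ^ j) * idem n m T
      from rfl]
    ring
  rw [h1]
  exact Ideal.mul_mem_left _ _ (Ideal.sum_mem _ fun j _ => pow_mul_idem_sub_mem π n z T m hT j)

theorem idem_mul_idem_mem (π n z T ω : R) (m : ℕ) (hT : T ^ m = 1 + π * z) (hω : ω ^ m = 1)
    (hu : IsUnit (1 - ω)) : idem n m T * idem n m (ω * T) ∈ Ideal.span {π} := by
  have hT' : (ω * T) ^ m = 1 + π * z := by rw [mul_pow, hω, one_mul, hT]
  have h1 := pow_mul_idem_sub_mem π n z T m hT 1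
  have h2 := pow_mul_idem_sub_mem π n z (ω * T) m hT' 1
  rw [pow_one] at h1 h2
  have h3 : (1 - ω) * (idem n m T * idem n m (ω * T)) ∈ Ideal.span {π} := by
    have e : (1 - ω) * (idem n m T * idem n m (ω * T)) =
        ω * idem n m (ω * T) * (T * idem n m T - idem n m T) -
          idem n m T * (ω * T * idem n m (ω * T) - idem n m (ω * T)) := by ring
    rw [e]
    exact Ideal.sub_mem _ (Ideal.mul_mem_left _ _ h1) (Ideal.mul_mem_left _ _ h2)
  obtain ⟨v, hv⟩ := hu
  have e : idem n m T * idem n m (ω * T) =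
      (↑v⁻¹ : R) * ((1 - ω) * (idem n m T * idem n m (ω * T))) := by
    rw [← mul_assoc, ← hv, Units.inv_mul, one_mul]
  rw [e]
  exact Ideal.mul_mem_left _ _ h3

theorem geom_sum_eq_zero_of_pow_eq_one [IsDomain R] {ω : R} {m : ℕ} (hω : ω ^ m = 1)
    (hω1 : ω ≠ 1) : ∑ a ∈ Finset.range m, ω ^ a = 0 := by
  have h := mul_geom_sum ω m
  rw [hω, sub_self] at h
  rcases mul_eq_zero.1 h with h | h
  · exact absurd (sub_eq_zero.1 h) hω1
  · exact h

theorem isUnit_one_sub_of_pow_eq_one [IsDomain R] {ω : R} {m : ℕ} (hω : ω ^ m = 1) (hω1 : ω ≠ 1)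
    (hmu : IsUnit (m : R)) : IsUnit (1 - ω) := by
  have h1 : (m : R) = ∑ j ∈ Finset.range m, (1 ^ j - ω ^ j) := by
    rw [Finset.sum_sub_distrib, geom_sum_eq_zero_of_pow_eq_one hω hω1]
    simp
  have h2 : (1 - ω) ∣ (m : R) := by
    rw [h1]
    exact Finset.dvd_sum fun j _ => sub_dvd_pow_sub_pow 1 ω j
  exact isUnit_of_dvd_unit h2 hmu

theorem sum_idem [IsDomain R] (n ζ T : R) (m : ℕ) (hn : n * (m : R) = 1)
    (hζ : IsPrimitiveRoot ζ m) : ∑ a ∈ Finset.range m, idem n m (ζ ^ a * T) = 1 := by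
  unfold idem
  rw [← Finset.mul_sum, Finset.sum_comm]
  have h1 : ∀ j ∈ Finset.range m, ∑ a ∈ Finset.range m, (ζ ^ a * T) ^ j =
      if j = 0 then (m : R) else 0 := by
    intro j hj
    have hjm : j < m := Finset.mem_range.1 hj
    have e : ∀ a : ℕ, (ζ ^ a * T) ^ j = T ^ j * (ζ ^ j) ^ a := by
      intro a
      rw [mul_pow, ← pow_mul, ← pow_mul, mul_comm a j]
      ring
    simp only [e]
    rw [← Finset.mul_sum]
    split_ifs with hj0
    · subst hj0
      simp
    · rw [geom_sum_eq_zero_of_pow_eq_one (by rw [← pow_mul, mul_comm, pow_mul, hζ.pow_eq_one,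
        one_pow]) (hζ.pow_ne_one_of_pos_of_lt hj0 hjm), mul_zero]
  rw [Finset.sum_congr rfl h1]
  have hm : 0 < m := by
    rcases Nat.eq_zero_or_pos m with h | h
    · subst h
      simp at hn
    · exact h
  rw [Finset.sum_ite_eq' (Finset.range m) 0 fun _ => (m : R), if_pos (Finset.mem_range.2 hm), hn]

theorem idem_sub_idem_dvd (n T T' : R) (m : ℕ) : T - T' ∣ idem n m T - idem n m T' := by
  unfold idem
  rw [← mul_sub, ← Finset.sum_sub_distrib]
  exact Dvd.dvd.mul_left (Finset.dvd_sum fun j _ => sub_dvd_pow_sub_pow T T' j) n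

/-- Two idempotents modulo `I` whose difference is nilpotent modulo `I` agree modulo `I`. -/
theorem sub_mem_of_pow_mem (I : Ideal R) (e e' : R) (he : e ^ 2 - e ∈ I) (he' : e' ^ 2 - e' ∈ I)
    (N : ℕ) (hN : (e - e') ^ N ∈ I) : e - e' ∈ I := by
  have h3 : (e - e') ^ 3 - (e - e') ∈ I := by
    have h : (e - e') ^ 3 - (e - e') =
        (e + 1 - 3 * e') * (e ^ 2 - e) + (3 * e - e' - 1) * (e' ^ 2 - e') := by ring
    rw [h]
    exact I.add_mem (I.mul_mem_left _ he) (I.mul_mem_left _ he')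
  have key : ∀ N : ℕ, (e - e') ^ (N + 1) ∈ I → e - e' ∈ I := by
    intro N
    induction N with
    | zero => intro h; simpa using h
    | succ N ih =>
      intro h
      refine ih ?_
      have e1 : (e - e') ^ (N + 1) =
          (e - e') * (e - e') ^ (N + 1 + 1) - (e - e') ^ N * ((e - e') ^ 3 - (e - e')) := by ring
      rw [e1]
      exact I.sub_mem (I.mul_mem_left _ h) (I.mul_mem_left _ h3)
  rcases N with _ | N
  · rw [pow_zero] at hN
    rw [(Ideal.eq_top_iff_one I).2 hN]
    trivial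
  · exact key N hN

end Idem

end Fermat.Agent.S35.NodeRoot
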