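/-
S35 / PROGRAM U brick (helper133): the ending of the node-root argument.

`L' = L(t)`, `t ^ m = k`.  If `k` has an `m`-th root modulo `π` on both charts of the `u`-line
(`s₀ ^ m = k (1 + π z₀)` on the chart `u`, `s₁ ^ m = k (1 + π z₁)` on the chart `u⁻¹`), compatible
on the overlap (`(s₀ - s₁) ^ m = k π v`), then `k = c s ^ m` with `c` integral over `O`.

Proof: `T_i = s_i / t` are integral with `T_i ^ m ≡ 1`; `e(T) = (1/m) ∑_{j<m} T ^ j` is an explicit
idempotent modulo `π`, `∑_a e(ζ^a T₀) = 1`, distinct twists are orthogonal; the pair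
`(e(ζ^a T₀), e(ζ^a T₁))` is an idempotent of the special fibre of the `L'`-model and
`P = (π, 1 - e₀)` is a proper ideal containing all the other Galois conjugates of `e₀`.
Conclude by `S34.DegreeOne.exists_eq_const_mul_pow` (helper213).
-/
import Mathlib
import Fermat.Agent.S35.NodeRoot
import Fermat.Agent.S34.DegreeOne

set_option autoImplicit false

open Polynomial

namespace Fermat.Agent.S35.NodeRoot

theorem map_idem {R R' : Type*} [CommRing R] [CommRing R'] (f : R →+* R') (n T : R) (m : ℕ) :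
    f (idem n m T) = idem (f n) m (f T) := by
  simp [idem, map_sum]

section ChartRing

variable {O L' : Type*} [CommRing O] [Field L'] [Algebra O L']

/-- The constants in the chart ring. -/
noncomputable def cst (S : Subalgebra O L') : O →+* integralClosure S L' :=
  (algebraMap S (integralClosure S L')).comp (algebraMap O S)

theorem coe_cst (S : Subalgebra O L') (x : O) :
    ((cst S x : integralClosure S L') : L') = algebraMap O L' x := rfl

theorem coe_idem (S : Subalgebra O L') (n T : integralClosure S L') (m : ℕ) :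
    ((idem n m T : integralClosure S L') : L') = idem (n : L') m (T : L') :=
  map_idem (integralClosure S L').val.toRingHom n T m

theorem mem_span_coe (S : Subalgebra O L') (p x : integralClosure S L') :
    x ∈ Ideal.span {p} ↔ ∃ w : L', IsIntegral S w ∧ (x : L') = (p : L') * w := by
  rw [Ideal.mem_span_singleton']
  constructor
  · rintro ⟨w, rfl⟩
    exact ⟨w, w.2, by rw [Subalgebra.coe_mul, mul_comm]⟩
  · rintro ⟨w, hw, h⟩
    exact ⟨⟨w, hw⟩, Subtype.ext (by rw [Subalgebra.coe_mul, h, mul_comm])⟩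

/-- Chart facts for `e(T)`, `T ^ m = 1 + π z`. -/
theorem chart_idem (S : Subalgebra O L') (n π ζ : O) (m : ℕ) (hm : 0 < m)
    (hn : n * (m : O) = 1) (hζ : IsPrimitiveRoot (algebraMap O L' ζ) m) (T z : L')
    (hz : IsIntegral S z) (hT : T ^ m = 1 + algebraMap O L' π * z) :
    IsIntegral S (idem (algebraMap O L' n) m T) ∧
    (∃ w, IsIntegral S w ∧ idem (algebraMap O L' n) m T ^ 2 - idem (algebraMap O L' n) m T =
      algebraMap O L' π * w) ∧
    ∀ i : ℕ, algebraMap O L' ζ ^ i ≠ 1 → ∃ w, IsIntegral S w ∧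
      idem (algebraMap O L' n) m T * idem (algebraMap O L' n) m (algebraMap O L' ζ ^ i * T) =
        algebraMap O L' π * w := by
  have hTint : IsIntegral S T := by
    refine IsIntegral.of_pow hm ?_
    rw [hT]
    exact isIntegral_one.add ((cst S π).2.mul hz)
  set TC : integralClosure S L' := ⟨T, hTint⟩ with hTC
  set zC : integralClosure S L' := ⟨z, hz⟩ with hzC
  have hTCm : TC ^ m = 1 + cst S π * zC := Subtype.ext (by
    simp only [Subalgebra.coe_pow, Subalgebra.coe_add, Subalgebra.coe_one, Subalgebra.coe_mul,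
      coe_cst, hTC, hzC]
    exact hT)
  have hnC : cst S n * ((m : ℕ) : integralClosure S L') = 1 := by
    rw [← map_natCast (cst S) m, ← map_mul, hn, map_one]
  have hcoe : ((idem (cst S n) m TC : integralClosure S L') : L') =
      idem (algebraMap O L' n) m T := coe_idem S _ _ m
  refine ⟨?_, ?_, ?_⟩
  · rw [← hcoe]
    exact (idem (cst S n) m TC).2
  · have h := idem_sq_sub_mem (cst S π) (cst S n) zC TC m hnC hTCm
    rw [mem_span_coe] at h
    obtain ⟨w, hw, hw'⟩ := h
    refine ⟨w, hw, ?_⟩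
    rw [← hcoe, ← coe_cst S π, ← hw']
    rfl
  · intro i hi
    have hζC : IsPrimitiveRoot (cst S ζ) m :=
      IsPrimitiveRoot.of_map_of_injective (f := (integralClosure S L').val) hζ
        Subtype.val_injective
    have hωm : (cst S ζ ^ i) ^ m = 1 := by
      rw [← pow_mul, mul_comm, pow_mul, hζC.pow_eq_one, one_pow]
    have hω1 : cst S ζ ^ i ≠ 1 := by
      intro h
      apply hi
      have := congrArg (fun x : integralClosure S L' => (x : L')) h
      simpa [coe_cst] using this
    have hmu : IsUnit ((m : ℕ) : integralClosure S L') :=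
      IsUnit.of_mul_eq_one _ (by rw [mul_comm]; exact hnC)
    have h := idem_mul_idem_mem (cst S π) (cst S n) zC TC (cst S ζ ^ i) m hTCm hωm
      (isUnit_one_sub_of_pow_eq_one hωm hω1 hmu)
    rw [mem_span_coe] at h
    obtain ⟨w, hw, hw'⟩ := h
    refine ⟨w, hw, ?_⟩
    rw [← coe_cst S π, ← hw', Subalgebra.coe_mul, coe_idem, coe_idem]
    rfl

/-- Overlap: two idempotents modulo `π` whose difference is nilpotent modulo `π` agree
modulo `π`. -/
theorem chart_idem_sub (S : Subalgebra O L') (n π : O) (m : ℕ) (T T' v : L')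
    (hTi : IsIntegral S T) (hT'i : IsIntegral S T') (hv : IsIntegral S v)
    (hTT' : (T - T') ^ m = algebraMap O L' π * v)
    (h0 : ∃ w, IsIntegral S w ∧ idem (algebraMap O L' n) m T ^ 2 - idem (algebraMap O L' n) m T =
      algebraMap O L' π * w)
    (h1 : ∃ w, IsIntegral S w ∧ idem (algebraMap O L' n) m T' ^ 2 -
      idem (algebraMap O L' n) m T' = algebraMap O L' π * w) :
    ∃ w, IsIntegral S w ∧ idem (algebraMap O L' n) m T - idem (algebraMap O L' n) m T' =
      algebraMap O L' π * w := by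
  set TC : integralClosure S L' := ⟨T, hTi⟩ with hTC
  set TC' : integralClosure S L' := ⟨T', hT'i⟩ with hTC'
  have hcoe : ((idem (cst S n) m TC : integralClosure S L') : L') =
      idem (algebraMap O L' n) m T := coe_idem S _ _ m
  have hcoe' : ((idem (cst S n) m TC' : integralClosure S L') : L') =
      idem (algebraMap O L' n) m T' := coe_idem S _ _ m
  have he : idem (cst S n) m TC ^ 2 - idem (cst S n) m TC ∈ Ideal.span {cst S π} := by
    rw [mem_span_coe]
    obtain ⟨w, hw, hw'⟩ := h0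
    exact ⟨w, hw, by rw [coe_cst, ← hw', ← hcoe]; rfl⟩
  have he' : idem (cst S n) m TC' ^ 2 - idem (cst S n) m TC' ∈ Ideal.span {cst S π} := by
    rw [mem_span_coe]
    obtain ⟨w, hw, hw'⟩ := h1
    exact ⟨w, hw, by rw [coe_cst, ← hw', ← hcoe']; rfl⟩
  have hpow : (idem (cst S n) m TC - idem (cst S n) m TC') ^ m ∈ Ideal.span {cst S π} := by
    obtain ⟨g, hg⟩ := idem_sub_idem_dvd (cst S n) TC TC' m
    rw [hg, mul_pow]
    refine Ideal.mul_mem_right _ _ ?_
    rw [mem_span_coe]
    exact ⟨v, hv, by rw [coe_cst, ← hTT']; rfl⟩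
  have h := sub_mem_of_pow_mem _ _ _ he he' m hpow
  rw [mem_span_coe] at h
  obtain ⟨w, hw, hw'⟩ := h
  exact ⟨w, hw, by rw [← coe_cst S π, ← hw', ← hcoe, ← hcoe']; rfl⟩

end ChartRing

section Ending

open Fermat.Agent.S30.Model

variable {O L L' : Type*} [CommRing O] [IsNoetherianRing O]
  [Field L] [Field L'] [Algebra O L] [Algebra L L'] [Algebra O L'] [IsScalarTower O L L']
  [FiniteDimensional L L']

/-- **The ending.**  `L' = L(t)`, `t ^ m = k`; if `k` has `m`-th roots modulo `π` on the two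
charts of the `u'`-line which agree on the overlap, then `k = c s ^ m` with `c` integral over
`O`. -/
theorem exists_eq_const_mul_pow_of_root (π : O) (u' : L') (hu' : u' ≠ 0)
    (hu'L : u' ∈ Set.range (algebraMap L L'))
    (m : ℕ) (hm : 0 < m) (hmO : IsUnit (m : O)) (ζ : O)
    (hζ : IsPrimitiveRoot (algebraMap O L ζ) m)
    (k : L) (hk : k ≠ 0) (t : L') (ht : t ^ m = algebraMap L L' k)
    (hgen : Algebra.adjoin L {t} = ⊤)
    (hfin : ∃ s : Finset L', (∀ β ∈ s, IsIntegral (Algebra.adjoin O {u'}) β) ∧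
      ∀ x : L', IsIntegral (Algebra.adjoin O {u'}) x →
        ∃ f : L' → O[X], x = ∑ β ∈ s, aeval u' (f β) * β)
    (hπ : ¬ IsIntegral (Algebra.adjoin O {u'}) (algebraMap O L' π)⁻¹)
    (s₀ s₁ : L) (z₀ z₁ v : L')
    (hz₀ : IsIntegral (Algebra.adjoin O {u'}) z₀)
    (hs₀ : algebraMap L L' s₀ ^ m = algebraMap L L' k * (1 + algebraMap O L' π * z₀))
    (hz₁ : IsIntegral (Algebra.adjoin O {u'⁻¹}) z₁)
    (hs₁ : algebraMap L L' s₁ ^ m = algebraMap L L' k * (1 + algebraMap O L' π * z₁))
    (hv : IsIntegral (Algebra.adjoin O {u', u'⁻¹}) v)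
    (hsv : (algebraMap L L' s₀ - algebraMap L L' s₁) ^ m =
      algebraMap L L' k * (algebraMap O L' π * v)) :
    ∃ c s : L, IsIntegral O c ∧ s ≠ 0 ∧ k = c * s ^ m := by
  classical
  have hkL' : algebraMap L L' k ≠ 0 := by rwa [Ne, map_eq_zero]
  have ht0 : t ≠ 0 := by
    rintro rfl
    rw [zero_pow hm.ne'] at ht
    exact hkL' ht.symm
  obtain ⟨n, hn⟩ := hmO.exists_left_inv
  have hζ' : IsPrimitiveRoot (algebraMap O L' ζ) m := by
    rw [IsScalarTower.algebraMap_apply O L L']
    exact hζ.map_of_injective (algebraMap L L').injective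
  have hζm : ∀ a : ℕ, (algebraMap O L' ζ ^ a) ^ m = 1 := by
    intro a
    rw [← pow_mul, mul_comm, pow_mul, hζ'.pow_eq_one, one_pow]
  have hn' : algebraMap O L' n * (m : L') = 1 := by
    rw [← map_natCast (algebraMap O L') m, ← map_mul, hn, map_one]
  have hmono0 : Algebra.adjoin O ({u'} : Set L') ≤ Algebra.adjoin O ({u', u'⁻¹} : Set L') :=
    Algebra.adjoin_mono (by simp)
  have hmono1 : Algebra.adjoin O ({u'⁻¹} : Set L') ≤ Algebra.adjoin O ({u', u'⁻¹} : Set L') :=
    Algebra.adjoin_mono (by simp)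
  -- the two roots of unity modulo `π`
  set T0 : L' := algebraMap L L' s₀ / t with hT0
  set T1 : L' := algebraMap L L' s₁ / t with hT1
  have hT0m : T0 ^ m = 1 + algebraMap O L' π * z₀ := by
    rw [hT0, div_pow, hs₀, ht, mul_div_cancel_left₀ _ hkL']
  have hT1m : T1 ^ m = 1 + algebraMap O L' π * z₁ := by
    rw [hT1, div_pow, hs₁, ht, mul_div_cancel_left₀ _ hkL']
  have hT01 : (T0 - T1) ^ m = algebraMap O L' π * v := by
    rw [hT0, hT1, ← sub_div, div_pow, hsv, ht, mul_div_cancel_left₀ _ hkL']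
  have hS0m : ∀ a : ℕ, (algebraMap O L' ζ ^ a * T0) ^ m = 1 + algebraMap O L' π * z₀ := by
    intro a
    rw [mul_pow, hζm, one_mul, hT0m]
  have hS1m : ∀ a : ℕ, (algebraMap O L' ζ ^ a * T1) ^ m = 1 + algebraMap O L' π * z₁ := by
    intro a
    rw [mul_pow, hζm, one_mul, hT1m]
  -- choice of the twist
  have hsum := sum_idem (algebraMap O L' n) (algebraMap O L' ζ) T0 m hn' hζ'
  have hex : ∃ a : ℕ, ¬ ∃ w, IsIntegral (Algebra.adjoin O ({u'} : Set L')) w ∧
      idem (algebraMap O L' n) m (algebraMap O L' ζ ^ a * T0) = algebraMap O L' π * w := by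
    by_contra hcon
    push Not at hcon
    choose w hw hw' using hcon
    apply hπ
    have hπ0 : algebraMap O L' π ≠ 0 := by
      intro h0
      simp only [hw', h0, zero_mul, Finset.sum_const_zero] at hsum
      exact zero_ne_one hsum
    have h1 : (algebraMap O L' π)⁻¹ = ∑ a ∈ Finset.range m, w a := by
      refine inv_eq_of_mul_eq_one_right ?_
      rw [Finset.mul_sum, ← hsum]
      exact Finset.sum_congr rfl fun a _ => (hw' a).symm
    rw [h1]
    exact IsIntegral.sum _ fun a _ => hw a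
  obtain ⟨a, ha⟩ := hex
  obtain ⟨he0, h0, horth⟩ := chart_idem (Algebra.adjoin O ({u'} : Set L')) n π ζ m hm hn hζ'
    (algebraMap O L' ζ ^ a * T0) z₀ hz₀ (hS0m a)
  obtain ⟨he1, h1, -⟩ := chart_idem (Algebra.adjoin O ({u'⁻¹} : Set L')) n π ζ m hm hn hζ'
    (algebraMap O L' ζ ^ a * T1) z₁ hz₁ (hS1m a)
  set e0 : L' := idem (algebraMap O L' n) m (algebraMap O L' ζ ^ a * T0) with he0def
  set e1 : L' := idem (algebraMap O L' n) m (algebraMap O L' ζ ^ a * T1) with he1def
  -- overlap
  have hcst : ∀ (S : Subalgebra O L') (x : O), IsIntegral S (algebraMap O L' x) :=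
    fun S x => (cst S x).2
  have hTint : ∀ (S : Subalgebra O L') (T z : L'), IsIntegral S z →
      T ^ m = 1 + algebraMap O L' π * z → IsIntegral S T := by
    intro S T z hz hT
    refine IsIntegral.of_pow hm ?_
    rw [hT]
    exact isIntegral_one.add ((hcst S π).mul hz)
  have h01 : ∃ w, IsIntegral (Algebra.adjoin O ({u', u'⁻¹} : Set L')) w ∧
      e0 - e1 = algebraMap O L' π * w := by
    refine chart_idem_sub (Algebra.adjoin O ({u', u'⁻¹} : Set L')) n π m _ _ v
      (hTint _ _ z₀ (CechP1.isIntegral_mono hmono0 hz₀) (hS0m a))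
      (hTint _ _ z₁ (CechP1.isIntegral_mono hmono1 hz₁) (hS1m a)) hv ?_ ?_ ?_
    · rw [← mul_sub, mul_pow, hζm, one_mul, hT01]
    · obtain ⟨w, hw, hw'⟩ := h0
      exact ⟨w, CechP1.isIntegral_mono hmono0 hw, hw'⟩
    · obtain ⟨w, hw, hw'⟩ := h1
      exact ⟨w, CechP1.isIntegral_mono hmono1 hw, hw'⟩
  -- the ideal `P = (π, 1 - e0)`
  obtain ⟨πC, hπC⟩ : ∃ πC : integralClosure (Algebra.adjoin O ({u'} : Set L')) L',
      (πC : L') = algebraMap O L' π := ⟨cst (Algebra.adjoin O ({u'} : Set L')) π, rfl⟩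
  obtain ⟨E0, hE0⟩ : ∃ E0 : integralClosure (Algebra.adjoin O ({u'} : Set L')) L',
      (E0 : L') = e0 := ⟨⟨e0, he0⟩, rfl⟩
  have hE0not : E0 ∉ Ideal.span {πC} := by
    rw [mem_span_coe, hE0, hπC]
    exact ha
  have hE0sq : E0 ^ 2 - E0 ∈ Ideal.span {πC} := by
    rw [mem_span_coe, Subalgebra.coe_sub, Subalgebra.coe_pow, hE0, hπC]
    exact h0
  refine Fermat.Agent.S34.DegreeOne.exists_eq_const_mul_pow π u' hu' hu'L m hm ζ hζ k hk t ht hgen
    hfin e0 e1 he0 he1 h0 h1 h01 (Ideal.span {πC, 1 - E0}) ?_ ?_ ?_ ?_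
  · -- proper
    intro htop
    have h1mem : (1 : integralClosure (Algebra.adjoin O ({u'} : Set L')) L') ∈
        Ideal.span {πC, 1 - E0} := by rw [htop]; trivial
    obtain ⟨x, y, hxy⟩ := Ideal.mem_span_pair.1 h1mem
    apply hE0not
    have e : E0 = (x * E0) * πC - y * (E0 ^ 2 - E0) := by
      linear_combination (-E0) * hxy
    rw [e]
    exact Ideal.sub_mem _ (Ideal.mul_mem_left _ _ (Ideal.mem_span_singleton_self πC))
      (Ideal.mul_mem_left _ _ hE0sq)
  · intro x hx
    have : x = πC := Subtype.ext (hx.trans hπC.symm)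
    rw [this]
    exact Ideal.subset_span (by simp)
  · intro x hx
    have : x = -(1 - E0) := Subtype.ext (by
      rw [hx, Subalgebra.coe_neg, Subalgebra.coe_sub, Subalgebra.coe_one, hE0]
      ring)
    rw [this]
    exact neg_mem (Ideal.subset_span (by simp))
  · intro σ hσ x hx
    -- `σ t = ω⁻¹ t` with `ω ≠ 1`
    have hσt : σ t ≠ t := by
      intro h
      apply hσ
      have h2 : (σ : L' →ₐ[L] L') = (AlgHom.id L L') := by
        refine AlgHom.ext_of_adjoin_eq_top hgen ?_
        intro y hy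
        rw [Set.mem_singleton_iff] at hy
        subst hy
        simpa using h
      ext y
      have := congrArg (fun f : L' →ₐ[L] L' => f y) h2
      simpa using this
    have hσt0 : σ t ≠ 0 := by
      rw [Ne, map_eq_zero_iff _ σ.injective]
      exact ht0
    have hωm : (t / σ t) ^ m = 1 := by
      rw [div_pow, ← map_pow, ht, AlgEquiv.commutes, div_self hkL']
    have hω1 : t / σ t ≠ 1 := by
      intro h
      rw [div_eq_one_iff_eq hσt0] at h
      exact hσt h.symm
    have : NeZero m := ⟨hm.ne'⟩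
    obtain ⟨i, -, hi⟩ := hζ'.eq_pow_of_pow_eq_one hωm
    have hi1 : algebraMap O L' ζ ^ i ≠ 1 := by rw [hi]; exact hω1
    have hσO : ∀ y : O, σ (algebraMap O L' y) = algebraMap O L' y := by
      intro y
      rw [IsScalarTower.algebraMap_apply O L L', AlgEquiv.commutes]
    have hσT0 : σ T0 = algebraMap O L' ζ ^ i * T0 := by
      rw [hT0, map_div₀, AlgEquiv.commutes, hi]
      field_simp
    have hσe0 : σ e0 = idem (algebraMap O L' n) m
        (algebraMap O L' ζ ^ i * (algebraMap O L' ζ ^ a * T0)) := by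
      rw [he0def]
      have := map_idem (σ : L' →+* L') (algebraMap O L' n) (algebraMap O L' ζ ^ a * T0) m
      simp only [RingHom.coe_coe] at this
      rw [this, hσO, map_mul, map_pow, hσO, hσT0]
      congr 1
      ring
    obtain ⟨w, hw, hw'⟩ := horth i hi1
    rw [← hσe0, ← hx] at hw'
    have e : x = x * (1 - E0) + πC * ⟨w, hw⟩ := by
      apply Subtype.ext
      simp only [Subalgebra.coe_add, Subalgebra.coe_mul, Subalgebra.coe_sub, Subalgebra.coe_one,
        hE0, hπC]
      rw [← hw']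
      ring
    rw [e]
    exact Ideal.add_mem _ (Ideal.mul_mem_left _ _ (Ideal.subset_span (by simp)))
      (Ideal.mul_mem_right _ _ (Ideal.subset_span (by simp)))

end Ending

end Fermat.Agent.S35.NodeRoot
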