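/-
S35 / PROGRAM U brick (helper133): `NodeRootEnd.exists_eq_const_mul_pow_of_root` in the
"no new constants" form used by the `K`-level exits: if moreover `O` is integrally closed in
`L' = L(t)` (hypothesis `hOM` of the bridge), then `k` is an `m`-th power in `L`.
-/
import Mathlib
import Fermat.Agent.S35.NodeRootEnd

set_option autoImplicit false

open Polynomial

namespace Fermat.Agent.S35.NodeRoot

variable {O L L' : Type*} [CommRing O] [IsNoetherianRing O]
  [Field L] [Field L'] [Algebra O L] [Algebra L L'] [Algebra O L'] [IsScalarTower O L L']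
  [FiniteDimensional L L']

/-- **The ending, `m`-th power form.**  As `exists_eq_const_mul_pow_of_root`, with `O`
integrally closed in `L'`: then `k = g ^ m` with `g : L` (and `t = g` in `L'`). -/
theorem exists_eq_pow_of_root (π : O) (u' : L') (hu' : u' ≠ 0)
    (hu'L : u' ∈ Set.range (algebraMap L L'))
    (m : ℕ) (hm : 0 < m) (hmO : IsUnit (m : O)) (ζ : O)
    (hζ : IsPrimitiveRoot (algebraMap O L ζ) m)
    (k : L) (hk : k ≠ 0) (t : L') (ht : t ^ m = algebraMap L L' k)
    (hgen : Algebra.adjoin L {t} = ⊤)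
    (hfin : ∃ s : Finset L', (∀ β ∈ s, IsIntegral (Algebra.adjoin O {u'}) β) ∧
      ∀ x : L', IsIntegral (Algebra.adjoin O {u'}) x →
        ∃ f : L' → O[X], x = ∑ β ∈ s, aeval u' (f β) * β)
    (hπ : ¬ IsIntegral (Algebra.adjoin O {u'}) (algebraMap O L' π)⁻¹)
    (hOM : ∀ x : L', IsIntegral O x → ∃ a : O, algebraMap O L' a = x)
    (s₀ s₁ : L) (z₀ z₁ v : L')
    (hz₀ : IsIntegral (Algebra.adjoin O {u'}) z₀)
    (hs₀ : algebraMap L L' s₀ ^ m = algebraMap L L' k * (1 + algebraMap O L' π * z₀))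
    (hz₁ : IsIntegral (Algebra.adjoin O {u'⁻¹}) z₁)
    (hs₁ : algebraMap L L' s₁ ^ m = algebraMap L L' k * (1 + algebraMap O L' π * z₁))
    (hv : IsIntegral (Algebra.adjoin O {u', u'⁻¹}) v)
    (hsv : (algebraMap L L' s₀ - algebraMap L L' s₁) ^ m =
      algebraMap L L' k * (algebraMap O L' π * v)) :
    ∃ g : L, k = g ^ m ∧ t = algebraMap L L' g := by
  obtain ⟨c, s, hc, hs, hkcs⟩ := exists_eq_const_mul_pow_of_root π u' hu' hu'L m hm hmO ζ hζ k hk t
    ht hgen hfin hπ s₀ s₁ z₀ z₁ v hz₀ hs₀ hz₁ hs₁ hv hsv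
  have hsL' : algebraMap L L' s ≠ 0 := by rwa [Ne, map_eq_zero]
  have h1 : (t / algebraMap L L' s) ^ m = algebraMap L L' c := by
    rw [div_pow, ht, hkcs, map_mul, map_pow, mul_div_cancel_right₀ _ (pow_ne_zero m hsL')]
  have hint : IsIntegral O (t / algebraMap L L' s) := by
    refine IsIntegral.of_pow hm ?_
    rw [h1]
    exact hc.map (IsScalarTower.toAlgHom O L L')
  obtain ⟨a, ha⟩ := hOM _ hint
  have h2 : t = algebraMap L L' (algebraMap O L a * s) := by
    rw [map_mul, ← IsScalarTower.algebraMap_apply O L L', ha, div_mul_cancel₀ _ hsL']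
  refine ⟨algebraMap O L a * s, ?_, h2⟩
  apply (algebraMap L L').injective
  rw [← ht, h2, map_pow]

end Fermat.Agent.S35.NodeRoot
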