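import Fermat.Agent.S34.DescendRoot

/-!
# S35, route (C2''): the statements of the Frobenius-square Kummer lemma (helper94, sub-captain)

`F = Fb N`, `A` a valuation subring of `ℚ̄` over the prime `ℓ`, `W` the Atkin–Lehner involution,
`σ` a Frobenius element at `A`.  The S35 twin of `S34/Descend.lean` + `S34/DescendRoot.lean`
(`InjSS`, `InjSSRootE`, `InjSSRootModular`), with `τ h / h` (`τ` in the inertia group) replaced
by `σ² h / h ^ (ℓ²)`:

* `PresSS N A W m ℓ` : over `ℚ̄`: for `h` toric with `m ∣ div h`, `σ (σ h) = h ^ (ℓ ^ 2) * k ^ m`.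
  (This is the hypothesis `hpres` of `ToricFrob.rel_fun'`, with constant `1`.)
* `PresSSRootE N A W m ℓ E` : over a number field `E`, Kummer-field form (the shape produced by
  the `K`-level nodal theorem through `Nodal.exists_pow_eq_of_sections`).
* `PresSSRootModular N A W m ℓ` : `PresSSRootE` over every sufficiently large number field.

Why `σ²` and not `σ ∘ W` (the relation (C2') of the route notes): `σ²` fixes the chart parameter,
both components and every crossing point of the nodal model, so that the `K`-level contract of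
S34 (`IsModelAut`, `NodalDatum.IsAut`, `NodalDatum.Preserves`) applies on both charts.
-/

set_option autoImplicit false
set_option linter.unusedSectionVars false
set_option synthInstance.maxHeartbeats 400000
set_option maxHeartbeats 1000000

noncomputable section

namespace Fermat.Agent.S35.Pres

open ModularCurve AlgebraicCurve HahnSeries IntermediateField Polynomial
open Fermat.Agent.S18.K1Defs Fermat.Agent.S18.K1Top
open Fermat.Agent.S30 Fermat.Agent.S30.E4
open Fermat.Agent.S34

local notation "Qb" => AlgebraicClosure ℚ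
local notation "Gq" => (AlgebraicClosure ℚ ≃ₐ[ℚ] AlgebraicClosure ℚ)

/-- **(C2'') over `ℚ̄`**: for `σ` a Frobenius element at `A` (over `ℓ`) and a toric `h` with
`m ∣ div h`, the quotient `σ² h / h ^ (ℓ²)` is an `m`-th power in `Fb N`. -/
def PresSS (N : ℕ) (A : ValuationSubring Qb) (W : Fb N ≃+* Fb N) (m ℓ : ℕ) : Prop :=
  ∀ σ : Gq, A.IsFrobeniusAt σ ℓ → ∀ h : Fb N, Toric.IsToric N A W h → DivBy N m h →
    ∃ k : Fb N, gal N σ (gal N σ h) = h ^ (ℓ ^ 2) * k ^ m

/-- **(C2'') over a number field `E`, Kummer-field form.**  `h, h' ∈ LE N E` with `h' = W h`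
(after extension of constants), both in the Gauss ring with reduction `1`, `m ∣ ord_P h` at every
place of `LE N E` over `E`, `k = σ² h / h ^ (ℓ²) ∈ LE N E` (`σ` acting on the coefficients
through its restriction to `E`), and `M = (LE N E)(θ)` a finite field extension with `θ ^ m = k`
in which `E` is algebraically closed.  Then `k` is an `m`-th power in `LE N E`. -/
def PresSSRootE (N : ℕ) [NeZero N] (A : ValuationSubring Qb) (W : Fb N ≃+* Fb N) (m ℓ : ℕ)
    (E : IntermediateField ℚ Qb) [Normal ℚ E] [IsDiscreteValuationRing (OE A E)] : Prop :=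
  ∀ σ : Gq, A.IsFrobeniusAt σ ℓ →
    ∀ (h h' : LaurentSeries E) (hL : h ∈ LE N E) (hL' : h' ∈ LE N E),
      W ⟨coeffMap (algebraMap E Qb) h, coeffMap_mem_bar N E hL⟩ =
        ⟨coeffMap (algebraMap E Qb) h', coeffMap_mem_bar N E hL'⟩ →
      ∀ (hV : h ∈ GaussDVR.V (OE A E) E) (hV' : h' ∈ GaussDVR.V (OE A E) E),
        GaussDVR.red (OE A E) E ⟨h, hV⟩ = 1 → GaussDVR.red (OE A E) E ⟨h', hV'⟩ = 1 →
        (∀ P : Place E (LE N E), (m : ℤ) ∣ P.ord (⟨h, hL⟩ : LE N E)) →
        ∀ k : LE N E,
          (k : LaurentSeries E) * h ^ (ℓ ^ 2) =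
            coeffMap ((σ.restrictNormal E : E ≃ₐ[ℚ] E) : E →+* E)
              (coeffMap ((σ.restrictNormal E : E ≃ₐ[ℚ] E) : E →+* E) h) →
          ∀ (M : Type) [Field M] [Algebra (LE N E) M] [Algebra E M] [IsScalarTower E (LE N E) M]
            [FiniteDimensional (LE N E) M] (θ : M),
            θ ^ m = algebraMap (LE N E) M k →
            Algebra.adjoin (LE N E) ({θ} : Set M) = ⊤ →
            (∀ x : M, IsAlgebraic E x → ∃ a : E, algebraMap E M a = x) →
            ∃ g : LE N E, k = g ^ m

/-- **(C2'') for the modular function field, Kummer-field form**: `PresSSRootE` over every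
number field `E ⊆ ℚ̄`, normal over `ℚ`, containing a fixed finite set `S` of algebraic numbers. -/
def PresSSRootModular (N : ℕ) [NeZero N] (A : ValuationSubring Qb) (W : Fb N ≃+* Fb N)
    (m ℓ : ℕ) : Prop :=
  ∃ S : Finset Qb, ∀ (E : IntermediateField ℚ Qb) [FiniteDimensional ℚ E] [Normal ℚ E]
    [IsDiscreteValuationRing (OE A E)], (∀ s ∈ S, s ∈ E) → PresSSRootE N A W m ℓ E

end Fermat.Agent.S35.Pres
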