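/-
S35 algebra brick (helper133): the quartic relation forces the Steinberg characteristic polynomial.

On a free module `V` of rank two over a domain `R`, an endomorphism `s` with `det s = q ≠ 0` and
`(s ^ 2 - q ^ 2) * (s ^ 2 - 1) = 0` has trace `± (q + 1)`, i.e.
`charpoly s = X ^ 2 ∓ (q + 1) X + q`.

Intended use: `s = ρ(φ)` for a Frobenius lift `φ` at a prime `q ∥ M`; on the `q`-new part
`(φ ^ 2 - q ^ 2) (φ + W) = 0` (toric classes are multiplied by `q ^ 2` under `φ ^ 2`) and
`W ^ 2 = 1`, so `(φ ^ 2 - q ^ 2) (φ ^ 2 - 1) = 0`; `det ρ(φ) = q` comes from the engine.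
-/
import Mathlib

set_option autoImplicit false

open Polynomial

namespace Fermat.Agent.S35.QuarticTrace

section Mat

variable {R : Type*} [CommRing R]

/-- Cayley–Hamilton in the form `M ^ 2 = tr M • M - det M • 1` for `2 × 2` matrices. -/
theorem sq_eq (M : Matrix (Fin 2) (Fin 2) R) :
    M ^ 2 = M.trace • M - M.det • (1 : Matrix (Fin 2) (Fin 2) R) := by
  ext i j
  fin_cases i <;> fin_cases j <;>
    simp [pow_two, Matrix.mul_apply, Fin.sum_univ_two, Matrix.trace_fin_two, Matrix.det_fin_two]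
      <;> ring

/-- The key identity: for a `2 × 2` matrix of determinant `q`,
`(M ^ 2 - q ^ 2) (M ^ 2 - 1) = (tr M ^ 2 - (q + 1) ^ 2) • M ^ 2`. -/
theorem quartic_eq (M : Matrix (Fin 2) (Fin 2) R) (q : R) (hdet : M.det = q) :
    (M ^ 2 - (q ^ 2) • (1 : Matrix (Fin 2) (Fin 2) R)) * (M ^ 2 - 1) =
      (M.trace ^ 2 - (q + 1) ^ 2) • M ^ 2 := by
  subst hdet
  ext i j
  fin_cases i <;> fin_cases j <;>
    simp [pow_two, Matrix.mul_apply, Fin.sum_univ_two, Matrix.trace_fin_two, Matrix.det_fin_two,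
      Matrix.one_apply, Matrix.sub_apply, Matrix.smul_apply] <;> ring

variable [IsDomain R]

/-- **Quartic ⇒ trace**, matrix form. -/
theorem trace_eq_or (M : Matrix (Fin 2) (Fin 2) R) (q : R) (hq : q ≠ 0) (hdet : M.det = q)
    (hrel : (M ^ 2 - (q ^ 2) • (1 : Matrix (Fin 2) (Fin 2) R)) * (M ^ 2 - 1) = 0) :
    M.trace = q + 1 ∨ M.trace = -(q + 1) := by
  have h1 := quartic_eq M q hdet
  rw [hrel] at h1
  have h2 : ((M.trace ^ 2 - (q + 1) ^ 2) • M ^ 2).det = 0 := by rw [← h1]; simp
  rw [Matrix.det_smul, Matrix.det_pow, hdet, Fintype.card_fin] at h2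
  have h3 : M.trace ^ 2 - (q + 1) ^ 2 = 0 := by
    rcases mul_eq_zero.mp h2 with h | h
    · exact pow_eq_zero_iff (two_ne_zero) |>.mp h
    · exact absurd (pow_eq_zero_iff (two_ne_zero) |>.mp h) hq
  have h4 : (M.trace - (q + 1)) * (M.trace + (q + 1)) = 0 := by
    have : (M.trace - (q + 1)) * (M.trace + (q + 1)) = M.trace ^ 2 - (q + 1) ^ 2 := by ring
    rw [this, h3]
  rcases mul_eq_zero.mp h4 with h | h
  · left; exact sub_eq_zero.mp h
  · right; exact eq_neg_of_add_eq_zero_left h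

/-- **Quartic ⇒ characteristic polynomial**, matrix form. -/
theorem charpoly_eq_or (M : Matrix (Fin 2) (Fin 2) R) (q : R) (hq : q ≠ 0) (hdet : M.det = q)
    (hrel : (M ^ 2 - (q ^ 2) • (1 : Matrix (Fin 2) (Fin 2) R)) * (M ^ 2 - 1) = 0) :
    M.charpoly = X ^ 2 - C (q + 1) * X + C q ∨ M.charpoly = X ^ 2 + C (q + 1) * X + C q := by
  rw [Matrix.charpoly_fin_two, hdet]
  rcases trace_eq_or M q hq hdet hrel with h | h
  · left; rw [h]
  · right; rw [h, map_neg]; ring

end Mat

section Lin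

variable {R V : Type*} [CommRing R] [IsDomain R] [AddCommGroup V] [Module R V]
  [Module.Free R V] [Module.Finite R V]

/-- **Quartic ⇒ characteristic polynomial**, for an endomorphism of a free module of rank two. -/
theorem linearMap_charpoly_eq_or (hrk : Module.finrank R V = 2) (s : Module.End R V) (q : R)
    (hq : q ≠ 0) (hdet : LinearMap.det s = q)
    (hrel : (s ^ 2 - (q ^ 2) • (1 : Module.End R V)) * (s ^ 2 - 1) = 0) :
    s.charpoly = X ^ 2 - C (q + 1) * X + C q ∨ s.charpoly = X ^ 2 + C (q + 1) * X + C q := by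
  classical
  let b : Module.Basis (Fin 2) R V :=
    (Module.finBasis R V).reindex (finCongr hrk)
  set M : Matrix (Fin 2) (Fin 2) R := LinearMap.toMatrix b b s with hM
  have hdetM : M.det = q := by rw [hM, LinearMap.det_toMatrix, hdet]
  have hrelM : (M ^ 2 - (q ^ 2) • (1 : Matrix (Fin 2) (Fin 2) R)) * (M ^ 2 - 1) = 0 := by
    have := congrArg (LinearMap.toMatrix b b) hrel
    simpa [hM, LinearMap.toMatrix_mul, LinearMap.toMatrix_one, map_sub, map_pow, pow_two] using this
  have := charpoly_eq_or M q hq hdetM hrelM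
  rwa [hM, LinearMap.charpoly_toMatrix] at this

/-- Contract form: `s ^ 2 - u (q + 1) s + q = 0` with `u = ± 1`. -/
theorem linearMap_quadratic (hrk : Module.finrank R V = 2) (s : Module.End R V) (q : R)
    (hq : q ≠ 0) (hdet : LinearMap.det s = q)
    (hrel : (s ^ 2 - (q ^ 2) • (1 : Module.End R V)) * (s ^ 2 - 1) = 0) :
    ∃ u : R, (u = 1 ∨ u = -1) ∧ s ^ 2 - (u * (q + 1)) • s + q • (1 : Module.End R V) = 0 := by
  have hCH := LinearMap.aeval_self_charpoly s
  rcases linearMap_charpoly_eq_or hrk s q hq hdet hrel with h | h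
  · refine ⟨1, Or.inl rfl, ?_⟩
    rw [h] at hCH
    simp only [map_sub, map_add, map_mul, map_pow, aeval_X, aeval_C,
      Algebra.algebraMap_eq_smul_one] at hCH
    rw [← add_smul, smul_mul_assoc, one_mul] at hCH
    rw [one_mul]
    exact hCH
  · refine ⟨-1, Or.inr rfl, ?_⟩
    rw [h] at hCH
    simp only [map_add, map_mul, map_pow, aeval_X, aeval_C,
      Algebra.algebraMap_eq_smul_one] at hCH
    rw [← add_smul, smul_mul_assoc, one_mul] at hCH
    rw [neg_one_mul, neg_smul, sub_neg_eq_add]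
    exact hCH

end Lin

end Fermat.Agent.S35.QuarticTrace
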