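import Fermat.Agent.S35.RootGlueFrob
import Fermat.Agent.S34.Nodal.SwapExit
import Fermat.Agent.S34.ToricGauss

/-!
# PROGRAM U (S35), brick (d2) `RootGlueFrob`, part 2: plugging in the `K`-level exit

`S35/RootGlueFrob.lean` proves `DescendFrob.FrobSSRootE N A W ℓ e m E` from the statement
`SwapExit` (the conclusion of the `K`-level exit for one automorphism).  Here the exit
`Nodal.inj_ss_swap` (`S34/Nodal/SwapExit.lean`) is plugged in:

* `swapExit_of_nodal` : the hypotheses of `Nodal.inj_ss_swap` give `SwapExit`;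
* `frobSSRootE_of_nodal` : `FrobSSRootE` from a nodal datum on `LE N E` over `OE A E` and the
  chart-zero properties of `Σ = (σ|_E on coefficients) ∘ w_E` for every Frobenius element `σ`
  (`StabilizesChart`, the two inclusions, `FixesNodes`, `Σ ζ = ζ ^ e`), no crossing point at
  `u = ∞`, and "Gauss-one ⇒ toric";
* `frobSSRootE_of_nodal_gauss` : the same with "Gauss-one ⇒ toric" discharged by
  `ToricK.toric_of_gauss` from the membership characterisations of `D.P₁`, `D.P₂`.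
-/

set_option autoImplicit false
set_option linter.unusedSectionVars false
set_option synthInstance.maxHeartbeats 400000
set_option maxHeartbeats 1000000

noncomputable section

namespace Fermat.Agent.S35.RootGlueFrob

open AlgebraicCurve
open Fermat.Agent.S30.Model Fermat.Agent.S30.Model.GlueChart
open Fermat.Agent.S34 Fermat.Agent.S34.Nodal

/-! ### The `K`-level exit -/

section KLevel

variable {O E L : Type*} [CommRing O] [IsDomain O] [IsDiscreteValuationRing O]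
  [Field E] [CharZero E] [Algebra O E] [IsFractionRing O E]
  [Field L] [Algebra E L] [Algebra O L] [IsScalarTower O E L]

/-- The hypotheses of `Nodal.inj_ss_swap` give the swap exit `SwapExit`. -/
theorem swapExit_of_nodal (π : O) (hπ : Irreducible π) (u : L) (hu : Transcendental E u)
    [FiniteDimensional (IntermediateField.adjoin E {u}) L]
    (D : NodalDatum π u)
    (m : ℕ) (hm : IsUnit (m : O)) (ζ : O) (hζ : IsPrimitiveRoot ζ m)
    (σ : L ≃+* L) (hσO : IsBaseAut O σ) (hσB : StabilizesChart O u σ)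
    (h₁₂ : MapsIntoChart (D.P₁.comap (toOverlapZero O u)) (D.P₂.comap (toOverlapZero O u)) σ)
    (h₂₁ : MapsIntoChart (D.P₂.comap (toOverlapZero O u)) (D.P₁.comap (toOverlapZero O u)) σ)
    (hnode : FixesNodes u (D.P₁.comap (toOverlapZero O u)) (D.P₂.comap (toOverlapZero O u)) σ)
    (hNC : ∀ (y : Ideal (Chart O u⁻¹)) (g : Chart O u⁻¹), (g : L) = u⁻¹ → y.IsMaximal → g ∈ y →
      D.P₁.comap (toOverlapInf O u) ≤ y → D.P₂.comap (toOverlapInf O u) ≤ y → False)
    (c : ℕ) (hσζ : σ (algebraMap O L ζ) = algebraMap O L ζ ^ c) :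
    SwapExit E D m σ c := by
  intro h hh hdiv hdivσ M _ _ _ _ θ hθ hgen hOM
  have hh0 : h ≠ 0 := hh.ne_zero
  have hσh0 : σ h ≠ 0 := fun h0 => hh0 (σ.injective (by rw [h0, map_zero]))
  have hk0 : σ h * h ^ c ≠ 0 := mul_ne_zero hσh0 (pow_ne_zero c hh0)
  have hdivk : ∀ P : Place E L, (m : ℤ) ∣ P.ord (σ h * h ^ c) := fun P =>
    LocPowK.dvd_ord_mul hσh0 (pow_ne_zero c hh0) hdivσ (fun P => dvd_ord_pow hdiv c P) P
  obtain ⟨l1, l2⟩ := LocPowK.locPow_both_of_places u hu m _ hk0 hdivk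
  exact Nodal.inj_ss_swap (E := E) π hπ u hu D m hm ζ hζ σ hσO hσB h₁₂ h₂₁ hnode hNC c hσζ h hh
    (LocPowK.locPow_of_places u hu m h hh0 hdiv) l1 l2 M θ hθ hgen hOM

end KLevel

/-! ### The `E`-level statement -/

section ELevel

open ModularCurve HahnSeries
open Fermat.Agent.S18.K1Defs Fermat.Agent.S18.K1Top
open Fermat.Agent.S30 Fermat.Agent.S30.E4 Fermat.Agent.S34.Descend Fermat.Agent.S34.TrivModE

local notation "Qb" => AlgebraicClosure ℚ
local notation "Gq" => (AlgebraicClosure ℚ ≃ₐ[ℚ] AlgebraicClosure ℚ)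

variable (N : ℕ) [NeZero N] (A : ValuationSubring Qb) (E : IntermediateField ℚ Qb) [Normal ℚ E]
  [IsDiscreteValuationRing (OE A E)]

/-- **(d2) `FrobSSRootE N A W ℓ e m E` from the nodal contract.**  `D` a nodal datum on
`L = LE N E` over `O = OE A E` with coordinate `u`; `m` a unit of `O`, `ζ ∈ O` a primitive
`m`-th root of unity; `w_E` an `E`-automorphism of `L` inducing `W`; for every Frobenius element
`σ` at `ℓ`, `Σ = σ ∘ w_E` stabilises the chart of `u`, exchanges its two primes, fixes its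
crossing points and `Σ ζ = ζ ^ e`; no crossing point at `u = ∞`. -/
theorem frobSSRootE_of_nodal (W : Fb N ≃+* Fb N) (ℓ e m : ℕ)
    [Algebra (OE A E) (LE N E)] [IsScalarTower (OE A E) E (LE N E)]
    (π : OE A E) (hπ : Irreducible π) (u : LE N E) (hu : Transcendental E u)
    [FiniteDimensional (IntermediateField.adjoin E {u}) (LE N E)]
    (D : NodalDatum π u)
    (hm : IsUnit (m : OE A E)) (ζ : OE A E) (hζ : IsPrimitiveRoot ζ m)
    (wE : LE N E ≃ₐ[E] LE N E) (hwE : ∀ z : LE N E, upF N E (wE z) = W (upF N E z))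
    (htoric : ∀ (x : LE N E) (hV : (x : LaurentSeries E) ∈ GaussDVR.V (OE A E) E)
      (hV' : ((wE x : LE N E) : LaurentSeries E) ∈ GaussDVR.V (OE A E) E),
      GaussDVR.red (OE A E) E ⟨_, hV⟩ = 1 → GaussDVR.red (OE A E) E ⟨_, hV'⟩ = 1 → D.Toric x)
    (hNC : ∀ (y : Ideal (Chart (OE A E) u⁻¹)) (g : Chart (OE A E) u⁻¹), (g : LE N E) = u⁻¹ →
      y.IsMaximal → g ∈ y → D.P₁.comap (toOverlapInf (OE A E) u) ≤ y →
      D.P₂.comap (toOverlapInf (OE A E) u) ≤ y → False)
    (hσB : ∀ σ : Gq, A.IsFrobeniusAt σ ℓ → StabilizesChart (OE A E) u (frobSwap N E wE σ))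
    (h₁₂ : ∀ σ : Gq, A.IsFrobeniusAt σ ℓ →
      MapsIntoChart (D.P₁.comap (toOverlapZero (OE A E) u))
        (D.P₂.comap (toOverlapZero (OE A E) u)) (frobSwap N E wE σ))
    (h₂₁ : ∀ σ : Gq, A.IsFrobeniusAt σ ℓ →
      MapsIntoChart (D.P₂.comap (toOverlapZero (OE A E) u))
        (D.P₁.comap (toOverlapZero (OE A E) u)) (frobSwap N E wE σ))
    (hnode : ∀ σ : Gq, A.IsFrobeniusAt σ ℓ →
      FixesNodes u (D.P₁.comap (toOverlapZero (OE A E) u))
        (D.P₂.comap (toOverlapZero (OE A E) u)) (frobSwap N E wE σ))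
    (hσζ : ∀ σ : Gq, A.IsFrobeniusAt σ ℓ →
      frobSwap N E wE σ (algebraMap (OE A E) (LE N E) ζ) = algebraMap (OE A E) (LE N E) ζ ^ e) :
    DescendFrob.FrobSSRootE N A W ℓ e m E :=
  frobSSRootE_of_swapExit N A E W ℓ e m D wE hwE htoric (fun σ hσ =>
    swapExit_of_nodal (E := E) π hπ u hu D m hm ζ hζ (frobSwap N E wE σ)
      (isBaseAut_frobSwap N A E wE hσ.mem_decompositionSubgroup) (hσB σ hσ) (h₁₂ σ hσ)
      (h₂₁ σ hσ) (hnode σ hσ) hNC e (hσζ σ hσ))

/-- `w_E` fixes the constants of `O_E`. -/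
theorem algEquiv_algebraMap_OE [Algebra (OE A E) (LE N E)] [IsScalarTower (OE A E) E (LE N E)]
    (wE : LE N E ≃ₐ[E] LE N E) (a : OE A E) :
    (wE : LE N E ≃+* LE N E) (algebraMap (OE A E) (LE N E) a)
      = algebraMap (OE A E) (LE N E) a := by
  rw [IsScalarTower.algebraMap_apply (OE A E) E (LE N E)]
  exact wE.commutes _

/-- **(d2), Gauss form.**  As `frobSSRootE_of_nodal`, with "Gauss-one ⇒ toric" obtained from
`ToricK.toric_of_gauss`: the primes of `D` are the centres of the Gauss valuation `red` and of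
its twist `red ∘ w_E` on the overlap chart, and `u`, `w_E u` are units of the Gauss ring. -/
theorem frobSSRootE_of_nodal_gauss (W : Fb N ≃+* Fb N) (ℓ e m : ℕ)
    [Algebra (OE A E) (LE N E)] [IsScalarTower (OE A E) E (LE N E)]
    (π : OE A E) (hπ : Irreducible π) (u : LE N E) (hu : Transcendental E u)
    [FiniteDimensional (IntermediateField.adjoin E {u}) (LE N E)]
    (D : NodalDatum π u)
    (hm : IsUnit (m : OE A E)) (ζ : OE A E) (hζ : IsPrimitiveRoot ζ m)
    (wE : LE N E ≃ₐ[E] LE N E) (hwE : ∀ z : LE N E, upF N E (wE z) = W (upF N E z))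
    (huV : ((u : LE N E) : LaurentSeries E) ∈ GaussDVR.V (OE A E) E)
    (hu' : GaussDVR.red (OE A E) E ⟨_, huV⟩ ≠ 0)
    (hwu : ((wE u : LE N E) : LaurentSeries E) ∈ GaussDVR.V (OE A E) E)
    (hwu' : GaussDVR.red (OE A E) E ⟨_, hwu⟩ ≠ 0)
    (hP₁ : ∀ (x : Overlap (OE A E) u)
      (hx : ((x : LE N E) : LaurentSeries E) ∈ GaussDVR.V (OE A E) E),
      x ∈ D.P₁ ↔ GaussDVR.red (OE A E) E ⟨_, hx⟩ = 0)
    (hP₂ : ∀ (x : Overlap (OE A E) u)
      (hx : ((wE (x : LE N E) : LE N E) : LaurentSeries E) ∈ GaussDVR.V (OE A E) E),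
      x ∈ D.P₂ ↔ GaussDVR.red (OE A E) E ⟨_, hx⟩ = 0)
    (hNC : ∀ (y : Ideal (Chart (OE A E) u⁻¹)) (g : Chart (OE A E) u⁻¹), (g : LE N E) = u⁻¹ →
      y.IsMaximal → g ∈ y → D.P₁.comap (toOverlapInf (OE A E) u) ≤ y →
      D.P₂.comap (toOverlapInf (OE A E) u) ≤ y → False)
    (hσB : ∀ σ : Gq, A.IsFrobeniusAt σ ℓ → StabilizesChart (OE A E) u (frobSwap N E wE σ))
    (h₁₂ : ∀ σ : Gq, A.IsFrobeniusAt σ ℓ →
      MapsIntoChart (D.P₁.comap (toOverlapZero (OE A E) u))
        (D.P₂.comap (toOverlapZero (OE A E) u)) (frobSwap N E wE σ))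
    (h₂₁ : ∀ σ : Gq, A.IsFrobeniusAt σ ℓ →
      MapsIntoChart (D.P₂.comap (toOverlapZero (OE A E) u))
        (D.P₁.comap (toOverlapZero (OE A E) u)) (frobSwap N E wE σ))
    (hnode : ∀ σ : Gq, A.IsFrobeniusAt σ ℓ →
      FixesNodes u (D.P₁.comap (toOverlapZero (OE A E) u))
        (D.P₂.comap (toOverlapZero (OE A E) u)) (frobSwap N E wE σ))
    (hσζ : ∀ σ : Gq, A.IsFrobeniusAt σ ℓ →
      frobSwap N E wE σ (algebraMap (OE A E) (LE N E) ζ) = algebraMap (OE A E) (LE N E) ζ ^ e) :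
    DescendFrob.FrobSSRootE N A W ℓ e m E :=
  frobSSRootE_of_nodal N A E W ℓ e m π hπ u hu D hm ζ hζ wE hwE
    (fun x hV hV' h1 h1' =>
      ToricK.toric_of_gauss (LE N E) (mem_fracField_LE A E N) π hπ u huV hu'
        (wE : LE N E ≃+* LE N E) (algEquiv_algebraMap_OE N A E wE) hwu hwu' D hP₁ hP₂ x hV h1
        hV' h1')
    hNC hσB h₁₂ h₂₁ hnode hσζ

end ELevel

end Fermat.Agent.S35.RootGlueFrob
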