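import Mathlib
import Fermat.Agent.S35.SigmaLabel

/-!
# Program U (S35): local `m`-th roots of `k = σ h * h ^ c` which are `≡ 1` on the branches

Same setting as `S35/SigmaLabel.lean`, plus: `B / p₁`, `B / p₂` Dedekind and `p₁ ⊔ p₂` radical
(ordinary double points).  Output in the shape consumed by `S35/NodeRoot.lean` (helper133):

`hloc_swap`, `hloc_preserve` : at every maximal ideal `y` of `B` containing `p₁` or `p₂` there is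
`ρ ∈ F` with `s ρ ^ m = s' k` (`s, s' ∈ B ∖ y`), and `ρ ≡ 1` at each of `p₁`, `p₂` contained in
`y`.
-/

set_option autoImplicit false

namespace Fermat.Agent.S35.SigmaLoc

open Fermat.Agent.S34.Label Fermat.Agent.S35.SigmaLabel

section Glue

variable {B : Type*} [CommRing B]

/-- **Node gluing.**  If `B / p₁` is a Dedekind domain, `p₂ ⊄ p₁` and `p₁ ⊔ p₂` is radical, then
locally at a maximal ideal `y ⊇ p₁ ⊔ p₂` the ideal `p₁ ⊔ p₂` is `y`: there is `t ∉ y` with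
`t y ⊆ p₁ ⊔ p₂`. -/
theorem exists_mul_mem_sup (p₁ p₂ : Ideal B) [p₁.IsPrime] [IsDedekindDomain (B ⧸ p₁)]
    (hne : ¬ p₂ ≤ p₁) (hrad : (p₁ ⊔ p₂).IsRadical) (y : Ideal B) [hy : y.IsMaximal]
    (hp₁y : p₁ ≤ y) (hp₂y : p₂ ≤ y) :
    ∃ t : B, t ∉ y ∧ ∀ x ∈ y, t * x ∈ p₁ ⊔ p₂ := by
  have hq : Function.Surjective (Ideal.Quotient.mk p₁) := Ideal.Quotient.mk_surjective
  set 𝔞 : Ideal (B ⧸ p₁) := p₂.map (Ideal.Quotient.mk p₁) with h𝔞def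
  set 𝔪 : Ideal (B ⧸ p₁) := y.map (Ideal.Quotient.mk p₁) with h𝔪def
  have hker : (⊥ : Ideal (B ⧸ p₁)).comap (Ideal.Quotient.mk p₁) = p₁ := by
    rw [← RingHom.ker_eq_comap_bot, Ideal.mk_ker]
  have hcomap_y : 𝔪.comap (Ideal.Quotient.mk p₁) = y := by
    rw [h𝔪def, Ideal.comap_map_of_surjective _ hq, hker, sup_eq_left.2 hp₁y]
  have hcomap_a : 𝔞.comap (Ideal.Quotient.mk p₁) = p₁ ⊔ p₂ := by
    rw [h𝔞def, Ideal.comap_map_of_surjective _ hq, hker, sup_comm]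
  have h𝔪 : 𝔪.IsMaximal := by
    rcases Ideal.map_eq_top_or_isMaximal_of_surjective (Ideal.Quotient.mk p₁) hq hy with h | h
    · exfalso
      have : y = ⊤ := by rw [← hcomap_y, h𝔪def, h, Ideal.comap_top]
      exact hy.ne_top this
    · exact h
  have h𝔞𝔪 : 𝔞 ≤ 𝔪 := Ideal.map_mono hp₂y
  have h𝔞0 : 𝔞 ≠ ⊥ := by
    obtain ⟨x, hx₂, hx₁⟩ := SetLike.not_le_iff_exists.mp hne
    intro h0
    have : Ideal.Quotient.mk p₁ x ∈ 𝔞 := Ideal.mem_map_of_mem _ hx₂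
    rw [h0, Ideal.mem_bot, Ideal.Quotient.eq_zero_iff_mem] at this
    exact hx₁ this
  have h𝔞rad : ∀ z : B ⧸ p₁, z ^ 2 ∈ 𝔞 → z ∈ 𝔞 := by
    intro z hz
    obtain ⟨x, rfl⟩ := hq z
    have h1 : x ^ 2 ∈ p₁ ⊔ p₂ := by
      rw [← hcomap_a, Ideal.mem_comap, map_pow]
      exact hz
    have h2 : x ∈ p₁ ⊔ p₂ := hrad ⟨2, h1⟩
    rw [← hcomap_a, Ideal.mem_comap] at h2
    exact h2
  obtain ⟨𝔟, h𝔟⟩ : 𝔪 ∣ 𝔞 := Ideal.dvd_iff_le.mpr h𝔞𝔪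
  have h𝔟𝔪 : ¬ 𝔟 ≤ 𝔪 := by
    intro hle
    obtain ⟨𝔠, h𝔠⟩ : 𝔪 ∣ 𝔟 := Ideal.dvd_iff_le.mpr hle
    have h1 : 𝔪 * 𝔠 ≤ 𝔞 := by
      intro z hz
      apply h𝔞rad
      have h2 : z ^ 2 ∈ (𝔪 * 𝔠) * (𝔪 * 𝔠) := by
        rw [sq]
        exact Ideal.mul_mem_mul hz hz
      have h3 : (𝔪 * 𝔠) * (𝔪 * 𝔠) ≤ 𝔪 * (𝔪 * 𝔠) := by
        rw [mul_assoc]
        exact Ideal.mul_mono_right Ideal.mul_le_right
      rw [h𝔟, h𝔠]
      exact h3 h2
    rw [h𝔟, h𝔠] at h1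
    obtain ⟨𝔡, h𝔡⟩ := Ideal.dvd_iff_le.mpr h1
    have hne0 : 𝔪 * 𝔠 ≠ 0 := by
      intro h0
      apply h𝔞0
      rw [h𝔟, h𝔠, h0, mul_zero]
      rfl
    have h2 : (𝔪 * 𝔠) * 1 = (𝔪 * 𝔠) * (𝔪 * 𝔡) := by
      rw [mul_one]
      conv_lhs => rw [h𝔡]
      ring
    have h3 := mul_left_cancel₀ hne0 h2
    apply h𝔪.ne_top
    rw [eq_top_iff, ← Ideal.one_eq_top, h3]
    exact Ideal.mul_le_left
  obtain ⟨tb, htb, htbm⟩ := SetLike.not_le_iff_exists.mp h𝔟𝔪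
  obtain ⟨t, rfl⟩ := hq tb
  refine ⟨t, fun hty => htbm (Ideal.mem_map_of_mem _ hty), fun x hx => ?_⟩
  rw [← hcomap_a, Ideal.mem_comap, h𝔟, map_mul, mul_comm (Ideal.Quotient.mk p₁ t)]
  exact Ideal.mul_mem_mul (Ideal.mem_map_of_mem _ hx) htb

end Glue

variable {B F : Type*} [CommRing B] [IsDomain B] [Field F] [Algebra B F] [IsFractionRing B F]

omit [IsDomain B] in
/-- One branch through `y`: from `b' ^ m * k = r ∈ B ∖ y` and `b' ≡ δ` at `p` with `δ ∉ y`, the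
element `ρ = δ / b'` is a local `m`-th root of `k` with `ρ ≡ 1` at `p`. -/
theorem exists_root_one (p y : Ideal B) [p.IsPrime] [y.IsPrime] (hpy : p ≤ y) (m : ℕ)
    (hm : 0 < m) (k b' : F) (r : B) (hr : r ∉ y) (hb : b' ^ m * k = algebraMap B F r)
    (δ : B) (hδ : EqAt p b' δ) (hδy : δ ∉ y) :
    ∃ ρ : F, (∃ s s' : B, s ∉ y ∧ s' ∉ y ∧
      algebraMap B F s * ρ ^ m = algebraMap B F s' * k) ∧ OneAt p ρ := by
  have hinj := IsFractionRing.injective B F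
  have hr0 : algebraMap B F r ≠ 0 := by
    intro h0
    rw [map_eq_zero_iff _ hinj] at h0
    exact hr (h0 ▸ y.zero_mem)
  have hb0 : b' ≠ 0 := by
    rintro rfl
    rw [zero_pow hm.ne', zero_mul] at hb
    exact hr0 hb.symm
  refine ⟨algebraMap B F δ / b', ⟨r, δ ^ m, hr, fun h => hδy (Ideal.IsPrime.mem_of_pow_mem
    inferInstance _ h), ?_⟩, ?_⟩
  · rw [← hb, div_pow, map_pow]
    field_simp
  · obtain ⟨s₀, c₀, hs₀, hc₀, e⟩ := hδ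
    refine ⟨s₀ * δ + c₀, -c₀, ?_, p.neg_mem hc₀, ?_⟩
    · intro h
      have h1 : s₀ * δ ∈ p := by simpa using p.sub_mem h hc₀
      rcases Ideal.IsPrime.mem_or_mem inferInstance h1 with h2 | h2
      · exact hs₀ h2
      · exact hδy (hpy h2)
    · have e1 : algebraMap B F (s₀ * δ + c₀) = algebraMap B F s₀ * b' := by
        rw [map_add, map_mul, ← e]
        ring
      rw [e1, map_neg, ← e]
      field_simp
      ring

omit [IsDomain B] in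
/-- Two branches through `y` glued: `b' ≡ δ₁` at `p₁`, `b' ≡ δ₂` at `p₂`,
`t (δ₁ - δ₂) = x₁ + x₂` with `x_i ∈ p_i`, `t ∉ y`; then `ρ = (t δ₁ - x₁) / (t b')` is a local
`m`-th root of `k` with `ρ ≡ 1` at `p₁` and at `p₂`. -/
theorem exists_root_two (p₁ p₂ y : Ideal B) [p₁.IsPrime] [p₂.IsPrime] [y.IsPrime]
    (hp₁y : p₁ ≤ y) (hp₂y : p₂ ≤ y) (m : ℕ) (hm : 0 < m) (k b' : F) (r : B) (hr : r ∉ y)
    (hb : b' ^ m * k = algebraMap B F r)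
    (δ₁ δ₂ : B) (hδ₁ : EqAt p₁ b' δ₁) (hδ₂ : EqAt p₂ b' δ₂) (hδ₁y : δ₁ ∉ y)
    (t x₁ x₂ : B) (ht : t ∉ y) (hx₁ : x₁ ∈ p₁) (hx₂ : x₂ ∈ p₂)
    (hglue : t * (δ₁ - δ₂) = x₁ + x₂) :
    ∃ ρ : F, (∃ s s' : B, s ∉ y ∧ s' ∉ y ∧
      algebraMap B F s * ρ ^ m = algebraMap B F s' * k) ∧ OneAt p₁ ρ ∧ OneAt p₂ ρ := by
  have hinj := IsFractionRing.injective B F
  have hr0 : algebraMap B F r ≠ 0 := by
    intro h0
    rw [map_eq_zero_iff _ hinj] at h0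
    exact hr (h0 ▸ y.zero_mem)
  have hb0 : b' ≠ 0 := by
    rintro rfl
    rw [zero_pow hm.ne', zero_mul] at hb
    exact hr0 hb.symm
  have ht0 : algebraMap B F t ≠ 0 := by
    intro h0
    rw [map_eq_zero_iff _ hinj] at h0
    exact ht (h0 ▸ y.zero_mem)
  have hR : t * δ₁ - x₁ ∉ y := by
    intro h
    have h1 : t * δ₁ ∈ y := by simpa using y.add_mem h (hp₁y hx₁)
    rcases Ideal.IsPrime.mem_or_mem inferInstance h1 with h2 | h2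
    · exact ht h2
    · exact hδ₁y h2
  have hR' : t * δ₁ - x₁ = t * δ₂ + x₂ := by linear_combination hglue
  refine ⟨algebraMap B F (t * δ₁ - x₁) / (algebraMap B F t * b'),
    ⟨t ^ m * r, (t * δ₁ - x₁) ^ m, ?_, fun h => hR (Ideal.IsPrime.mem_of_pow_mem
      inferInstance _ h), ?_⟩, ?_, ?_⟩
  · intro h
    rcases Ideal.IsPrime.mem_or_mem inferInstance h with h2 | h2
    · exact ht (Ideal.IsPrime.mem_of_pow_mem inferInstance _ h2)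
    · exact hr h2
  · rw [map_mul, ← hb, div_pow, map_pow, map_pow, mul_pow]
    field_simp
  · obtain ⟨s₀, c₀, hs₀, hc₀, e⟩ := hδ₁
    refine ⟨t * (s₀ * δ₁ + c₀), -(s₀ * x₁) - t * c₀, ?_,
      p₁.sub_mem (p₁.neg_mem (p₁.mul_mem_left _ hx₁)) (p₁.mul_mem_left _ hc₀), ?_⟩
    · intro h
      rcases Ideal.IsPrime.mem_or_mem inferInstance h with h2 | h2
      · exact ht (hp₁y h2)
      · have h1 : s₀ * δ₁ ∈ p₁ := by simpa using p₁.sub_mem h2 hc₀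
        rcases Ideal.IsPrime.mem_or_mem inferInstance h1 with h3 | h3
        · exact hs₀ h3
        · exact hδ₁y (hp₁y h3)
    · have e1 : algebraMap B F (t * (s₀ * δ₁ + c₀)) =
          algebraMap B F s₀ * (algebraMap B F t * b') := by
        rw [map_mul, map_add, map_mul, ← e]
        ring
      rw [e1]
      simp only [map_sub, map_neg, map_mul]
      rw [← e]
      field_simp
      ring
  · obtain ⟨s₀, c₀, hs₀, hc₀, e⟩ := hδ₂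
    have hδ₂y : δ₂ ∉ y := by
      intro h
      apply hR
      rw [hR']
      exact y.add_mem (y.mul_mem_left _ h) (hp₂y hx₂)
    refine ⟨t * (s₀ * δ₂ + c₀), s₀ * x₂ - t * c₀, ?_,
      p₂.sub_mem (p₂.mul_mem_left _ hx₂) (p₂.mul_mem_left _ hc₀), ?_⟩
    · intro h
      rcases Ideal.IsPrime.mem_or_mem inferInstance h with h2 | h2
      · exact ht (hp₂y h2)
      · have h1 : s₀ * δ₂ ∈ p₂ := by simpa using p₂.sub_mem h2 hc₀
        rcases Ideal.IsPrime.mem_or_mem inferInstance h1 with h3 | h3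
        · exact hs₀ h3
        · exact hδ₂y (hp₂y h3)
    · have e1 : algebraMap B F (t * (s₀ * δ₂ + c₀)) =
          algebraMap B F s₀ * (algebraMap B F t * b') := by
        rw [map_mul, map_add, map_mul, ← e]
        ring
      rw [e1, hR']
      simp only [map_sub, map_add, map_mul]
      rw [← e]
      field_simp
      ring

section Main

variable [IsIntegrallyClosed B]
  (σ : B ≃+* B) (σF : F →+* F) (hσ : ∀ x : B, σF (algebraMap B F x) = algebraMap B F (σ x))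

include hσ in
omit [IsDomain B] [IsFractionRing B F] [IsIntegrallyClosed B] in
/-- `(σ f' * f ^ c) ^ m * (σ h * h ^ c) = σ a' * a ^ c`. -/
theorem pow_mul_eq (m c : ℕ) (h f f' : F) (a a' : B) (hfa : f ^ m * h = algebraMap B F a)
    (hfa' : f' ^ m * h = algebraMap B F a') :
    (σF f' * f ^ c) ^ m * (σF h * h ^ c) = algebraMap B F (σ a' * a ^ c) := by
  rw [map_mul, map_pow, ← hσ, ← hfa, ← hfa', map_mul, map_pow]
  ring

omit [IsDomain B] [Field F] [Algebra B F] [IsFractionRing B F] [IsIntegrallyClosed B] in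
theorem map_mul_pow_not_mem (y : Ideal B) [y.IsPrime] (a a' : B) (c : ℕ) (ha : a ∉ y)
    (ha' : a' ∉ y.comap σ) : σ a' * a ^ c ∉ y := by
  intro h
  rcases Ideal.IsPrime.mem_or_mem inferInstance h with h2 | h2
  · exact ha' h2
  · exact ha (Ideal.IsPrime.mem_of_pow_mem inferInstance _ h2)

include hσ in
/-- **Local roots, swapping case.**  `σ` exchanges `p₁` and `p₂`, fixes the nodes, `σ ζ = ζ ^ c`,
`h` toric with (CART) at every closed point: at every maximal ideal `y` containing `p₁` or `p₂`,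
`k = σ h * h ^ c` has an `m`-th root `ρ` up to a unit at `y`, with `ρ ≡ 1` on the branches through
`y`. -/
theorem hloc_swap (p₁ p₂ : Ideal B) [p₁.IsPrime] [p₂.IsPrime]
    [IsDedekindDomain (B ⧸ p₁)] [IsDedekindDomain (B ⧸ p₂)] (hne : p₁ ≠ p₂)
    (hrad : (p₁ ⊔ p₂).IsRadical)
    (h₁₂ : p₁.comap σ = p₂) (h₂₁ : p₂.comap σ = p₁)
    (hnode : ∀ y : Ideal B, y.IsMaximal → p₁ ≤ y → p₂ ≤ y → y.comap σ = y)
    (m : ℕ) (hm : 0 < m) (ζ : B) (hζ : IsPrimitiveRoot ζ m) (c : ℕ) (hσζ : σ ζ = ζ ^ c)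
    (h : F) (hh₁ : OneAt p₁ h) (hh₂ : OneAt p₂ h)
    (hcart : ∀ y : Ideal B, y.IsMaximal → (p₁ ≤ y ∨ p₂ ≤ y) →
      ∃ (f : F) (a : B), a ∉ y ∧ f ^ m * h = algebraMap B F a) :
    ∀ y : Ideal B, y.IsMaximal → (p₁ ≤ y ∨ p₂ ≤ y) →
      ∃ ρ : F, (∃ s s' : B, s ∉ y ∧ s' ∉ y ∧
        algebraMap B F s * ρ ^ m = algebraMap B F s' * (σF h * h ^ c)) ∧
        (p₁ ≤ y → OneAt p₁ ρ) ∧ (p₂ ≤ y → OneAt p₂ ρ) := by
  intro y hy hyp
  have := hy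
  have hyP : y.IsPrime := hy.isPrime
  have hy' : (y.comap σ).IsMaximal := Ideal.comap_isMaximal_of_surjective _ σ.surjective
  have i₁ : IsIntegrallyClosed (B ⧸ p₁.comap σ) := by rw [h₁₂]; infer_instance
  have i₂ : IsIntegrallyClosed (B ⧸ p₂.comap σ) := by rw [h₂₁]; infer_instance
  have hh₁' : OneAt (p₁.comap σ) h := by rw [h₁₂]; exact hh₂
  have hh₂' : OneAt (p₂.comap σ) h := by rw [h₂₁]; exact hh₁
  by_cases h1 : p₁ ≤ y <;> by_cases h2 : p₂ ≤ y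
  · obtain ⟨f, a, ha, hfa⟩ := hcart y hy hyp
    have hyσ := hnode y hy h1 h2
    obtain ⟨δ₁, δ₂, hδ₁, hδ₂, hδ, hδ₁y, -⟩ :=
      locData_node_swap σ σF hσ p₁ p₂ h₁₂ h₂₁ m hm ζ hζ c hσζ h hh₁ hh₂ y h1 h2 hyσ f a ha hfa
    have hne' : ¬ p₂ ≤ p₁ := by
      intro hle
      apply hne
      refine le_antisymm ?_ hle
      have := Ideal.comap_mono (f := σ) hle
      rwa [h₂₁, h₁₂] at this
    obtain ⟨t, ht, htx⟩ := exists_mul_mem_sup p₁ p₂ hne' hrad y h1 h2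
    obtain ⟨x₁, hx₁, x₂, hx₂, hx⟩ := Submodule.mem_sup.1 (htx _ hδ)
    have hr : σ a * a ^ c ∉ y := map_mul_pow_not_mem σ y a a c ha (by rw [hyσ]; exact ha)
    obtain ⟨ρ, hρ, hρ₁, hρ₂⟩ := exists_root_two p₁ p₂ y h1 h2 m hm (σF h * h ^ c)
      (σF f * f ^ c) (σ a * a ^ c) hr (pow_mul_eq σ σF hσ m c h f f a a hfa hfa)
      δ₁ δ₂ hδ₁ hδ₂ hδ₁y t x₁ x₂ ht hx₁ hx₂ hx.symm
    exact ⟨ρ, hρ, fun _ => hρ₁, fun _ => hρ₂⟩
  · obtain ⟨f, a, ha, hfa⟩ := hcart y hy hyp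
    obtain ⟨f', a', ha', hfa'⟩ := hcart (y.comap σ) hy' (Or.inr (h₁₂ ▸ Ideal.comap_mono h1))
    obtain ⟨δ, hδ, hδy⟩ :=
      locData_one σ σF hσ p₁ m hm c h hh₁ hh₁' y h1 f a ha hfa f' a' ha' hfa'
    have hr : σ a' * a ^ c ∉ y := map_mul_pow_not_mem σ y a a' c ha ha'
    obtain ⟨ρ, hρ, hρ₁⟩ := exists_root_one p₁ y h1 m hm (σF h * h ^ c) (σF f' * f ^ c)
      (σ a' * a ^ c) hr (pow_mul_eq σ σF hσ m c h f f' a a' hfa hfa') δ hδ hδy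
    exact ⟨ρ, hρ, fun _ => hρ₁, fun h => absurd h h2⟩
  · obtain ⟨f, a, ha, hfa⟩ := hcart y hy hyp
    obtain ⟨f', a', ha', hfa'⟩ := hcart (y.comap σ) hy' (Or.inl (h₂₁ ▸ Ideal.comap_mono h2))
    obtain ⟨δ, hδ, hδy⟩ :=
      locData_one σ σF hσ p₂ m hm c h hh₂ hh₂' y h2 f a ha hfa f' a' ha' hfa'
    have hr : σ a' * a ^ c ∉ y := map_mul_pow_not_mem σ y a a' c ha ha'
    obtain ⟨ρ, hρ, hρ₂⟩ := exists_root_one p₂ y h2 m hm (σF h * h ^ c) (σF f' * f ^ c)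
      (σ a' * a ^ c) hr (pow_mul_eq σ σF hσ m c h f f' a a' hfa hfa') δ hδ hδy
    exact ⟨ρ, hρ, fun h => absurd h h1, fun _ => hρ₂⟩
  · exact absurd hyp (by tauto)

include hσ in
/-- **Local roots, component-preserving case.**  `σ` fixes `p₁`, `p₂` and the nodes,
`σ ζ * ζ ^ c = 1`, `h` toric with (CART) at every closed point: at every maximal ideal `y`
containing `p₁` or `p₂`, `k = σ h * h ^ c` has an `m`-th root `ρ` up to a unit at `y`, with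
`ρ ≡ 1` on the branches through `y`. -/
theorem hloc_preserve (p₁ p₂ : Ideal B) [p₁.IsPrime] [p₂.IsPrime]
    [IsDedekindDomain (B ⧸ p₁)] [IsDedekindDomain (B ⧸ p₂)] (hne : ¬ p₂ ≤ p₁)
    (hrad : (p₁ ⊔ p₂).IsRadical)
    (h₁₁ : p₁.comap σ = p₁) (h₂₂ : p₂.comap σ = p₂)
    (hnode : ∀ y : Ideal B, y.IsMaximal → p₁ ≤ y → p₂ ≤ y → y.comap σ = y)
    (m : ℕ) (hm : 0 < m) (ζ : B) (hζ : IsPrimitiveRoot ζ m) (c : ℕ) (hσζ : σ ζ * ζ ^ c = 1)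
    (h : F) (hh₁ : OneAt p₁ h) (hh₂ : OneAt p₂ h)
    (hcart : ∀ y : Ideal B, y.IsMaximal → (p₁ ≤ y ∨ p₂ ≤ y) →
      ∃ (f : F) (a : B), a ∉ y ∧ f ^ m * h = algebraMap B F a) :
    ∀ y : Ideal B, y.IsMaximal → (p₁ ≤ y ∨ p₂ ≤ y) →
      ∃ ρ : F, (∃ s s' : B, s ∉ y ∧ s' ∉ y ∧
        algebraMap B F s * ρ ^ m = algebraMap B F s' * (σF h * h ^ c)) ∧
        (p₁ ≤ y → OneAt p₁ ρ) ∧ (p₂ ≤ y → OneAt p₂ ρ) := by
  intro y hy hyp
  have := hy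
  have hyP : y.IsPrime := hy.isPrime
  have hy' : (y.comap σ).IsMaximal := Ideal.comap_isMaximal_of_surjective _ σ.surjective
  have i₁ : IsIntegrallyClosed (B ⧸ p₁.comap σ) := by rw [h₁₁]; infer_instance
  have i₂ : IsIntegrallyClosed (B ⧸ p₂.comap σ) := by rw [h₂₂]; infer_instance
  have hh₁' : OneAt (p₁.comap σ) h := by rw [h₁₁]; exact hh₁
  have hh₂' : OneAt (p₂.comap σ) h := by rw [h₂₂]; exact hh₂
  by_cases h1 : p₁ ≤ y <;> by_cases h2 : p₂ ≤ y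
  · obtain ⟨f, a, ha, hfa⟩ := hcart y hy hyp
    have hyσ := hnode y hy h1 h2
    obtain ⟨δ₁, δ₂, hδ₁, hδ₂, hδ, hδ₁y, -⟩ :=
      locData_node_preserve σ σF hσ p₁ p₂ h₁₁ h₂₂ m hm ζ hζ c hσζ h hh₁ hh₂ y h1 h2 hyσ
        f a ha hfa
    obtain ⟨t, ht, htx⟩ := exists_mul_mem_sup p₁ p₂ hne hrad y h1 h2
    obtain ⟨x₁, hx₁, x₂, hx₂, hx⟩ := Submodule.mem_sup.1 (htx _ hδ)
    have hr : σ a * a ^ c ∉ y := map_mul_pow_not_mem σ y a a c ha (by rw [hyσ]; exact ha)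
    obtain ⟨ρ, hρ, hρ₁, hρ₂⟩ := exists_root_two p₁ p₂ y h1 h2 m hm (σF h * h ^ c)
      (σF f * f ^ c) (σ a * a ^ c) hr (pow_mul_eq σ σF hσ m c h f f a a hfa hfa)
      δ₁ δ₂ hδ₁ hδ₂ hδ₁y t x₁ x₂ ht hx₁ hx₂ hx.symm
    exact ⟨ρ, hρ, fun _ => hρ₁, fun _ => hρ₂⟩
  · obtain ⟨f, a, ha, hfa⟩ := hcart y hy hyp
    obtain ⟨f', a', ha', hfa'⟩ := hcart (y.comap σ) hy' (Or.inl (h₁₁ ▸ Ideal.comap_mono h1))
    obtain ⟨δ, hδ, hδy⟩ :=
      locData_one σ σF hσ p₁ m hm c h hh₁ hh₁' y h1 f a ha hfa f' a' ha' hfa'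
    have hr : σ a' * a ^ c ∉ y := map_mul_pow_not_mem σ y a a' c ha ha'
    obtain ⟨ρ, hρ, hρ₁⟩ := exists_root_one p₁ y h1 m hm (σF h * h ^ c) (σF f' * f ^ c)
      (σ a' * a ^ c) hr (pow_mul_eq σ σF hσ m c h f f' a a' hfa hfa') δ hδ hδy
    exact ⟨ρ, hρ, fun _ => hρ₁, fun h => absurd h h2⟩
  · obtain ⟨f, a, ha, hfa⟩ := hcart y hy hyp
    obtain ⟨f', a', ha', hfa'⟩ := hcart (y.comap σ) hy' (Or.inr (h₂₂ ▸ Ideal.comap_mono h2))
    obtain ⟨δ, hδ, hδy⟩ :=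
      locData_one σ σF hσ p₂ m hm c h hh₂ hh₂' y h2 f a ha hfa f' a' ha' hfa'
    have hr : σ a' * a ^ c ∉ y := map_mul_pow_not_mem σ y a a' c ha ha'
    obtain ⟨ρ, hρ, hρ₂⟩ := exists_root_one p₂ y h2 m hm (σF h * h ^ c) (σF f' * f ^ c)
      (σ a' * a ^ c) hr (pow_mul_eq σ σF hσ m c h f f' a a' hfa hfa') δ hδ hδy
    exact ⟨ρ, hρ, fun h => absurd h h1, fun _ => hρ₂⟩
  · exact absurd hyp (by tauto)

end Main

end Fermat.Agent.S35.SigmaLoc
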