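import Fermat.Agent.S34.Nodal.Swap
import Fermat.Agent.S34.Nodal.Main
import Fermat.Agent.S35.TwoChart211

/-!
# Program U (S35): the `K`-level exit for the component-swapping automorphism — PROOF

`inj_ss_swap` is the statement of the skeleton `S34/Nodal/SwapExit.lean` (`Nodal.inj_ss_swap`,
binders verbatim), proved:  `σ = φ ∘ W` preserves `O` and the chart ring of `u`, exchanges the
two primes of that chart and fixes its crossing points, `σ ζ = ζ ^ c`; there is no crossing
point at `u = ∞`; `h` is toric with `m ∣ div h` on the chart `u`, and `m ∣ div (σ h * h ^ c)`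
on the chart `u⁻¹`.  If `θ ^ m = σ h * h ^ c` generates a field `M = L(θ)` in which `O` is
integrally closed, then `σ h * h ^ c` is an `m`-th power in `L`.

Proof: `k := σ h * h ^ c` is toric (`Nodal.toric_map_of_swap`, `Toric.mul`, `Toric.pow`);
`CartierRoot` of `h` on the chart `u` and of `k` on the chart `u⁻¹` (CartPair,
`IsNodalChart.cartierRoot` / `cartier_of_toric`); local roots of `k` on the chart `u` by
`NodalSigma.hloc_chart_swap_of_cartierRoot`; then `TwoChart211.pow_of_hloc`.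

`inj_ss_swap'` is the same without the (unused) hypothesis `m ∣ div k` on the chart `u`;
`exists_const_mul_pow_swap` is the form `k = c * s ^ m`, `c` integral over `O`, with no Kummer
field.
-/

set_option autoImplicit false

open Polynomial
open Fermat.Agent.S30.Model Fermat.Agent.S30.Model.GlueChart
open Fermat.Agent.S34 Fermat.Agent.S34.Nodal

namespace Fermat.Agent.S35.SwapExit211

section SwapExit

variable {O E L : Type*} [CommRing O] [IsDomain O] [IsDiscreteValuationRing O]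
  [Field E] [CharZero E] [Algebra O E] [IsFractionRing O E]
  [Field L] [Algebra E L] [Algebra O L] [IsScalarTower O E L]

/-- The common core: `k = σ h * h ^ c` is toric and has local roots on the chart of `u`. -/
theorem hloc_swap (π : O) (hπ : Irreducible π) (u : L) (hu : Transcendental E u)
    [FiniteDimensional (IntermediateField.adjoin E {u}) L]
    (D : NodalDatum π u)
    (m : ℕ) (hm : IsUnit (m : O)) (ζ : O) (hζ : IsPrimitiveRoot ζ m)
    (σ : L ≃+* L) (hσO : IsBaseAut O σ) (hσB : StabilizesChart O u σ)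
    (h₁₂ : MapsIntoChart (D.P₁.comap (toOverlapZero O u)) (D.P₂.comap (toOverlapZero O u)) σ)
    (h₂₁ : MapsIntoChart (D.P₂.comap (toOverlapZero O u)) (D.P₁.comap (toOverlapZero O u)) σ)
    (hnode : FixesNodes u (D.P₁.comap (toOverlapZero O u)) (D.P₂.comap (toOverlapZero O u)) σ)
    (c : ℕ) (hσζ : σ (algebraMap O L ζ) = algebraMap O L ζ ^ c)
    (h : L) (hh : D.Toric h)
    (hdiv : LocPow (E := E) m u h) :
    D.Toric (σ h * h ^ c) ∧
    ∀ y : Ideal (Chart O u), y.IsMaximal →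
      (D.P₁.comap (toOverlapZero O u) ≤ y ∨ D.P₂.comap (toOverlapZero O u) ≤ y) →
      ∃ ρ : L, (∃ s s' : Chart O u, s ∉ y ∧ s' ∉ y ∧
          (s : L) * ρ ^ m = (s' : L) * (σ h * h ^ c)) ∧
        (D.P₁.comap (toOverlapZero O u) ≤ y →
          ∃ s c' : Chart O u, s ∉ D.P₁.comap (toOverlapZero O u) ∧
            c' ∈ D.P₁.comap (toOverlapZero O u) ∧ (s : L) * (ρ - 1) = (c' : L)) ∧
        (D.P₂.comap (toOverlapZero O u) ≤ y →
          ∃ s c' : Chart O u, s ∉ D.P₂.comap (toOverlapZero O u) ∧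
            c' ∈ D.P₂.comap (toOverlapZero O u) ∧ (s : L) * (ρ - 1) = (c' : L)) := by
  have hm0 : 0 < m := by
    rcases Nat.eq_zero_or_pos m with rfl | h0
    · simp at hm
    · exact h0
  have hu0 : u ≠ 0 := fun h0 => hu (h0 ▸ isAlgebraic_zero)
  have hinj : Function.Injective (algebraMap O L) := ChartProv.algebraMap_injective_base O E L
  have hk : D.Toric (σ h * h ^ c) :=
    (D.toric_map_of_swap hinj hπ hu0 hσO hσB h₁₂ h₂₁ hh).mul (hh.pow c)
  have hz := D.toric_zero hu0 hh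
  have hC : ToricInertia.CartierRoot O ({u} : Set L) m h :=
    IsNodalChart.cartierRoot (E := E) π hπ u hu D.chartZero m hm h hz.1 hz.2 hdiv
  obtain ⟨e1, e2⟩ := comap_equiv_eq hinj hπ D.chartZero hσO hσB h₁₂ h₂₁
  have hfr0 : IsFractionRing (Chart O u) L := NodalSigma.isFractionRing_chart (E := E) u
  exact ⟨hk, NodalSigma.hloc_chart_swap_of_cartierRoot π u D.chartZero σ hσB.isIntegral_iff
    (mem_iff_of_comap_eq hσB e2) (mem_iff_of_comap_eq hσB e1) hnode m hm0 ζ
    (hζ.map_of_injective hinj) c hσζ h hh.ne_zero hz.1 hz.2 hC⟩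

/-- **`K`-level (INJ-ss), component-swapping case**, sharp form: `m ∣ div (σ h * h ^ c)` is
needed on the chart `u⁻¹` only. -/
theorem inj_ss_swap' (π : O) (hπ : Irreducible π) (u : L) (hu : Transcendental E u)
    [FiniteDimensional (IntermediateField.adjoin E {u}) L]
    (D : NodalDatum π u)
    (m : ℕ) (hm : IsUnit (m : O)) (ζ : O) (hζ : IsPrimitiveRoot ζ m)
    (σ : L ≃+* L) (hσO : IsBaseAut O σ) (hσB : StabilizesChart O u σ)
    (h₁₂ : MapsIntoChart (D.P₁.comap (toOverlapZero O u)) (D.P₂.comap (toOverlapZero O u)) σ)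
    (h₂₁ : MapsIntoChart (D.P₂.comap (toOverlapZero O u)) (D.P₁.comap (toOverlapZero O u)) σ)
    (hnode : FixesNodes u (D.P₁.comap (toOverlapZero O u)) (D.P₂.comap (toOverlapZero O u)) σ)
    (hNC : ∀ (y : Ideal (Chart O u⁻¹)) (g : Chart O u⁻¹), (g : L) = u⁻¹ → y.IsMaximal → g ∈ y →
      D.P₁.comap (toOverlapInf O u) ≤ y → D.P₂.comap (toOverlapInf O u) ≤ y → False)
    (c : ℕ) (hσζ : σ (algebraMap O L ζ) = algebraMap O L ζ ^ c)
    (h : L) (hh : D.Toric h)
    (hdiv : LocPow (E := E) m u h)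
    (hdivk' : LocPow (E := E) m u⁻¹ (σ h * h ^ c))
    (M : Type*) [Field M] [Algebra L M] [Algebra O M] [IsScalarTower O L M]
    (θ : M) (hθ : θ ^ m = algebraMap L M (σ h * h ^ c)) (hgen : Algebra.adjoin L {θ} = ⊤)
    (hOM : ∀ x : M, IsIntegral O x → ∃ a : O, algebraMap O M a = x) :
    ∃ g : L, σ h * h ^ c = g ^ m := by
  have hu0 : u ≠ 0 := fun h0 => hu (h0 ▸ isAlgebraic_zero)
  obtain ⟨hk, hloc0⟩ := hloc_swap (E := E) π hπ u hu D m hm ζ hζ σ hσO hσB h₁₂ h₂₁ hnode c hσζ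
    h hh hdiv
  have hi := D.toric_inf hu0 hk
  have : FiniteDimensional (IntermediateField.adjoin E {u⁻¹}) L := finiteDimensional_adjoin_inv u
  have hCinf : ToricInertia.CartierRoot O ({u⁻¹} : Set L) m (σ h * h ^ c) :=
    IsNodalChart.cartierRoot (E := E) π hπ u⁻¹ (transcendental_inv hu) D.chartInf m hm _
      hi.1 hi.2 hdivk'
  exact TwoChart211.pow_of_hloc (E := E) π hπ u hu D m hm ζ hζ (σ h * h ^ c) hk hloc0 hCinf
    (fun y hy hg h12 => hNC y (Bridge2.gen u⁻¹) rfl hy hg h12.1 h12.2) M θ hθ hgen hOM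

set_option linter.unusedVariables false in
/-- **`K`-level (INJ-ss), component-swapping case** (S35, relation `(C2')`): the statement of
`S34/Nodal/SwapExit.lean`, binders verbatim. -/
theorem inj_ss_swap (π : O) (hπ : Irreducible π) (u : L) (hu : Transcendental E u)
    [FiniteDimensional (IntermediateField.adjoin E {u}) L]
    (D : NodalDatum π u)
    (m : ℕ) (hm : IsUnit (m : O)) (ζ : O) (hζ : IsPrimitiveRoot ζ m)
    (σ : L ≃+* L) (hσO : IsBaseAut O σ) (hσB : StabilizesChart O u σ)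
    (h₁₂ : MapsIntoChart (D.P₁.comap (toOverlapZero O u)) (D.P₂.comap (toOverlapZero O u)) σ)
    (h₂₁ : MapsIntoChart (D.P₂.comap (toOverlapZero O u)) (D.P₁.comap (toOverlapZero O u)) σ)
    (hnode : FixesNodes u (D.P₁.comap (toOverlapZero O u)) (D.P₂.comap (toOverlapZero O u)) σ)
    (hNC : ∀ (y : Ideal (Chart O u⁻¹)) (g : Chart O u⁻¹), (g : L) = u⁻¹ → y.IsMaximal → g ∈ y →
      D.P₁.comap (toOverlapInf O u) ≤ y → D.P₂.comap (toOverlapInf O u) ≤ y → False)
    (c : ℕ) (hσζ : σ (algebraMap O L ζ) = algebraMap O L ζ ^ c)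
    (h : L) (hh : D.Toric h)
    (hdiv : LocPow (E := E) m u h)
    (hdivk : LocPow (E := E) m u (σ h * h ^ c)) (hdivk' : LocPow (E := E) m u⁻¹ (σ h * h ^ c))
    (M : Type*) [Field M] [Algebra L M] [Algebra O M] [IsScalarTower O L M]
    (θ : M) (hθ : θ ^ m = algebraMap L M (σ h * h ^ c)) (hgen : Algebra.adjoin L {θ} = ⊤)
    (hOM : ∀ x : M, IsIntegral O x → ∃ a : O, algebraMap O M a = x) :
    ∃ g : L, σ h * h ^ c = g ^ m :=
  inj_ss_swap' (E := E) π hπ u hu D m hm ζ hζ σ hσO hσB h₁₂ h₂₁ hnode hNC c hσζ h hh hdiv hdivk'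
    M θ hθ hgen hOM

/-- The component-swapping case in constant form, with no Kummer field: `σ h * h ^ c = a * s ^ m`
with `a` integral over `O`. -/
theorem exists_const_mul_pow_swap (π : O) (hπ : Irreducible π) (u : L) (hu : Transcendental E u)
    [FiniteDimensional (IntermediateField.adjoin E {u}) L]
    (D : NodalDatum π u)
    (m : ℕ) (hm : IsUnit (m : O)) (ζ : O) (hζ : IsPrimitiveRoot ζ m)
    (σ : L ≃+* L) (hσO : IsBaseAut O σ) (hσB : StabilizesChart O u σ)
    (h₁₂ : MapsIntoChart (D.P₁.comap (toOverlapZero O u)) (D.P₂.comap (toOverlapZero O u)) σ)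
    (h₂₁ : MapsIntoChart (D.P₂.comap (toOverlapZero O u)) (D.P₁.comap (toOverlapZero O u)) σ)
    (hnode : FixesNodes u (D.P₁.comap (toOverlapZero O u)) (D.P₂.comap (toOverlapZero O u)) σ)
    (hNC : ∀ (y : Ideal (Chart O u⁻¹)) (g : Chart O u⁻¹), (g : L) = u⁻¹ → y.IsMaximal → g ∈ y →
      D.P₁.comap (toOverlapInf O u) ≤ y → D.P₂.comap (toOverlapInf O u) ≤ y → False)
    (c : ℕ) (hσζ : σ (algebraMap O L ζ) = algebraMap O L ζ ^ c)
    (h : L) (hh : D.Toric h)
    (hdiv : LocPow (E := E) m u h)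
    (hdivk' : LocPow (E := E) m u⁻¹ (σ h * h ^ c)) :
    ∃ a s : L, IsIntegral O a ∧ s ≠ 0 ∧ σ h * h ^ c = a * s ^ m := by
  have hu0 : u ≠ 0 := fun h0 => hu (h0 ▸ isAlgebraic_zero)
  obtain ⟨hk, hloc0⟩ := hloc_swap (E := E) π hπ u hu D m hm ζ hζ σ hσO hσB h₁₂ h₂₁ hnode c hσζ
    h hh hdiv
  have hi := D.toric_inf hu0 hk
  have : FiniteDimensional (IntermediateField.adjoin E {u⁻¹}) L := finiteDimensional_adjoin_inv u
  have hCinf : ToricInertia.CartierRoot O ({u⁻¹} : Set L) m (σ h * h ^ c) :=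
    IsNodalChart.cartierRoot (E := E) π hπ u⁻¹ (transcendental_inv hu) D.chartInf m hm _
      hi.1 hi.2 hdivk'
  exact TwoChart211.exists_const_mul_pow_of_hloc' (E := E) π hπ u hu D m hm ζ hζ (σ h * h ^ c) hk
    hloc0 hCinf (fun y hy hg h12 => hNC y (Bridge2.gen u⁻¹) rfl hy hg h12.1 h12.2)

end SwapExit

end Fermat.Agent.S35.SwapExit211
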